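/-
S58 campaign, PLAN (architect: helper77).

Notation and the LEAF STATEMENTS (as `Prop`s) of the proof of the frozen statement S58
(conductor-level matching).  Each leaf is proved in its own file under `Fermat/Agent/S58/`;
the top assembly (`S58/Top*.lean`, then `S58.lean`) consumes exactly these `Prop`s.

Route: minimal-level newform `g` (level `M ∣ N`); transfer lemma [TR] between a `λ`-adic
representation with the Frobenius characteristic polynomials of `W` and the torsion of `W`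
(weak Frobenius density `S29.FDStmt.fdStatement` + Theorem F); inertia at a prime of semistable
reduction fixes a point of exact order `λ ^ n` ([FIXGOOD], [FIXMULT]); the hres-free S36 term
(`S36.Top36B.result_of_inertTors S36.ChainM3F.inertTors`, any prime `λ ≠ q`) excludes `q² ∥ M`;
S35 excludes good `q ∥ M` and computes `a_ℓ(g)` at good `ℓ ∣ N`; stabilisation to level `rad Δ`
([STAB]).  The binders `hp2`, `hirr`, `hp2N` of the frozen statement are not needed.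
-/
import Mathlib
import Fermat.Statements.S58
import Fermat.Prelude.Def_CuspForm_HeckeGaloisRepDatum
import Fermat.Prelude.Def_CuspForm_Newforms
import Fermat.Prelude.Def_GaloisRep_LocalConditions
import Fermat.Prelude.Def_GaloisRep_Residual

set_option autoImplicit false

namespace Fermat.Agent.S58.Plan

open Polynomial WeierstrassCurve CongruenceSubgroup
open scoped WeierstrassCurve.Affine

/-- `ℚ̄`. -/
abbrev Qb : Type := AlgebraicClosure ℚ

/-- `Gal(ℚ̄/ℚ)`. -/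
abbrev GQ : Type := Qb ≃ₐ[ℚ] Qb

/-- The `ℚ̄`-points of (the generic fibre of) an integral Weierstrass curve, with the Galois
action of the prelude (`σ • P`).  This is the type in `W.ModRepIsIrreducible`. -/
abbrev Pt (W : WeierstrassCurve ℤ) : Type := ((W.map (Int.castRingHom ℚ))⁄Qb).Point

/-- **Frobenius hypothesis.**  Away from the finite set `S`, every Frobenius element acts on the
`λ`-adic representation `ρ` with the characteristic polynomial `X² − a_ℓ(W) X + ℓ`. -/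
def FrobHyp (W : WeierstrassCurve ℤ) (S : Finset ℕ) (O : Type) [CommRing O] [IsLocalRing O]
    (ρ : GaloisRepAdic O) : Prop :=
  ∀ ℓ : ℕ, ℓ.Prime → ℓ ∉ S → ∀ A : ValuationSubring Qb, A.LiesOverPrime ℓ →
    ∀ σ : GQ, A.IsFrobeniusAt σ ℓ →
      LinearMap.charpoly (ρ.ρ σ) = X ^ 2 - C (((W.apOfModel ℓ : ℤ) : O)) * X + C ((ℓ : O))

/-! ### Galois side -/

/-- **[TR] transfer lemma.**  Under `FrobHyp`, for every `g ∈ G_ℚ` and every `n` there are
integers `m ≡ tr ρ(g)`, `d ≡ det ρ(g)` modulo `𝔪ⁿ` such that `g² − m g + d` kills `W[λⁿ](ℚ̄)` and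
`g` acts on `μ_{λⁿ}` by `μ ↦ μ ^ d`. -/
def TRStatement : Prop :=
  ∀ (W : WeierstrassCurve ℤ), W.Δ ≠ 0 → ∀ (lam : ℕ), lam.Prime → ∀ (S : Finset ℕ)
    (O : Type) [CommRing O] [IsDomain O] [IsDiscreteValuationRing O] (ρ : GaloisRepAdic O),
    FrobHyp W S O ρ → ∀ (g : GQ) (n : ℕ), ∃ m d : ℤ,
      LinearMap.trace O ρ.V (ρ.ρ g) - (m : O) ∈ IsLocalRing.maximalIdeal O ^ n ∧
      LinearMap.det (ρ.ρ g) - (d : O) ∈ IsLocalRing.maximalIdeal O ^ n ∧
      (∀ P : Pt W, (lam ^ n) • P = 0 → g • (g • P) - m • (g • P) + d • P = 0) ∧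
      (∀ μ : Qb, μ ^ (lam ^ n) = 1 → g μ = μ ^ d)

/-! ### The curve `W` over `ℚ̄` -/

/-- **[TORS]** points of exact order `λⁿ` exist. -/
def TorsStatement : Prop :=
  ∀ (W : WeierstrassCurve ℤ), W.Δ ≠ 0 → ∀ lam : ℕ, lam.Prime → ∀ n : ℕ,
    ∃ P : Pt W, addOrderOf P = lam ^ n

/-- **[FIXGOOD]** inertia at a prime `q ≠ λ` of good reduction fixes all `λ`-power torsion. -/
def FixGoodStatement : Prop :=
  ∀ (W : WeierstrassCurve ℤ) (q lam : ℕ), q.Prime → lam.Prime → q ≠ lam → ¬ (q : ℤ) ∣ W.Δ →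
    ∀ A : ValuationSubring Qb, A.LiesOverPrime q → ∀ τ ∈ A.inertiaSubgroupIn ℚ,
      ∀ (n : ℕ) (P : Pt W), (lam ^ n) • P = 0 → τ • P = P

/-- **[FIXMULT]** every inertia element at a prime `q ≠ λ` of multiplicative reduction fixes a
point of exact order `λⁿ`, for every `n`. -/
def FixMultStatement : Prop :=
  ∀ (W : WeierstrassCurve ℤ), W.Δ ≠ 0 → ∀ (q lam : ℕ), q.Prime → lam.Prime → q ≠ lam →
    (q : ℤ) ∣ W.Δ → ¬ (q : ℤ) ∣ W.c₄ →
    ∀ A : ValuationSubring Qb, A.LiesOverPrime q → ∀ τ ∈ A.inertiaSubgroupIn ℚ, ∀ n : ℕ,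
      ∃ P : Pt W, addOrderOf P = lam ^ n ∧ τ • P = P

/-- **[FROBW]** at a prime `ℓ ≠ λ` of good reduction, every Frobenius element satisfies
`σ² − a_ℓ(W) σ + ℓ = 0` on the `λ`-power torsion (`ℓ = 2` included). -/
def FrobWStatement : Prop :=
  ∀ (W : WeierstrassCurve ℤ) (ℓ lam : ℕ), ℓ.Prime → lam.Prime → ℓ ≠ lam → ¬ (ℓ : ℤ) ∣ W.Δ →
    ∀ A : ValuationSubring Qb, A.LiesOverPrime ℓ → ∀ σ : GQ, A.IsFrobeniusAt σ ℓ →
      ∀ (n : ℕ) (P : Pt W), (lam ^ n) • P = 0 →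
        σ • (σ • P) - (W.apOfModel ℓ) • (σ • P) + (ℓ : ℤ) • P = 0

/-- **[F2]** Theorem F at the prime `2` (the statement of `S52.Frob.frob_relation` for `ℓ = 2`,
residue fields in `Type`). -/
def ThmF2Statement : Prop :=
  ∀ (W : WeierstrassCurve (ZMod 2)), W.Δ ≠ 0 → ∀ (κ : Type) [Field κ] [DecidableEq κ]
    [Algebra (ZMod 2) κ] (P : (W.toAffine⁄κ).Point),
    WeierstrassCurve.Affine.Point.map (W' := W.toAffine) (FiniteField.frobeniusAlgHom (ZMod 2) κ)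
        (WeierstrassCurve.Affine.Point.map (W' := W.toAffine)
          (FiniteField.frobeniusAlgHom (ZMod 2) κ) P)
      - ((Nat.card (ZMod 2) : ℤ) + 1 - (Nat.card W.toAffine.Point : ℤ)) •
          WeierstrassCurve.Affine.Point.map (W' := W.toAffine)
            (FiniteField.frobeniusAlgHom (ZMod 2) κ) P
      + (2 : ℤ) • P = 0

/-- **[CYCF]** a Frobenius element at `q ≠ λ` raises `λ`-power roots of unity to the `q`. -/
def CycFrobStatement : Prop :=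
  ∀ (q lam : ℕ), q.Prime → lam.Prime → q ≠ lam → ∀ A : ValuationSubring Qb, A.LiesOverPrime q →
    ∀ σ : GQ, A.IsFrobeniusAt σ q → ∀ (n : ℕ) (μ : Qb), μ ^ (lam ^ n) = 1 → σ μ = μ ^ q

/-- **[CYCI]** inertia at `q ≠ λ` fixes the `λ`-power roots of unity. -/
def CycInertiaStatement : Prop :=
  ∀ (q lam : ℕ), q.Prime → lam.Prime → q ≠ lam → ∀ A : ValuationSubring Qb, A.LiesOverPrime q →
    ∀ τ ∈ A.inertiaSubgroupIn ℚ, ∀ (n : ℕ) (μ : Qb), μ ^ (lam ^ n) = 1 → τ μ = μ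

/-- **[APB]** the trivial bound `|a_q(W)| ≤ q` (from `1 ≤ #W(𝔽_q) ≤ 2q + 1`). -/
def ApBoundStatement : Prop :=
  ∀ (W : WeierstrassCurve ℤ) (q : ℕ), q.Prime →
    W.apOfModel q ≠ (q : ℤ) + 1 ∧ W.apOfModel q ≠ -((q : ℤ) + 1)

/-! ### Modular forms side -/

/-- **[EIGCHAR]** the Hecke eigencharacter of a normalized eigenform, away from a finite set `S`
containing the primes of the level; its range is generated by the `a_ℓ`, `ℓ ∉ S`. -/
def EigCharStatement : Prop :=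
  ∀ (M : ℕ) [NeZero M] (g : CuspForm (Gamma0 M) 2), g.IsNormalizedEigenform → ∀ (S : Finset ℕ),
    (∀ q : ℕ, q.Prime → q ∣ M → q ∈ S) →
    ∃ chig : CuspForm.heckeAlgebra M 2 (↑S : Set ℕ) →+* ℂ,
      (∀ (ℓ : ℕ) (hℓ : ℓ.Prime) (hℓM : ¬ ℓ ∣ M) (hℓS : ℓ ∉ (↑S : Set ℕ)),
        chig (CuspForm.heckeAlgebra.T hℓ hℓM hℓS) = ModularFormClass.qCoeff g ℓ) ∧
      ∀ x ∈ chig.range, x ∈ Subring.closure
        {y : ℂ | ∃ ℓ : ℕ, ℓ.Prime ∧ ¬ ℓ ∣ M ∧ ℓ ∉ S ∧ y = ModularFormClass.qCoeff g ℓ}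

/-- **[STAB]** stabilisation: a normalized eigenform of level `M` gives one of every squarefree
level `R` divisible by `M`, with the same `a_ℓ` for `ℓ ∤ R`. -/
def StabStatement : Prop :=
  ∀ (M R : ℕ) [NeZero M] [NeZero R], M ∣ R → Squarefree R →
    ∀ g : CuspForm (Gamma0 M) 2, g.IsNormalizedEigenform →
    ∃ f : CuspForm (Gamma0 R) 2, f.IsNormalizedEigenform ∧
      ∀ ℓ : ℕ, ℓ.Prime → ¬ ℓ ∣ R → ModularFormClass.qCoeff f ℓ = ModularFormClass.qCoeff g ℓ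

/-- **[IOTA]** an algebraic integer `α` lies in `ℤ_λ` for some prime `λ` outside any given finite
set: an injective ring homomorphism `ℤ[α] → ℤ_λ`. -/
def IotaStatement : Prop :=
  ∀ α : ℂ, IsIntegral ℤ α → ∀ F : Finset ℕ,
    ∃ (lam : ℕ) (_ : Fact lam.Prime), lam ∉ F ∧
      ∃ ι : Subring.closure ({α} : Set ℂ) →+* ℤ_[lam], Function.Injective ι

/-! ### Seams (consumers of the leaves) -/

/-- **(U)** under `FrobHyp`, `ρ` is unipotent on inertia at every prime `q ≠ λ` at which `W` is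
semistable.  (From [TR] + [FIXGOOD] + [TORS] + [FIXMULT] + [CYCI].) -/
def UnipStatement : Prop :=
  ∀ (W : WeierstrassCurve ℤ), W.Δ ≠ 0 → ∀ (q lam : ℕ), q.Prime → lam.Prime → q ≠ lam →
    (¬ (q : ℤ) ∣ W.Δ ∨ ¬ (q : ℤ) ∣ W.c₄) →
    ∀ (S : Finset ℕ) (O : Type) [CommRing O] [IsDomain O] [IsDiscreteValuationRing O],
      (lam : O) ∈ IsLocalRing.maximalIdeal O → ∀ ρ : GaloisRepAdic O, FrobHyp W S O ρ →
      ρ.IsUnipotentOnInertiaAt q

/-- **(T)** under `FrobHyp`, a Frobenius element at a good prime `q ≠ λ` (possibly in `S`) has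
trace `a_q(W)`.  (From [TR] + [FROBW] + [TORS] + [CYCF].) -/
def TraceStatement : Prop :=
  ∀ (W : WeierstrassCurve ℤ), W.Δ ≠ 0 → ∀ (q lam : ℕ), q.Prime → lam.Prime → q ≠ lam →
    ¬ (q : ℤ) ∣ W.Δ →
    ∀ (S : Finset ℕ) (O : Type) [CommRing O] [IsDomain O] [IsDiscreteValuationRing O],
      (lam : O) ∈ IsLocalRing.maximalIdeal O → ∀ ρ : GaloisRepAdic O, FrobHyp W S O ρ →
      ∀ A : ValuationSubring Qb, A.LiesOverPrime q → ∀ σ : GQ, A.IsFrobeniusAt σ q →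
        LinearMap.trace O ρ.V (ρ.ρ σ) = ((W.apOfModel q : ℤ) : O)

/-- Standing data of the seams: a (prelude) newform `g` of level `M ∣ N` with the `a_ℓ` of `W`
at all `ℓ ∤ N`, for a semistable `W` whose bad primes divide `N ≠ 0`. -/
structure Setup (W : WeierstrassCurve ℤ) (N M : ℕ) (g : CuspForm (Gamma0 M) 2) : Prop where
  hΔ : W.Δ ≠ 0
  hN : N ≠ 0
  hss : W.IsSemistableModel
  hbad : ∀ ℓ : ℕ, ℓ.Prime → (ℓ : ℤ) ∣ W.Δ → ℓ ∣ N
  hMN : M ∣ N
  hg : g.IsNewform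
  hap : ∀ ℓ : ℕ, ℓ.Prime → ¬ ℓ ∣ N → ModularFormClass.qCoeff g ℓ = (W.apOfModel ℓ : ℂ)

/-- **[MIN]** a minimal-level newform with the good eigensystem of `f`. -/
def MinStatement : Prop :=
  ∀ (N : ℕ), N ≠ 0 → ∀ f : CuspForm (Gamma0 N) 2, f.IsNormalizedEigenform →
    ∃ (M : ℕ) (_ : NeZero M) (g : CuspForm (Gamma0 M) 2), M ∣ N ∧ g.IsNewform ∧
      ∀ ℓ : ℕ, ℓ.Prime → ¬ ℓ ∣ N → ModularFormClass.qCoeff g ℓ = ModularFormClass.qCoeff f ℓ

/-- **[NOSQ]** step (1): no prime `q` with `v_q(M) = 2`.  (hres-free S36 term at a prime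
`λ ≠ q`, `O' := ℤ_[λ]`, `S := N.primeFactors ∪ W.Δ.natAbs.primeFactors ∪ {λ}`, + (U).) -/
def NoSqStatement : Prop :=
  ∀ (W : WeierstrassCurve ℤ) (N M : ℕ) [NeZero M] (g : CuspForm (Gamma0 M) 2), Setup W N M g →
    ∀ q : ℕ, q.Prime → M.factorization q ≠ 2

/-- **[NOGOOD]** step (2): a prime exactly dividing `M` is a bad prime of `W`.
(S35 clause 2 at a prime `λ ≠ q` + (T) + [APB].) -/
def NoGoodStatement : Prop :=
  ∀ (W : WeierstrassCurve ℤ) (N M : ℕ) [NeZero M] (g : CuspForm (Gamma0 M) 2), Setup W N M g →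
    ∀ q : ℕ, q.Prime → q ∣ M → ¬ q ^ 2 ∣ M → (q : ℤ) ∣ W.Δ

/-- **[EIGVAL]** step (3): `a_ℓ(g) = a_ℓ(W)` at every good prime `ℓ ∤ M` (also when `ℓ ∣ N`).
(S35 clause 1 with `ℓ ∉ S`, `ι : ℤ[a_ℓ(g)] → ℤ_[λ]` from [AUX], + (T).) -/
def EigValStatement : Prop :=
  ∀ (W : WeierstrassCurve ℤ) (N M : ℕ) [NeZero M] (g : CuspForm (Gamma0 M) 2), Setup W N M g →
    ∀ ℓ : ℕ, ℓ.Prime → ¬ (ℓ : ℤ) ∣ W.Δ → ¬ ℓ ∣ M →
      ModularFormClass.qCoeff g ℓ = (W.apOfModel ℓ : ℂ)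

/-! ### Top -/

/-- **TOP.**  The frozen statement S58 (binder list verbatim) from [MIN], [NOSQ], [NOGOOD],
[EIGVAL], [STAB]. -/
theorem result_of_leaves (hMin : MinStatement) (hNoSq : NoSqStatement)
    (hNoGood : NoGoodStatement) (hEigVal : EigValStatement) (hStab : StabStatement)
    (W : WeierstrassCurve ℤ) (hss : W.IsSemistableModel) (N : ℕ)
    (p : ℕ) [Fact p.Prime] (hp2 : p ≠ 2) (hirr : W.ModRepIsIrreducible p)
    (hp2N : ¬ p ^ 2 ∣ N)
    (hN : W.IsModularModelOfLevel N) (hbad : ∀ ℓ : ℕ, ℓ.Prime → (ℓ : ℤ) ∣ W.Δ → ℓ ∣ N)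
    (hN3 : ∀ q : ℕ, q.Prime → ¬ q ^ 3 ∣ N) :
    W.IsModularModelOfLevel W.conductorLevel := by
  have hN0 : N ≠ 0 := by
    rintro rfl
    exact hN3 2 Nat.prime_two (dvd_zero _)
  have hΔ : W.Δ ≠ 0 := by
    intro h0
    obtain ⟨ℓ, hle, hℓ⟩ := Nat.exists_infinite_primes (N + 1)
    have hℓN : ¬ ℓ ∣ N := fun hd => by
      have := Nat.le_of_dvd (Nat.pos_of_ne_zero hN0) hd
      omega
    exact hℓN (hbad ℓ hℓ (by rw [h0]; exact dvd_zero _))
  obtain ⟨f, hf, hfap⟩ := hN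
  obtain ⟨M, hM, g, hMN, hg, hgf⟩ := hMin N hN0 f hf
  have hgap : ∀ ℓ : ℕ, ℓ.Prime → ¬ ℓ ∣ N →
      ModularFormClass.qCoeff g ℓ = (W.apOfModel ℓ : ℂ) := by
    intro ℓ hℓ hℓN
    rw [hgf ℓ hℓ hℓN]
    exact hfap ℓ hℓ (fun hd => hℓN (hbad ℓ hℓ hd)) hℓN
  have hsetup : Setup W N M g := ⟨hΔ, hN0, hss, hbad, hMN, hg, hgap⟩
  have hM0 : M ≠ 0 := NeZero.ne M
  have hR0 : W.conductorLevel ≠ 0 := W.conductorLevel_pos.ne'
  have hMR : M ∣ W.conductorLevel := by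
    rw [← Nat.factorization_le_iff_dvd hM0 hR0]
    intro q
    by_cases hq : q.Prime
    · by_cases hqM : q ∣ M
      · have h1 : 1 ≤ M.factorization q := by
          have := (hq.pow_dvd_iff_le_factorization hM0 (k := 1)).mp (by simpa using hqM)
          exact this
        have h3 : ¬ 3 ≤ M.factorization q := fun h =>
          hN3 q hq (((hq.pow_dvd_iff_le_factorization hM0).mpr h).trans hMN)
        have h2 : M.factorization q ≠ 2 := hNoSq W N M g hsetup q hq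
        have h1' : M.factorization q = 1 := by omega
        have hq2 : ¬ q ^ 2 ∣ M := fun h => by
          have := (hq.pow_dvd_iff_le_factorization hM0).mp h
          omega
        have hqΔ : (q : ℤ) ∣ W.Δ := hNoGood W N M g hsetup q hq hqM hq2
        have hqR : q ∣ W.conductorLevel := (W.prime_dvd_conductorLevel_iff hΔ hq).mpr hqΔ
        have := (hq.pow_dvd_iff_le_factorization hR0 (k := 1)).mp (by simpa using hqR)
        rw [h1']
        exact this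
      · rw [Nat.factorization_eq_zero_of_not_dvd hqM]
        exact Nat.zero_le _
    · rw [Nat.factorization_eq_zero_of_not_prime _ hq]
      exact Nat.zero_le _
  obtain ⟨f', hf', hf'ap⟩ := hStab M W.conductorLevel hMR W.squarefree_conductorLevel g hg.1
  refine ⟨f', hf', fun ℓ hℓ hgood hℓR => ?_⟩
  rw [hf'ap ℓ hℓ hℓR]
  exact hEigVal W N M g hsetup ℓ hℓ hgood (fun hd => hℓR (hd.trans hMR))

end Fermat.Agent.S58.Plan
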