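/-
S58 campaign, leaves [CYCF] and [CYCI] (helper7; deal of the architect helper77).

`Plan.CycFrobStatement`  : a Frobenius element at `q ≠ λ` raises the `λ`-power roots of unity
                           to the `q`-th power;
`Plan.CycInertiaStatement` : inertia at `q ≠ λ` fixes the `λ`-power roots of unity.

Both are the cyclotomic lemmas of `S30/CycN` (on main) at `m := λ ^ n`.
-/
import Mathlib
import Fermat.Agent.S30.CycN
import Fermat.Agent.S58.Plan

set_option autoImplicit false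

namespace Fermat.Agent.S58.Cyc

open Fermat.Agent

/-- **[CYCF]** a Frobenius element at `q ≠ λ` raises `λ`-power roots of unity to the `q`. -/
theorem cycFrob : S58.Plan.CycFrobStatement := by
  intro q lam hq hlam hne A hA σ hσ n μ hμ
  exact S30.CycN.frobenius_apply_of_pow_eq_one (pow_ne_zero n hlam.ne_zero) hq
    (S30.CycN.not_dvd_prime_pow hq hlam hne n) A hA σ hσ μ hμ

/-- **[CYCI]** inertia at `q ≠ λ` fixes the `λ`-power roots of unity. -/
theorem cycInertia : S58.Plan.CycInertiaStatement := by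
  intro q lam hq hlam hne A hA τ hτ n μ hμ
  exact S30.CycN.inertia_apply_of_pow_eq_one (pow_ne_zero n hlam.ne_zero) hq
    (S30.CycN.not_dvd_prime_pow hq hlam hne n) A hA τ hτ μ hμ

/-- Unfolded form of [CYCF] (for consumers that do not import the plan vocabulary). -/
theorem frobenius_apply {q lam : ℕ} (hq : q.Prime) (hlam : lam.Prime) (hne : q ≠ lam)
    (A : ValuationSubring (AlgebraicClosure ℚ)) (hA : A.LiesOverPrime q)
    (σ : AlgebraicClosure ℚ ≃ₐ[ℚ] AlgebraicClosure ℚ) (hσ : A.IsFrobeniusAt σ q)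
    (n : ℕ) (μ : AlgebraicClosure ℚ) (hμ : μ ^ (lam ^ n) = 1) : σ μ = μ ^ q :=
  cycFrob q lam hq hlam hne A hA σ hσ n μ hμ

/-- Unfolded form of [CYCI]. -/
theorem inertia_apply {q lam : ℕ} (hq : q.Prime) (hlam : lam.Prime) (hne : q ≠ lam)
    (A : ValuationSubring (AlgebraicClosure ℚ)) (hA : A.LiesOverPrime q)
    (τ : AlgebraicClosure ℚ ≃ₐ[ℚ] AlgebraicClosure ℚ) (hτ : τ ∈ A.inertiaSubgroupIn ℚ)
    (n : ℕ) (μ : AlgebraicClosure ℚ) (hμ : μ ^ (lam ^ n) = 1) : τ μ = μ :=
  cycInertia q lam hq hlam hne A hA τ hτ n μ hμ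

end Fermat.Agent.S58.Cyc
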