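/-
S58 — E1Div.lean (helper67).  Block [E1DIV] of the S58 plan (board #3522, step (i)).

The kernel of reduction `E₁` (the point at infinity, or an affine point with non-integral
`x`-coordinate with respect to a valuation subring `A`) of ANY elliptic curve `W` over an
algebraically closed field `L` of characteristic zero is `p`-divisible as soon as `p` is a unit
of `A`.  No integrality of the coefficients of `W`, no restriction on the residue characteristic
(`2` and `3` included), `p` need not be prime.

Route: on the short model `y² = x³ + αx² + βx` multiplication by `p` on `x`-coordinates is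
`num_p / den_p` (`S13.MPoly`), with `num_p` monic of degree `p²` and `den_p` of degree `p² - 1`
and leading coefficient `p²`.

* `nextCoeff_num` : the coefficient of `X ^ (p² - 1)` in `num_p` vanishes (induction on the
  recursion `num (n+2) · num n = (X · num (n+1) - β · den (n+1))²`).  Hence the sum of the roots
  of `num_p - c · den_p` is `p² · c`: "`Σ_{pT = R} x(T) = p² · x(R)`".
* `inE1_divisible_short'` : Vieta, in a translated coordinate `x + r` (the sum of the `p²`
  translated roots is `p² · (c + r)`, so one of them is not in `A` if `c + r` is not).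
* `inE1_divisible` : transport to `W` along the variable change of `S41.T1.exists_short_model`
  (`u = 1`, so `x_W = x_short + r`).
-/
import Fermat.Agent.S41.Div
import Fermat.Agent.S41.T1

set_option autoImplicit false

namespace Fermat.Agent.S58.E1Div

open Polynomial WeierstrassCurve
open Fermat.Agent.S05 Fermat.Agent.S13.MPoly

variable {L : Type*} [Field L] [CharZero L] [IsAlgClosed L]

/-- **The next-to-leading coefficient of `num_k` vanishes**: `num_k = X^(k²) + 0 · X^(k²-1) + …`. -/
theorem nextCoeff_num {α β : L} (hβ : β ≠ 0) (hd : α ^ 2 - 4 * β ≠ 0) (k : ℕ) :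
    (num α β k).nextCoeff = 0 := by
  have key : ∀ n : ℕ, (num α β n).nextCoeff = 0 ∧ (num α β (n + 1)).nextCoeff = 0 := by
    intro n
    induction n with
    | zero =>
      refine ⟨?_, ?_⟩
      · rw [num_zero, ← map_one (f := (C : L →+* L[X])), nextCoeff_C_eq_zero]
      · rw [num_one]
        have h := nextCoeff_X_add_C (0 : L)
        rwa [map_zero, add_zero] at h
    | succ n ih =>
      refine ⟨ih.2, ?_⟩
      have hrel := rel_S hβ hd n
      have hm2 := num_monic hβ hd (n + 2)
      have hm0 := num_monic hβ hd n
      have hF := num_monic hβ hd (n + 1)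
      have hFd : (num α β (n + 1)).natDegree = (n + 1) ^ 2 := natDegree_num hβ hd (n + 1)
      have hGd : (den α β (n + 1)).natDegree + 1 = (n + 1) ^ 2 :=
        natDegree_den hβ hd (Nat.succ_ne_zero n)
      have hpos : 0 < (n + 1) ^ 2 := by positivity
      -- `A := X · F - β · G` is monic of degree `(n+1)² + 1` with vanishing next coefficient
      have hXF : (X * num α β (n + 1)).Monic := monic_X.mul hF
      have hXFd : (X * num α β (n + 1)).natDegree = (n + 1) ^ 2 + 1 := by
        rw [natDegree_X_mul hF.ne_zero, hFd]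
      have hCG : (C β * den α β (n + 1)).natDegree < (X * num α β (n + 1)).natDegree := by
        have := natDegree_C_mul_le β (den α β (n + 1))
        rw [hXFd]
        omega
      have hA : (X * num α β (n + 1) - C β * den α β (n + 1)).Monic :=
        hXF.sub_of_left (degree_lt_degree hCG)
      have hAd : (X * num α β (n + 1) - C β * den α β (n + 1)).natDegree = (n + 1) ^ 2 + 1 := by
        rw [natDegree_sub_eq_left_of_natDegree_lt hCG, hXFd]
      have hAn : (X * num α β (n + 1) - C β * den α β (n + 1)).nextCoeff = 0 := by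
        rw [nextCoeff_of_natDegree_pos (by rw [hAd]; omega), hAd, Nat.add_sub_cancel, coeff_sub,
          coeff_C_mul]
        have e1 : (X * num α β (n + 1)).coeff ((n + 1) ^ 2) = 0 := by
          obtain ⟨m, hm⟩ : ∃ m, (n + 1) ^ 2 = m + 1 := ⟨(n + 1) ^ 2 - 1, by omega⟩
          rw [hm, coeff_X_mul]
          have h2 := ih.2
          rw [nextCoeff_of_natDegree_pos (by rw [hFd]; exact hpos), hFd, hm,
            Nat.add_sub_cancel] at h2
          exact h2
        have e2 : (den α β (n + 1)).coeff ((n + 1) ^ 2) = 0 :=
          coeff_eq_zero_of_natDegree_lt (by omega)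
        rw [e1, e2, mul_zero, sub_zero]
      have hS : (sS β (num α β (n + 1)) (den α β (n + 1))).nextCoeff = 0 := by
        unfold sS
        rw [hA.nextCoeff_pow, hAn, smul_zero]
      have h1 := hm2.nextCoeff_mul hm0
      rw [hrel, hS, ih.1, add_zero] at h1
      exact h1.symm
  exact (key k).1

variable [DecidableEq L]

/-- **[E1DIV], short model, translated coordinate**: if `x(R) + r ∉ A` then `R = p • Q` for some
`Q` with `x(Q) + r ∉ A` (`p` a unit of `A`). -/
theorem inE1_divisible_short' (A : ValuationSubring L) (α β : L) (hβ : β ≠ 0)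
    (hd : α ^ 2 - 4 * β ≠ 0) (p : ℕ) (hp : 0 < p) (hpA : A.valuation (p : L) = 1) (r : L)
    (R : (shortCurve α β).toAffine.Point) (hR : R = 0 ∨ PB.xco R + r ∉ A) :
    ∃ Q : (shortCurve α β).toAffine.Point, (Q = 0 ∨ PB.xco Q + r ∉ A) ∧ p • Q = R := by
  classical
  by_cases hRne : R = 0
  · exact ⟨0, Or.inl rfl, by rw [hRne, smul_zero]⟩
  have hcA : PB.xco R + r ∉ A := hR.resolve_left hRne
  set c := PB.xco R with hc
  set n := num α β p with hn
  set d := den α β p with hdn
  set f := n - C c * d with hf
  have hp0 : p ≠ 0 := hp.ne'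
  have hnmonic : n.Monic := num_monic hβ hd p
  have hndeg : n.natDegree = p ^ 2 := natDegree_num hβ hd p
  have hddeg : d.natDegree + 1 = p ^ 2 := natDegree_den hβ hd hp0
  have hdlc : d.leadingCoeff = (p : L) ^ 2 := leadingCoeff_den hβ hd p
  have hp2 : 0 < p ^ 2 := pos_of_ne_zero (pow_ne_zero 2 hp0)
  have hCd : (C c * d).natDegree ≤ d.natDegree := natDegree_C_mul_le c d
  have hdeglt : (C c * d).degree < n.degree := by
    rw [degree_eq_natDegree hnmonic.ne_zero]
    refine lt_of_le_of_lt degree_le_natDegree ?_
    rw [Nat.cast_lt]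
    omega
  have hfmonic : f.Monic := hnmonic.sub_of_left hdeglt
  have hfdeg : f.natDegree = p ^ 2 := by
    rw [hf, natDegree_sub_eq_left_of_natDegree_lt (by omega), hndeg]
  -- the next coefficient of `num` vanishes
  have hn1 : n.coeff (p ^ 2 - 1) = 0 := by
    have h := nextCoeff_num hβ hd p
    rwa [nextCoeff_of_natDegree_pos (by rw [natDegree_num hβ hd p]; exact hp2),
      natDegree_num hβ hd p] at h
  have hnext : f.nextCoeff = -(c * (p : L) ^ 2) := by
    rw [nextCoeff_of_natDegree_pos (by rw [hfdeg]; exact hp2), hfdeg, hf, coeff_sub, coeff_C_mul,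
      hn1, zero_sub]
    congr 2
    have : p ^ 2 - 1 = d.natDegree := by omega
    rw [this, coeff_natDegree, hdlc]
  -- Vieta
  have hsum : f.nextCoeff = -f.roots.sum :=
    (IsAlgClosed.splits f).nextCoeff_eq_neg_sum_roots_of_monic hfmonic
  have hcard : f.roots.card = p ^ 2 := by
    rw [IsAlgClosed.card_roots_eq_natDegree, hfdeg]
  have hrs : f.roots.sum = c * (p : L) ^ 2 := by
    have := hnext
    rw [hsum] at this
    exact neg_injective this
  -- some translated root is not integral
  have hpinv : ((p : L) ^ 2)⁻¹ ∈ A := by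
    rw [← A.valuation_le_one_iff, map_inv₀, map_pow, hpA, one_pow, inv_one]
  have hpne : ((p : L) ^ 2) ≠ 0 := pow_ne_zero 2 (Nat.cast_ne_zero.mpr hp0)
  obtain ⟨ξ, hξroot, hξA⟩ : ∃ ξ ∈ f.roots, ξ + r ∉ A := by
    by_contra hall
    push Not at hall
    have hsumA : (f.roots.map fun ξ => ξ + r).sum ∈ A := by
      have : ∀ (m : Multiset L), (∀ x ∈ m, x + r ∈ A) → (m.map fun ξ => ξ + r).sum ∈ A := by
        intro m
        induction m using Multiset.induction_on with
        | empty => intro _; simp
        | cons a m ih =>
          intro hm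
          rw [Multiset.map_cons, Multiset.sum_cons]
          exact A.add_mem _ _ (hm a (Multiset.mem_cons_self a m))
            (ih fun x hx => hm x (Multiset.mem_cons_of_mem hx))
      exact this _ hall
    have e : (f.roots.map fun ξ => ξ + r).sum = (c + r) * (p : L) ^ 2 := by
      rw [Multiset.sum_map_add, Multiset.map_id', hrs, Multiset.map_const', Multiset.sum_replicate,
        hcard, nsmul_eq_mul]
      push_cast
      ring
    rw [e] at hsumA
    apply hcA
    have e2 : c + r = (c + r) * (p : L) ^ 2 * ((p : L) ^ 2)⁻¹ := by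
      field_simp
    rw [e2]
    exact A.mul_mem _ _ hsumA hpinv
  have hξ0 : f.eval ξ = 0 := (mem_roots hfmonic.ne_zero).mp hξroot
  obtain ⟨T, hxT, hpT⟩ :=
    Fermat.Agent.S41.T1Short.exists_point_nsmul_eq hβ hd p R hRne ξ hξ0
  refine ⟨T, Or.inr ?_, hpT⟩
  rw [hxT]
  exact hξA

/-- **[E1DIV]**: the kernel of reduction `E₁` of any elliptic curve over an algebraically closed
field of characteristic zero is `p`-divisible, for every valuation subring `A` in which `p` is a
unit. -/
theorem inE1_divisible (A : ValuationSubring L) (W : WeierstrassCurve L) [W.IsElliptic] (p : ℕ)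
    (hp : 0 < p) (hpA : A.valuation (p : L) = 1) (R : W.toAffine.Point) (hR : InE1 A R) :
    ∃ Q : W.toAffine.Point, InE1 A Q ∧ p • Q = R := by
  obtain ⟨C, α, β, hβ, hd, hu, -, h⟩ := Fermat.Agent.S41.T1.exists_short_model W
  -- `InE1` through the variable change
  have key : ∀ P : (shortCurve α β).toAffine.Point,
      InE1 A (Fermat.Agent.S41.VC.vcEquiv W (shortCurve α β) C h P) ↔
        (P = 0 ∨ PB.xco P + C.r ∉ A) := by
    intro P
    rcases P with _ | ⟨x, y, hxy⟩
    · have h0 : Fermat.Agent.S41.VC.vcEquiv W (shortCurve α β) C h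
          (Affine.Point.zero : (shortCurve α β).toAffine.Point) = 0 :=
        Fermat.Agent.S41.VC.vcEquiv_zero W (shortCurve α β) C h
      rw [h0]
      exact ⟨fun _ => Or.inl rfl, fun _ => trivial⟩
    · obtain ⟨hxy', e⟩ := Fermat.Agent.S41.VC.vcEquiv_some W (shortCurve α β) C h hxy
      rw [e]
      have hx : (C.u : L) ^ 2 * x + C.r = x + C.r := by rw [hu, one_pow, one_mul]
      constructor
      · intro hin
        refine Or.inr ?_
        have hin' : (C.u : L) ^ 2 * x + C.r ∉ A := hin
        rw [hx] at hin'
        exact hin'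
      · intro hin
        have hin' : x + C.r ∉ A := hin.resolve_left (Affine.Point.some_ne_zero _)
        change (C.u : L) ^ 2 * x + C.r ∉ A
        rw [hx]
        exact hin'
  set e := Fermat.Agent.S41.VC.vcEquiv W (shortCurve α β) C h with he
  have hR' : InE1 A (e (e.symm R)) := by rw [AddEquiv.apply_symm_apply]; exact hR
  obtain ⟨Q', hQ', hpQ'⟩ :=
    inE1_divisible_short' A α β hβ hd p hp hpA C.r (e.symm R) ((key _).mp hR')
  refine ⟨e Q', (key Q').mpr hQ', ?_⟩
  rw [← map_nsmul, hpQ', AddEquiv.apply_symm_apply]

end Fermat.Agent.S58.E1Div
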