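import Mathlib

/-!
# S58 — [E0U] / NodeEx: the node of a Weierstrass cubic with `Δ = 0`, `c₄ ≠ 0`, by a uniform formula

For a Weierstrass cubic `W` put

* `nX W = 18 b₆ - b₂ b₄`,
* `nY W = b₂ (a₁ a₄ - 2 a₂ a₃) + 3 (a₁ (a₃² - 12 a₆) + 8 a₃ a₄)`.

Then (identities in any commutative ring, all characteristics):

* `node_id1` : `c₄ a₃ + a₁ nX + 2 nY = 0`;
* `node_id2` : `a₁ c₄ nY - 3 nX² - 2 a₂ c₄ nX - a₄ c₄² = 36 Δ`;
* `node_id3` : `c₄ nY² + a₁ c₄ nX nY + a₃ c₄² nY - nX³ - a₂ c₄ nX² - a₄ c₄² nX - a₆ c₄³ = - c₆ Δ`;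
* `node_id4` : `b₂ c₄ + 12 nX = - c₆`.

Hence over a field with `Δ = 0`, `c₄ ≠ 0` the point `(nX / c₄, nY / c₄)` lies on `W`, both partial
derivatives vanish there, and the discriminant `a₁² + 4 (a₂ + 3 x₀) = b₂ + 12 x₀ = - c₆ / c₄` of the
tangent cone `s² + a₁ s - (a₂ + 3 x₀)` is nonzero (`c₆² = c₄³`): a node with distinct tangent
slopes, in every characteristic (`2` and `3` included).  Integral form: for `W` over `ℤ` and a
prime `q ∣ Δ`, `q ∤ c₄` there are integers `r, t` such that the translate `x = x' + r`,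
`y = y' + t` has `a₃', a₄', a₆' ≡ 0` and `b₂'` a unit modulo `q`.
-/

namespace Fermat.Agent.S58.NodeEx

open WeierstrassCurve

section Ring

variable {R : Type*} [CommRing R] (W : WeierstrassCurve R)

/-- Numerator of the `x`-coordinate of the node (denominator `c₄`). -/
def nX : R := 18 * W.b₆ - W.b₂ * W.b₄

/-- Numerator of the `y`-coordinate of the node (denominator `c₄`). -/
def nY : R :=
  W.b₂ * (W.a₁ * W.a₄ - 2 * W.a₂ * W.a₃) + 3 * (W.a₁ * (W.a₃ ^ 2 - 12 * W.a₆) + 8 * W.a₃ * W.a₄)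

theorem node_id1 : W.c₄ * W.a₃ + W.a₁ * nX W + 2 * nY W = 0 := by
  simp only [nX, nY, WeierstrassCurve.c₄, WeierstrassCurve.b₂, WeierstrassCurve.b₄,
    WeierstrassCurve.b₆]
  ring

theorem node_id2 :
    W.a₁ * W.c₄ * nY W - 3 * nX W ^ 2 - 2 * W.a₂ * W.c₄ * nX W - W.a₄ * W.c₄ ^ 2 = 36 * W.Δ := by
  simp only [nX, nY, WeierstrassCurve.Δ, WeierstrassCurve.c₄, WeierstrassCurve.b₂,
    WeierstrassCurve.b₄, WeierstrassCurve.b₆, WeierstrassCurve.b₈]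
  ring

theorem node_id3 :
    W.c₄ * nY W ^ 2 + W.a₁ * W.c₄ * nX W * nY W + W.a₃ * W.c₄ ^ 2 * nY W - nX W ^ 3
      - W.a₂ * W.c₄ * nX W ^ 2 - W.a₄ * W.c₄ ^ 2 * nX W - W.a₆ * W.c₄ ^ 3 = - W.c₆ * W.Δ := by
  simp only [nX, nY, WeierstrassCurve.Δ, WeierstrassCurve.c₄, WeierstrassCurve.c₆,
    WeierstrassCurve.b₂, WeierstrassCurve.b₄, WeierstrassCurve.b₆, WeierstrassCurve.b₈]
  ring

theorem node_id4 : W.b₂ * W.c₄ + 12 * nX W = - W.c₆ := by
  simp only [nX, WeierstrassCurve.c₄, WeierstrassCurve.c₆, WeierstrassCurve.b₂,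
    WeierstrassCurve.b₄, WeierstrassCurve.b₆]
  ring

theorem b₂_eq : W.b₂ = W.a₁ ^ 2 + 4 * W.a₂ := rfl

/-- `nX`, `nY` commute with ring homomorphisms. -/
theorem map_nX {S : Type*} [CommRing S] (f : R →+* S) : nX (W.map f) = f (nX W) := by
  simp only [nX, WeierstrassCurve.map_b₂, WeierstrassCurve.map_b₄, WeierstrassCurve.map_b₆,
    map_sub, map_mul, map_ofNat]

theorem map_nY {S : Type*} [CommRing S] (f : R →+* S) : nY (W.map f) = f (nY W) := by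
  simp only [nY, WeierstrassCurve.map_b₂, WeierstrassCurve.map_a₁, WeierstrassCurve.map_a₂,
    WeierstrassCurve.map_a₃, WeierstrassCurve.map_a₄, WeierstrassCurve.map_a₆, map_sub, map_add,
    map_mul, map_pow, map_ofNat]

end Ring

section Field

variable {k : Type*} [Field k] (W : WeierstrassCurve k)

/-- The node lies on the curve. -/
theorem equation_node (hΔ : W.Δ = 0) (hc₄ : W.c₄ ≠ 0) :
    W.toAffine.Equation (nX W / W.c₄) (nY W / W.c₄) := by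
  rw [Affine.equation_iff]
  have h3 := node_id3 W
  rw [hΔ, mul_zero] at h3
  field_simp
  linear_combination h3

/-- The `y`-derivative vanishes at the node. -/
theorem node_dy (hc₄ : W.c₄ ≠ 0) :
    2 * (nY W / W.c₄) + W.a₁ * (nX W / W.c₄) + W.a₃ = 0 := by
  have h1 := node_id1 W
  field_simp
  linear_combination h1

/-- The `x`-derivative vanishes at the node. -/
theorem node_dx (hΔ : W.Δ = 0) (hc₄ : W.c₄ ≠ 0) :
    W.a₁ * (nY W / W.c₄) = 3 * (nX W / W.c₄) ^ 2 + 2 * W.a₂ * (nX W / W.c₄) + W.a₄ := by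
  have h2 := node_id2 W
  rw [hΔ, mul_zero] at h2
  field_simp
  linear_combination h2

theorem c₆_ne_zero (hΔ : W.Δ = 0) (hc₄ : W.c₄ ≠ 0) : W.c₆ ≠ 0 := by
  intro h6
  have h := W.c_relation
  rw [hΔ, h6] at h
  have : W.c₄ ^ 3 = 0 := by linear_combination -h
  exact hc₄ (pow_eq_zero_iff (by norm_num) |>.mp this)

/-- `b₂ + 12 x₀ = - c₆ / c₄` is nonzero at the node. -/
theorem node_b₂_ne (hΔ : W.Δ = 0) (hc₄ : W.c₄ ≠ 0) : W.b₂ + 12 * (nX W / W.c₄) ≠ 0 := by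
  have h4 := node_id4 W
  have h6 := c₆_ne_zero W hΔ hc₄
  intro h0
  apply h6
  have e : W.c₆ = - ((W.b₂ + 12 * (nX W / W.c₄)) * W.c₄) := by
    have : (W.b₂ + 12 * (nX W / W.c₄)) * W.c₄ = W.b₂ * W.c₄ + 12 * nX W := by
      field_simp
    rw [this]
    linear_combination h4
  rw [e, h0, zero_mul, neg_zero]

/-- The discriminant of the tangent cone at the node is nonzero: distinct tangent slopes. -/
theorem node_disc_ne (hΔ : W.Δ = 0) (hc₄ : W.c₄ ≠ 0) :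
    W.a₁ ^ 2 + 4 * (W.a₂ + 3 * (nX W / W.c₄)) ≠ 0 := by
  have h := node_b₂_ne W hΔ hc₄
  rw [b₂_eq] at h
  intro h0
  apply h
  linear_combination h0

/-- **The node** of a Weierstrass cubic with `Δ = 0`, `c₄ ≠ 0` over a field, in the shape
consumed by the field-level leaf (`hY`, `hX`, `hb`). -/
theorem exists_node_field (hΔ : W.Δ = 0) (hc₄ : W.c₄ ≠ 0) :
    ∃ x₀ y₀ : k, W.toAffine.Equation x₀ y₀ ∧ 2 * y₀ + W.a₁ * x₀ + W.a₃ = 0 ∧
      W.a₁ * y₀ - (3 * x₀ ^ 2 + 2 * W.a₂ * x₀ + W.a₄) = 0 ∧ W.b₂ + 12 * x₀ ≠ 0 :=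
  ⟨nX W / W.c₄, nY W / W.c₄, equation_node W hΔ hc₄, node_dy W hc₄,
    sub_eq_zero.mpr (node_dx W hΔ hc₄), node_b₂_ne W hΔ hc₄⟩

/-- **The node** of a Weierstrass cubic with `Δ = 0`, `c₄ ≠ 0` over a field. -/
theorem exists_node (hΔ : W.Δ = 0) (hc₄ : W.c₄ ≠ 0) :
    ∃ x₀ y₀ : k, W.toAffine.Equation x₀ y₀ ∧ 2 * y₀ + W.a₁ * x₀ + W.a₃ = 0 ∧
      W.a₁ * y₀ = 3 * x₀ ^ 2 + 2 * W.a₂ * x₀ + W.a₄ ∧ W.a₁ ^ 2 + 4 * (W.a₂ + 3 * x₀) ≠ 0 :=
  ⟨nX W / W.c₄, nY W / W.c₄, equation_node W hΔ hc₄, node_dy W hc₄, node_dx W hΔ hc₄,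
    node_disc_ne W hΔ hc₄⟩

/-- Distinct roots of `s² + a s - c` when the discriminant `a² + 4 c` is nonzero. -/
theorem exists_slopes_of_disc [IsAlgClosed k] (a c : k) (hd : a ^ 2 + 4 * c ≠ 0) :
    ∃ s₁ s₂ : k, s₁ + s₂ = -a ∧ s₁ * s₂ = -c ∧ s₁ ≠ s₂ := by
  have hdeg : (Polynomial.C (1 : k) * Polynomial.X ^ 2 + Polynomial.C a * Polynomial.X +
      Polynomial.C (-c) : Polynomial k).degree ≠ 0 := by
    rw [Polynomial.degree_quadratic one_ne_zero]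
    norm_num
  obtain ⟨s, hs⟩ := IsAlgClosed.exists_root _ hdeg
  simp only [Polynomial.IsRoot, Polynomial.eval_add, Polynomial.eval_pow, Polynomial.eval_X,
    Polynomial.eval_mul, Polynomial.eval_C, one_mul] at hs
  refine ⟨s, -a - s, by ring, by linear_combination -hs, ?_⟩
  intro h
  apply hd
  have h2 : 2 * s + a = 0 := by linear_combination h
  linear_combination (2 * s + a) * h2 - 4 * hs

/-- **The node with its two tangent slopes** (residue field algebraically closed). -/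
theorem exists_node_slopes [IsAlgClosed k] (hΔ : W.Δ = 0) (hc₄ : W.c₄ ≠ 0) :
    ∃ x₀ y₀ s₁ s₂ : k, W.toAffine.Equation x₀ y₀ ∧ 2 * y₀ + W.a₁ * x₀ + W.a₃ = 0 ∧
      W.a₁ * y₀ = 3 * x₀ ^ 2 + 2 * W.a₂ * x₀ + W.a₄ ∧
      s₁ + s₂ = -W.a₁ ∧ s₁ * s₂ = -(W.a₂ + 3 * x₀) ∧ s₁ ≠ s₂ := by
  obtain ⟨x₀, y₀, he, hy, hx, hd⟩ := exists_node W hΔ hc₄
  obtain ⟨s₁, s₂, h1, h2, h3⟩ := exists_slopes_of_disc W.a₁ (W.a₂ + 3 * x₀) hd
  exact ⟨x₀, y₀, s₁, s₂, he, hy, hx, h1, h2, h3⟩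

end Field

section Int

/-- **Integral translation of the node to the origin**: for `W` over `ℤ` and a prime `q ∣ Δ`,
`q ∤ c₄`, there are integers `r, t` such that the coefficients `a₃', a₄', a₆'` of the translate
`x = x' + r`, `y = y' + t` are divisible by `q` and its `b₂' = b₂ + 12 r` is not. -/
theorem exists_translation_int (W : WeierstrassCurve ℤ) {q : ℕ} (hq : q.Prime)
    (hΔ : (q : ℤ) ∣ W.Δ) (hc₄ : ¬ (q : ℤ) ∣ W.c₄) :
    ∃ r t : ℤ, (q : ℤ) ∣ W.a₃ + r * W.a₁ + 2 * t ∧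
      (q : ℤ) ∣ W.a₄ + 2 * r * W.a₂ - t * W.a₁ + 3 * r ^ 2 ∧
      (q : ℤ) ∣ W.a₆ + r * W.a₄ + r ^ 2 * W.a₂ + r ^ 3 - t * W.a₃ - t ^ 2 - r * t * W.a₁ ∧
      ¬ (q : ℤ) ∣ W.b₂ + 12 * r := by
  have : Fact q.Prime := ⟨hq⟩
  set f : ℤ →+* ZMod q := Int.castRingHom (ZMod q) with hf
  have hker : ∀ z : ℤ, f z = 0 ↔ (q : ℤ) ∣ z := fun z => ZMod.intCast_zmod_eq_zero_iff_dvd z q
  have hΔ' : (W.map f).Δ = 0 := by rw [WeierstrassCurve.map_Δ]; exact (hker _).mpr hΔ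
  have hc₄' : (W.map f).c₄ ≠ 0 := by
    rw [WeierstrassCurve.map_c₄]; exact fun h => hc₄ ((hker _).mp h)
  obtain ⟨x₀, y₀, he, hy, hx, hd⟩ := exists_node (W.map f) hΔ' hc₄'
  obtain ⟨r, rfl⟩ := ZMod.intCast_surjective x₀
  obtain ⟨t, rfl⟩ := ZMod.intCast_surjective y₀
  rw [Affine.equation_iff] at he
  simp only [WeierstrassCurve.map_a₁, WeierstrassCurve.map_a₂, WeierstrassCurve.map_a₃,
    WeierstrassCurve.map_a₄, WeierstrassCurve.map_a₆] at he hy hx hd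
  have cast : ∀ z : ℤ, ((z : ℤ) : ZMod q) = f z := fun z => rfl
  simp only [cast] at he hy hx hd
  refine ⟨r, t, ?_, ?_, ?_, ?_⟩
  · rw [← hker]
    simp only [map_add, map_mul, map_ofNat]
    linear_combination hy
  · rw [← hker]
    simp only [map_add, map_sub, map_mul, map_pow, map_ofNat]
    linear_combination -hx
  · rw [← hker]
    simp only [map_add, map_sub, map_mul, map_pow]
    linear_combination -he
  · rw [← hker]
    intro h
    apply hd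
    rw [b₂_eq] at h
    simp only [map_add, map_mul, map_pow, map_ofNat] at h
    linear_combination h

/-- The same in terms of Mathlib's `VariableChange` `⟨1, r, 0, t⟩`. -/
theorem exists_variableChange_int (W : WeierstrassCurve ℤ) {q : ℕ} (hq : q.Prime)
    (hΔ : (q : ℤ) ∣ W.Δ) (hc₄ : ¬ (q : ℤ) ∣ W.c₄) :
    ∃ r t : ℤ, (q : ℤ) ∣ ((⟨1, r, 0, t⟩ : VariableChange ℤ) • W).a₃ ∧
      (q : ℤ) ∣ ((⟨1, r, 0, t⟩ : VariableChange ℤ) • W).a₄ ∧
      (q : ℤ) ∣ ((⟨1, r, 0, t⟩ : VariableChange ℤ) • W).a₆ ∧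
      ¬ (q : ℤ) ∣ ((⟨1, r, 0, t⟩ : VariableChange ℤ) • W).b₂ ∧
      ((⟨1, r, 0, t⟩ : VariableChange ℤ) • W).a₁ = W.a₁ ∧
      ((⟨1, r, 0, t⟩ : VariableChange ℤ) • W).a₂ = W.a₂ + 3 * r := by
  obtain ⟨r, t, h3, h4, h6, hb⟩ := exists_translation_int W hq hΔ hc₄
  refine ⟨r, t, ?_, ?_, ?_, ?_, ?_, ?_⟩
  · rw [WeierstrassCurve.variableChange_a₃]
    simpa using h3
  · rw [WeierstrassCurve.variableChange_a₄]
    convert h4 using 1
    simp
  · rw [WeierstrassCurve.variableChange_a₆]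
    convert h6 using 1
    simp
  · rw [WeierstrassCurve.variableChange_b₂]
    convert hb using 2
    simp
  · rw [WeierstrassCurve.variableChange_a₁]
    simp
  · rw [WeierstrassCurve.variableChange_a₂]
    simp

end Int

end Fermat.Agent.S58.NodeEx
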