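/-
S58 — NodeGrp.lean (helper37): [NODE], the FIELD-LEVEL half of [E0U].

Mathlib's `W.toAffine.Point` is the group of NONSINGULAR points of an arbitrary Weierstrass
cubic over a field (`Δ = 0` allowed).  For a NODAL cubic in normal form

  `y² - (s₁ + s₂) x y + s₁ s₂ x² = x³`,   i.e.   `(y - s₁ x) (y - s₂ x) = x³`,   `s₁ ≠ s₂`

(node at the origin, tangent slopes `s₁`, `s₂`), the map

  `u (x, y) = (y - s₁ x) / (y - s₂ x)`

is a group isomorphism from the nonsingular points onto `kˣ`: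

* `IsNodal.nonsingular_iff` : the only singular point is the origin;
* `nodeHom`, `nodeHom_injective`, `nodeHom_surjective`;
* `exists_addOrderOf_eq`, `exists_addOrderOf_eq'` : a point of exact order `m` as soon as `k`
  has a primitive `m`-th root of unity (e.g. `k` algebraically closed and `m` invertible in `k`).

No assumption on the characteristic (`2` and `3` included), no valuation ring.
Proof of multiplicativity: the three intersection points `(xᵢ, yᵢ)` of a line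
`y = ℓ x + c` with the cubic satisfy `∏ (yᵢ - s xᵢ) = c³` for `s = s₁` and for `s = s₂`
(Vieta, from Mathlib's `addPolynomial_slope`, which treats chords and tangents uniformly).
-/
import Mathlib

set_option autoImplicit false

namespace Fermat.Agent.S58.NodeGrp

open WeierstrassCurve WeierstrassCurve.Affine

variable {k : Type*} [Field k]

/-- Nodal normal form: `y² - (s₁ + s₂) x y + s₁ s₂ x² = x³` with `s₁ ≠ s₂`. -/
structure IsNodal (W : WeierstrassCurve k) (s₁ s₂ : k) : Prop where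
  ne : s₁ ≠ s₂
  a₁ : W.a₁ = -(s₁ + s₂)
  a₂ : W.a₂ = -(s₁ * s₂)
  a₃ : W.a₃ = 0
  a₄ : W.a₄ = 0
  a₆ : W.a₆ = 0

variable {W : WeierstrassCurve k} {s₁ s₂ : k}

namespace IsNodal

/-- The equation in factored form. -/
theorem equation_iff (h : IsNodal W s₁ s₂) (x y : k) :
    W.toAffine.Equation x y ↔ (y - s₁ * x) * (y - s₂ * x) = x ^ 3 := by
  rw [Affine.equation_iff', h.a₁, h.a₂, h.a₃, h.a₄, h.a₆]
  constructor <;> intro e <;> linear_combination e

/-- A point of the cubic at which both partial derivatives vanish is the origin.  (No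
assumption on the characteristic.) -/
theorem eq_zero_of_singular (h : IsNodal W s₁ s₂) {x y : k}
    (he : (y - s₁ * x) * (y - s₂ * x) = x ^ 3)
    (hA : 2 * y - (s₁ + s₂) * x = 0)
    (hB : -(s₁ + s₂) * y - 3 * x ^ 2 + 2 * (s₁ * s₂) * x = 0) : x = 0 ∧ y = 0 := by
  have hd : s₁ - s₂ ≠ 0 := sub_ne_zero.mpr h.ne
  have hE : (y - s₁ * x) * (y - s₂ * x) - x ^ 3 = 0 := by rw [he, sub_self]
  have key : (s₁ - s₂) ^ 2 * x ^ 3 = 0 := by
    linear_combination
      (3 * x ^ 2 * (-(s₁ + s₂)) - 2 * ((s₁ - s₂) ^ 2 * (y - s₁ * x)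
        - s₁ * ((-(s₁ + s₂) * y - 3 * x ^ 2 + 2 * (s₁ * s₂) * x)
          + s₁ * (2 * y - (s₁ + s₂) * x)) - 6 * x ^ 2 * s₁)) * hA
      + (3 * x ^ 2 * (-2) - 2 * (-((-(s₁ + s₂) * y - 3 * x ^ 2 + 2 * (s₁ * s₂) * x)
          + s₁ * (2 * y - (s₁ + s₂) * x)) - 6 * x ^ 2)) * hB
      + (2 * (s₁ - s₂) ^ 2) * hE
  have hx : x = 0 := by
    rcases mul_eq_zero.mp key with h1 | h1
    · exact absurd ((pow_eq_zero_iff (by norm_num)).mp h1) hd
    · exact (pow_eq_zero_iff (by norm_num)).mp h1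
  refine ⟨hx, ?_⟩
  rw [hx] at he
  have hyy : y * y = 0 := by linear_combination he
  exact mul_self_eq_zero.mp hyy

/-- **The only singular point of the nodal cubic is the origin.** -/
theorem nonsingular_iff (h : IsNodal W s₁ s₂) (x y : k) :
    W.toAffine.Nonsingular x y ↔ W.toAffine.Equation x y ∧ ¬ (x = 0 ∧ y = 0) := by
  rw [Affine.nonsingular_iff, h.a₁, h.a₂, h.a₃, h.a₄]
  constructor
  · rintro ⟨he, hor⟩
    refine ⟨he, ?_⟩
    rintro ⟨rfl, rfl⟩
    rcases hor with h1 | h1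
    · exact h1 (by ring)
    · exact h1 (by ring)
  · rintro ⟨he, hne⟩
    refine ⟨he, ?_⟩
    by_contra hcon
    rw [not_or, not_not, not_not] at hcon
    obtain ⟨hX, hY⟩ := hcon
    exact hne (h.eq_zero_of_singular ((h.equation_iff x y).mp he)
      (by linear_combination hY) (by linear_combination hX))

theorem sub_left_ne_zero (h : IsNodal W s₁ s₂) {x y : k} (hxy : W.toAffine.Nonsingular x y) :
    y - s₁ * x ≠ 0 := by
  intro h0
  obtain ⟨he, hne⟩ := (h.nonsingular_iff x y).mp hxy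
  have he' := (h.equation_iff x y).mp he
  rw [h0, zero_mul] at he'
  have hx : x = 0 := (pow_eq_zero_iff (by norm_num)).mp he'.symm
  have hy : y = 0 := by rw [hx, mul_zero, sub_zero] at h0; exact h0
  exact hne ⟨hx, hy⟩

theorem sub_right_ne_zero (h : IsNodal W s₁ s₂) {x y : k} (hxy : W.toAffine.Nonsingular x y) :
    y - s₂ * x ≠ 0 := by
  intro h0
  obtain ⟨he, hne⟩ := (h.nonsingular_iff x y).mp hxy
  have he' := (h.equation_iff x y).mp he
  rw [h0, mul_zero] at he'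
  have hx : x = 0 := (pow_eq_zero_iff (by norm_num)).mp he'.symm
  have hy : y = 0 := by rw [hx, mul_zero, sub_zero] at h0; exact h0
  exact hne ⟨hx, hy⟩

end IsNodal

/-- The unit attached to a nonsingular point: `1` at infinity, `(y - s₁ x)/(y - s₂ x)` at
`(x, y)`. -/
noncomputable def uFun (W : WeierstrassCurve k) (s₁ s₂ : k) : W.toAffine.Point → k
  | .zero => 1
  | .some x y _ => (y - s₁ * x) / (y - s₂ * x)

theorem uFun_zero : uFun W s₁ s₂ 0 = 1 := rfl

theorem uFun_some {x y : k} (hxy : W.toAffine.Nonsingular x y) :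
    uFun W s₁ s₂ (.some x y hxy) = (y - s₁ * x) / (y - s₂ * x) := rfl

theorem uFun_ne_zero (h : IsNodal W s₁ s₂) (P : W.toAffine.Point) : uFun W s₁ s₂ P ≠ 0 := by
  rcases P with _ | ⟨x, y, hxy⟩
  · exact one_ne_zero
  · exact div_ne_zero (h.sub_left_ne_zero hxy) (h.sub_right_ne_zero hxy)

theorem negY_sub_left (h : IsNodal W s₁ s₂) (x y : k) :
    W.toAffine.negY x y - s₁ * x = -(y - s₂ * x) := by
  rw [Affine.negY, h.a₁, h.a₃]; ring

theorem negY_sub_right (h : IsNodal W s₁ s₂) (x y : k) :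
    W.toAffine.negY x y - s₂ * x = -(y - s₁ * x) := by
  rw [Affine.negY, h.a₁, h.a₃]; ring

theorem uFun_neg (h : IsNodal W s₁ s₂) (P : W.toAffine.Point) :
    uFun W s₁ s₂ (-P) = (uFun W s₁ s₂ P)⁻¹ := by
  rcases P with _ | ⟨x, y, hxy⟩
  · show uFun W s₁ s₂ 0 = (uFun W s₁ s₂ 0)⁻¹
    rw [uFun_zero, inv_one]
  · rw [Point.neg_some, uFun_some, uFun_some, negY_sub_left h, negY_sub_right h, neg_div_neg_eq,
      inv_div]

section Add

variable [DecidableEq k]

/-- **Vieta on a line**: the three intersection points of the line through two nonsingular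
points with the nodal cubic have the same product of `y - s₁ x` and of `y - s₂ x`. -/
theorem prod_eq_prod (h : IsNodal W s₁ s₂) {x₁ x₂ y₁ y₂ : k}
    (h₁ : W.toAffine.Nonsingular x₁ y₁) (h₂ : W.toAffine.Nonsingular x₂ y₂)
    (hxy : ¬(x₁ = x₂ ∧ y₁ = W.toAffine.negY x₂ y₂)) :
    (y₁ - s₁ * x₁) * (y₂ - s₁ * x₂) *
        (W.toAffine.negAddY x₁ x₂ y₁ (W.toAffine.slope x₁ x₂ y₁ y₂)
          - s₁ * W.toAffine.addX x₁ x₂ (W.toAffine.slope x₁ x₂ y₁ y₂))
      = (y₁ - s₂ * x₁) * (y₂ - s₂ * x₂) *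
        (W.toAffine.negAddY x₁ x₂ y₁ (W.toAffine.slope x₁ x₂ y₁ y₂)
          - s₂ * W.toAffine.addX x₁ x₂ (W.toAffine.slope x₁ x₂ y₁ y₂)) := by
  have hpoly := Affine.addPolynomial_slope h₁.1 h₂.1 hxy
  have hline : y₂ = W.toAffine.slope x₁ x₂ y₁ y₂ * (x₂ - x₁) + y₁ := by
    by_cases hx : x₁ = x₂
    · have hy : y₁ ≠ W.toAffine.negY x₂ y₂ := fun hh => hxy ⟨hx, hh⟩
      have hyy := Affine.Y_eq_of_Y_ne h₁.1 h₂.1 hx hy
      rw [hx, hyy]; ring
    · rw [Affine.slope_of_X_ne hx]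
      have hx' : x₁ - x₂ ≠ 0 := sub_ne_zero.mpr hx
      field_simp
      ring
  rw [Affine.addPolynomial_eq, neg_inj, Cubic.prod_X_sub_C_eq, Cubic.toPoly_injective] at hpoly
  obtain ⟨-, e1, e2, e3⟩ := Cubic.ext_iff.mp hpoly
  simp only [h.a₁, h.a₂, h.a₃, h.a₄, h.a₆] at e1 e2 e3
  generalize W.toAffine.slope x₁ x₂ y₁ y₂ = ℓ at *
  have key : ∀ s : k, (s = s₁ ∨ s = s₂) →
      (y₁ - s * x₁) * (y₂ - s * x₂) *
        (W.toAffine.negAddY x₁ x₂ y₁ ℓ - s * W.toAffine.addX x₁ x₂ ℓ) = (y₁ - ℓ * x₁) ^ 3 := by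
    intro s hs
    have hx3 : W.toAffine.negAddY x₁ x₂ y₁ ℓ = ℓ * (W.toAffine.addX x₁ x₂ ℓ - x₁) + y₁ := rfl
    rw [hx3, hline]
    generalize W.toAffine.addX x₁ x₂ ℓ = x₃ at *
    rcases hs with rfl | rfl
    · linear_combination ((y₁ - ℓ * x₁) ^ 2 * (ℓ - s)) * e1
        + (-((y₁ - ℓ * x₁) * (ℓ - s) ^ 2)) * e2 + ((ℓ - s) ^ 3) * e3
    · linear_combination ((y₁ - ℓ * x₁) ^ 2 * (ℓ - s)) * e1
        + (-((y₁ - ℓ * x₁) * (ℓ - s) ^ 2)) * e2 + ((ℓ - s) ^ 3) * e3
  rw [key s₁ (Or.inl rfl), key s₂ (Or.inr rfl)]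

/-- **`u` is multiplicative.** -/
theorem uFun_add (h : IsNodal W s₁ s₂) (P Q : W.toAffine.Point) :
    uFun W s₁ s₂ (P + Q) = uFun W s₁ s₂ P * uFun W s₁ s₂ Q := by
  rcases P with _ | ⟨x₁, y₁, h₁⟩
  · show uFun W s₁ s₂ (0 + Q) = uFun W s₁ s₂ 0 * uFun W s₁ s₂ Q
    rw [zero_add, uFun_zero, one_mul]
  rcases Q with _ | ⟨x₂, y₂, h₂⟩
  · show uFun W s₁ s₂ (Point.some x₁ y₁ h₁ + 0) = uFun W s₁ s₂ (Point.some x₁ y₁ h₁) * uFun W s₁ s₂ 0
    rw [add_zero, uFun_zero, mul_one]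
  by_cases hxy : x₁ = x₂ ∧ y₁ = W.toAffine.negY x₂ y₂
  · rw [Point.add_of_Y_eq hxy.1 hxy.2, uFun_zero]
    obtain ⟨rfl, rfl⟩ := hxy
    have hneg := uFun_neg h (Point.some x₁ y₂ h₂)
    rw [Point.neg_some] at hneg
    rw [hneg, inv_mul_cancel₀ (uFun_ne_zero h _)]
  · rw [Point.add_some hxy, uFun_some, uFun_some, uFun_some]
    have h₃ := Affine.nonsingular_negAdd h₁ h₂ hxy
    have hT := prod_eq_prod h h₁ h₂ hxy
    have n1 := h.sub_left_ne_zero h₁
    have n2 := h.sub_left_ne_zero h₂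
    have n3 := h.sub_left_ne_zero h₃
    have d1 := h.sub_right_ne_zero h₁
    have d2 := h.sub_right_ne_zero h₂
    have d3 := h.sub_right_ne_zero h₃
    have hY : W.toAffine.addY x₁ x₂ y₁ (W.toAffine.slope x₁ x₂ y₁ y₂)
        = W.toAffine.negY (W.toAffine.addX x₁ x₂ (W.toAffine.slope x₁ x₂ y₁ y₂))
          (W.toAffine.negAddY x₁ x₂ y₁ (W.toAffine.slope x₁ x₂ y₁ y₂)) := rfl
    rw [hY, negY_sub_left h, negY_sub_right h, neg_div_neg_eq]
    generalize W.toAffine.negAddY x₁ x₂ y₁ (W.toAffine.slope x₁ x₂ y₁ y₂) = y₃ at *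
    generalize W.toAffine.addX x₁ x₂ (W.toAffine.slope x₁ x₂ y₁ y₂) = x₃ at *
    rw [div_mul_div_comm, div_eq_div_iff n3 (mul_ne_zero d1 d2)]
    linear_combination -hT

/-- **The isomorphism `W_ns(k) ≅ kˣ` of a nodal cubic**, as an additive homomorphism. -/
noncomputable def nodeHom (h : IsNodal W s₁ s₂) : W.toAffine.Point →+ Additive kˣ :=
  AddMonoidHom.mk' (fun P => Additive.ofMul (Units.mk0 (uFun W s₁ s₂ P) (uFun_ne_zero h P)))
    (fun P Q => by
      apply Additive.toMul.injective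
      apply Units.ext
      show uFun W s₁ s₂ (P + Q) = uFun W s₁ s₂ P * uFun W s₁ s₂ Q
      exact uFun_add h P Q)

theorem coe_nodeHom (h : IsNodal W s₁ s₂) (P : W.toAffine.Point) :
    ((Additive.toMul (nodeHom h P) : kˣ) : k) = uFun W s₁ s₂ P := rfl

theorem nodeHom_some (h : IsNodal W s₁ s₂) {x y : k} (hxy : W.toAffine.Nonsingular x y) :
    ((Additive.toMul (nodeHom h (.some x y hxy)) : kˣ) : k) = (y - s₁ * x) / (y - s₂ * x) := rfl

theorem nodeHom_injective (h : IsNodal W s₁ s₂) : Function.Injective (nodeHom h) := by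
  rw [injective_iff_map_eq_zero]
  intro P hP
  have h1 : uFun W s₁ s₂ P = 1 := by
    have := congrArg (fun t : Additive kˣ => ((Additive.toMul t : kˣ) : k)) hP
    exact this
  rcases P with _ | ⟨x, y, hxy⟩
  · rfl
  · exfalso
    rw [uFun_some, div_eq_one_iff_eq (h.sub_right_ne_zero hxy)] at h1
    have hd : s₁ - s₂ ≠ 0 := sub_ne_zero.mpr h.ne
    have hx : x = 0 := by
      have h2 : (s₁ - s₂) * x = 0 := by linear_combination -h1
      exact (mul_eq_zero.mp h2).resolve_left hd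
    obtain ⟨he, hne⟩ := (h.nonsingular_iff x y).mp hxy
    have he' := (h.equation_iff x y).mp he
    rw [hx] at he'
    have hyy : y * y = 0 := by linear_combination he'
    exact hne ⟨hx, mul_self_eq_zero.mp hyy⟩

theorem nodeHom_surjective (h : IsNodal W s₁ s₂) : Function.Surjective (nodeHom h) := by
  intro t'
  obtain ⟨t, rfl⟩ : ∃ t : kˣ, Additive.ofMul t = t' := ⟨Additive.toMul t', rfl⟩
  by_cases ht : (t : k) = 1
  · refine ⟨0, ?_⟩
    rw [map_zero]
    have ht1 : t = 1 := Units.ext ht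
    rw [ht1]; rfl
  · have hd : s₁ - s₂ ≠ 0 := sub_ne_zero.mpr h.ne
    have hw : 1 - (t : k) ≠ 0 := fun h0 => ht (by linear_combination -h0)
    have ht0 : (t : k) ≠ 0 := t.ne_zero
    obtain ⟨x, hx⟩ : ∃ x : k, x = (t : k) * (s₁ - s₂) ^ 2 / (1 - (t : k)) ^ 2 := ⟨_, rfl⟩
    obtain ⟨y, hy⟩ : ∃ y : k, y = x * (s₁ - (t : k) * s₂) / (1 - (t : k)) := ⟨_, rfl⟩
    have hx0 : x ≠ 0 := by
      rw [hx]
      exact div_ne_zero (mul_ne_zero ht0 (pow_ne_zero 2 hd)) (pow_ne_zero 2 hw)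
    have hxx : x * (1 - (t : k)) ^ 2 = (t : k) * (s₁ - s₂) ^ 2 := by
      rw [hx, div_mul_cancel₀ _ (pow_ne_zero 2 hw)]
    have hyy : y * (1 - (t : k)) = x * (s₁ - (t : k) * s₂) := by
      rw [hy, div_mul_cancel₀ _ hw]
    have e1 : (y - s₁ * x) * (1 - (t : k)) = x * (t : k) * (s₁ - s₂) := by
      linear_combination hyy
    have e2 : (y - s₂ * x) * (1 - (t : k)) = x * (s₁ - s₂) := by
      linear_combination hyy
    have heq : W.toAffine.Equation x y := by
      rw [h.equation_iff]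
      have hmul : ((y - s₁ * x) * (y - s₂ * x) - x ^ 3) * (1 - (t : k)) ^ 2 = 0 := by
        linear_combination ((y - s₂ * x) * (1 - (t : k))) * e1 + (x * (t : k) * (s₁ - s₂)) * e2
          + (-x ^ 2) * hxx
      have h0 := (mul_eq_zero.mp hmul).resolve_right (pow_ne_zero 2 hw)
      exact sub_eq_zero.mp h0
    have hns : W.toAffine.Nonsingular x y :=
      (h.nonsingular_iff x y).mpr ⟨heq, fun hh => hx0 hh.1⟩
    refine ⟨.some x y hns, ?_⟩
    apply Additive.toMul.injective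
    apply Units.ext
    show uFun W s₁ s₂ (.some x y hns) = (t : k)
    rw [uFun_some, div_eq_iff (h.sub_right_ne_zero hns)]
    apply mul_right_cancel₀ hw
    linear_combination e1 - (t : k) * e2

/-- **A point of exact order `m`** on a nodal cubic, from a primitive `m`-th root of unity. -/
theorem exists_addOrderOf_eq (h : IsNodal W s₁ s₂) {m : ℕ} {ζ : k} (hζ : IsPrimitiveRoot ζ m)
    (hm : 0 < m) : ∃ P : W.toAffine.Point, addOrderOf P = m := by
  have hζ0 : ζ ≠ 0 := hζ.ne_zero hm.ne'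
  obtain ⟨P, hP⟩ := nodeHom_surjective h (Additive.ofMul (Units.mk0 ζ hζ0))
  refine ⟨P, ?_⟩
  rw [← addOrderOf_injective (nodeHom h) (nodeHom_injective h) P, hP, addOrderOf_ofMul_eq_orderOf,
    ← orderOf_units, Units.val_mk0, ← hζ.eq_orderOf]

/-- The same over an algebraically closed field, for `m` invertible in `k`. -/
theorem exists_addOrderOf_eq' [IsAlgClosed k] (h : IsNodal W s₁ s₂) (m : ℕ) (hm : (m : k) ≠ 0) :
    ∃ P : W.toAffine.Point, addOrderOf P = m := by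
  have : NeZero (m : k) := ⟨hm⟩
  have hm0 : 0 < m := Nat.pos_of_ne_zero (fun h0 => hm (by rw [h0, Nat.cast_zero]))
  obtain ⟨ζ, hζ⟩ := HasEnoughRootsOfUnity.exists_primitiveRoot k m
  exact exists_addOrderOf_eq h hζ hm0

end Add

end Fermat.Agent.S58.NodeGrp
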