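/-
S58 team, leaf [RED0]-B (owner: helper62).

Reduction of points of a Weierstrass curve at a valuation subring `A` of a field `K`, WITHOUT any
hypothesis on the discriminant: the relation `RedTo P Q` ("the point `P` over `K` reduces to the
nonsingular point `Q` of the reduced curve") is compatible with the group laws, its fibre over `0`
is the kernel of reduction `InE1` of the S05 library, and every nonsingular point of the reduced
curve is hit when `K` is algebraically closed.  The proofs are the five cases of `S41/Red` with the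
good-reduction hypothesis replaced by the pointwise nonsingularity of the reductions.
-/
import Mathlib
import Fermat.Agent.S41.Red

set_option autoImplicit false

namespace Fermat.Agent.S58.Red0B

open WeierstrassCurve WeierstrassCurve.Affine IsLocalRing
open Fermat.Agent.S05 Fermat.Agent.S41.Red

section Rel

variable {K : Type*} [Field K] (A : ValuationSubring K) (WA : WeierstrassCurve A)

/-- `P` reduces to the nonsingular point `Q` of the reduced curve. -/
def RedTo (P : (WA.map (algebraMap A K)).toAffine.Point)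
    (Q : (WA.map (residue A)).toAffine.Point) : Prop :=
  (InE1 A P ∧ Q = 0) ∨
    ∃ (a b : A) (h : (WA.map (algebraMap A K)).toAffine.Nonsingular (a : K) (b : K))
      (h' : (WA.map (residue A)).toAffine.Nonsingular (residue A a) (residue A b)),
      P = Point.some _ _ h ∧ Q = Point.some _ _ h'

theorem redTo_zero : RedTo A WA 0 0 := Or.inl ⟨trivial, rfl⟩

theorem redTo_of_inE1 {P : (WA.map (algebraMap A K)).toAffine.Point} (hP : InE1 A P) :
    RedTo A WA P 0 := Or.inl ⟨hP, rfl⟩

theorem redTo_some {a b : A}
    (h : (WA.map (algebraMap A K)).toAffine.Nonsingular (a : K) (b : K))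
    (h' : (WA.map (residue A)).toAffine.Nonsingular (residue A a) (residue A b)) :
    RedTo A WA (Point.some _ _ h) (Point.some _ _ h') :=
  Or.inr ⟨a, b, h, h', rfl, rfl⟩

theorem redTo_of_res_eq {a b : A}
    (h : (WA.map (algebraMap A K)).toAffine.Nonsingular (a : K) (b : K))
    {x' y' : ResidueField A} (h' : (WA.map (residue A)).toAffine.Nonsingular x' y')
    (hx : residue A a = x') (hy : residue A b = y') :
    RedTo A WA (Point.some _ _ h) (Point.some _ _ h') := by
  subst hx hy
  exact redTo_some A WA h h'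

theorem not_inE1_some {a b : A}
    (h : (WA.map (algebraMap A K)).toAffine.Nonsingular (a : K) (b : K)) :
    ¬ InE1 A (Point.some _ _ h) := fun hP => hP a.2

/-- Inversion of `RedTo` at an integral point. -/
theorem redTo_some_iff {a b : A}
    (h : (WA.map (algebraMap A K)).toAffine.Nonsingular (a : K) (b : K))
    {Q : (WA.map (residue A)).toAffine.Point} :
    RedTo A WA (Point.some _ _ h) Q ↔
      ∃ h' : (WA.map (residue A)).toAffine.Nonsingular (residue A a) (residue A b),
        Q = Point.some _ _ h' := by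
  constructor
  · rintro (⟨hP, -⟩ | ⟨a', b', h₂, h', e, eQ⟩)
    · exact absurd hP (not_inE1_some A WA h)
    · rw [Point.some.injEq] at e
      have ha : a = a' := Subtype.ext e.1
      have hb : b = b' := Subtype.ext e.2
      subst ha hb
      exact ⟨h', eQ⟩
  · rintro ⟨h', rfl⟩
    exact redTo_some A WA h h'

/-- The reduction of a point is unique. -/
theorem redTo_unique {P : (WA.map (algebraMap A K)).toAffine.Point}
    {Q Q' : (WA.map (residue A)).toAffine.Point} (h : RedTo A WA P Q) (h' : RedTo A WA P Q') :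
    Q = Q' := by
  rcases h with ⟨hP, rfl⟩ | ⟨a, b, h₁, h₁', rfl, rfl⟩
  · rcases h' with ⟨-, rfl⟩ | ⟨a, b, h₂, h₂', rfl, rfl⟩
    · rfl
    · exact absurd hP (not_inE1_some A WA h₂)
  · obtain ⟨h₂', rfl⟩ := (redTo_some_iff A WA h₁).mp h'
    rfl

/-- The fibre of `RedTo` over `0` is the kernel of reduction. -/
theorem redTo_zero_iff {P : (WA.map (algebraMap A K)).toAffine.Point} :
    RedTo A WA P 0 ↔ InE1 A P := by
  constructor
  · rintro (⟨hP, -⟩ | ⟨a, b, h, h', rfl, e⟩)
    · exact hP
    · exact absurd e.symm (Point.some_ne_zero _)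
  · exact redTo_of_inE1 A WA

theorem redTo_neg {P : (WA.map (algebraMap A K)).toAffine.Point}
    {Q : (WA.map (residue A)).toAffine.Point} (h : RedTo A WA P Q) : RedTo A WA (-P) (-Q) := by
  rcases h with ⟨hP, rfl⟩ | ⟨a, b, h₁, h₁', rfl, rfl⟩
  · rw [Point.neg_zero]
    exact redTo_of_inE1 A WA (inE1_neg A hP)
  · obtain ⟨hn, en⟩ := neg_some_coe A WA h₁
    rw [en, Point.neg_some]
    exact redTo_of_res_eq A WA hn _ rfl (Affine.map_negY (residue A) a b).symm

/-- The two partial derivatives do not vanish simultaneously at a nonsingular point of the reduced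
curve. -/
theorem res_ne_zero_or' {a b : A}
    (hns : (WA.map (residue A)).toAffine.Nonsingular (residue A a) (residue A b)) :
    residue A (2 * b + WA.a₁ * a + WA.a₃) ≠ 0 ∨
      residue A (3 * a ^ 2 + 2 * WA.a₂ * a + WA.a₄ - WA.a₁ * b) ≠ 0 := by
  rw [Affine.nonsingular_iff'] at hns
  rcases hns.2 with h1 | h1
  · right
    intro h0
    apply h1
    have : residue A (3 * a ^ 2 + 2 * WA.a₂ * a + WA.a₄ - WA.a₁ * b) =
        -((WA.map (residue A)).a₁ * residue A b - (3 * residue A a ^ 2 +
          2 * (WA.map (residue A)).a₂ * residue A a + (WA.map (residue A)).a₄)) := by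
      simp only [WeierstrassCurve.map_a₁, WeierstrassCurve.map_a₂, WeierstrassCurve.map_a₄,
        map_sub, map_add, map_mul, map_pow, map_ofNat]
      ring
    rw [this, neg_eq_zero] at h0
    exact h0
  · left
    intro h0
    apply h1
    rw [← h0]
    simp only [WeierstrassCurve.map_a₁, WeierstrassCurve.map_a₃, map_add, map_mul, map_ofNat]

/-- A point of the curve over `K` with integral coordinates and nonsingular reduction is
nonsingular. -/
theorem nonsingular_of_res {a b : A}
    (heq : (WA.map (algebraMap A K)).toAffine.Equation (a : K) (b : K))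
    (hns : (WA.map (residue A)).toAffine.Nonsingular (residue A a) (residue A b)) :
    (WA.map (algebraMap A K)).toAffine.Nonsingular (a : K) (b : K) := by
  rw [Affine.nonsingular_iff']
  refine ⟨heq, ?_⟩
  rcases res_ne_zero_or' A WA hns with h | h
  · right
    intro h0
    apply h
    have e : ((2 * b + WA.a₁ * a + WA.a₃ : A) : K) = 0 := by
      rw [← h0, coe_a₁, coe_a₃]
      push_cast
      rw [coe_two]
    have : (2 * b + WA.a₁ * a + WA.a₃ : A) = 0 := Subtype.ext e
    rw [this, map_zero]
  · left
    intro h0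
    apply h
    have e : ((3 * a ^ 2 + 2 * WA.a₂ * a + WA.a₄ - WA.a₁ * b : A) : K) = 0 := by
      rw [coe_a₁, coe_a₂, coe_a₄] at h0
      push_cast
      rw [coe_two, coe_three]
      linear_combination -h0
    have : (3 * a ^ 2 + 2 * WA.a₂ * a + WA.a₄ - WA.a₁ * b : A) = 0 := Subtype.ext e
    rw [this, map_zero]

theorem equation_res {a b : A}
    (h : (WA.map (algebraMap A K)).toAffine.Equation (a : K) (b : K)) :
    (WA.map (residue A)).toAffine.Equation (residue A a) (residue A b) :=
  (equation_of_coe A WA h).map (residue A)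

variable [DecidableEq K] [DecidableEq (ResidueField A)]

/-- Sum of two integral points with distinct `x`-coordinates modulo the maximal ideal: the sum is
integral and its coordinates reduce to the chord formulas on the reduced curve. -/
theorem add_of_res_ne {a₁ b₁ a₂ b₂ : A}
    (h₁ : (WA.map (algebraMap A K)).toAffine.Nonsingular (a₁ : K) (b₁ : K))
    (h₂ : (WA.map (algebraMap A K)).toAffine.Nonsingular (a₂ : K) (b₂ : K))
    (hne : residue A a₁ ≠ residue A a₂) :
    ∃ (a₃ b₃ : A) (h₃ : (WA.map (algebraMap A K)).toAffine.Nonsingular (a₃ : K) (b₃ : K)),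
      Point.some _ _ h₁ + Point.some _ _ h₂ = Point.some _ _ h₃ ∧
      residue A a₃ = (WA.map (residue A)).toAffine.addX (residue A a₁) (residue A a₂)
        ((WA.map (residue A)).toAffine.slope (residue A a₁) (residue A a₂) (residue A b₁)
          (residue A b₂)) ∧
      residue A b₃ = (WA.map (residue A)).toAffine.addY (residue A a₁) (residue A a₂)
        (residue A b₁) ((WA.map (residue A)).toAffine.slope (residue A a₁) (residue A a₂)
          (residue A b₁) (residue A b₂)) := by
  have hu : IsUnit (a₁ - a₂) := by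
    rw [← res_ne_zero_iff, map_sub]
    exact sub_ne_zero.mpr hne
  obtain ⟨u, hu⟩ := hu
  set L : A := (b₁ - b₂) * ↑u⁻¹ with hL
  have hxK : (a₁ : K) ≠ a₂ := by
    intro h
    exact hne (by rw [Subtype.ext h])
  have hLu : L * (a₁ - a₂) = b₁ - b₂ := by
    rw [hL, ← hu, mul_assoc, Units.inv_mul, mul_one]
  have hslopeK : (WA.map (algebraMap A K)).toAffine.slope (a₁ : K) a₂ b₁ b₂ = (L : K) := by
    rw [Affine.slope_of_X_ne hxK, div_eq_iff (sub_ne_zero.mpr hxK)]
    have := congrArg (fun t : A => (t : K)) hLu
    simpa using this.symm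
  have hslopek : (WA.map (residue A)).toAffine.slope (residue A a₁) (residue A a₂) (residue A b₁)
      (residue A b₂) = residue A L := by
    rw [Affine.slope_of_X_ne hne, div_eq_iff (sub_ne_zero.mpr hne), ← map_sub, ← map_sub,
      ← map_mul, hLu]
  have hX : (WA.map (algebraMap A K)).toAffine.addX (a₁ : K) a₂
      ((WA.map (algebraMap A K)).toAffine.slope (a₁ : K) a₂ b₁ b₂) =
      ((WA.toAffine.addX a₁ a₂ L : A) : K) := by
    rw [hslopeK]
    exact Affine.map_addX (algebraMap A K) a₁ a₂ L
  have hY : (WA.map (algebraMap A K)).toAffine.addY (a₁ : K) a₂ b₁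
      ((WA.map (algebraMap A K)).toAffine.slope (a₁ : K) a₂ b₁ b₂) =
      ((WA.toAffine.addY a₁ a₂ b₁ L : A) : K) := by
    rw [hslopeK]
    exact Affine.map_addY (algebraMap A K) a₁ b₁ a₂ L
  have hns := Affine.nonsingular_add h₁ h₂ fun hxy => hxK hxy.left
  have h₃ : (WA.map (algebraMap A K)).toAffine.Nonsingular
      ((WA.toAffine.addX a₁ a₂ L : A) : K) ((WA.toAffine.addY a₁ a₂ b₁ L : A) : K) := by
    rw [← hX, ← hY]
    exact hns
  refine ⟨_, _, h₃, ?_, ?_, ?_⟩
  · rw [Point.add_of_X_ne hxK]
    exact some_eq_some _ _ hX hY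
  · rw [hslopek, Affine.map_addX]
  · rw [hslopek, Affine.map_addY]

/-- Doubling of an integral point whose reduction is not `2`-torsion: the double is integral and
its coordinates reduce to the tangent formulas on the reduced curve. -/
theorem dbl_of_unit {a b : A}
    (h : (WA.map (algebraMap A K)).toAffine.Nonsingular (a : K) (b : K))
    (hD : residue A (2 * b + WA.a₁ * a + WA.a₃) ≠ 0) :
    ∃ (a₃ b₃ : A) (h₃ : (WA.map (algebraMap A K)).toAffine.Nonsingular (a₃ : K) (b₃ : K)),
      Point.some _ _ h + Point.some _ _ h = Point.some _ _ h₃ ∧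
      residue A a₃ = (WA.map (residue A)).toAffine.addX (residue A a) (residue A a)
        ((WA.map (residue A)).toAffine.slope (residue A a) (residue A a) (residue A b)
          (residue A b)) ∧
      residue A b₃ = (WA.map (residue A)).toAffine.addY (residue A a) (residue A a)
        (residue A b) ((WA.map (residue A)).toAffine.slope (residue A a) (residue A a)
          (residue A b) (residue A b)) := by
  obtain ⟨u, hu⟩ := (res_ne_zero_iff A _).mp hD
  set L : A := (3 * a ^ 2 + 2 * WA.a₂ * a + WA.a₄ - WA.a₁ * b) * ↑u⁻¹ with hL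
  have hLu : L * (2 * b + WA.a₁ * a + WA.a₃) =
      3 * a ^ 2 + 2 * WA.a₂ * a + WA.a₄ - WA.a₁ * b := by
    rw [hL, ← hu, mul_assoc, Units.inv_mul, mul_one]
  have hDK0 : ((2 * b + WA.a₁ * a + WA.a₃ : A) : K) ≠ 0 := by
    intro h0
    apply hD
    have : (2 * b + WA.a₁ * a + WA.a₃ : A) = 0 := Subtype.ext h0
    rw [this, map_zero]
  have hyK : (b : K) ≠ (WA.map (algebraMap A K)).toAffine.negY (a : K) b := by
    intro h0
    apply hDK0
    rw [← coe_sub_negY, ← h0, sub_self]
  have hyk : residue A b ≠ (WA.map (residue A)).toAffine.negY (residue A a) (residue A b) := by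
    intro h0
    apply hD
    rw [← res_sub_negY, ← h0, sub_self]
  have hslopeK : (WA.map (algebraMap A K)).toAffine.slope (a : K) a b b = (L : K) := by
    rw [Affine.slope_of_Y_ne rfl hyK, coe_sub_negY, div_eq_iff hDK0, coe_a₁, coe_a₂, coe_a₄]
    have e : (L : K) * ((2 * b + WA.a₁ * a + WA.a₃ : A) : K) =
        ((3 * a ^ 2 + 2 * WA.a₂ * a + WA.a₄ - WA.a₁ * b : A) : K) := by
      rw [← hLu]
      rfl
    rw [e]
    push_cast
    rw [coe_two, coe_three]
  have hslopek : (WA.map (residue A)).toAffine.slope (residue A a) (residue A a) (residue A b)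
      (residue A b) = residue A L := by
    rw [Affine.slope_of_Y_ne rfl hyk, res_sub_negY, div_eq_iff hD, ← map_mul, hLu]
    simp only [WeierstrassCurve.map_a₁, WeierstrassCurve.map_a₂, WeierstrassCurve.map_a₄, map_sub,
      map_add, map_mul, map_pow, map_ofNat]
  have hX : (WA.map (algebraMap A K)).toAffine.addX (a : K) a
      ((WA.map (algebraMap A K)).toAffine.slope (a : K) a b b) =
      ((WA.toAffine.addX a a L : A) : K) := by
    rw [hslopeK]
    exact Affine.map_addX (algebraMap A K) a a L
  have hY : (WA.map (algebraMap A K)).toAffine.addY (a : K) a b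
      ((WA.map (algebraMap A K)).toAffine.slope (a : K) a b b) =
      ((WA.toAffine.addY a a b L : A) : K) := by
    rw [hslopeK]
    exact Affine.map_addY (algebraMap A K) a b a L
  have hns := Affine.nonsingular_add h h fun hxy => hyK hxy.right
  have h₃ : (WA.map (algebraMap A K)).toAffine.Nonsingular
      ((WA.toAffine.addX a a L : A) : K) ((WA.toAffine.addY a a b L : A) : K) := by
    rw [← hX, ← hY]
    exact hns
  refine ⟨_, _, h₃, ?_, ?_, ?_⟩
  · rw [Point.add_self_of_Y_ne hyK]
    exact some_eq_some _ _ hX hY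
  · rw [hslopek, Affine.map_addX]
  · rw [hslopek, Affine.map_addY]

omit [DecidableEq (ResidueField A)] in
/-- Doubling of an integral point whose reduction is a nonsingular `2`-torsion point lands in the
kernel of reduction. -/
theorem inE1_dbl_of_not_unit' {a b : A}
    (h : (WA.map (algebraMap A K)).toAffine.Nonsingular (a : K) (b : K))
    (hD : residue A (2 * b + WA.a₁ * a + WA.a₃) = 0)
    (hnum : residue A (3 * a ^ 2 + 2 * WA.a₂ * a + WA.a₄ - WA.a₁ * b) ≠ 0) :
    InE1 A (Point.some _ _ h + Point.some _ _ h) := by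
  by_cases hyK : (b : K) = (WA.map (algebraMap A K)).toAffine.negY (a : K) b
  · rw [Point.add_self_of_Y_eq hyK]
    trivial
  · rw [Point.add_self_of_Y_ne hyK]
    show (WA.map (algebraMap A K)).toAffine.addX (a : K) a
      ((WA.map (algebraMap A K)).toAffine.slope (a : K) a b b) ∉ A
    have hden : ((2 * b + WA.a₁ * a + WA.a₃ : A) : K) ∈ A.nonunits :=
      (res_eq_zero_iff A _).mp hD
    have hden0 : ((2 * b + WA.a₁ * a + WA.a₃ : A) : K) ≠ 0 := by
      rw [← coe_sub_negY]
      exact sub_ne_zero.mpr hyK
    have hslope : (WA.map (algebraMap A K)).toAffine.slope (a : K) a b b ∉ A := by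
      rw [Affine.slope_of_Y_ne rfl hyK, coe_sub_negY]
      have hn : (3 * (a : K) ^ 2 + 2 * (WA.map (algebraMap A K)).a₂ * a +
          (WA.map (algebraMap A K)).a₄ - (WA.map (algebraMap A K)).a₁ * b) =
          ((3 * a ^ 2 + 2 * WA.a₂ * a + WA.a₄ - WA.a₁ * b : A) : K) := by
        rw [coe_a₁, coe_a₂, coe_a₄]
        push_cast
        rw [coe_two, coe_three]
      rw [hn]
      refine not_mem_of_div A ?_ hden hden0
      intro hmem
      exact hnum ((res_eq_zero_iff A _).mpr hmem)
    have key := Reduction.sq_add_mul_sub_not_mem A (a := (WA.a₁ : K))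
      (c := (WA.a₂ : K) + a + a) WA.a₁.2 (add_mem (add_mem WA.a₂.2 a.2) a.2) hslope
    simp only [Affine.addX, coe_a₁, coe_a₂]
    convert key using 2
    ring

omit [DecidableEq (ResidueField A)] in
/-- Two integral points with the same nonsingular reduction differ by an element of the kernel of
reduction. -/
theorem inE1_sub_of_res_eq' {a₁ b₁ a₂ b₂ : A}
    (h₁ : (WA.map (algebraMap A K)).toAffine.Nonsingular (a₁ : K) (b₁ : K))
    (h₂ : (WA.map (algebraMap A K)).toAffine.Nonsingular (a₂ : K) (b₂ : K))
    (hx : residue A a₁ = residue A a₂) (hy : residue A b₁ = residue A b₂)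
    (hns : (WA.map (residue A)).toAffine.Nonsingular (residue A a₁) (residue A b₁)) :
    InE1 A (Point.some _ _ h₁ - Point.some _ _ h₂) := by
  refine F2_inE1 A (WA.map (algebraMap A K)) WA.a₁.2 WA.a₂.2 h₁ h₂ a₁.2
    ((res_eq_iff A _ _).mp hx) ((res_eq_iff A _ _).mp hy) ?_
  rw [coe_a₁, coe_a₂, coe_a₃, coe_a₄]
  rcases res_ne_zero_or' A WA hns with h | h
  · left
    intro hmem
    apply h
    rw [res_eq_zero_iff]
    exact hmem
  · right
    intro hmem
    apply h
    rw [res_eq_zero_iff]
    exact hmem

/-- Adding an element of the kernel of reduction does not change the reduction. -/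
theorem redTo_add_inE1 {P T : (WA.map (algebraMap A K)).toAffine.Point}
    {Q : (WA.map (residue A)).toAffine.Point} (hPQ : RedTo A WA P Q) (hT : InE1 A T) :
    RedTo A WA (P + T) Q := by
  rcases hPQ with ⟨hP, rfl⟩ | ⟨a, b, h, h', rfl, rfl⟩
  · exact redTo_of_inE1 A WA (inE1_add' A WA hP hT)
  · have hR : ¬ InE1 A (Point.some _ _ h + T) := by
      intro hR
      have := inE1_sub' A WA hR hT
      rw [add_sub_cancel_right] at this
      exact not_inE1_some A WA h this
    obtain ⟨a₃, b₃, h₃, e₃⟩ := exists_lift A WA hR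
    obtain ⟨hn, en⟩ := neg_some_coe A WA h
    have hT' : Point.some _ _ h₃ + Point.some _ _ hn = T := by
      rw [← e₃, ← en, ← sub_eq_add_neg, add_sub_cancel_left]
    rw [e₃]
    by_cases hx : residue A a₃ = residue A a
    · rcases Affine.Y_eq_of_X_eq (equation_res A WA h₃.1) h'.1 hx with hy | hy
      · exact redTo_of_res_eq A WA h₃ h' hx hy
      · by_cases hD : residue A (2 * b + WA.a₁ * a + WA.a₃) = 0
        · have hb : residue A b =
              (WA.map (residue A)).toAffine.negY (residue A a) (residue A b) := by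
            have := res_sub_negY A WA a b
            rwa [hD, sub_eq_zero] at this
          exact redTo_of_res_eq A WA h₃ h' hx (hy.trans hb.symm)
        · exfalso
          have hy' : residue A b₃ = residue A (WA.toAffine.negY a b) := by
            rw [hy]
            exact Affine.map_negY (residue A) a b
          have hns3 : (WA.map (residue A)).toAffine.Nonsingular (residue A a₃) (residue A b₃) := by
            rw [hx, hy]
            exact (Affine.nonsingular_neg ..).mpr h'
          have h1 : InE1 A (Point.some _ _ h₃ - Point.some _ _ hn) :=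
            inE1_sub_of_res_eq' A WA h₃ hn hx hy' hns3
          have h2 : InE1 A (Point.some _ _ h₃ + Point.some _ _ hn) := hT' ▸ hT
          have h3 : InE1 A (Point.some _ _ h + Point.some _ _ h) := by
            have e : Point.some _ _ h + Point.some _ _ h =
                (Point.some _ _ h₃ - Point.some _ _ hn) -
                  (Point.some _ _ h₃ + Point.some _ _ hn) := by
              rw [← en]
              abel
            rw [e]
            exact inE1_sub' A WA h1 h2
          obtain ⟨a₄, b₄, h₄, e₄, -, -⟩ := dbl_of_unit A WA h hD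
          rw [e₄] at h3
          exact not_inE1_some A WA h₄ h3
    · exfalso
      obtain ⟨a₅, b₅, h₅, e₅, -, -⟩ := add_of_res_ne A WA h₃ hn hx
      rw [hT'] at e₅
      rw [e₅] at hT
      exact not_inE1_some A WA h₅ hT

/-- **Reduction is additive.** -/
theorem redTo_add {P₁ P₂ : (WA.map (algebraMap A K)).toAffine.Point}
    {Q₁ Q₂ : (WA.map (residue A)).toAffine.Point} (h₁ : RedTo A WA P₁ Q₁)
    (h₂ : RedTo A WA P₂ Q₂) : RedTo A WA (P₁ + P₂) (Q₁ + Q₂) := by
  by_cases hP₁ : InE1 A P₁
  · have hQ₁ : Q₁ = 0 := redTo_unique A WA h₁ (redTo_of_inE1 A WA hP₁)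
    rw [hQ₁, zero_add, add_comm]
    exact redTo_add_inE1 A WA h₂ hP₁
  by_cases hP₂ : InE1 A P₂
  · have hQ₂ : Q₂ = 0 := redTo_unique A WA h₂ (redTo_of_inE1 A WA hP₂)
    rw [hQ₂, add_zero]
    exact redTo_add_inE1 A WA h₁ hP₂
  obtain ⟨a₁, b₁, k₁, rfl⟩ := exists_lift A WA hP₁
  obtain ⟨a₂, b₂, k₂, rfl⟩ := exists_lift A WA hP₂
  obtain ⟨r₁, rfl⟩ := (redTo_some_iff A WA k₁).mp h₁
  obtain ⟨r₂, rfl⟩ := (redTo_some_iff A WA k₂).mp h₂
  by_cases hx : residue A a₁ = residue A a₂
  · rcases Affine.Y_eq_of_X_eq r₁.1 r₂.1 hx with hy | hy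
    · have hT : InE1 A (Point.some _ _ k₂ - Point.some _ _ k₁) :=
        inE1_sub_of_res_eq' A WA k₂ k₁ hx.symm hy.symm r₂
      have e : Point.some _ _ k₁ + Point.some _ _ k₂ =
          (Point.some _ _ k₁ + Point.some _ _ k₁) +
            (Point.some _ _ k₂ - Point.some _ _ k₁) := by
        abel
      have e2 : Point.some _ _ r₂ = Point.some _ _ r₁ := some_eq_some _ _ hx.symm hy.symm
      rw [e, e2]
      by_cases hD : residue A (2 * b₁ + WA.a₁ * a₁ + WA.a₃) = 0
      · have hnum := (res_ne_zero_or' A WA r₁).resolve_left (not_not.mpr hD)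
        have h2P := inE1_dbl_of_not_unit' A WA k₁ hD hnum
        have hyk : residue A b₁ =
            (WA.map (residue A)).toAffine.negY (residue A a₁) (residue A b₁) := by
          have := res_sub_negY A WA a₁ b₁
          rwa [hD, sub_eq_zero] at this
        rw [Point.add_self_of_Y_eq hyk]
        exact redTo_of_inE1 A WA (inE1_add' A WA h2P hT)
      · obtain ⟨a₃, b₃, k₃, e₃, hx₃, hy₃⟩ := dbl_of_unit A WA k₁ hD
        have hyk : residue A b₁ ≠
            (WA.map (residue A)).toAffine.negY (residue A a₁) (residue A b₁) := by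
          intro h0
          apply hD
          rw [← res_sub_negY, ← h0, sub_self]
        refine redTo_add_inE1 A WA ?_ hT
        rw [e₃, Point.add_self_of_Y_ne hyk]
        exact redTo_of_res_eq A WA k₃ _ hx₃ hy₃
    · obtain ⟨hn, en⟩ := neg_some_coe A WA k₂
      have hy' : residue A b₁ = residue A (WA.toAffine.negY a₂ b₂) := by
        rw [hy]
        exact Affine.map_negY (residue A) a₂ b₂
      have hT : InE1 A (Point.some _ _ k₁ - Point.some _ _ hn) :=
        inE1_sub_of_res_eq' A WA k₁ hn hx hy' r₁
      rw [← en, sub_neg_eq_add] at hT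
      rw [Point.add_of_Y_eq hx hy]
      exact redTo_of_inE1 A WA hT
  · obtain ⟨a₃, b₃, k₃, e₃, hx₃, hy₃⟩ := add_of_res_ne A WA k₁ k₂ hx
    rw [e₃, Point.add_of_X_ne hx]
    exact redTo_of_res_eq A WA k₃ _ hx₃ hy₃

theorem redTo_sub {P₁ P₂ : (WA.map (algebraMap A K)).toAffine.Point}
    {Q₁ Q₂ : (WA.map (residue A)).toAffine.Point} (h₁ : RedTo A WA P₁ Q₁)
    (h₂ : RedTo A WA P₂ Q₂) : RedTo A WA (P₁ - P₂) (Q₁ - Q₂) := by
  rw [sub_eq_add_neg, sub_eq_add_neg]
  exact redTo_add A WA h₁ (redTo_neg A WA h₂)

theorem redTo_nsmul {P : (WA.map (algebraMap A K)).toAffine.Point}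
    {Q : (WA.map (residue A)).toAffine.Point} (h : RedTo A WA P Q) (n : ℕ) :
    RedTo A WA (n • P) (n • Q) := by
  induction n with
  | zero =>
    rw [zero_nsmul, zero_nsmul]
    exact redTo_zero A WA
  | succ n ih =>
    rw [succ_nsmul, succ_nsmul]
    exact redTo_add A WA ih h

theorem redTo_zsmul {P : (WA.map (algebraMap A K)).toAffine.Point}
    {Q : (WA.map (residue A)).toAffine.Point} (h : RedTo A WA P Q) (n : ℤ) :
    RedTo A WA (n • P) (n • Q) := by
  rcases Int.eq_nat_or_neg n with ⟨k, rfl | rfl⟩
  · rw [natCast_zsmul, natCast_zsmul]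
    exact redTo_nsmul A WA h k
  · rw [neg_zsmul, neg_zsmul, natCast_zsmul, natCast_zsmul]
    exact redTo_neg A WA (redTo_nsmul A WA h k)

omit [DecidableEq K] [DecidableEq (ResidueField A)] in
/-- Over an algebraically closed field every nonsingular point of the reduced curve lifts. -/
theorem exists_redTo [IsAlgClosed K] (Q : (WA.map (residue A)).toAffine.Point) :
    ∃ P : (WA.map (algebraMap A K)).toAffine.Point, RedTo A WA P Q := by
  rcases Q with _ | ⟨x', y', h'⟩
  · exact ⟨0, redTo_zero A WA⟩
  · obtain ⟨a, rfl⟩ := IsLocalRing.residue_surjective x'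
    set c1 : K := (WA.a₁ : K) * a + WA.a₃ with hc1
    set c0 : K := -((a : K) ^ 3 + (WA.a₂ : K) * (a : K) ^ 2 + (WA.a₄ : K) * a + WA.a₆) with hc0
    have hdeg : (Polynomial.C (1 : K) * Polynomial.X ^ 2 + Polynomial.C c1 * Polynomial.X +
        Polynomial.C c0 : Polynomial K).degree ≠ 0 := by
      rw [Polynomial.degree_quadratic one_ne_zero]
      norm_num
    obtain ⟨y, hy⟩ := IsAlgClosed.exists_root _ hdeg
    simp only [Polynomial.IsRoot, Polynomial.eval_add, Polynomial.eval_pow, Polynomial.eval_X,
      Polynomial.eval_mul, Polynomial.eval_C, one_mul] at hy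
    have heq : (WA.map (algebraMap A K)).toAffine.Equation (a : K) y := by
      rw [Affine.equation_iff, coe_a₁, coe_a₂, coe_a₃, coe_a₄, coe_a₆]
      rw [hc1, hc0] at hy
      linear_combination hy
    have hyA : y ∈ A := y_mem A WA heq a.2
    have heq' : (WA.map (algebraMap A K)).toAffine.Equation (a : K) ((⟨y, hyA⟩ : A) : K) := heq
    rcases Affine.Y_eq_of_X_eq h'.1 (equation_res A WA heq') rfl with hy' | hy'
    · have hns' : (WA.map (residue A)).toAffine.Nonsingular (residue A a)
          (residue A ⟨y, hyA⟩) := by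
        rw [← hy']
        exact h'
      have hns := nonsingular_of_res A WA heq' hns'
      exact ⟨Point.some _ _ hns, redTo_of_res_eq A WA hns h' rfl hy'.symm⟩
    · -- `y'` is the other root: use the opposite point
      classical
      have hns' : (WA.map (residue A)).toAffine.Nonsingular (residue A a)
          (residue A ⟨y, hyA⟩) := by
        have := (Affine.nonsingular_neg (W' := (WA.map (residue A)).toAffine) (residue A a)
          y').mpr h'
        have e : (WA.map (residue A)).toAffine.negY (residue A a) y' = residue A ⟨y, hyA⟩ := by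
          rw [hy', Affine.negY_negY]
        rw [← e]
        exact this
      have hns := nonsingular_of_res A WA heq' hns'
      refine ⟨-Point.some _ _ hns, ?_⟩
      have := redTo_neg A WA (redTo_some A WA hns hns')
      rw [Point.neg_some] at this
      have e : Point.some _ _ ((Affine.nonsingular_neg ..).mpr hns') = Point.some _ _ h' :=
        some_eq_some _ _ rfl hy'.symm
      rw [← e]
      exact this

omit [DecidableEq K] [DecidableEq (ResidueField A)] in
/-- A ring endomorphism of `K` which preserves `A` and is trivial modulo the maximal ideal (for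
instance an element of the inertia group of `A`) does not change the reduction of a point. -/
theorem redTo_inertia (σ : K →+* K) (hσ : InertiaLike A σ) {x y : K}
    (h : (WA.map (algebraMap A K)).toAffine.Nonsingular x y)
    (h' : (WA.map (algebraMap A K)).toAffine.Nonsingular (σ x) (σ y))
    {Q : (WA.map (residue A)).toAffine.Point} (hQ : RedTo A WA (Point.some _ _ h) Q) :
    RedTo A WA (Point.some _ _ h') Q := by
  rcases hQ with ⟨hP, rfl⟩ | ⟨a, b, h₁, h₁', e, rfl⟩
  · refine redTo_of_inE1 A WA ?_
    intro hx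
    exact hP ((hσ.mem_iff x).mp hx)
  · rw [Point.some.injEq] at e
    obtain ⟨rfl, rfl⟩ := e
    have hxA : σ (a : K) ∈ A := (hσ.mem_iff _).mpr a.2
    have hyA : σ (b : K) ∈ A := (hσ.mem_iff _).mpr b.2
    have hx : residue A ⟨σ (a : K), hxA⟩ = residue A a :=
      (res_eq_iff A _ _).mpr (hσ.sub_mem _ a.2)
    have hy : residue A ⟨σ (b : K), hyA⟩ = residue A b :=
      (res_eq_iff A _ _).mpr (hσ.sub_mem _ b.2)
    exact redTo_of_res_eq A WA (a := ⟨σ (a : K), hxA⟩) (b := ⟨σ (b : K), hyA⟩) h' h₁' hx hy

/-- **The multiplicative-reduction core.**  If the group of nonsingular points of the reduced curve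
has an element of exact order `m`, the kernel of reduction is `m`-divisible and has no
`m`-torsion, then there is a point `P` of exact order `m` over `K` (`K` algebraically closed),
with nonsingular reduction `Q`, which is the ONLY `m`-torsion point reducing to `Q`. -/
theorem exists_order_point [IsAlgClosed K] (m : ℕ)
    (hnode : ∃ Q : (WA.map (residue A)).toAffine.Point, addOrderOf Q = m)
    (hdiv : ∀ R : (WA.map (algebraMap A K)).toAffine.Point, InE1 A R →
      ∃ T : (WA.map (algebraMap A K)).toAffine.Point, InE1 A T ∧ m • T = R)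
    (htf : ∀ R : (WA.map (algebraMap A K)).toAffine.Point, InE1 A R → m • R = 0 → R = 0) :
    ∃ (P : (WA.map (algebraMap A K)).toAffine.Point) (Q : (WA.map (residue A)).toAffine.Point),
      addOrderOf P = m ∧ RedTo A WA P Q ∧
      ∀ P' : (WA.map (algebraMap A K)).toAffine.Point, RedTo A WA P' Q → m • P' = 0 → P' = P := by
  obtain ⟨Q, hQ⟩ := hnode
  obtain ⟨P₀, hP₀⟩ := exists_redTo A WA Q
  have h1 : RedTo A WA (m • P₀) (m • Q) := redTo_nsmul A WA hP₀ m
  have hmQ : m • Q = 0 := by
    rw [← hQ]
    exact addOrderOf_nsmul_eq_zero Q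
  rw [hmQ, redTo_zero_iff] at h1
  obtain ⟨T, hT, hmT⟩ := hdiv _ h1
  have hP : RedTo A WA (P₀ - T) Q := by
    have := redTo_sub A WA hP₀ (redTo_of_inE1 A WA hT)
    rwa [sub_zero] at this
  have hmP : m • (P₀ - T) = 0 := by
    rw [smul_sub, hmT, sub_self]
  refine ⟨P₀ - T, Q, ?_, hP, ?_⟩
  · apply Nat.dvd_antisymm (addOrderOf_dvd_of_nsmul_eq_zero hmP)
    rw [← hQ]
    apply addOrderOf_dvd_of_nsmul_eq_zero
    have h2 := redTo_nsmul A WA hP (addOrderOf (P₀ - T))
    rw [addOrderOf_nsmul_eq_zero] at h2
    exact redTo_unique A WA h2 (redTo_zero A WA)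
  · intro P' hP' hmP'
    have h2 := redTo_sub A WA hP' hP
    rw [sub_self, redTo_zero_iff] at h2
    have h3 : m • (P' - (P₀ - T)) = 0 := by
      rw [smul_sub, hmP', hmP, sub_self]
    exact sub_eq_zero.mp (htf _ h2 h3)

end Rel

/-! ### Versions for a curve over `K` given up to propositional equality, and for the Galois
action on the points of a base change -/

section Flex

variable {K : Type*} [Field K] [DecidableEq K] (A : ValuationSubring K)
  [DecidableEq (ResidueField A)] (WA : WeierstrassCurve A)

/-- `exists_order_point` for a curve `W` over `K` with integral model `WA`, the uniqueness clause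
being spelled out for the coordinatewise image of `P` under an inertia-like endomorphism. -/
theorem exists_order_point_of [IsAlgClosed K] {W : WeierstrassCurve K}
    (hW : WA.map (algebraMap A K) = W) (m : ℕ)
    (hnode : ∃ Q : (WA.map (residue A)).toAffine.Point, addOrderOf Q = m)
    (hdiv : ∀ R : W.toAffine.Point, InE1 A R → ∃ T : W.toAffine.Point, InE1 A T ∧ m • T = R)
    (htf : ∀ R : W.toAffine.Point, InE1 A R → m • R = 0 → R = 0) :
    ∃ P : W.toAffine.Point, addOrderOf P = m ∧
      ∀ (σ : K →+* K), InertiaLike A σ → ∀ (x y : K) (h : W.toAffine.Nonsingular x y)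
        (h' : W.toAffine.Nonsingular (σ x) (σ y)), P = Point.some x y h →
        m • Point.some (σ x) (σ y) h' = 0 → Point.some (σ x) (σ y) h' = P := by
  subst hW
  obtain ⟨P, Q, hPm, hPQ, huniq⟩ := exists_order_point A WA m hnode hdiv htf
  refine ⟨P, hPm, ?_⟩
  intro σ hσ x y h h' hP hm
  subst hP
  exact huniq _ (redTo_inertia A WA σ hσ h h' hPQ) hm

/-- **Inertia fixes a point of exact order `m`** (abstract form): `W'` a Weierstrass curve over a
field `F`, `K` an algebraically closed extension, `WA` a model of `W'⁄K` over the valuation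
subring `A` of `K`.  If the nonsingular locus of the reduction of `WA` has a point of exact order
`m`, and the kernel of reduction is `m`-divisible without `m`-torsion, then some point of exact
order `m` of `W'⁄K` is fixed by every `F`-automorphism of `K` which is inertia-like at `A`. -/
theorem exists_fixed_smul {F : Type*} [Field F] [Algebra F K] [IsAlgClosed K]
    (W' : WeierstrassCurve F) (hW : WA.map (algebraMap A K) = W'.map (algebraMap F K)) (m : ℕ)
    (hnode : ∃ Q : (WA.map (residue A)).toAffine.Point, addOrderOf Q = m)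
    (hdiv : ∀ R : (W'.toAffine⁄K).Point, InE1 A R →
      ∃ T : (W'.toAffine⁄K).Point, InE1 A T ∧ m • T = R)
    (htf : ∀ R : (W'.toAffine⁄K).Point, InE1 A R → m • R = 0 → R = 0) :
    ∃ P : (W'.toAffine⁄K).Point, addOrderOf P = m ∧
      ∀ σ : K ≃ₐ[F] K, InertiaLike A (σ : K →+* K) → σ • P = P := by
  obtain ⟨P, hPm, hfix⟩ : ∃ P : (W'.toAffine⁄K).Point, addOrderOf P = m ∧
      ∀ (σ : K →+* K), InertiaLike A σ → ∀ (x y : K) (h : (W'.toAffine⁄K).Nonsingular x y)
        (h' : (W'.toAffine⁄K).Nonsingular (σ x) (σ y)), P = Point.some x y h →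
        m • Point.some (σ x) (σ y) h' = 0 → Point.some (σ x) (σ y) h' = P :=
    exists_order_point_of A WA hW m hnode hdiv htf
  refine ⟨P, hPm, ?_⟩
  intro σ hσ
  have hmP : m • (σ • P) = 0 := by
    rw [Point.algEquiv_smul_def, ← map_nsmul, ← hPm, addOrderOf_nsmul_eq_zero, map_zero]
  rcases P with _ | ⟨x, y, h⟩
  · rfl
  · exact hfix (σ : K →+* K) hσ x y h _ rfl hmP

end Flex

end Fermat.Agent.S58.Red0B
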