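/-
S58 — E0UB.lean (helper95): leaf [FIXMULT] of the S58 plan, B-copy on a route WITHOUT any
integral translation of the model and without transport of points over `ℚ̄`.

For an integral Weierstrass curve `W` over `ℤ`, a prime `q ∣ Δ(W)`, `q ∤ c₄(W)` (multiplicative
reduction), a valuation subring `A` of `ℚ̄` over `q` and an integer `m > 0` prime to `q`, some
point of exact order `m` of `W(ℚ̄)` is fixed by the whole inertia group of `A`.

* `exists_addOrderOf_of_node` : over an algebraically closed field `k`, a Weierstrass cubic with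
  `Δ = 0`, `c₄ ≠ 0` has a nonsingular point of exact order `m` for every `m` invertible in `k`
  (node at an arbitrary point: `NodeEx.exists_node_slopes`, translation of the node to the origin
  over `k` by `S41.VC.equivSMul`, then `NodeGrp.exists_addOrderOf_eq'`);
* `exists_fixed_of_mult` : the statement above, for the point type
  `((W.map (Int.castRingHom ℚ))⁄ℚ̄).Point` and the Galois action of the Prelude
  (`Red0B.exists_fixed_smul` applied to the model `W.map (Int.castRingHom A)` itself; the kernel
  of reduction is `m`-divisible by `E1Div.inE1_divisible` and has no `m`-torsion by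
  `S05.F1_inE1`; the residue field of `A` is algebraically closed by
  `S18.BaseRes.isAlgClosed_residueField`);
* `fixMult` : `Plan.FixMultStatement`.
-/
import Mathlib
import Fermat.Agent.S05.Inertia
import Fermat.Agent.S05.FormalGroup
import Fermat.Agent.S18.BaseRes
import Fermat.Agent.S41.Red
import Fermat.Agent.S41.VC
import Fermat.Agent.S58.NodeEx
import Fermat.Agent.S58.NodeGrp
import Fermat.Agent.S58.E1Div
import Fermat.Agent.S58.Red0B
import Fermat.Agent.S58.Plan

set_option autoImplicit false

namespace Fermat.Agent.S58.E0UB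

open WeierstrassCurve WeierstrassCurve.Affine IsLocalRing
open Fermat.Agent Fermat.Agent.S05

local notation "Qbar" => AlgebraicClosure ℚ

/-! ### Field level: a point of exact order `m` on a nodal cubic, node anywhere -/

/-- Over an algebraically closed field, the group of nonsingular points of a Weierstrass cubic
with `Δ = 0` and `c₄ ≠ 0` (a nodal cubic) has an element of exact order `m` for every `m`
invertible in the field. -/
theorem exists_addOrderOf_of_node {k : Type*} [Field k] [DecidableEq k] [IsAlgClosed k]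
    (W : WeierstrassCurve k) (hΔ : W.Δ = 0) (hc₄ : W.c₄ ≠ 0) (m : ℕ) (hm : (m : k) ≠ 0) :
    ∃ P : W.toAffine.Point, addOrderOf P = m := by
  obtain ⟨x₀, y₀, s₁, s₂, he, hy, hx, h1, h2, h3⟩ := NodeEx.exists_node_slopes W hΔ hc₄
  rw [Affine.equation_iff] at he
  have hnod : NodeGrp.IsNodal ((⟨1, x₀, 0, y₀⟩ : VariableChange k) • W) s₁ s₂ := by
    refine ⟨h3, ?_, ?_, ?_, ?_, ?_⟩
    · rw [WeierstrassCurve.variableChange_a₁]
      simp only [inv_one, Units.val_one, mul_zero, add_zero, one_mul]
      linear_combination h1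
    · rw [WeierstrassCurve.variableChange_a₂]
      simp only [inv_one, Units.val_one, one_pow, zero_mul, sub_zero, one_mul]
      linear_combination h2
    · rw [WeierstrassCurve.variableChange_a₃]
      simp only [inv_one, Units.val_one, one_pow, one_mul]
      linear_combination hy
    · rw [WeierstrassCurve.variableChange_a₄]
      simp only [inv_one, Units.val_one, one_pow, zero_mul, sub_zero, mul_zero, add_zero, one_mul]
      linear_combination -hx
    · rw [WeierstrassCurve.variableChange_a₆]
      simp only [inv_one, Units.val_one, one_pow, one_mul]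
      linear_combination -he
  obtain ⟨P', hP'⟩ := NodeGrp.exists_addOrderOf_eq' hnod m hm
  refine ⟨S41.VC.equivSMul W _ P', ?_⟩
  rw [← hP']
  exact AddEquiv.addOrderOf_eq _ _

/-! ### The curve over `ℚ̄` -/

/-- Base change of an integral curve in two steps. -/
theorem map_int_map {R S : Type*} [CommRing R] [CommRing S] (W : WeierstrassCurve ℤ)
    (f : R →+* S) : (W.map (Int.castRingHom R)).map f = W.map (Int.castRingHom S) := by
  rw [WeierstrassCurve.map_map]
  congr 1
  exact RingHom.ext_int _ _

/-- The kernel of reduction of a curve over `ℚ̄` with integer coefficients has no `m`-torsion,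
`m` a unit of `A`. -/
theorem torsionFree_of_eq (W : WeierstrassCurve ℤ) (A : ValuationSubring Qbar)
    (WK : WeierstrassCurve Qbar) (hWK : WK = W.map (Int.castRingHom Qbar)) {m : ℕ}
    (hmA : A.valuation ((m : ℕ) : Qbar) = 1) (R : WK.toAffine.Point) (hR : InE1 A R)
    (hmR : m • R = 0) : R = 0 := by
  subst hWK
  exact F1_inE1 A (W.map (Int.castRingHom Qbar)) (intCast_mem A _) (intCast_mem A _)
    (intCast_mem A _) (intCast_mem A _) (intCast_mem A _) hmA hR hmR

/-- The base change to `ℚ̄` of an integral curve with `Δ ≠ 0` is an elliptic curve. -/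
theorem isElliptic_of_eq (W : WeierstrassCurve ℤ) (hΔ0 : W.Δ ≠ 0) (WK : WeierstrassCurve Qbar)
    (hWK : WK = W.map (Int.castRingHom Qbar)) : WK.IsElliptic := by
  subst hWK
  have hΔK : (W.map (Int.castRingHom Qbar)).Δ ≠ 0 := by
    rw [WeierstrassCurve.map_Δ]
    simpa using hΔ0
  exact ⟨isUnit_iff_ne_zero.mpr hΔK⟩

/-- **(FIX-M)** Inertia at a prime of multiplicative reduction fixes a point of exact order `m`,
for every `m > 0` prime to the residue characteristic. -/
theorem exists_fixed_of_mult (W : WeierstrassCurve ℤ) {q : ℕ} (hq : q.Prime) (hΔ0 : W.Δ ≠ 0)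
    (hΔ : (q : ℤ) ∣ W.Δ) (hc₄ : ¬ (q : ℤ) ∣ W.c₄) (A : ValuationSubring Qbar)
    (hA : A.LiesOverPrime q) {m : ℕ} (hm : 0 < m) (hqm : ¬ q ∣ m) :
    ∃ P : ((W.map (Int.castRingHom ℚ))⁄Qbar).Point, addOrderOf P = m ∧
      ∀ σ : Qbar ≃ₐ[ℚ] Qbar, σ ∈ A.inertiaSubgroupIn ℚ → σ • P = P := by
  let _ : DecidableEq (ResidueField A) := Classical.decEq _
  have : IsAlgClosed (ResidueField A) := S18.BaseRes.isAlgClosed_residueField A
  have hWK : ((W.map (Int.castRingHom ℚ))⁄Qbar) = W.map (Int.castRingHom Qbar) :=
    map_int_map W (algebraMap ℚ Qbar)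
  have hW : (W.map (Int.castRingHom A)).map (algebraMap A Qbar) =
      (W.map (Int.castRingHom ℚ)).map (algebraMap ℚ Qbar) := by
    rw [map_int_map W (algebraMap A Qbar)]
    exact hWK.symm
  have hmA : A.valuation ((m : ℕ) : Qbar) = 1 := S05.valuation_natCast_eq_one A hq hA hqm
  -- residues of integers
  have hres : ∀ z : ℤ, residue A ((Int.castRingHom A) z) = 0 ↔ (q : ℤ) ∣ z := by
    intro z
    rw [S41.Red.res_eq_zero_iff]
    have e : (((Int.castRingHom A) z : A) : Qbar) = (z : Qbar) := by simp
    rw [e]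
    exact S05.Inertia.intCast_mem_nonunits_iff hA hq z
  have hΔk : ((W.map (Int.castRingHom A)).map (residue A)).Δ = 0 := by
    rw [WeierstrassCurve.map_Δ, WeierstrassCurve.map_Δ]
    exact (hres _).mpr hΔ
  have hck : ((W.map (Int.castRingHom A)).map (residue A)).c₄ ≠ 0 := by
    rw [WeierstrassCurve.map_c₄, WeierstrassCurve.map_c₄]
    exact fun h => hc₄ ((hres _).mp h)
  have hmk : ((m : ℕ) : ResidueField A) ≠ 0 := by
    intro h0
    have h1 : residue A ((Int.castRingHom A) (m : ℤ)) = 0 := by
      simpa using h0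
    exact hqm (Int.natCast_dvd_natCast.mp ((hres _).mp h1))
  have hnode := exists_addOrderOf_of_node ((W.map (Int.castRingHom A)).map (residue A)) hΔk hck
    m hmk
  have : ((W.map (Int.castRingHom ℚ))⁄Qbar).IsElliptic := isElliptic_of_eq W hΔ0 _ hWK
  obtain ⟨P, hP, hfix⟩ := Red0B.exists_fixed_smul A (W.map (Int.castRingHom A))
    (W.map (Int.castRingHom ℚ)) hW m hnode
    (fun R hR => E1Div.inE1_divisible A ((W.map (Int.castRingHom ℚ))⁄Qbar) m hm hmA R hR)
    (fun R hR hmR => torsionFree_of_eq W A _ hWK hmA R hR hmR)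
  exact ⟨P, hP, fun σ hσ => hfix σ (S05.inertiaLike_of_mem A σ hσ)⟩

/-- **[FIXMULT]**, the Plan statement. -/
theorem fixMult : Plan.FixMultStatement := by
  intro W hΔ0 q lam hq hlam hqlam hΔ hc₄ A hA τ hτ n
  have hqm : ¬ q ∣ lam ^ n := fun h =>
    hqlam ((Nat.prime_dvd_prime_iff_eq hq hlam).mp (hq.dvd_of_dvd_pow h))
  obtain ⟨P, hP, hfix⟩ := exists_fixed_of_mult W hq hΔ0 hΔ hc₄ A hA (pow_pos hlam.pos n) hqm
  exact ⟨P, hP, hfix τ hτ⟩

end Fermat.Agent.S58.E0UB
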