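/-
S58 — FrobLift.lean (helper69), leaf [FROB-LIFT]: **Theorem F lifted to points over a valued
field.**

`W` a Weierstrass curve over `ℤ`, `ℓ` a prime of good reduction (`ℓ ∤ Δ`), `A` a valuation subring
of a field `K` with `ℓ` a nonunit, `σ` a ring endomorphism of `K` which is "Frobenius-like at `A`"
(`σ x ∈ A ↔ x ∈ A`, `σ x ≡ x ^ ℓ` modulo the maximal ideal), `φ` the action of `σ` on the points
of `W` over `K`.  Then for every point `P` killed by an integer `N` prime to `ℓ`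

  `φ (φ P) - a_ℓ(W) • φ P + ℓ • P = 0`.

Proof: reduce modulo `A` (`S41.Red.redHomOf`); the reduction intertwines `φ` with the `ℓ`-power
Frobenius of the reduced curve; Theorem F on the reduced curve (`S52.Frob.frob_relation`, a
hypothesis `hF` in the general form so that `ℓ = 2` can be plugged in) shows that the left-hand
side reduces to `0`, i.e. lies in the kernel of reduction, which has no `N`-torsion
(`S05.F1_inE1`).

* `frob_lift_of`     : general form (`hF` a hypothesis; any presentation `WK` of `W` over `K`,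
                       any bundling `φ` of the action of `σ`);
* `frob_lift`        : the same for `ℓ ≠ 2`;
* `frob_lift_galois_of`, `frob_lift_galois` : the shape of the Prelude (`K = ℚ̄`,
                       `σ ∈ Gal(ℚ̄/ℚ)` with `A.IsFrobeniusAt σ ℓ`, the Galois action `σ • P`).
-/
import Mathlib
import Fermat.Prelude.Def_FLTPrelim_Modularity
import Fermat.Prelude.Def_EllipticCurve_FrobeniusTrace
import Fermat.Agent.S05.FormalGroup
import Fermat.Agent.S05.Inertia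
import Fermat.Agent.S41.Red
import Fermat.Agent.S52.Frob.Main
import Fermat.Agent.S58.Plan

set_option autoImplicit false

open WeierstrassCurve WeierstrassCurve.Affine IsLocalRing
open scoped WeierstrassCurve.Affine

namespace Fermat.Agent.S58.FrobLift

universe u

/-! ### Integers prime to `ℓ` are units of `A` -/

section Units

variable {K : Type*} [Field K] (A : ValuationSubring K)

/-- An integer prime to `ℓ` is a unit of `A` when `ℓ` is a nonunit of `A`. -/
theorem isUnit_intCast {ℓ : ℕ} (hℓ : ℓ.Prime) (hℓA : (ℓ : K) ∈ A.nonunits) {m : ℤ}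
    (hm : ¬ (ℓ : ℤ) ∣ m) : IsUnit ((m : ℤ) : A) := by
  have hcop : IsCoprime (ℓ : ℤ) m :=
    (Nat.prime_iff_prime_int.mp hℓ).coprime_iff_not_dvd.mpr hm
  obtain ⟨a, b, hab⟩ := hcop
  have hℓm : ((ℓ : ℕ) : A) ∈ maximalIdeal A := by
    rw [← ValuationSubring.coe_mem_nonunits_iff]
    exact hℓA
  have h1 : ((b : ℤ) : A) * ((m : ℤ) : A) = 1 - ((a : ℤ) : A) * ((ℓ : ℕ) : A) := by
    have := congrArg (Int.cast : ℤ → A) hab
    push_cast at this
    rw [← this]
    ring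
  have h2 : IsUnit (((b : ℤ) : A) * ((m : ℤ) : A)) := by
    rw [h1]
    exact IsLocalRing.isUnit_one_sub_self_of_mem_nonunits _
      ((maximalIdeal A).mul_mem_left _ hℓm)
  exact isUnit_of_mul_isUnit_right h2

/-- The valuation of an integer prime to `ℓ` is `1`. -/
theorem valuation_natCast_eq_one {ℓ : ℕ} (hℓ : ℓ.Prime) (hℓA : (ℓ : K) ∈ A.nonunits) {N : ℕ}
    (hN : ¬ ℓ ∣ N) : A.valuation (N : K) = 1 := by
  have h := isUnit_intCast A hℓ hℓA (m := (N : ℤ)) (by exact_mod_cast hN)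
  have h' := (ValuationSubring.valuation_eq_one_iff A _).mp h
  simpa using h'

end Units

/-! ### The lift -/

section Main

variable {K : Type u} [Field K] [DecidableEq K] (A : ValuationSubring K)

/-- **[FROB-LIFT], general form.**  Theorem F on the reduced curve is the hypothesis `hF`. -/
theorem frob_lift_of (W : WeierstrassCurve ℤ) (ℓ : ℕ) [Fact ℓ.Prime]
    (hℓA : (ℓ : K) ∈ A.nonunits) (hgood : ¬ (ℓ : ℤ) ∣ W.Δ)
    (hF : ∀ (κ : Type u) [Field κ] [DecidableEq κ] [Algebra (ZMod ℓ) κ]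
      (Q : ((W.reductionMod ℓ).toAffine⁄κ).Point),
      Point.map (W' := (W.reductionMod ℓ).toAffine) (FiniteField.frobeniusAlgHom (ZMod ℓ) κ)
          (Point.map (W' := (W.reductionMod ℓ).toAffine)
            (FiniteField.frobeniusAlgHom (ZMod ℓ) κ) Q)
        - (W.apOfModel ℓ) •
          Point.map (W' := (W.reductionMod ℓ).toAffine)
            (FiniteField.frobeniusAlgHom (ZMod ℓ) κ) Q
        + (ℓ : ℤ) • Q = 0)
    (WK : WeierstrassCurve K) (hWK : W.map (Int.castRingHom K) = WK)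
    (σ : K →+* K) (hσA : ∀ x, σ x ∈ A ↔ x ∈ A) (hσ : ∀ x ∈ A, σ x - x ^ ℓ ∈ A.nonunits)
    (φ : WK.toAffine.Point →+ WK.toAffine.Point)
    (hφ : ∀ (x y : K) (h : WK.toAffine.Nonsingular x y),
      ∃ h' : WK.toAffine.Nonsingular (σ x) (σ y), φ (Point.some x y h) = Point.some (σ x) (σ y) h')
    {N : ℕ} (hN : ¬ ℓ ∣ N) (P : WK.toAffine.Point) (hP : N • P = 0) :
    φ (φ P) - (W.apOfModel ℓ) • φ P + (ℓ : ℤ) • P = 0 := by
  classical
  have hℓ : ℓ.Prime := Fact.out
  -- the residue field has characteristic `ℓ`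
  have hℓk : ((ℓ : ℕ) : ResidueField A) = 0 := by
    have h1 : ((ℓ : ℕ) : A) ∈ maximalIdeal A := by
      rw [← ValuationSubring.coe_mem_nonunits_iff]
      exact hℓA
    have h2 := (IsLocalRing.residue_eq_zero_iff _).mpr h1
    simpa using h2
  have : CharP (ResidueField A) ℓ := (CharP.charP_iff_prime_eq_zero hℓ).mpr hℓk
  let _ : Algebra (ZMod ℓ) (ResidueField A) := ZMod.algebra _ ℓ
  -- the integral model
  set WA : WeierstrassCurve A := W.map (Int.castRingHom A) with hWA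
  have hW : WA.map (algebraMap A K) = WK := by
    rw [← hWK, hWA, WeierstrassCurve.map_map]
    exact congrArg W.map (RingHom.ext_int _ _)
  have hWk : WA.map (residue A) = ((W.reductionMod ℓ).toAffine⁄(ResidueField A)) := by
    show WA.map (residue A) = (W.reductionMod ℓ).map (algebraMap (ZMod ℓ) (ResidueField A))
    rw [hWA, WeierstrassCurve.reductionMod, WeierstrassCurve.map_map, WeierstrassCurve.map_map]
    exact congrArg W.map (RingHom.ext_int _ _)
  have hΔ : IsUnit WA.Δ := by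
    rw [hWA, WeierstrassCurve.map_Δ]
    exact isUnit_intCast A hℓ hℓA hgood
  -- the reduction homomorphism
  set red := S41.Red.redHomOf A WA hW hWk hΔ with hred
  set Fr := Point.map (W' := (W.reductionMod ℓ).toAffine)
    (FiniteField.frobeniusAlgHom (ZMod ℓ) (ResidueField A)) with hFr
  -- compatibility of the reduction with `φ` and Frobenius
  have hcomp : ∀ Q : WK.toAffine.Point, red (φ Q) = Fr (red Q) := by
    rintro (_ | ⟨x, y, h⟩)
    · have e0 : (Point.zero : WK.toAffine.Point) = 0 := rfl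
      rw [e0, map_zero, map_zero, map_zero]
    · obtain ⟨h', hφe⟩ := hφ x y h
      rw [hφe]
      by_cases hx : x ∈ A
      · have hy : y ∈ A := S41.Red.y_mem_of A WA hW h.1 hx
        have hσx : σ x ∈ A := (hσA x).mpr hx
        have hσy : σ y ∈ A := (hσA y).mpr hy
        obtain ⟨r1, e1⟩ := S41.Red.redHomOf_some A WA hW hWk hΔ h ⟨x, hx⟩ ⟨y, hy⟩ rfl rfl
        obtain ⟨r2, e2⟩ := S41.Red.redHomOf_some A WA hW hWk hΔ h' ⟨σ x, hσx⟩ ⟨σ y, hσy⟩ rfl rfl
        rw [hred, e1, e2, hFr, Point.map_some]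
        refine S41.Red.some_eq_some _ _ ?_ ?_
        · rw [FiniteField.coe_frobeniusAlgHom, ZMod.card]
          show residue A ⟨σ x, hσx⟩ = (residue A ⟨x, hx⟩) ^ ℓ
          rw [← map_pow, S41.Red.res_eq_iff]
          exact hσ x hx
        · rw [FiniteField.coe_frobeniusAlgHom, ZMod.card]
          show residue A ⟨σ y, hσy⟩ = (residue A ⟨y, hy⟩) ^ ℓ
          rw [← map_pow, S41.Red.res_eq_iff]
          exact hσ y hy
      · have hσx : σ x ∉ A := fun h1 => hx ((hσA x).mp h1)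
        have e1 : red (Point.some x y h) = 0 :=
          (S41.Red.redHomOf_eq_zero_iff A WA hW hWk hΔ _).mpr hx
        have e2 : red (Point.some (σ x) (σ y) h') = 0 :=
          (S41.Red.redHomOf_eq_zero_iff A WA hW hWk hΔ _).mpr hσx
        rw [e1, e2, map_zero]
  -- the point `Q := φ² P - a φ P + ℓ P` reduces to `0`
  set Q : WK.toAffine.Point := φ (φ P) - (W.apOfModel ℓ) • φ P + (ℓ : ℤ) • P with hQ
  have hredQ : red Q = 0 := by
    rw [hQ, map_add, map_sub, map_zsmul, map_zsmul, hcomp, hcomp]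
    exact hF (ResidueField A) (red P)
  have hE1 : S05.InE1 A Q := (S41.Red.redHomOf_eq_zero_iff A WA hW hWk hΔ Q).mp hredQ
  -- `Q` is killed by `N`
  have hNQ : N • Q = 0 := by
    have h1 : N • φ P = 0 := by rw [← map_nsmul, hP, map_zero]
    have h2 : N • φ (φ P) = 0 := by rw [← map_nsmul, h1, map_zero]
    rw [hQ, nsmul_add, nsmul_sub, h2, smul_comm, h1, smul_zero, smul_comm, hP, smul_zero,
      sub_zero, add_zero]
  -- coefficients are integral
  have hcoef : ∀ n : ℤ, ((n : ℤ) : K) ∈ A := fun n => by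
    have : (((n : ℤ) : A) : K) ∈ A := (n : A).2
    simp
  subst hWK
  exact S05.F1_inE1 A _ (hcoef _) (hcoef _) (hcoef _) (hcoef _) (hcoef _)
    (valuation_natCast_eq_one A hℓ hℓA hN) hE1 hNQ

/-- **[FROB-LIFT]** for `ℓ ≠ 2` (Theorem F from `S52.Frob.frob_relation`). -/
theorem frob_lift (W : WeierstrassCurve ℤ) (ℓ : ℕ) [Fact ℓ.Prime] (hℓ2 : ℓ ≠ 2)
    (hℓA : (ℓ : K) ∈ A.nonunits) (hgood : ¬ (ℓ : ℤ) ∣ W.Δ)
    (WK : WeierstrassCurve K) (hWK : W.map (Int.castRingHom K) = WK)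
    (σ : K →+* K) (hσA : ∀ x, σ x ∈ A ↔ x ∈ A) (hσ : ∀ x ∈ A, σ x - x ^ ℓ ∈ A.nonunits)
    (φ : WK.toAffine.Point →+ WK.toAffine.Point)
    (hφ : ∀ (x y : K) (h : WK.toAffine.Nonsingular x y),
      ∃ h' : WK.toAffine.Nonsingular (σ x) (σ y), φ (Point.some x y h) = Point.some (σ x) (σ y) h')
    {N : ℕ} (hN : ¬ ℓ ∣ N) (P : WK.toAffine.Point) (hP : N • P = 0) :
    φ (φ P) - (W.apOfModel ℓ) • φ P + (ℓ : ℤ) • P = 0 := by
  refine frob_lift_of A W ℓ hℓA hgood ?_ WK hWK σ hσA hσ φ hφ hN P hP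
  intro κ _ _ _ Q
  have hΔ0 : (W.reductionMod ℓ).Δ ≠ 0 := by
    rw [WeierstrassCurve.reductionMod, WeierstrassCurve.map_Δ]
    intro h0
    exact hgood ((ZMod.intCast_zmod_eq_zero_iff_dvd _ _).mp h0)
  exact S52.Frob.frob_relation ℓ hℓ2 (W.reductionMod ℓ) hΔ0 κ Q

end Main

/-! ### The shape of the Prelude / of `S58/Plan.lean` -/

section Galois

/-- A Frobenius element at `A` is congruent to the `ℓ`-th power map modulo the maximal ideal. -/
theorem frobenius_sub_pow_mem {ℓ : ℕ} (A : ValuationSubring Plan.Qb) (σ : Plan.GQ)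
    (hσ : A.IsFrobeniusAt σ ℓ) (x : Plan.Qb) (hx : x ∈ A) : σ x - x ^ ℓ ∈ A.nonunits := by
  have h1 := hσ.smul_residue_eq (IsLocalRing.residue A ⟨x, hx⟩)
  rw [← IsLocalRing.ResidueField.residue_smul, ← map_pow, ← sub_eq_zero, ← map_sub,
    IsLocalRing.residue_eq_zero_iff] at h1
  have h2 := ValuationSubring.coe_mem_nonunits_iff.mpr h1
  exact h2

/-- **[FROB-LIFT], Prelude shape**, Theorem F on the reduced curve as a hypothesis. -/
theorem frob_lift_galois_of (W : WeierstrassCurve ℤ) (ℓ : ℕ) [Fact ℓ.Prime]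
    (hF : ∀ (κ : Type) [Field κ] [DecidableEq κ] [Algebra (ZMod ℓ) κ]
      (Q : ((W.reductionMod ℓ).toAffine⁄κ).Point),
      Point.map (W' := (W.reductionMod ℓ).toAffine) (FiniteField.frobeniusAlgHom (ZMod ℓ) κ)
          (Point.map (W' := (W.reductionMod ℓ).toAffine)
            (FiniteField.frobeniusAlgHom (ZMod ℓ) κ) Q)
        - (W.apOfModel ℓ) •
          Point.map (W' := (W.reductionMod ℓ).toAffine)
            (FiniteField.frobeniusAlgHom (ZMod ℓ) κ) Q
        + (ℓ : ℤ) • Q = 0)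
    (hgood : ¬ (ℓ : ℤ) ∣ W.Δ) (A : ValuationSubring Plan.Qb) (hA : A.LiesOverPrime ℓ)
    (σ : Plan.GQ) (hσ : A.IsFrobeniusAt σ ℓ) {N : ℕ} (hN : ¬ ℓ ∣ N) (P : Plan.Pt W)
    (hP : N • P = 0) :
    σ • (σ • P) - (W.apOfModel ℓ) • (σ • P) + (ℓ : ℤ) • P = 0 := by
  have hWK : W.map (Int.castRingHom Plan.Qb) =
      (W.map (Int.castRingHom ℚ)).map (algebraMap ℚ Plan.Qb) := by
    rw [WeierstrassCurve.map_map]
    exact congrArg W.map (RingHom.ext_int _ _)
  exact frob_lift_of A W ℓ hA hgood hF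
    ((W.map (Int.castRingHom ℚ)).map (algebraMap ℚ Plan.Qb)) hWK
    (σ.toAlgHom.toRingHom)
    (fun x => S05.Inertia.mem_iff_of_mem_decomposition A hσ.mem_decompositionSubgroup x)
    (fun x hx => frobenius_sub_pow_mem A σ hσ x hx)
    (DistribSMul.toAddMonoidHom (Plan.Pt W) σ)
    (fun x y h => ⟨_, Point.map_some (W' := (W.map (Int.castRingHom ℚ)).toAffine)
      (f := σ.toAlgHom) h⟩) hN P hP

/-- **[FROB-LIFT], Prelude shape**, `ℓ ≠ 2`. -/
theorem frob_lift_galois (W : WeierstrassCurve ℤ) (ℓ : ℕ) [Fact ℓ.Prime] (hℓ2 : ℓ ≠ 2)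
    (hgood : ¬ (ℓ : ℤ) ∣ W.Δ) (A : ValuationSubring Plan.Qb) (hA : A.LiesOverPrime ℓ)
    (σ : Plan.GQ) (hσ : A.IsFrobeniusAt σ ℓ) {N : ℕ} (hN : ¬ ℓ ∣ N) (P : Plan.Pt W)
    (hP : N • P = 0) :
    σ • (σ • P) - (W.apOfModel ℓ) • (σ • P) + (ℓ : ℤ) • P = 0 := by
  refine frob_lift_galois_of W ℓ ?_ hgood A hA σ hσ hN P hP
  intro κ _ _ _ Q
  have hΔ0 : (W.reductionMod ℓ).Δ ≠ 0 := by
    rw [WeierstrassCurve.reductionMod, WeierstrassCurve.map_Δ]
    intro h0
    exact hgood ((ZMod.intCast_zmod_eq_zero_iff_dvd _ _).mp h0)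
  exact S52.Frob.frob_relation ℓ hℓ2 (W.reductionMod ℓ) hΔ0 κ Q

/-- `ℓ ∤ λⁿ` for distinct primes. -/
theorem not_dvd_pow {ℓ lam : ℕ} (hℓ : ℓ.Prime) (hlam : lam.Prime) (h : ℓ ≠ lam) (n : ℕ) :
    ¬ ℓ ∣ lam ^ n := fun hd =>
  h ((Nat.prime_dvd_prime_iff_eq hℓ hlam).mp (hℓ.dvd_of_dvd_pow hd))

/-- **[FROBW] for odd `ℓ`**: the statement `Plan.FrobWStatement` with the extra hypothesis
`ℓ ≠ 2`, hypothesis-free. -/
theorem frobW_odd : ∀ (W : WeierstrassCurve ℤ) (ℓ lam : ℕ), ℓ.Prime → lam.Prime → ℓ ≠ lam →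
    ℓ ≠ 2 → ¬ (ℓ : ℤ) ∣ W.Δ →
    ∀ A : ValuationSubring Plan.Qb, A.LiesOverPrime ℓ → ∀ σ : Plan.GQ, A.IsFrobeniusAt σ ℓ →
      ∀ (n : ℕ) (P : Plan.Pt W), (lam ^ n) • P = 0 →
        σ • (σ • P) - (W.apOfModel ℓ) • (σ • P) + (ℓ : ℤ) • P = 0 := by
  intro W ℓ lam hℓ hlam hne hℓ2 hgood A hA σ hσ n P hP
  have : Fact ℓ.Prime := ⟨hℓ⟩
  exact frob_lift_galois W ℓ hℓ2 hgood A hA σ hσ (not_dvd_pow hℓ hlam hne n) P hP

/-- **[FROBW]** (`Plan.FrobWStatement`, `ℓ = 2` included) from Theorem F at `2` ([F2]). -/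
theorem frobW_of_F2 (hF2 : Plan.ThmF2Statement) : Plan.FrobWStatement := by
  intro W ℓ lam hℓ hlam hne hgood A hA σ hσ n P hP
  by_cases hℓ2 : ℓ = 2
  · subst hℓ2
    have : Fact (Nat.Prime 2) := ⟨hℓ⟩
    refine frob_lift_galois_of W 2 ?_ hgood A hA σ hσ (not_dvd_pow hℓ hlam hne n) P hP
    intro κ _ _ _ Q
    have hΔ0 : (W.reductionMod 2).Δ ≠ 0 := by
      rw [WeierstrassCurve.reductionMod, WeierstrassCurve.map_Δ]
      intro h0
      exact hgood ((ZMod.intCast_zmod_eq_zero_iff_dvd _ _).mp h0)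
    exact hF2 (W.reductionMod 2) hΔ0 κ Q
  · exact frobW_odd W ℓ lam hℓ hlam hne hℓ2 hgood A hA σ hσ n P hP

end Galois

end Fermat.Agent.S58.FrobLift

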