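/-
S58 — FrobTwo.lean (helper68; block [F2] of the S58 campaign).

**THEOREM F AT `ℓ = 2`** and, with `S52.Frob.frob_relation`, Theorem F at every prime:
for a Weierstrass curve `W` over `ZMod ℓ` with `Δ ≠ 0` and any field `κ ⊇ ZMod ℓ`, the
coordinatewise `ℓ`-power Frobenius `φ` of `W(κ)` satisfies `φ² - t φ + ℓ = 0`,
`t = ℓ + 1 - #W(ZMod ℓ)`.

Route at `ℓ = 2` (elementary): by `S52.Frob.descent_kappa` it suffices to treat algebraically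
closed fields.  The 16 nonsingular Weierstrass equations over `F_2` fall into three families,
treated uniformly with the coefficients as idempotents of `K`:
* `a₁ = 0`, `a₃ = 1`, `a₄ = a₂`            : `#W(F_2) = 3`, `t = 0`,  `2 P = - φ² P`;
* `a₁ = 0`, `a₃ = 1`, `a₄ = a₂ + 1`        : `#W(F_2) = 1 / 5` (`a₆ = 1 / 0`), `t = ± 2`,
                                              `φ² P + 2 P = ± 2 φ P`;
* `a₁ = 1`, `a₆ = 1 + a₄ + a₃ (a₄ + a₂)`   : `#W(F_2) = 4 / 2` (`a₂ = a₃` / `a₂ = a₃ + 1`),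
                                              `t = ∓ 1`, `φ² P ± φ P + 2 P = 0` by collinearity at
                                              the points outside a finite set, hence everywhere.
The polynomial identities are certified by explicit cofactors (`linear_combination`).
-/
import Mathlib
import Fermat.Agent.S52.Frob.Main
import Fermat.Agent.S52.FrobCount

set_option autoImplicit false
set_option linter.unusedSectionVars false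
set_option linter.style.longLine false
set_option linter.unusedVariables false

open scoped WeierstrassCurve.Affine

namespace Fermat.Agent.S58.FrobTwo

universe u

/-! ### Explicit forms of the group law -/

section Helpers

variable {K : Type u} [Field K] [DecidableEq K] (E : WeierstrassCurve.Affine K)

open WeierstrassCurve.Affine

/-- Two affine points with the same coordinates are equal. -/
theorem some_eq_some {x y X Y : K} (h : E.Nonsingular x y) (h' : E.Nonsingular X Y)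
    (hx : x = X) (hy : y = Y) : Point.some x y h = Point.some X Y h' := by
  subst hx hy
  rfl

/-- The negative of an affine point, in coordinates. -/
theorem neg_ex {A1 A3 : K} (e1 : E.a₁ = A1) (e3 : E.a₃ = A3) {x y : K} (h : E.Nonsingular x y) :
    ∃ h' : E.Nonsingular x (-y - A1 * x - A3), -Point.some x y h = Point.some x (-y - A1 * x - A3) h' := by
  subst e1 e3
  exact ⟨(nonsingular_neg ..).mpr h, rfl⟩

/-- Doubling with an explicit slope. -/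
theorem dbl_ex {A1 A2 A3 A4 : K} (e1 : E.a₁ = A1) (e2 : E.a₂ = A2) (e3 : E.a₃ = A3)
    (e4 : E.a₄ = A4) {x y L X Y : K} (h : E.Nonsingular x y)
    (hden : 2 * y + A1 * x + A3 ≠ 0)
    (hL : L * (2 * y + A1 * x + A3) = 3 * x ^ 2 + 2 * A2 * x + A4 - A1 * y)
    (hX : X = L ^ 2 + A1 * L - A2 - 2 * x)
    (hY : Y = -(L * (X - x) + y) - A1 * X - A3) :
    ∃ h' : E.Nonsingular X Y, Point.some x y h + Point.some x y h = Point.some X Y h' := by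
  subst e1 e2 e3 e4
  have hy : y ≠ E.negY x y := by
    intro hy
    apply hden
    rw [negY] at hy
    linear_combination hy
  have hs : E.slope x x y y = L := by
    rw [slope_of_Y_ne rfl hy, div_eq_iff (sub_ne_zero.mpr hy), negY]
    linear_combination -hL
  have eX : E.addX x x (E.slope x x y y) = X := by rw [hs, addX, hX]; ring
  have eY : E.addY x x y (E.slope x x y y) = Y := by
    rw [hs, addY, negAddY, negY, addX, hY, hX]; ring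
  subst eX eY
  exact ⟨_, Point.add_self_of_Y_ne hy⟩

/-- Addition of two points with distinct `x`-coordinates, with an explicit slope. -/
theorem add_ex {A1 A2 A3 : K} (e1 : E.a₁ = A1) (e2 : E.a₂ = A2) (e3 : E.a₃ = A3)
    {x₁ y₁ x₂ y₂ L X Y : K} (h₁ : E.Nonsingular x₁ y₁) (h₂ : E.Nonsingular x₂ y₂)
    (hx : x₁ ≠ x₂) (hL : L * (x₁ - x₂) = y₁ - y₂)
    (hX : X = L ^ 2 + A1 * L - A2 - x₁ - x₂)
    (hY : Y = -(L * (X - x₁) + y₁) - A1 * X - A3) :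
    ∃ h' : E.Nonsingular X Y, Point.some x₁ y₁ h₁ + Point.some x₂ y₂ h₂ = Point.some X Y h' := by
  subst e1 e2 e3
  have hs : E.slope x₁ x₂ y₁ y₂ = L := by
    rw [slope_of_X_ne hx, div_eq_iff (sub_ne_zero.mpr hx)]
    linear_combination -hL
  have eX : E.addX x₁ x₂ (E.slope x₁ x₂ y₁ y₂) = X := by rw [hs, addX, hX]
  have eY : E.addY x₁ x₂ y₁ (E.slope x₁ x₂ y₁ y₂) = Y := by
    rw [hs, addY, negAddY, negY, addX, hY, hX]
  subst eX eY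
  exact ⟨_, Point.add_of_X_ne hx⟩

/-- Three collinear points with pairwise distinct `x`-coordinates sum to zero. -/
theorem add_add_eq_zero_of_collinear {x₁ y₁ x₂ y₂ x₃ y₃ : K} (h₁ : E.Nonsingular x₁ y₁)
    (h₂ : E.Nonsingular x₂ y₂) (h₃ : E.Nonsingular x₃ y₃) (h12 : x₁ ≠ x₂) (h13 : x₃ ≠ x₁)
    (h23 : x₃ ≠ x₂) (hcol : (y₃ - y₁) * (x₂ - x₁) = (y₂ - y₁) * (x₃ - x₁)) :
    Point.some x₁ y₁ h₁ + Point.some x₂ y₂ h₂ + Point.some x₃ y₃ h₃ = 0 := by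
  have hne : x₁ - x₂ ≠ 0 := sub_ne_zero.mpr h12
  obtain ⟨L, hL⟩ : ∃ L : K, L * (x₁ - x₂) = y₁ - y₂ := ⟨(y₁ - y₂) / (x₁ - x₂), by field_simp⟩
  have e₁ := (equation_iff _ _).mp h₁.1
  have e₂ := (equation_iff _ _).mp h₂.1
  have e₃ := (equation_iff _ _).mp h₃.1
  have hy₂ : y₂ = y₁ + L * (x₂ - x₁) := by linear_combination hL
  have hy₃ : y₃ = y₁ + L * (x₃ - x₁) := by
    have : (y₃ - (y₁ + L * (x₃ - x₁))) * (x₁ - x₂) = 0 := by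
      linear_combination -hcol - (x₃ - x₁) * hL
    have h0 := (mul_eq_zero.mp this).resolve_right hne
    linear_combination h0
  subst hy₂ hy₃
  have hprod : (x₁ - x₂) * ((x₃ - x₁) * ((x₃ - x₂) *
      (x₃ - (L ^ 2 + E.a₁ * L - E.a₂ - x₁ - x₂)))) = 0 := by
    linear_combination -((x₂ - x₃) * e₁ + (x₃ - x₁) * e₂ + (x₁ - x₂) * e₃)
  have hx₃ : x₃ = L ^ 2 + E.a₁ * L - E.a₂ - x₁ - x₂ := by
    have h0 := (mul_eq_zero.mp ((mul_eq_zero.mp ((mul_eq_zero.mp hprod).resolve_left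
      hne)).resolve_left (sub_ne_zero.mpr h13))).resolve_left (sub_ne_zero.mpr h23)
    linear_combination h0
  have hneg : E.Nonsingular x₃ (E.negY x₃ (y₁ + L * (x₃ - x₁))) := (nonsingular_neg ..).mpr h₃
  obtain ⟨h', hadd⟩ := add_ex E rfl rfl rfl h₁ h₂ h12 (L := L) (X := x₃)
    (Y := E.negY x₃ (y₁ + L * (x₃ - x₁))) (by ring) hx₃ (by rw [negY]; ring)
  rw [hadd, show Point.some x₃ (E.negY x₃ (y₁ + L * (x₃ - x₁))) h' =
    -Point.some x₃ (y₁ + L * (x₃ - x₁)) h₃ from rfl, neg_add_cancel]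

end Helpers

/-! ### Frobenius in characteristic two -/

section Frob

variable {K : Type u} [Field K] [DecidableEq K] [Algebra (ZMod 2) K]
variable (W : WeierstrassCurve (ZMod 2))

open WeierstrassCurve.Affine

theorem two_eq_zero_K : (2 : K) = 0 := by
  have h : (2 : ZMod 2) = 0 := by decide
  have h' : algebraMap (ZMod 2) K 2 = 0 := by rw [h, map_zero]
  rwa [map_ofNat] at h'

theorem idem_K (a : ZMod 2) : (algebraMap (ZMod 2) K a) ^ 2 = algebraMap (ZMod 2) K a := by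
  rw [← map_pow]
  congr 1
  revert a
  decide

/-- The Frobenius endomorphism of the group of points. -/
noncomputable abbrev frob : (W.toAffine⁄K).Point →+ (W.toAffine⁄K).Point :=
  WeierstrassCurve.Affine.Point.map (W' := W.toAffine) (FiniteField.frobeniusAlgHom (ZMod 2) K)

theorem frob_some {x y : K} (h : (W.toAffine⁄K).Nonsingular x y) :
    ∃ h' : (W.toAffine⁄K).Nonsingular (x ^ 2) (y ^ 2),
      frob W (Point.some x y h) = Point.some (x ^ 2) (y ^ 2) h' := by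
  have e : ∀ z : K, FiniteField.frobeniusAlgHom (ZMod 2) K z = z ^ 2 := fun z => by
    rw [FiniteField.coe_frobeniusAlgHom, ZMod.card]
  have key : ∀ (X Y : K) (_ : X = x ^ 2) (_ : Y = y ^ 2) (hn : (W.toAffine⁄K).Nonsingular X Y),
      ∃ h' : (W.toAffine⁄K).Nonsingular (x ^ 2) (y ^ 2),
        Point.some X Y hn = Point.some (x ^ 2) (y ^ 2) h' := by
    rintro X Y rfl rfl hn
    exact ⟨hn, rfl⟩
  rw [frob, Point.map_some]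
  exact key _ _ (e x) (e y) _

/-! ### The supersingular family with `t = 0` -/

theorem rel_ss0 (h1 : W.a₁ = 0) (h3 : W.a₃ = 1) (h42 : W.a₄ = W.a₂) (P : (W.toAffine⁄K).Point) :
    frob W (frob W P) + (P + P) = 0 := by
  rcases P with _ | ⟨x, y, h⟩
  · rfl
  obtain ⟨p, hpdef⟩ : ∃ p : K, p = algebraMap (ZMod 2) K W.a₂ := ⟨_, rfl⟩
  obtain ⟨s, hsdef⟩ : ∃ s : K, s = algebraMap (ZMod 2) K W.a₆ := ⟨_, rfl⟩
  have h2 : (2 : K) = 0 := two_eq_zero_K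
  have hp : p ^ 2 = p := by rw [hpdef]; exact idem_K _
  have hs : s ^ 2 = s := by rw [hsdef]; exact idem_K _
  have ea1 : (W.toAffine⁄K).a₁ = 0 := by
    show algebraMap (ZMod 2) K W.a₁ = 0
    rw [h1, map_zero]
  have ea2 : (W.toAffine⁄K).a₂ = p := hpdef.symm
  have ea3 : (W.toAffine⁄K).a₃ = 1 := by
    show algebraMap (ZMod 2) K W.a₃ = 1
    rw [h3, map_one]
  have ea4 : (W.toAffine⁄K).a₄ = p := by
    show algebraMap (ZMod 2) K W.a₄ = p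
    rw [h42, hpdef]
  have ea6 : (W.toAffine⁄K).a₆ = s := hsdef.symm
  have hC := (equation_iff _ _).mp h.1
  rw [ea1, ea2, ea3, ea4, ea6] at hC
  obtain ⟨hφ, eφ⟩ := frob_some W h
  obtain ⟨hφφ, eφφ⟩ := frob_some W hφ
  have hden : 2 * y + 0 * x + 1 ≠ 0 := by
    have e : 2 * y + 0 * x + 1 = (1 : K) := by linear_combination y * h2
    rw [e]
    exact one_ne_zero
  have hL : (x ^ 2 + p) * (2 * y + 0 * x + 1) = 3 * x ^ 2 + 2 * p * x + p - 0 * y := by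
    linear_combination (y * x^2 + y * p - x^2 - x * p) * h2
  have hX : (x ^ 2) ^ 2 = (x ^ 2 + p) ^ 2 + 0 * (x ^ 2 + p) - p - 2 * x := by
    linear_combination (-1) * hp + (-x^2 * p + x) * h2
  have hY : -((y ^ 2) ^ 2) - 0 * (x ^ 2) ^ 2 - 1 =
      -((x ^ 2 + p) * ((x ^ 2) ^ 2 - x) + y) - 0 * (x ^ 2) ^ 2 - 1 := by
    linear_combination (-y^2 + y - x^3 - x^2 * p - x * p - s - 1) * hC + (-x^4 - 2 * x^3 - x^2) * hp + (-1) * hs + (y * x^3 + y * x^2 * p + y * x * p + y * s + y - x^5 * p - x^4 * p - x^3 * p - x^3 * s - x^3 - x^2 * p * s - x^2 * p - x * p * s - x * p - s) * h2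
  obtain ⟨hD, eD⟩ := dbl_ex (W.toAffine⁄K) ea1 ea2 ea3 ea4 h hden hL hX hY
  obtain ⟨hN, eN⟩ := neg_ex (W.toAffine⁄K) ea1 ea3 hφφ
  rw [eφ, eφφ, eD]
  have e' : Point.some ((x ^ 2) ^ 2) (-((y ^ 2) ^ 2) - 0 * (x ^ 2) ^ 2 - 1) hD =
      -Point.some ((x ^ 2) ^ 2) ((y ^ 2) ^ 2) hφφ := eN.symm
  rw [e', add_neg_cancel]

/-! ### The supersingular family with `t = ± 2` -/

theorem rel_ssp (h1 : W.a₁ = 0) (h3 : W.a₃ = 1) (h42 : W.a₄ = W.a₂ + 1) (h6 : W.a₆ = 1)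
    (P : (W.toAffine⁄K).Point) :
    frob W (frob W P) + (P + P) = frob W P + frob W P := by
  rcases P with _ | ⟨x, y, h⟩
  · rfl
  obtain ⟨p, hpdef⟩ : ∃ p : K, p = algebraMap (ZMod 2) K W.a₂ := ⟨_, rfl⟩
  have h2 : (2 : K) = 0 := two_eq_zero_K
  have hp : p ^ 2 = p := by rw [hpdef]; exact idem_K _
  have ea1 : (W.toAffine⁄K).a₁ = 0 := by
    show algebraMap (ZMod 2) K W.a₁ = 0
    rw [h1, map_zero]
  have ea2 : (W.toAffine⁄K).a₂ = p := hpdef.symm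
  have ea3 : (W.toAffine⁄K).a₃ = 1 := by
    show algebraMap (ZMod 2) K W.a₃ = 1
    rw [h3, map_one]
  have ea4 : (W.toAffine⁄K).a₄ = p + 1 := by
    show algebraMap (ZMod 2) K W.a₄ = p + 1
    rw [h42, map_add, map_one, hpdef]
  have ea6 : (W.toAffine⁄K).a₆ = 1 := by
    show algebraMap (ZMod 2) K W.a₆ = 1
    rw [h6, map_one]
  have hC := (equation_iff _ _).mp h.1
  rw [ea1, ea2, ea3, ea4, ea6] at hC
  obtain ⟨hφ, eφ⟩ := frob_some W h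
  obtain ⟨hφφ, eφφ⟩ := frob_some W hφ
  have hden : 2 * y + 0 * x + 1 ≠ 0 := by
    have e : 2 * y + 0 * x + 1 = (1 : K) := by linear_combination y * h2
    rw [e]
    exact one_ne_zero
  have hL : (x ^ 2 + p + 1) * (2 * y + 0 * x + 1) = 3 * x ^ 2 + 2 * p * x + (p + 1) - 0 * y := by
    linear_combination (y * x^2 + y * p + y - x^2 - x * p) * h2
  have hX : x ^ 4 + 1 = (x ^ 2 + p + 1) ^ 2 + 0 * (x ^ 2 + p + 1) - p - 2 * x := by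
    linear_combination (-1) * hp + (-x^2 * p - x^2 + x - p) * h2
  have hY : ((x ^ 2 + p + 1) * (x ^ 4 + 1 + x) + y + 1) =
      -((x ^ 2 + p + 1) * (x ^ 4 + 1 - x) + y) - 0 * (x ^ 4 + 1) - 1 := by
    linear_combination (y + x^6 + x^4 * p + x^4 + x^2 + p + 2) * h2
  obtain ⟨hD, eD⟩ := dbl_ex (W.toAffine⁄K) ea1 ea2 ea3 ea4 h hden hL hX hY
  obtain ⟨hφD, eφD⟩ := frob_some W hD
  have hx : (x ^ 2) ^ 2 ≠ x ^ 4 + 1 := by
    intro e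
    have e0 : (1 : K) = 0 := by linear_combination -e
    exact one_ne_zero e0
  have hL2 : (((x ^ 2 + p + 1) * (x ^ 4 + 1 + x) + y + 1) - (y ^ 2) ^ 2) * ((x ^ 2) ^ 2 - (x ^ 4 + 1)) =
      (y ^ 2) ^ 2 - ((x ^ 2 + p + 1) * (x ^ 4 + 1 + x) + y + 1) := by ring
  have hX2 : (x ^ 4 + 1) ^ 2 = (((x ^ 2 + p + 1) * (x ^ 4 + 1 + x) + y + 1) - (y ^ 2) ^ 2) ^ 2 + 0 * (((x ^ 2 + p + 1) * (x ^ 4 + 1 + x) + y + 1) - (y ^ 2) ^ 2) - p - (x ^ 2) ^ 2 - (x ^ 4 + 1) := by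
    linear_combination (-y^6 + y^5 - y^4 * x^3 - y^4 * x^2 * p - y^4 * x * p - y^4 * x - 2 * y^4 + 2 * y^3 * x^3 + 2 * y^3 * x^2 * p + 2 * y^3 * x * p + 2 * y^3 * x + 5 * y^3 + y^2 * x^6 - 2 * y^2 * x^5 * p - y^2 * x^4 * p^2 - 2 * y^2 * x^3 * p^2 - 2 * y^2 * x^3 * p - 3 * y^2 * x^3 - y^2 * x^2 * p^2 - 7 * y^2 * x^2 * p + y^2 * x^2 - 3 * y^2 * x * p - 3 * y^2 * x + 2 * y^2 * p - 3 * y^2 + y * x^6 + 6 * y * x^5 * p + 3 * y * x^4 * p^2 + 4 * y * x^4 * p + 4 * y * x^4 + 6 * y * x^3 * p^2 + 6 * y * x^3 * p + 10 * y * x^3 + 3 * y * x^2 * p^2 + 18 * y * x^2 * p + y * x^2 + 10 * y * x * p + 10 * y * x - 2 * y * p + 8 * y + x^9 - x^8 * p - 3 * x^7 * p^2 + x^7 * p + x^7 - x^6 * p^3 - 4 * x^6 * p^2 - 4 * x^6 * p - 3 * x^6 - 3 * x^5 * p^3 - 4 * x^5 * p^2 - 18 * x^5 * p + x^5 - 3 * x^4 * p^3 - 15 * x^4 * p^2 - 11 * x^4 * p - 10 * x^4 - x^3 * p^3 - 19 *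 x^3 * p^2 - 15 * x^3 * p - 15 * x^3 - 5 * x^2 * p^2 - 34 * x^2 * p - 3 * x^2 + 2 * x * p^2 - 14 * x * p - 16 * x + 4 * p - 12) * hC + (12 * y * x^7 + 4 * y * x^6 * p + 24 * y * x^6 + 12 * y * x^5 * p + 32 * y * x^5 + 12 * y * x^4 * p + 60 * y * x^4 + 4 * y * x^3 * p + 60 * y * x^3 + 16 * y * x^2 - 4 * y * x - 4 * x^10 - 4 * x^9 * p - 8 * x^9 - x^8 * p^2 - 11 * x^8 * p - 22 * x^8 - 4 * x^7 * p^2 - 16 * x^7 * p - 60 * x^7 - 6 * x^6 * p^2 - 30 * x^6 * p - 86 * x^6 - 4 * x^5 * p^2 - 44 * x^5 * p - 96 * x^5 - x^4 * p^2 - 29 * x^4 * p - 112 * x^4 - 4 * x^3 * p - 76 * x^3 + 2 * x^2 * p - 12 * x^2 + 4 * x - 1) * hp + (4 * y * x^8 * p + 8 * y * x^7 * p + 2 * y * x^7 + 22 * y * x^6 * p + 6 * y * x^6 + 46 * y * x^5 * p + 2 * y * x^5 + 50 * y * x^4 * p + 16 * y * x^4 + 54 * y * x^3 * p + 16 * y * x^3 + 48 * y * x^2 * p + 6 * y * x^2 + 12 * y * x * p +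 16 * y * x - 4 * y * p + 8 * y - 2 * x^10 * p - 6 * x^9 * p - 2 * x^9 - 22 * x^8 * p - 40 * x^7 * p - 8 * x^7 - 68 * x^6 * p - 12 * x^6 - 94 * x^5 * p - 8 * x^5 - 89 * x^4 * p - 22 * x^4 - 72 * x^3 * p - 18 * x^3 - 46 * x^2 * p - 12 * x^2 - 12 * x * p - 16 * x - 7) * h2
  have hY2 : ((x ^ 2 + p + 1) * (x ^ 4 + 1 + x) + y + 1) ^ 2 =
      -((((x ^ 2 + p + 1) * (x ^ 4 + 1 + x) + y + 1) - (y ^ 2) ^ 2) * ((x ^ 4 + 1) ^ 2 - (x ^ 2) ^ 2) + (y ^ 2) ^ 2) - 0 * (x ^ 4 + 1) ^ 2 - 1 := by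
    linear_combination (-y^2 * x^8 - y^2 * x^4 + y * x^8 + y * x^4 - x^11 - x^10 * p - x^9 * p - x^9 - 2 * x^8 - x^7 - x^6 * p - x^5 * p - x^5 - 2 * x^4 + 1) * hC + (-x^12 - 2 * x^11 - x^10 - 2 * x^7 - x^6 + 2 * x^5 + 2 * x^4 + x^2 + 2 * x + 1) * hp + (y * x^11 + y * x^10 * p + y * x^9 * p + y * x^9 + 2 * y * x^8 + y * x^7 + y * x^6 * p + y * x^6 + y * x^5 * p + y * x^5 + y * x^4 * p + 3 * y * x^4 + y * x^3 + y * x^2 + y * x * p + y * x + y * p + 2 * y - x^13 * p - x^12 * p - 2 * x^11 * p - x^11 - 2 * x^10 * p + x^10 - 2 * x^9 * p + x^8 * p + x^8 + x^7 - x^6 * p + 4 * x^6 + 2 * x^5 * p + x^5 + 6 * x^4 * p + 4 * x^4 + 2 * x^3 * p + 4 * x^3 + 3 * x^2 * p + 3 * x^2 + 5 * x * p + 3 * x + 3 * p + 4) * h2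
  obtain ⟨hS, eS⟩ := add_ex (W.toAffine⁄K) ea1 ea2 ea3 hφφ hD hx hL2 hX2 hY2
  have e1 : frob W (Point.some x y h) + frob W (Point.some x y h) =
      Point.some ((x ^ 4 + 1) ^ 2) (((x ^ 2 + p + 1) * (x ^ 4 + 1 + x) + y + 1) ^ 2) hφD := by
    rw [← map_add, eD, eφD]
  rw [e1, eφ, eφφ, eD, eS]

theorem rel_ssm (h1 : W.a₁ = 0) (h3 : W.a₃ = 1) (h42 : W.a₄ = W.a₂ + 1) (h6 : W.a₆ = 0)
    (P : (W.toAffine⁄K).Point) :
    frob W (frob W P) + (P + P) = -(frob W P + frob W P) := by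
  rcases P with _ | ⟨x, y, h⟩
  · rfl
  obtain ⟨p, hpdef⟩ : ∃ p : K, p = algebraMap (ZMod 2) K W.a₂ := ⟨_, rfl⟩
  have h2 : (2 : K) = 0 := two_eq_zero_K
  have hp : p ^ 2 = p := by rw [hpdef]; exact idem_K _
  have ea1 : (W.toAffine⁄K).a₁ = 0 := by
    show algebraMap (ZMod 2) K W.a₁ = 0
    rw [h1, map_zero]
  have ea2 : (W.toAffine⁄K).a₂ = p := hpdef.symm
  have ea3 : (W.toAffine⁄K).a₃ = 1 := by
    show algebraMap (ZMod 2) K W.a₃ = 1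
    rw [h3, map_one]
  have ea4 : (W.toAffine⁄K).a₄ = p + 1 := by
    show algebraMap (ZMod 2) K W.a₄ = p + 1
    rw [h42, map_add, map_one, hpdef]
  have ea6 : (W.toAffine⁄K).a₆ = 0 := by
    show algebraMap (ZMod 2) K W.a₆ = 0
    rw [h6, map_zero]
  have hC := (equation_iff _ _).mp h.1
  rw [ea1, ea2, ea3, ea4, ea6] at hC
  obtain ⟨hφ, eφ⟩ := frob_some W h
  obtain ⟨hφφ, eφφ⟩ := frob_some W hφ
  have hden : 2 * y + 0 * x + 1 ≠ 0 := by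
    have e : 2 * y + 0 * x + 1 = (1 : K) := by linear_combination y * h2
    rw [e]
    exact one_ne_zero
  have hL : (x ^ 2 + p + 1) * (2 * y + 0 * x + 1) = 3 * x ^ 2 + 2 * p * x + (p + 1) - 0 * y := by
    linear_combination (y * x^2 + y * p + y - x^2 - x * p) * h2
  have hX : x ^ 4 + 1 = (x ^ 2 + p + 1) ^ 2 + 0 * (x ^ 2 + p + 1) - p - 2 * x := by
    linear_combination (-1) * hp + (-x^2 * p - x^2 + x - p) * h2
  have hY : ((x ^ 2 + p + 1) * (x ^ 4 + 1 + x) + y + 1) =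
      -((x ^ 2 + p + 1) * (x ^ 4 + 1 - x) + y) - 0 * (x ^ 4 + 1) - 1 := by
    linear_combination (y + x^6 + x^4 * p + x^4 + x^2 + p + 2) * h2
  obtain ⟨hD, eD⟩ := dbl_ex (W.toAffine⁄K) ea1 ea2 ea3 ea4 h hden hL hX hY
  obtain ⟨hφD, eφD⟩ := frob_some W hD
  have hx : (x ^ 2) ^ 2 ≠ x ^ 4 + 1 := by
    intro e
    have e0 : (1 : K) = 0 := by linear_combination -e
    exact one_ne_zero e0
  have hL2 : (((x ^ 2 + p + 1) * (x ^ 4 + 1 + x) + y + 1) - (y ^ 2) ^ 2) * ((x ^ 2) ^ 2 - (x ^ 4 + 1)) =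
      (y ^ 2) ^ 2 - ((x ^ 2 + p + 1) * (x ^ 4 + 1 + x) + y + 1) := by ring
  have hX2 : (x ^ 4 + 1) ^ 2 = (((x ^ 2 + p + 1) * (x ^ 4 + 1 + x) + y + 1) - (y ^ 2) ^ 2) ^ 2 + 0 * (((x ^ 2 + p + 1) * (x ^ 4 + 1 + x) + y + 1) - (y ^ 2) ^ 2) - p - (x ^ 2) ^ 2 - (x ^ 4 + 1) := by
    linear_combination (-y^6 + y^5 - y^4 * x^3 - y^4 * x^2 * p - y^4 * x * p - y^4 * x - y^4 + 2 * y^3 * x^3 + 2 * y^3 * x^2 * p + 2 * y^3 * x * p + 2 * y^3 * x + 3 * y^3 + y^2 * x^6 - 2 * y^2 * x^5 * p - y^2 * x^4 * p^2 - 2 * y^2 * x^3 * p^2 - 2 * y^2 * x^3 * p - y^2 * x^3 - y^2 * x^2 * p^2 - 5 * y^2 * x^2 * p + y^2 * x^2 - y^2 * x * p - y^2 * x + 2 * y^2 * p + y^2 + y * x^6 + 6 * y * x^5 * p + 3 * y * x^4 * p^2 + 4 * y * x^4 * p + 4 * y * x^4 + 6 * y * x^3 * p^2 + 6 * y * x^3 * p + 4 * y * x^3 + 3 * y * x^2 * p^2 + 12 * y * x^2 * p + y * x^2 + 4 * y * x * p + 4 * y * x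 - 2 * y * p - y + x^9 - x^8 * p - 3 * x^7 * p^2 + x^7 * p + x^7 - x^6 * p^3 - 4 * x^6 * p^2 - 4 * x^6 * p - 2 * x^6 - 3 * x^5 * p^3 - 4 * x^5 * p^2 - 12 * x^5 * p + x^5 - 3 * x^4 * p^3 - 12 * x^4 * p^2 - 7 * x^4 * p - 6 * x^4 - x^3 * p^3 - 13 * x^3 * p^2 - 9 * x^3 * p - 2 * x^3 - 2 * x^2 * p^2 - 13 * x^2 * p - 2 * x^2 + 2 * x * p^2 - x * p - 3 * x + 2 * p) * hC + (12 * y * x^7 + 4 * y * x^6 * p + 24 * y * x^6 + 12 * y * x^5 * p + 32 * y * x^5 + 12 * y * x^4 * p + 48 * y * x^4 + 4 * y * x^3 * p + 36 * y * x^3 + 4 * y * x^2 - 4 * y * x - 4 * x^10 - 4 * x^9 * p - 8 * x^9 - x^8 * p^2 - 11 * x^8 * p - 22 * x^8 - 4 * x^7 * p^2 - 16 * x^7 * p - 48 * x^7 - 6 * x^6 * p^2 - 26 * x^6 * p - 62 * x^6 - 4 * x^5 * p^2 - 32 * x^5 * p - 64 * x^5 - x^4 * p^2 - 17 * x^4 * p - 52 * x^4 - 16 * x^3 + 2 * x^2 * p + 4 * x^2 - 1) * hp + (4 * y * x^8 * p + 8 * y * x^7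 * p + 2 * y * x^7 + 22 * y * x^6 * p + 2 * y * x^6 + 34 * y * x^5 * p + 2 * y * x^5 + 34 * y * x^4 * p + 6 * y * x^4 + 30 * y * x^3 * p + 12 * y * x^2 * p + 2 * y * x^2 - 4 * y * x * p - 2 * y * p - 2 * y - 2 * x^10 * p - 6 * x^9 * p - 2 * x^9 - 18 * x^8 * p - 32 * x^7 * p - 6 * x^7 - 46 * x^6 * p - 4 * x^6 - 48 * x^5 * p - 6 * x^5 - 37 * x^4 * p - 4 * x^4 - 18 * x^3 * p - 4 * x^3 - 2 * x^2 * p - 4 * x^2 - 2 * x * p - 2 * x - 2 * p - 1) * h2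
  have hY2 : -(((x ^ 2 + p + 1) * (x ^ 4 + 1 + x) + y + 1) ^ 2) - 0 * (x ^ 4 + 1) ^ 2 - 1 =
      -((((x ^ 2 + p + 1) * (x ^ 4 + 1 + x) + y + 1) - (y ^ 2) ^ 2) * ((x ^ 4 + 1) ^ 2 - (x ^ 2) ^ 2) + (y ^ 2) ^ 2) - 0 * (x ^ 4 + 1) ^ 2 - 1 := by
    linear_combination (-y^2 * x^8 - y^2 * x^4 + y * x^8 + y * x^4 - x^11 - x^10 * p - x^9 * p - x^9 - x^8 - x^7 - x^6 * p - x^5 * p - x^5 - x^4 - 1) * hC + (-x^12 - 2 * x^11 - x^10 - 2 * x^8 - 2 * x^7 - x^6 - 2 * x^5 - 2 * x^4 - x^2 - 2 * x - 1) * hp + (y * x^11 + y * x^10 * p + y * x^9 * p + y * x^9 + y * x^8 + y * x^7 + y * x^6 * p - y * x^6 + y * x^5 * p + y * x^5 - y * x^4 * p - y * x^3 - y * x^2 - y * x * p - y * x - y * p - y - x^13 * p - x^12 * p - x^12 - 2 * x^11 * p - 3 * x^10 * p - x^10 - x^9 * p - x^9 - 2 * x^8 * p - x^8 - 4 * x^7 * p - 2 * x^7 - 4 * x^6 * p - 3 * x^6 - 3 * x^5 * p - 2 * x^5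 - 4 * x^4 * p - 2 * x^4 - 2 * x^3 * p - 3 * x^3 - 3 * x^2 * p - 2 * x^2 - 4 * x * p - 2 * x - 2 * p - 1) * h2
  obtain ⟨hS, eS⟩ := add_ex (W.toAffine⁄K) ea1 ea2 ea3 hφφ hD hx hL2 hX2 hY2
  have e1 : frob W (Point.some x y h) + frob W (Point.some x y h) =
      Point.some ((x ^ 4 + 1) ^ 2) (((x ^ 2 + p + 1) * (x ^ 4 + 1 + x) + y + 1) ^ 2) hφD := by
    rw [← map_add, eD, eφD]
  obtain ⟨hN, eN⟩ := neg_ex (W.toAffine⁄K) ea1 ea3 hφD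
  rw [e1, eN, eφ, eφφ, eD, eS]

/-! ### The ordinary family: the generic points -/

theorem rel_orm_generic (h1 : W.a₁ = 1) (h6 : W.a₆ = 1 + W.a₄ + W.a₃ * (W.a₄ + W.a₂))
    (h23 : W.a₂ = W.a₃) {x y : K} (h : (W.toAffine⁄K).Nonsingular x y) (hx0 : x ≠ 0)
    (hx1 : x ≠ 1) (hxq : x + algebraMap (ZMod 2) K W.a₃ ≠ 0)
    (hR : x ^ 6 + (algebraMap (ZMod 2) K W.a₃ + 1) * x ^ 4 +
      algebraMap (ZMod 2) K W.a₃ * x ^ 2 + 1 ≠ 0) :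
    frob W (frob W (Point.some x y h)) + frob W (Point.some x y h) +
      (Point.some x y h + Point.some x y h) = 0 := by
  obtain ⟨q, hqdef⟩ : ∃ q : K, q = algebraMap (ZMod 2) K W.a₃ := ⟨_, rfl⟩
  obtain ⟨r, hrdef⟩ : ∃ r : K, r = algebraMap (ZMod 2) K W.a₄ := ⟨_, rfl⟩
  rw [← hqdef] at hxq hR
  have h2 : (2 : K) = 0 := two_eq_zero_K
  have hq : q ^ 2 = q := by rw [hqdef]; exact idem_K _
  have hr : r ^ 2 = r := by rw [hrdef]; exact idem_K _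
  have ea1 : (W.toAffine⁄K).a₁ = 1 := by
    show algebraMap (ZMod 2) K W.a₁ = 1
    rw [h1, map_one]
  have ea2 : (W.toAffine⁄K).a₂ = q := by
    show algebraMap (ZMod 2) K W.a₂ = q
    rw [h23, hqdef]
  have ea3 : (W.toAffine⁄K).a₃ = q := hqdef.symm
  have ea4 : (W.toAffine⁄K).a₄ = r := hrdef.symm
  have ea6 : (W.toAffine⁄K).a₆ = 1 + r + q * (r + q) := by
    show algebraMap (ZMod 2) K W.a₆ = 1 + r + q * (r + q)
    rw [h6, map_add, map_add, map_mul, map_add, map_one]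
    show 1 + algebraMap (ZMod 2) K W.a₄ + algebraMap (ZMod 2) K W.a₃ *
      (algebraMap (ZMod 2) K W.a₄ + (W.toAffine⁄K).a₂) = _
    rw [ea2, hqdef, hrdef]
  have hC := (equation_iff _ _).mp h.1
  rw [ea1, ea2, ea3, ea4, ea6] at hC
  obtain ⟨d, hd⟩ : ∃ d : K, d * (x + q) = 1 := ⟨(x + q)⁻¹, inv_mul_cancel₀ hxq⟩
  have hd0 : d ≠ 0 := by
    rintro rfl
    rw [zero_mul] at hd
    exact zero_ne_one hd
  obtain ⟨hφ, eφ⟩ := frob_some W h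
  obtain ⟨hφφ, eφφ⟩ := frob_some W hφ
  have hden : 2 * y + 1 * x + q ≠ 0 := by
    have e : 2 * y + 1 * x + q = x + q := by linear_combination y * h2
    rw [e]
    exact hxq
  have hL : ((x ^ 2 + r + y) * d) * (2 * y + 1 * x + q) = 3 * x ^ 2 + 2 * q * x + r - 1 * y := by
    linear_combination (2 * d) * hC + (2 * y * x - 2 * y * q - y + 3 * x^2 + 3 * r) * hd + (2 * y * d + 2 * d) * hq + (y * d * q + y * d * r + y * x - y * q + d * q + d * r + d - x * q + r) * h2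
  obtain ⟨hD, eD⟩ := dbl_ex (W.toAffine⁄K) ea1 ea2 ea3 ea4 h hden hL
    (X := (((x ^ 2 + r + y) * d) ^ 2 + 1 * ((x ^ 2 + r + y) * d) - q - 2 * x))
    (Y := (-(((x ^ 2 + r + y) * d) * ((((x ^ 2 + r + y) * d) ^ 2 + 1 * ((x ^ 2 + r + y) * d) - q - 2 * x) - x) + y) - 1 * (((x ^ 2 + r + y) * d) ^ 2 + 1 * ((x ^ 2 + r + y) * d) - q - 2 * x) - q)) rfl rfl
  have h12 : (x ^ 2) ^ 2 ≠ x ^ 2 := by
    intro e
    have e0 : x * x * ((x - 1) * (x - 1)) = 0 := by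
      linear_combination e + (-x ^ 3 + x ^ 2) * h2
    rcases mul_eq_zero.mp e0 with h0 | h0
    · exact hx0 (mul_self_eq_zero.mp h0)
    · exact hx1 (sub_eq_zero.mp (mul_self_eq_zero.mp h0))
  have hid23 : (((x ^ 2 + r + y) * d) ^ 2 + 1 * ((x ^ 2 + r + y) * d) - q - 2 * x) - x ^ 2 = d ^ 2 := by
    linear_combination (d^2) * hC + (2 * y * d * x - 2 * y * d * q - y * d + 2 * y + d * x^3 - d * x^2 * q + d * x^2 + d * x * q^2 + 2 * d * x * r - d * q^3 - 2 * d * q * r + d * r + x^2 - 2 * x * q + 2 * x + 3 * q^2 - 2 * q + 2 * r) * hd + (2 * y * d^2 + d^2 * q^2 + d^2 * q + 2 * d^2 * r + 2 * d^2 - 4 * d * q - 2 * d + 3) * hq + (d^2) * hr + (y * d^2 * q + y * d^2 * r - 2 * y * d * q + y + d^2 * q * r + d^2 * q + d^2 * r - 2 * d * q * r - d * q + d * r - x * q + r) * h2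
  have hid13 : (((x ^ 2 + r + y) * d) ^ 2 + 1 * ((x ^ 2 + r + y) * d) - q - 2 * x) - (x ^ 2) ^ 2 =
      d ^ 2 * (x ^ 6 + (q + 1) * x ^ 4 + q * x ^ 2 + 1) := by
    linear_combination (d^2) * hC + (2 * y * d * x - 2 * y * d * q - y * d + 2 * y - d * x^5 + d * x^4 * q - d * x^3 * q^2 - d * x^3 * q + d * x^2 * q^3 + d * x^2 * q^2 + d * x^2 - d * x * q^4 - d * x * q^3 - d * x * q + 2 * d * x * r + d * q^5 + d * q^4 + d * q^2 - 2 * d * q * r + d * r - x^4 + 2 * x^3 * q - 3 * x^2 * q^2 - x^2 * q + 4 * x * q^3 + 2 * x * q^2 + 2 * x - 5 * q^4 - 3 * q^3 - 3 * q + 2 * r) * hd + (2 * y * d^2 - d^2 * q^4 - 2 * d^2 * q^3 - 2 * d^2 * q^2 - 3 * d^2 * q + 2 * d^2 * r - 2 * d^2 + 6 * d * q^3 + 10 * d * q^2 + 10 * d * q + 14 * d - 3 * x^2 + 4 * x * q + 6 * x - 5 * q^2 - 8 * q - 8) * hq + (d^2) * hr + (y * d^2 * q + y * d^2 * r - 2 * y * d * q + y + d^2 * q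 * r - d^2 * q + d^2 * r - 2 * d * q * r + 7 * d * q + d * r - x^4 + x^3 * q - 2 * x^2 * q + 3 * x * q - 6 * q + r) * h2
  have h23' : (((x ^ 2 + r + y) * d) ^ 2 + 1 * ((x ^ 2 + r + y) * d) - q - 2 * x) ≠ x ^ 2 := by
    intro e
    rw [e, sub_self] at hid23
    exact pow_ne_zero 2 hd0 hid23.symm
  have h13 : (((x ^ 2 + r + y) * d) ^ 2 + 1 * ((x ^ 2 + r + y) * d) - q - 2 * x) ≠ (x ^ 2) ^ 2 := by
    intro e
    rw [e, sub_self] at hid13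
    exact mul_ne_zero (pow_ne_zero 2 hd0) hR hid13.symm
  have hcol : ((-(((x ^ 2 + r + y) * d) * ((((x ^ 2 + r + y) * d) ^ 2 + 1 * ((x ^ 2 + r + y) * d) - q - 2 * x) - x) + y) - 1 * (((x ^ 2 + r + y) * d) ^ 2 + 1 * ((x ^ 2 + r + y) * d) - q - 2 * x) - q) - (y ^ 2) ^ 2) * (x ^ 2 - (x ^ 2) ^ 2) =
      (y ^ 2 - (y ^ 2) ^ 2) * ((((x ^ 2 + r + y) * d) ^ 2 + 1 * ((x ^ 2 + r + y) * d) - q - 2 * x) - (x ^ 2) ^ 2) := by
    linear_combination (y^4 * d^2 + 2 * y^3 * d^2 * x^2 - y^3 * d^2 * x - y^3 * d^2 * q + 2 * y^3 * d^2 * r + y^3 * d + y^2 * d^2 * x^4 - y^2 * d^2 * x^3 - y^2 * d^2 * x^2 * q + 2 * y^2 * d^2 * x^2 * r + y^2 * d^2 * x^2 + 2 * y^2 * d^2 * x * q - y^2 * d^2 * x * r + 2 * y^2 * d^2 * q^2 - y^2 * d^2 * q * r + y^2 * d^2 * r^2 + y^2 * d^2 * r + y^2 * d * x^2 - y^2 * d * x - y^2 * d * q + y^2 * d * r - y^2 * x^2 - 2 * y^2 * x - y^2 * q +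 y * d^3 * x^4 - y * d^3 * x^2 + y * d^2 * x^5 + y * d^2 * x^4 * q + 2 * y * d^2 * x^3 * r - y * d^2 * x^3 + 2 * y * d^2 * x^2 * q^2 + 2 * y * d^2 * x^2 * q * r - 3 * y * d^2 * x^2 * q + 2 * y * d^2 * x^2 * r - 5 * y * d^2 * x * q^2 + y * d^2 * x * r^2 - 2 * y * d^2 * x * r - y * d^2 * x - 3 * y * d^2 * q^3 + 2 * y * d^2 * q^2 * r + y * d^2 * q * r^2 - 2 * y * d^2 * q * r - y * d^2 * q + 2 * y * d^2 * r^2 + y * d * x^2 + 2 * y * d * x * q + 2 * y * d * q^2 + y * d * r + y * x^3 + y * x^2 * q + 2 * y * x^2 + 3 * y * x * q + y * q^2 + 3 * d^3 * x^6 - d^3 * x^5 - d^3 * x^4 * q + 3 * d^3 * x^4 * r - 3 * d^3 * x^4 + d^3 * x^3 + d^3 * x^2 * q - 3 * d^3 * x^2 * r + d^2 * x^7 + d^2 * x^6 * q - 2 * d^2 * x^6 - 4 * d^2 * x^5 * q + 3 * d^2 * x^5 * r + d^2 * x^5 - d^2 * x^4 * q^2 + 3 * d^2 * x^4 * q * r + 3 * d^2 * x^4 * q - 3 * d^2 * x^4 * r + 3 * d^2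 * x^4 + d^2 * x^3 * q^2 - 8 * d^2 * x^3 * q * r + 4 * d^2 * x^3 * q + 3 * d^2 * x^3 * r^2 - d^2 * x^3 * r - d^2 * x^3 - d^2 * x^2 * q^3 - 2 * d^2 * x^2 * q^2 * r + 9 * d^2 * x^2 * q^2 + 3 * d^2 * x^2 * q * r^2 + d^2 * x^2 * q * r - d^2 * x^2 * q + 3 * d^2 * x^2 * r + 10 * d^2 * x * q^3 + d^2 * x * q^2 * r - 4 * d^2 * x * q * r^2 + 6 * d^2 * x * q * r + 4 * d^2 * x * q + d^2 * x * r^3 - 2 * d^2 * x * r^2 - d^2 * x * r + 5 * d^2 * q^4 - d^2 * q^3 * r - d^2 * q^2 * r^2 + 5 * d^2 * q^2 * r + 3 * d^2 * q^2 + d^2 * q * r^3 - 2 * d^2 * q * r^2 - d^2 * q * r + d^2 * r^3 + d^2 * r^2 + d^2 * r + d * x^5 + d * x^4 * q - d * x^4 - 2 * d * x^3 * q + 2 * d * x^3 * r - d * x^3 + 2 * d * x^2 * q * r - 3 * d * x^2 * q - 5 * d * x * q^2 - 2 * d * x * q * r + d * x * r^2 - 2 * d * x * r - d * x - 3 * d * q^3 + d * q * r^2 - 2 * d * q * r - d * q + d * r^2 - x^5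 - x^4 * q - 2 * x^4 - 5 * x^3 * q - x^3 * r - 2 * x^3 - 3 * x^2 * q^2 - x^2 * q * r - 5 * x^2 * q - 3 * x^2 * r - x^2 - 6 * x * q^2 - 3 * x * q * r - 2 * x * r - 2 * q^3 - q^2 * r - q * r) * hC + (3 * y * d^2 * x^7 - 3 * y * d^2 * x^6 * q - 2 * y * d^2 * x^6 + 3 * y * d^2 * x^5 * q^2 + 6 * y * d^2 * x^5 * r - 2 * y * d^2 * x^5 - 3 * y * d^2 * x^4 * q^3 - 6 * y * d^2 * x^4 * q * r + 4 * y * d^2 * x^4 * q - 2 * y * d^2 * x^4 * r + 2 * y * d^2 * x^4 + 3 * y * d^2 * x^3 * q^4 + 6 * y * d^2 * x^3 * q^2 * r - 2 * y * d^2 * x^3 * q^2 + 3 * y * d^2 * x^3 * r^2 - 5 * y * d^2 * x^3 * r - 3 * y * d^2 * x^2 * q^5 - 6 * y * d^2 * x^2 * q^3 * r + 2 * y * d^2 * x^2 * q^3 - 3 * y * d^2 * x^2 * q * r^2 + 5 * y * d^2 * x^2 * q * r - 2 * y * d^2 * x^2 * q + 2 * y * d^2 * x^2 * r + 3 * y * d^2 * x * q^6 + 6 * y * d^2 * x * q^4 * r - 2 * y * d^2 * x * q^4 + 3 *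 y * d^2 * x * q^2 * r^2 - 5 * y * d^2 * x * q^2 * r - 3 * y * d^2 * x * r^2 - y * d^2 * x * r - y * d^2 * x - 3 * y * d^2 * q^7 - 6 * y * d^2 * q^5 * r + 2 * y * d^2 * q^5 - 3 * y * d^2 * q^3 * r^2 + 5 * y * d^2 * q^3 * r + 3 * y * d^2 * q * r^2 + y * d^2 * q * r + y * d^2 * q + 5 * y * d * x^6 - 2 * y * d * x^5 * q + 13 * y * d * x^4 * q^2 - 8 * y * d * x^4 * q + 12 * y * d * x^4 * r - 4 * y * d * x^4 - 12 * y * d * x^3 * q^3 - 4 * y * d * x^3 * q^2 - 4 * y * d * x^3 * q * r + 2 * y * d * x^3 * q - 2 * y * d * x^3 + 15 * y * d * x^2 * q^4 - 4 * y * d * x^2 * q^3 + 26 * y * d * x^2 * q^2 * r - 18 * y * d * x^2 * q^2 - 8 * y * d * x^2 * q * r + 2 * y * d * x^2 * q + 9 * y * d * x^2 * r^2 - 7 * y * d * x^2 * r - y * d * x^2 - 18 * y * d * x * q^5 + 4 * y * d * x * q^4 - 24 * y * d * x * q^3 * r - 2 * y * d * x * q^3 - 2 * y * d * x * q * r^2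 + 2 * y * d * x * q * r - 8 * y * d * x * q + 2 * y * d * x * r^2 + 21 * y * d * q^6 - 4 * y * d * q^5 + 30 * y * d * q^4 * r - 20 * y * d * q^4 - 8 * y * d * q^3 * r + 13 * y * d * q^2 * r^2 - 25 * y * d * q^2 * r - 5 * y * d * q^2 - 2 * y * d * q * r^2 + 2 * y * d * r^3 - 5 * y * d * r^2 - 5 * y * d * r - 2 * y * d + 4 * y * x^5 - 8 * y * x^4 * q - y * x^4 + 20 * y * x^3 * q^2 - 2 * y * x^3 * q + 10 * y * x^3 * r - 2 * y * x^3 - 32 * y * x^2 * q^3 + 4 * y * x^2 * q^2 - 18 * y * x^2 * q * r + 8 * y * x^2 * q + 2 * y * x^2 * r + y * x^2 + 47 * y * x * q^4 - 6 * y * x * q^3 + 42 * y * x * q^2 * r - 17 * y * x * q^2 - 4 * y * x * q * r + 2 * y * x * q + 8 * y * x * r^2 - 4 * y * x * r - 65 * y * q^5 + 10 * y * q^4 - 66 * y * q^3 * r + 25 * y * q^3 + 10 * y * q^2 * r - 2 * y * q^2 - 12 * y * q * r^2 + 12 * y * q * r - 4 * y * q + 2 * y * r^2 +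 d^2 * x^9 - d^2 * x^8 * q + 3 * d^2 * x^8 + d^2 * x^7 * q^2 + 3 * d^2 * x^7 * r - 2 * d^2 * x^7 - d^2 * x^6 * q^3 - 3 * d^2 * x^6 * q * r + 6 * d^2 * x^6 * r - 3 * d^2 * x^6 + d^2 * x^5 * q^4 + 3 * d^2 * x^5 * q^2 * r + 2 * d^2 * x^5 * q^2 + 3 * d^2 * x^5 * r^2 - d^2 * x^5 * r + 4 * d^2 * x^5 - d^2 * x^4 * q^5 - 3 * d^2 * x^4 * q^3 * r - 2 * d^2 * x^4 * q^3 - d^2 * x^4 * q^2 - 3 * d^2 * x^4 * q * r^2 - d^2 * x^4 * q * r - 2 * d^2 * x^4 * q + 3 * d^2 * x^4 * r^2 - 7 * d^2 * x^4 * r - d^2 * x^4 + d^2 * x^3 * q^6 + 3 * d^2 * x^3 * q^4 * r + 2 * d^2 * x^3 * q^4 + 3 * d^2 * x^3 * q^2 * r^2 + 3 * d^2 * x^3 * q^2 * r + d^2 * x^3 * r^3 + d^2 * x^3 * r - 3 * d^2 * x^3 - d^2 * x^2 * q^7 - 3 * d^2 * x^2 * q^5 * r - 2 * d^2 * x^2 * q^5 - 3 * d^2 * x^2 * q^3 * r^2 - 3 * d^2 * x^2 * q^3 * r + d^2 * x^2 * q^2 - d^2 * x^2 * q * r^3 + d^2 * x^2 * q * r + 3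 * d^2 * x^2 * q - 3 * d^2 * x^2 * r^2 + d^2 * x^2 * r + d^2 * x^2 + d^2 * x * q^8 + 3 * d^2 * x * q^6 * r + 2 * d^2 * x * q^6 + 3 * d^2 * x * q^4 * r^2 + 3 * d^2 * x * q^4 * r + d^2 * x * q^2 * r^3 - 3 * d^2 * x * q^2 * r - 3 * d^2 * x * q^2 - d^2 * x * r^3 - 3 * d^2 * x * r^2 - 3 * d^2 * x * r - d^2 * q^9 - 3 * d^2 * q^7 * r - 2 * d^2 * q^7 - 3 * d^2 * q^5 * r^2 - 3 * d^2 * q^5 * r - d^2 * q^3 * r^3 + 3 * d^2 * q^3 * r + 3 * d^2 * q^3 + d^2 * q * r^3 + 3 * d^2 * q * r^2 + 3 * d^2 * q * r + d * x^9 + d * x^8 * q - d * x^8 - 6 * d * x^7 * q + 4 * d * x^7 * r + 6 * d * x^7 + 3 * d * x^6 * q^2 + 4 * d * x^6 * q * r - 2 * d * x^6 * q - d * x^6 * r + 2 * d * x^6 - 4 * d * x^5 * q^3 + 4 * d * x^5 * q^2 - 18 * d * x^5 * q * r + 6 * d * x^5 * q + 6 * d * x^5 * r^2 + 8 * d * x^5 * r - 8 * d * x^5 + 5 * d * x^4 * q^4 - 8 * d * x^4 * q^3 + 9 * d * x^4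 * q^2 * r + 10 * d * x^4 * q^2 + 6 * d * x^4 * q * r^2 - 8 * d * x^4 * q * r + 2 * d * x^4 * q + 3 * d * x^4 * r^2 + 9 * d * x^4 * r + 5 * d * x^4 - 6 * d * x^3 * q^5 + 6 * d * x^3 * q^4 - 12 * d * x^3 * q^3 * r + 10 * d * x^3 * q^3 + 10 * d * x^3 * q^2 * r - 2 * d * x^3 * q^2 - 18 * d * x^3 * q * r^2 + 12 * d * x^3 * q * r + 4 * d * x^3 * r^3 - d * x^3 * r^2 - 13 * d * x^3 * r + 2 * d * x^3 + 7 * d * x^2 * q^6 - 6 * d * x^2 * q^5 + 15 * d * x^2 * q^4 * r + 8 * d * x^2 * q^4 - 18 * d * x^2 * q^3 * r + 6 * d * x^2 * q^3 + 9 * d * x^2 * q^2 * r^2 + 15 * d * x^2 * q^2 * r + 7 * d * x^2 * q^2 + 4 * d * x^2 * q * r^3 - 11 * d * x^2 * q * r^2 + 5 * d * x^2 * q * r + 2 * d * x^2 * q + 5 * d * x^2 * r^3 + 6 * d * x^2 * r^2 - 4 * d * x^2 - 8 * d * x * q^7 + 6 * d * x * q^6 - 18 * d * x * q^5 * r - 6 * d * x * q^5 + 14 * d * x * q^4 * r + 3 * d * x *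 q^4 - 12 * d * x * q^3 * r^2 + 6 * d * x * q^3 * r - 6 * d * x * q^3 + 9 * d * x * q^2 * r^2 + 3 * d * x * q^2 * r + 8 * d * x * q^2 - 6 * d * x * q * r^3 + 8 * d * x * q * r^2 + 6 * d * x * q * r + 6 * d * x * q + d * x * r^4 - 2 * d * x * r^3 - 3 * d * x * r^2 + 4 * d * x * r + d * x + 9 * d * q^8 - 6 * d * q^7 + 21 * d * q^6 * r + 8 * d * q^6 - 14 * d * q^5 * r + 7 * d * q^5 + 15 * d * q^4 * r^2 + 13 * d * q^4 * r + 6 * d * q^4 - 13 * d * q^3 * r^2 + 13 * d * q^3 * r + 6 * d * q^3 + 3 * d * q^2 * r^3 + 2 * d * q^2 * r^2 - 2 * d * q^2 * r - 9 * d * q^2 + d * q * r^4 - 6 * d * q * r^3 + 3 * d * q * r^2 + 6 * d * q * r + 3 * d * q + 2 * d * r^4 - d * r^3 - 5 * d * r^2 - 4 * d * r + x^8 - 4 * x^6 * q + 4 * x^6 * r + 2 * x^6 + 8 * x^5 * q^2 - 8 * x^5 * q + 2 * x^5 * r + 2 * x^5 - 12 * x^4 * q^3 + 11 * x^4 * q^2 - 14 * x^4 * q * r + 6 * x^4 *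 r^2 + 5 * x^4 * r - 4 * x^4 + 17 * x^3 * q^4 - 18 * x^3 * q^3 + 26 * x^3 * q^2 * r + x^3 * q^2 - 18 * x^3 * q * r + 8 * x^3 * q + 6 * x^3 * r^2 + 6 * x^3 * r + 2 * x^3 - 23 * x^2 * q^5 + 24 * x^2 * q^4 - 38 * x^2 * q^3 * r - x^2 * q^3 + 26 * x^2 * q^2 * r - 11 * x^2 * q^2 - 18 * x^2 * q * r^2 - 4 * x^2 * q * r - 6 * x^2 * q + 4 * x^2 * r^3 + 2 * x^2 * r^2 - 9 * x^2 * r + x^2 + 30 * x * q^6 - 30 * x * q^5 + 53 * x * q^4 * r + 6 * x * q^4 - 42 * x * q^3 * r + 14 * x * q^3 + 30 * x * q^2 * r^2 + 9 * x * q^2 * r + 12 * x * q^2 - 12 * x * q * r^2 + 14 * x * q * r - 2 * x * q + 6 * x * r^3 + 4 * x * r^2 - 2 * x * r - 4 * x - 38 * q^7 + 36 * q^6 - 71 * q^5 * r - 12 * q^5 + 56 * q^4 * r - 16 * q^4 - 42 * q^3 * r^2 - 13 * q^3 * r - 18 * q^3 + 20 * q^2 * r^2 - 18 * q^2 * r + 4 * q^2 - 10 * q * r^3 - 2 * q * r^2 + 4 * q * r + 10 * q + r^4 - 4 * r^2 +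 r) * hd + (3 * y * d^3 * q^6 + 3 * y * d^3 * q^5 + 6 * y * d^3 * q^4 * r + y * d^3 * q^4 + 6 * y * d^3 * q^3 * r + y * d^3 * q^3 + 3 * y * d^3 * q^2 * r^2 + y * d^3 * q^2 * r + y * d^3 * q^2 + 3 * y * d^3 * q * r^2 + y * d^3 * q * r + y * d^3 * q - 24 * y * d^2 * q^5 - 20 * y * d^2 * q^4 - 36 * y * d^2 * q^3 * r - 6 * y * d^2 * q^3 - 28 * y * d^2 * q^2 * r - 6 * y * d^2 * q^2 - 12 * y * d^2 * q * r^2 - 8 * y * d^2 * q * r - 8 * y * d^2 * q - 6 * y * d^2 * r^2 - 6 * y * d^2 * r - 8 * y * d^2 + 86 * y * d * q^4 + 72 * y * d * q^3 + 96 * y * d * q^2 * r + 32 * y * d * q^2 + 80 * y * d * q * r + 34 * y * d * q + 24 * y * d * r^2 + 48 * y * d * r + 36 * y * d + 2 * y * x^4 + 33 * y * x^3 - 27 * y * x^2 * q + 2 * y * x^2 * r - 10 * y * x^2 + 47 * y * x * q^2 + 52 * y * x * q + 50 * y * x * r + 35 * y * x - 65 * y * q^3 - 52 * y * q^2 - 64 * y * q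 * r - 27 * y * q - 52 * y * r - 28 * y + d^3 * q^8 + d^3 * q^7 + 3 * d^3 * q^6 * r + 3 * d^3 * q^6 + 3 * d^3 * q^5 * r + 3 * d^3 * q^5 + 3 * d^3 * q^4 * r^2 + 6 * d^3 * q^4 * r + 3 * d^3 * q^4 + 3 * d^3 * q^3 * r^2 + 6 * d^3 * q^3 * r + 3 * d^3 * q^3 + d^3 * q^2 * r^3 + 3 * d^3 * q^2 * r^2 + 3 * d^3 * q^2 * r + d^3 * q * r^3 + 3 * d^3 * q * r^2 + 3 * d^3 * q * r - 10 * d^2 * q^7 - 4 * d^2 * q^6 - 24 * d^2 * q^5 * r - 14 * d^2 * q^5 - 10 * d^2 * q^4 * r - 16 * d^2 * q^4 - 18 * d^2 * q^3 * r^2 - 22 * d^2 * q^3 * r - 22 * d^2 * q^3 - 7 * d^2 * q^2 * r^2 - 25 * d^2 * q^2 * r - 20 * d^2 * q^2 - 4 * d^2 * q * r^3 - 7 * d^2 * q * r^2 - 19 * d^2 * q * r - 8 * d^2 * q - 6 * d^2 * r^2 - 16 * d^2 * r - 8 * d^2 + 47 * d * q^6 + 5 * d * q^5 + 92 * d * q^4 * r + 25 * d * q^4 + 22 * d * q^3 * r + 45 * d * q^3 + 57 * d * q^2 * r^2 + 45 * d * q^2 * r + 69 *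 d * q^2 + 25 * d * q * r^2 + 71 * d * q * r + 67 * d * q + 14 * d * r^3 + 28 * d * r^2 + 64 * d * r + 48 * d - x^6 - x^5 - 16 * x^4 * q - 2 * x^4 * r - 18 * x^4 + 17 * x^3 * q^2 - 14 * x^3 * q + 13 * x^3 * r - 15 * x^3 - 23 * x^2 * q^3 - 4 * x^2 * q^2 - 43 * x^2 * q * r - 10 * x^2 * q - x^2 * r^2 - 35 * x^2 * r - 25 * x^2 + 30 * x * q^4 + 53 * x * q^2 * r + 14 * x * q + 26 * x * r^2 + x * r + 20 * x - 38 * q^5 - 2 * q^4 - 71 * q^3 * r - 16 * q^3 - 18 * q^2 * r - 32 * q^2 - 43 * q * r^2 - 34 * q * r - 52 * q - 25 * r^2 - 53 * r - 48) * hq + (2 * y * d^2 * r + 4 * y * d^2 + 20 * y * d * q + 2 * y * d * r - 2 * y * d + 8 * y * x - 12 * y * q + 2 * y + 2 * d^2 * q * r + 2 * d^2 * q + d^2 * r^2 + 3 * d^2 * r + 5 * d^2 + 10 * d * q * r + 44 * d * q + 2 * d * r^2 + 2 * d * r - 2 * d + 5 * x^4 - 2 * x^3 * q + 2 * x^3 - 26 * x^2 * q + 4 * x^2 * r +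 x^2 + 8 * x * q + 6 * x * r + 8 * x - 10 * q * r - 38 * q + r^2 + r - 3) * hr + (-2 * y * d^2 * q * r - 3 * y * d^2 * q + 2 * y * d^2 * r + 34 * y * d * q * r + 18 * y * d * q - 3 * y * d * r - y * d + y * x^6 + 2 * y * x^5 * q + 4 * y * x^5 + 3 * y * x^4 * q + y * x^4 * r + y * x^4 + 2 * y * x^3 * q * r + 19 * y * x^3 * q + 8 * y * x^3 * r - 2 * y * x^2 * q * r + 3 * y * x^2 * r + y * x^2 + 26 * y * x * q * r + 20 * y * x * q + 2 * y * x * r - 26 * y * q * r - 16 * y * q + y * r - 4 * d^2 * q * r - 4 * d^2 * q + 3 * d^2 * r + 55 * d * q * r + 25 * d * q - 3 * d * r - x^7 * q - x^7 - 6 * x^6 * q + x^6 * r - 2 * x^5 * q * r - 8 * x^5 * q - 2 * x^5 * r - x^5 - 15 * x^4 * q * r - 10 * x^4 * q + 2 * x^4 * r - 3 * x^4 - 11 * x^3 * q * r - 6 * x^3 * q + 2 * x^3 * r + x^3 - 36 * x^2 * q * r - 18 * x^2 * q - 6 * x^2 * r + 10 * x * q * r + 9 * x * q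 + 2 * x * r - 2 * x - 44 * q * r - 19 * q - r) * h2
  rw [eφ, eφφ, eD]
  exact add_add_eq_zero_of_collinear _ hφφ hφ hD h12 h13 h23' hcol

theorem rel_orp_generic (h1 : W.a₁ = 1) (h6 : W.a₆ = 1 + W.a₄ + W.a₃ * (W.a₄ + W.a₂))
    (h23 : W.a₂ = W.a₃ + 1) {x y : K} (h : (W.toAffine⁄K).Nonsingular x y) (hx0 : x ≠ 0)
    (hx1 : x ≠ 1) (hxq : x + algebraMap (ZMod 2) K W.a₃ ≠ 0)
    (hR : x ^ 6 + (algebraMap (ZMod 2) K W.a₃ + 1) * x ^ 4 +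
      algebraMap (ZMod 2) K W.a₃ * x ^ 2 + 1 ≠ 0) :
    frob W (frob W (Point.some x y h)) + -frob W (Point.some x y h) +
      (Point.some x y h + Point.some x y h) = 0 := by
  obtain ⟨q, hqdef⟩ : ∃ q : K, q = algebraMap (ZMod 2) K W.a₃ := ⟨_, rfl⟩
  obtain ⟨r, hrdef⟩ : ∃ r : K, r = algebraMap (ZMod 2) K W.a₄ := ⟨_, rfl⟩
  rw [← hqdef] at hxq hR
  have h2 : (2 : K) = 0 := two_eq_zero_K
  have hq : q ^ 2 = q := by rw [hqdef]; exact idem_K _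
  have hr : r ^ 2 = r := by rw [hrdef]; exact idem_K _
  have ea1 : (W.toAffine⁄K).a₁ = 1 := by
    show algebraMap (ZMod 2) K W.a₁ = 1
    rw [h1, map_one]
  have ea2 : (W.toAffine⁄K).a₂ = (q + 1) := by
    show algebraMap (ZMod 2) K W.a₂ = (q + 1)
    rw [h23, map_add, map_one, hqdef]
  have ea3 : (W.toAffine⁄K).a₃ = q := hqdef.symm
  have ea4 : (W.toAffine⁄K).a₄ = r := hrdef.symm
  have ea6 : (W.toAffine⁄K).a₆ = 1 + r + q * (r + (q + 1)) := by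
    show algebraMap (ZMod 2) K W.a₆ = 1 + r + q * (r + (q + 1))
    rw [h6, map_add, map_add, map_mul, map_add, map_one]
    show 1 + algebraMap (ZMod 2) K W.a₄ + algebraMap (ZMod 2) K W.a₃ *
      (algebraMap (ZMod 2) K W.a₄ + (W.toAffine⁄K).a₂) = _
    rw [ea2, hqdef, hrdef]
  have hC := (equation_iff _ _).mp h.1
  rw [ea1, ea2, ea3, ea4, ea6] at hC
  obtain ⟨d, hd⟩ : ∃ d : K, d * (x + q) = 1 := ⟨(x + q)⁻¹, inv_mul_cancel₀ hxq⟩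
  have hd0 : d ≠ 0 := by
    rintro rfl
    rw [zero_mul] at hd
    exact zero_ne_one hd
  obtain ⟨hφ, eφ⟩ := frob_some W h
  obtain ⟨hφφ, eφφ⟩ := frob_some W hφ
  have hden : 2 * y + 1 * x + q ≠ 0 := by
    have e : 2 * y + 1 * x + q = x + q := by linear_combination y * h2
    rw [e]
    exact hxq
  have hL : ((x ^ 2 + r + y) * d) * (2 * y + 1 * x + q) = 3 * x ^ 2 + 2 * (q + 1) * x + r - 1 * y := by
    linear_combination (2 * d) * hC + (2 * y * x - 2 * y * q - y + 3 * x^2 + 2 * x - 2 * q + 3 * r) * hd + (2 * y * d + 4 * d) * hq + (y * d * q + y * d * r + y * x - y * q + 3 * d * q + d * r + d - x * q - q + r) * h2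
  obtain ⟨hD, eD⟩ := dbl_ex (W.toAffine⁄K) ea1 ea2 ea3 ea4 h hden hL
    (X := (((x ^ 2 + r + y) * d) ^ 2 + 1 * ((x ^ 2 + r + y) * d) - (q + 1) - 2 * x))
    (Y := (-(((x ^ 2 + r + y) * d) * ((((x ^ 2 + r + y) * d) ^ 2 + 1 * ((x ^ 2 + r + y) * d) - (q + 1) - 2 * x) - x) + y) - 1 * (((x ^ 2 + r + y) * d) ^ 2 + 1 * ((x ^ 2 + r + y) * d) - (q + 1) - 2 * x) - q)) rfl rfl
  have h12 : (x ^ 2) ^ 2 ≠ x ^ 2 := by
    intro e
    have e0 : x * x * ((x - 1) * (x - 1)) = 0 := by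
      linear_combination e + (-x ^ 3 + x ^ 2) * h2
    rcases mul_eq_zero.mp e0 with h0 | h0
    · exact hx0 (mul_self_eq_zero.mp h0)
    · exact hx1 (sub_eq_zero.mp (mul_self_eq_zero.mp h0))
  have hid23 : (((x ^ 2 + r + y) * d) ^ 2 + 1 * ((x ^ 2 + r + y) * d) - (q + 1) - 2 * x) - x ^ 2 = d ^ 2 := by
    linear_combination (d^2) * hC + (2 * y * d * x - 2 * y * d * q - y * d + 2 * y + d * x^3 - d * x^2 * q + d * x^2 + d * x * q^2 + 2 * d * x * r + d * x - d * q^3 - 2 * d * q * r - d * q + d * r + x^2 - 2 * x * q + 2 * x + 3 * q^2 - 2 * q + 2 * r + 1) * hd + (2 * y * d^2 + d^2 * q^2 + d^2 * q + 2 * d^2 * r + 3 * d^2 - 4 * d * q - 2 * d + 3) * hq + (d^2) * hr + (y * d^2 * q + y * d^2 * r - 2 * y * d * q + y + d^2 * q * r + 2 * d^2 * q + d^2 * r - 2 * d * q * r - 2 * d * q + d * r - x * q + r) * h2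
  have hid13 : (((x ^ 2 + r + y) * d) ^ 2 + 1 * ((x ^ 2 + r + y) * d) - (q + 1) - 2 * x) - (x ^ 2) ^ 2 =
      d ^ 2 * (x ^ 6 + (q + 1) * x ^ 4 + q * x ^ 2 + 1) := by
    linear_combination (d^2) * hC + (2 * y * d * x - 2 * y * d * q - y * d + 2 * y - d * x^5 + d * x^4 * q - d * x^3 * q^2 - d * x^3 * q + d * x^2 * q^3 + d * x^2 * q^2 + d * x^2 - d * x * q^4 - d * x * q^3 - d * x * q + 2 * d * x * r + d * x + d * q^5 + d * q^4 + d * q^2 - 2 * d * q * r - d * q + d * r - x^4 + 2 * x^3 * q - 3 * x^2 * q^2 - x^2 * q + 4 * x * q^3 + 2 * x * q^2 + 2 * x - 5 * q^4 - 3 * q^3 - 3 * q + 2 * r + 1) * hd + (2 * y * d^2 - d^2 * q^4 - 2 * d^2 * q^3 - 2 * d^2 * q^2 - 3 * d^2 * q + 2 * d^2 * r - d^2 + 6 * d * q^3 + 10 * d * q^2 + 10 * d * q + 14 * d - 3 * x^2 + 4 * x * q + 6 * x - 5 * q^2 - 8 * q - 8) * hq + (d^2) * hr + (y * d^2 * q + y * d^2 * r - 2 * y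 * d * q + y + d^2 * q * r + d^2 * r - 2 * d * q * r + 6 * d * q + d * r - x^4 + x^3 * q - 2 * x^2 * q + 3 * x * q - 6 * q + r) * h2
  have h23' : (((x ^ 2 + r + y) * d) ^ 2 + 1 * ((x ^ 2 + r + y) * d) - (q + 1) - 2 * x) ≠ x ^ 2 := by
    intro e
    rw [e, sub_self] at hid23
    exact pow_ne_zero 2 hd0 hid23.symm
  have h13 : (((x ^ 2 + r + y) * d) ^ 2 + 1 * ((x ^ 2 + r + y) * d) - (q + 1) - 2 * x) ≠ (x ^ 2) ^ 2 := by
    intro e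
    rw [e, sub_self] at hid13
    exact mul_ne_zero (pow_ne_zero 2 hd0) hR hid13.symm
  have hcol : ((-(((x ^ 2 + r + y) * d) * ((((x ^ 2 + r + y) * d) ^ 2 + 1 * ((x ^ 2 + r + y) * d) - (q + 1) - 2 * x) - x) + y) - 1 * (((x ^ 2 + r + y) * d) ^ 2 + 1 * ((x ^ 2 + r + y) * d) - (q + 1) - 2 * x) - q) - (y ^ 2) ^ 2) * (x ^ 2 - (x ^ 2) ^ 2) =
      ((-(y ^ 2) - 1 * x ^ 2 - q) - (y ^ 2) ^ 2) * ((((x ^ 2 + r + y) * d) ^ 2 + 1 * ((x ^ 2 + r + y) * d) - (q + 1) - 2 * x) - (x ^ 2) ^ 2) := by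
    linear_combination (y^4 * d^2 + 2 * y^3 * d^2 * x^2 - y^3 * d^2 * x - y^3 * d^2 * q + 2 * y^3 * d^2 * r + y^3 * d + y^2 * d^2 * x^4 - y^2 * d^2 * x^3 - y^2 * d^2 * x^2 * q + 2 * y^2 * d^2 * x^2 * r + 2 * y^2 * d^2 * x^2 + 2 * y^2 * d^2 * x * q - y^2 * d^2 * x * r + 2 * y^2 * d^2 * q^2 - y^2 * d^2 * q * r + y^2 * d^2 * q + y^2 * d^2 * r^2 + y^2 * d^2 * r + 2 * y^2 * d^2 + y^2 * d * x^2 - y^2 * d * x - y^2 * d * q + y^2 * d * r - y^2 * x^2 - 2 * y^2 * x - y^2 * q - y^2 + y * d^3 * x^4 - y * d^3 * x^2 + y * d^2 * x^5 + y * d^2 * x^4 * q + 2 * y * d^2 * x^4 + 2 * y * d^2 * x^3 * r - 3 * y * d^2 * x^3 + 2 * y * d^2 * x^2 * q^2 + 2 * y * d^2 * x^2 * q * r - 3 * y * d^2 * x^2 * q + 4 * y * d^2 * x^2 * r + 4 * y * d^2 * x^2 - 5 * y * d^2 * x * q^2 - 2 * y * d^2 * x * q + y * d^2 * x * r^2 - 2 * y * d^2 * x * r - 3 * y * d^2 * x - 3 * y * d^2 *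 q^3 + 2 * y * d^2 * q^2 * r - 2 * y * d^2 * q^2 + y * d^2 * q * r^2 - 3 * y * d^2 * q + 2 * y * d^2 * r^2 + 4 * y * d^2 * r + 2 * y * d * x^2 + 2 * y * d * x * q + 2 * y * d * q^2 + y * d * q + y * d * r + 2 * y * d + y * x^3 + y * x^2 * q + 2 * y * x^2 + 3 * y * x * q + y * x + y * q^2 + y * q + 3 * d^3 * x^6 - d^3 * x^5 - d^3 * x^4 * q + 3 * d^3 * x^4 * r - 3 * d^3 * x^4 + d^3 * x^3 + d^3 * x^2 * q - 3 * d^3 * x^2 * r + d^2 * x^7 + d^2 * x^6 * q - d^2 * x^6 - 4 * d^2 * x^5 * q + 3 * d^2 * x^5 * r - d^2 * x^5 - d^2 * x^4 * q^2 + 3 * d^2 * x^4 * q * r + 2 * d^2 * x^4 * q - d^2 * x^4 * r + 9 * d^2 * x^4 + d^2 * x^3 * q^2 - 8 * d^2 * x^3 * q * r + 8 * d^2 * x^3 * q + 3 * d^2 * x^3 * r^2 - 3 * d^2 * x^3 * r - 3 * d^2 * x^3 - d^2 * x^2 * q^3 - 2 * d^2 * x^2 * q^2 * r + 12 * d^2 * x^2 * q^2 + 3 * d^2 * x^2 * q * r^2 + d^2 * x^2 * q * r + 2 * d^2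 * x^2 * q + d^2 * x^2 * r^2 + 9 * d^2 * x^2 * r + 6 * d^2 * x^2 + 10 * d^2 * x * q^3 + d^2 * x * q^2 * r + 6 * d^2 * x * q^2 - 4 * d^2 * x * q * r^2 + 4 * d^2 * x * q * r + 8 * d^2 * x * q + d^2 * x * r^3 - 2 * d^2 * x * r^2 - 3 * d^2 * x * r + 5 * d^2 * q^4 - d^2 * q^3 * r + 5 * d^2 * q^3 - d^2 * q^2 * r^2 + 3 * d^2 * q^2 * r + 8 * d^2 * q^2 + d^2 * q * r^3 - d^2 * q * r^2 - d^2 * q * r + 4 * d^2 * q + d^2 * r^3 + 3 * d^2 * r^2 + 3 * d^2 * r + 2 * d^2 + d * x^5 + d * x^4 * q - 2 * d * x^3 * q + 2 * d * x^3 * r - 3 * d * x^3 + 2 * d * x^2 * q * r - 4 * d * x^2 * q + d * x^2 * r + 2 * d * x^2 - 5 * d * x * q^2 - 2 * d * x * q * r - 2 * d * x * q + d * x * r^2 - 2 * d * x * r - 3 * d * x - 3 * d * q^3 - 2 * d * q^2 + d * q * r^2 - d * q * r - 3 * d * q + d * r^2 + 2 * d * r - x^5 - x^4 * q - 5 * x^4 - 5 * x^3 * q - x^3 * r - 5 * x^3 - 3 * x^2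 * q^2 - x^2 * q * r - 8 * x^2 * q - 3 * x^2 * r - 3 * x^2 - 6 * x * q^2 - 3 * x * q * r - 4 * x * q - 3 * x * r - 4 * x - 2 * q^3 - q^2 * r - 3 * q^2 - 2 * q * r - 3 * q - r - 2) * hC + (3 * y * d^2 * x^7 - 3 * y * d^2 * x^6 * q - 2 * y * d^2 * x^6 + 3 * y * d^2 * x^5 * q^2 + 6 * y * d^2 * x^5 * r - y * d^2 * x^5 - 3 * y * d^2 * x^4 * q^3 - 6 * y * d^2 * x^4 * q * r + 3 * y * d^2 * x^4 * q - 2 * y * d^2 * x^4 * r + 2 * y * d^2 * x^4 + 3 * y * d^2 * x^3 * q^4 + 6 * y * d^2 * x^3 * q^2 * r - y * d^2 * x^3 * q^2 + y * d^2 * x^3 * q + 3 * y * d^2 * x^3 * r^2 - 5 * y * d^2 * x^3 * r - y * d^2 * x^3 - 3 * y * d^2 * x^2 * q^5 - 6 * y * d^2 * x^2 * q^3 * r + y * d^2 * x^2 * q^3 - y * d^2 * x^2 * q^2 - 3 * y * d^2 * x^2 * q * r^2 + 5 * y * d^2 * x^2 * q * r - y * d^2 * x^2 * q + 2 * y * d^2 * x^2 * r + 3 * y * d^2 * x * q^6 + 6 * y * d^2 * x * q^4 *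 r - y * d^2 * x * q^4 + y * d^2 * x * q^3 + 3 * y * d^2 * x * q^2 * r^2 - 5 * y * d^2 * x * q^2 * r - y * d^2 * x * q^2 - y * d^2 * x * q - 3 * y * d^2 * x * r^2 - y * d^2 * x * r - y * d^2 * x - 3 * y * d^2 * q^7 - 6 * y * d^2 * q^5 * r + y * d^2 * q^5 - y * d^2 * q^4 - 3 * y * d^2 * q^3 * r^2 + 5 * y * d^2 * q^3 * r + y * d^2 * q^3 + y * d^2 * q^2 + 3 * y * d^2 * q * r^2 + y * d^2 * q * r + y * d^2 * q + 7 * y * d * x^6 - 2 * y * d * x^5 * q + 2 * y * d * x^5 + 13 * y * d * x^4 * q^2 - 8 * y * d * x^4 * q + 16 * y * d * x^4 * r - 8 * y * d * x^4 - 12 * y * d * x^3 * q^3 + 2 * y * d * x^3 * q^2 - 4 * y * d * x^3 * q * r - 4 * y * d * x^3 * q + 6 * y * d * x^3 * r + 6 * y * d * x^3 + 15 * y * d * x^2 * q^4 - 10 * y * d * x^2 * q^3 + 26 * y * d * x^2 * q^2 * r - 29 * y * d * x^2 * q^2 - 10 * y * d * x^2 * q * r - 15 * y * d * x^2 * q + 11 *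 y * d * x^2 * r^2 - 9 * y * d * x^2 * r - 13 * y * d * x^2 - 18 * y * d * x * q^5 + 10 * y * d * x * q^4 - 24 * y * d * x * q^3 * r + 2 * y * d * x * q^3 + 10 * y * d * x * q^2 * r + 4 * y * d * x * q^2 - 2 * y * d * x * q * r^2 + 10 * y * d * x * q * r - 2 * y * d * x * q + 6 * y * d * x * r^2 + 12 * y * d * x * r + 4 * y * d * x + 21 * y * d * q^6 - 10 * y * d * q^5 + 30 * y * d * q^4 * r - 23 * y * d * q^4 - 18 * y * d * q^3 * r - 21 * y * d * q^3 + 13 * y * d * q^2 * r^2 - 33 * y * d * q^2 * r - 25 * y * d * q^2 - 4 * y * d * q * r^2 - 18 * y * d * q * r - 14 * y * d * q + 2 * y * d * r^3 - 3 * y * d * r^2 - 9 * y * d * r - 6 * y * d + 6 * y * x^5 - 10 * y * x^4 * q + y * x^4 + 22 * y * x^3 * q^2 - 4 * y * x^3 * q + 14 * y * x^3 * r - 3 * y * x^3 - 34 * y * x^2 * q^3 + 12 * y * x^2 * q^2 - 22 * y * x^2 * q * r + 9 * y * x^2 * q + 8 * y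 * x^2 * r + 9 * y * x^2 + 49 * y * x * q^4 - 20 * y * x * q^3 + 46 * y * x * q^2 * r - 24 * y * x * q^2 - 12 * y * x * q * r - 18 * y * x * q + 10 * y * x * r^2 - 4 * y * x * r - 5 * y * x - 67 * y * q^5 + 30 * y * q^4 - 70 * y * q^3 * r + 36 * y * q^3 + 28 * y * q^2 * r + 28 * y * q^2 - 14 * y * q * r^2 + 20 * y * q * r + 11 * y * q + 6 * y * r^2 + 12 * y * r + 4 * y + d^2 * x^9 - d^2 * x^8 * q + 3 * d^2 * x^8 + d^2 * x^7 * q^2 + 3 * d^2 * x^7 * r + d^2 * x^7 - d^2 * x^6 * q^3 - 3 * d^2 * x^6 * q * r - 3 * d^2 * x^6 * q + 6 * d^2 * x^6 * r - 4 * d^2 * x^6 + d^2 * x^5 * q^4 + 3 * d^2 * x^5 * q^2 * r + 5 * d^2 * x^5 * q^2 + 3 * d^2 * x^5 * q + 3 * d^2 * x^5 * r^2 + 2 * d^2 * x^5 * r + d^2 * x^5 - d^2 * x^4 * q^5 - 3 * d^2 * x^4 * q^3 * r - 5 * d^2 * x^4 * q^3 - 4 * d^2 * x^4 * q^2 - 3 * d^2 * x^4 * q * r^2 - 4 * d^2 * x^4 * q * r + 3 * d^2 *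 x^4 * r^2 - 7 * d^2 * x^4 * r + d^2 * x^3 * q^6 + 3 * d^2 * x^3 * q^4 * r + 5 * d^2 * x^3 * q^4 + 3 * d^2 * x^3 * q^3 + 3 * d^2 * x^3 * q^2 * r^2 + 6 * d^2 * x^3 * q^2 * r - 3 * d^2 * x^3 * q^2 + 3 * d^2 * x^3 * q * r - 3 * d^2 * x^3 * q + d^2 * x^3 * r^3 - 2 * d^2 * x^3 * r - 3 * d^2 * x^3 - d^2 * x^2 * q^7 - 3 * d^2 * x^2 * q^5 * r - 5 * d^2 * x^2 * q^5 - 3 * d^2 * x^2 * q^4 - 3 * d^2 * x^2 * q^3 * r^2 - 6 * d^2 * x^2 * q^3 * r + 3 * d^2 * x^2 * q^3 - 3 * d^2 * x^2 * q^2 * r + 4 * d^2 * x^2 * q^2 - d^2 * x^2 * q * r^3 + 4 * d^2 * x^2 * q * r + 4 * d^2 * x^2 * q - 3 * d^2 * x^2 * r^2 + d^2 * x^2 * r + d^2 * x^2 + d^2 * x * q^8 + 3 * d^2 * x * q^6 * r + 5 * d^2 * x * q^6 + 3 * d^2 * x * q^5 + 3 * d^2 * x * q^4 * r^2 + 6 * d^2 * x * q^4 * r - 3 * d^2 * x * q^4 + 3 * d^2 * x * q^3 * r - 3 * d^2 * x * q^3 + d^2 * x * q^2 * r^3 - 6 * d^2 * x *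 q^2 * r - 3 * d^2 * x * q^2 - 3 * d^2 * x * q * r - d^2 * x * r^3 - 3 * d^2 * x * r^2 - 3 * d^2 * x * r - d^2 * q^9 - 3 * d^2 * q^7 * r - 5 * d^2 * q^7 - 3 * d^2 * q^6 - 3 * d^2 * q^5 * r^2 - 6 * d^2 * q^5 * r + 3 * d^2 * q^5 - 3 * d^2 * q^4 * r + 3 * d^2 * q^4 - d^2 * q^3 * r^3 + 6 * d^2 * q^3 * r + 3 * d^2 * q^3 + 3 * d^2 * q^2 * r + d^2 * q * r^3 + 3 * d^2 * q * r^2 + 3 * d^2 * q * r + d * x^9 + d * x^8 * q + d * x^8 - 6 * d * x^7 * q + 4 * d * x^7 * r + 3 * d * x^7 + 3 * d * x^6 * q^2 + 4 * d * x^6 * q * r - 5 * d * x^6 * q + 5 * d * x^6 * r + 10 * d * x^6 - 4 * d * x^5 * q^3 + 7 * d * x^5 * q^2 - 18 * d * x^5 * q * r + 6 * d * x^5 * q + 6 * d * x^5 * r^2 + 4 * d * x^5 * r + 5 * d * x^4 * q^4 - 11 * d * x^4 * q^3 + 9 * d * x^4 * q^2 * r + 15 * d * x^4 * q^2 + 6 * d * x^4 * q * r^2 - 14 * d * x^4 * q * r + 5 * d * x^4 * q + 9 * d * x^4 *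 r^2 + 19 * d * x^4 * r + 3 * d * x^4 - 6 * d * x^3 * q^5 + 9 * d * x^3 * q^4 - 12 * d * x^3 * q^3 * r + 2 * d * x^3 * q^3 + 18 * d * x^3 * q^2 * r + 21 * d * x^3 * q^2 - 18 * d * x^3 * q * r^2 + 12 * d * x^3 * q * r + 25 * d * x^3 * q + 4 * d * x^3 * r^3 + 2 * d * x^3 * r + 15 * d * x^3 + 7 * d * x^2 * q^6 - 9 * d * x^2 * q^5 + 15 * d * x^2 * q^4 * r + 19 * d * x^2 * q^4 - 26 * d * x^2 * q^3 * r + 12 * d * x^2 * q^3 + 9 * d * x^2 * q^2 * r^2 + 12 * d * x^2 * q^2 * r + 4 * d * x^2 * q * r^3 - 14 * d * x^2 * q * r^2 - 3 * d * x^2 * q * r - d * x^2 * q + 7 * d * x^2 * r^3 + 10 * d * x^2 * r^2 - 2 * d * x^2 * r - 4 * d * x^2 - 8 * d * x * q^7 + 9 * d * x * q^6 - 18 * d * x * q^5 * r - 20 * d * x * q^5 + 22 * d * x * q^4 * r + 6 * d * x * q^4 - 12 * d * x * q^3 * r^2 + 4 * d * x * q^3 * r + 29 * d * x * q^3 + 16 * d * x * q^2 * r^2 + 30 * d * x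 * q^2 * r + 37 * d * x * q^2 - 6 * d * x * q * r^3 + 10 * d * x * q * r^2 + 36 * d * x * q * r + 22 * d * x * q + d * x * r^4 + 6 * d * x * r^2 + 19 * d * x * r + 9 * d * x + 9 * d * q^8 - 9 * d * q^7 + 21 * d * q^6 * r + 25 * d * q^6 - 22 * d * q^5 * r + 7 * d * q^5 + 15 * d * q^4 * r^2 + 18 * d * q^4 * r - 16 * d * q^4 - 20 * d * q^3 * r^2 - d * q^3 * r - 16 * d * q^3 + 3 * d * q^2 * r^3 - 8 * d * q^2 * r^2 - 18 * d * q^2 * r - 11 * d * q^2 + d * q * r^4 - 6 * d * q * r^3 - 12 * d * q * r^2 - 9 * d * q * r - d * q + 2 * d * r^4 + d * r^3 - 5 * d * r^2 - 4 * d * r + x^8 + 2 * x^7 - 6 * x^6 * q + 4 * x^6 * r + x^6 + 10 * x^5 * q^2 - 8 * x^5 * q + 8 * x^5 * r + 7 * x^5 - 14 * x^4 * q^3 + 14 * x^4 * q^2 - 20 * x^4 * q * r - 9 * x^4 * q + 6 * x^4 * r^2 + 5 * x^4 * r + 3 * x^4 + 19 * x^3 * q^4 - 24 * x^3 * q^3 + 32 * x^3 * q^2 * r + 16 * x^3 *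 q^2 - 20 * x^3 * q * r + 12 * x^3 * r^2 + 15 * x^3 * r + 3 * x^3 - 25 * x^2 * q^5 + 33 * x^2 * q^4 - 44 * x^2 * q^3 * r - 24 * x^2 * q^3 + 36 * x^2 * q^2 * r + 7 * x^2 * q^2 - 24 * x^2 * q * r^2 - 15 * x^2 * q * r + 9 * x^2 * q + 4 * x^2 * r^3 + 5 * x^2 * r^2 + 6 * x^2 * r + 9 * x^2 + 32 * x * q^6 - 42 * x * q^5 + 59 * x * q^4 * r + 40 * x * q^4 - 60 * x * q^3 * r - 4 * x * q^3 + 36 * x * q^2 * r^2 + 20 * x * q^2 * r - 16 * x * q^2 - 16 * x * q * r^2 - 8 * x * q * r - 14 * x * q + 8 * x * r^3 + 10 * x * r^2 + x * r - 2 * x - 40 * q^7 + 51 * q^6 - 77 * q^5 * r - 60 * q^5 + 82 * q^4 * r + 5 * q^4 - 48 * q^3 * r^2 - 26 * q^3 * r + 38 * q^3 + 31 * q^2 * r^2 + 25 * q^2 * r + 41 * q^2 - 12 * q * r^3 - 4 * q * r^2 + 23 * q * r + 19 * q + r^4 + 2 * r^3 + 7 * r^2 + 14 * r + 6) * hd + (3 * y * d^3 * q^6 + 3 * y * d^3 * q^5 + 6 * y * d^3 * q^4 * r + 2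 * y * d^3 * q^4 + 6 * y * d^3 * q^3 * r + 3 * y * d^3 * q^3 + 3 * y * d^3 * q^2 * r^2 + y * d^3 * q^2 * r + 2 * y * d^3 * q^2 + 3 * y * d^3 * q * r^2 + y * d^3 * q * r + y * d^3 * q - 24 * y * d^2 * q^5 - 14 * y * d^2 * q^4 - 36 * y * d^2 * q^3 * r + 2 * y * d^2 * q^3 - 18 * y * d^2 * q^2 * r + 12 * y * d^2 * q^2 - 12 * y * d^2 * q * r^2 + 14 * y * d^2 * q * r + 22 * y * d^2 * q - 2 * y * d^2 * r^2 + 34 * y * d^2 * r + 28 * y * d^2 + 88 * y * d * q^4 + 48 * y * d * q^3 + 100 * y * d * q^2 * r - 6 * y * d * q^2 + 56 * y * d * q * r - 50 * y * d * q + 26 * y * d * r^2 + 8 * y * d * r - 78 * y * d + 2 * y * x^4 + 35 * y * x^3 - 29 * y * x^2 * q + 2 * y * x^2 * r + 2 * y * x^2 + 49 * y * x * q^2 + 40 * y * x * q + 54 * y * x * r + 27 * y * x - 67 * y * q^3 - 34 * y * q^2 - 68 * y * q * r + 7 * y * q - 36 * y * r + 40 * y + d^3 * q^8 + d^3 * q^7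 + 3 * d^3 * q^6 * r + 6 * d^3 * q^6 + 3 * d^3 * q^5 * r + 9 * d^3 * q^5 + 3 * d^3 * q^4 * r^2 + 9 * d^3 * q^4 * r + 6 * d^3 * q^4 + 3 * d^3 * q^3 * r^2 + 12 * d^3 * q^3 * r + 3 * d^3 * q^3 + d^3 * q^2 * r^3 + 3 * d^3 * q^2 * r^2 + 6 * d^3 * q^2 * r + d^3 * q * r^3 + 3 * d^3 * q * r^2 + 3 * d^3 * q * r - 10 * d^2 * q^7 - d^2 * q^6 - 24 * d^2 * q^5 * r - 31 * d^2 * q^5 - 2 * d^2 * q^4 * r - 36 * d^2 * q^4 - 18 * d^2 * q^3 * r^2 - 22 * d^2 * q^3 * r - 7 * d^2 * q^3 - 12 * d^2 * q^2 * r + 30 * d^2 * q^2 - 4 * d^2 * q * r^3 + 8 * d^2 * q * r^2 + 26 * d^2 * q * r + 61 * d^2 * q + 2 * d^2 * r^3 + 23 * d^2 * r^2 + 55 * d^2 * r + 76 * d^2 + 49 * d * q^6 - 11 * d * q^5 + 98 * d * q^4 * r + 74 * d * q^4 - 6 * d * q^3 * r + 73 * d * q^3 + 63 * d * q^2 * r^2 + 35 * d * q^2 * r + 14 * d * q^2 + 13 * d * q * r^2 + 3 * d * q * r - 51 * d * q + 16 * d * r^3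 + 10 * d * r^2 - 42 * d * r - 86 * d - x^6 + x^5 - 18 * x^4 * q - 2 * x^4 * r - 27 * x^4 + 19 * x^3 * q^2 - 18 * x^3 * q + 19 * x^3 * r - 25 * x^3 - 25 * x^2 * q^3 + 3 * x^2 * q^2 - 49 * x^2 * q * r - 37 * x^2 * q - x^2 * r^2 - 37 * x^2 * r - 50 * x^2 + 32 * x * q^4 - 10 * x * q^3 + 59 * x * q^2 * r + 24 * x * q^2 - 12 * x * q * r + 10 * x * q + 32 * x * r^2 - 11 * x * r - 20 * x - 40 * q^5 + 11 * q^4 - 77 * q^3 * r - 51 * q^3 + 2 * q^2 * r - 51 * q^2 - 49 * q * r^2 - 32 * q * r - 21 * q - 21 * r^2 - 17 * r + 11) * hq + (8 * y * d^2 * q + 2 * y * d^2 * r + 8 * y * d^2 + 16 * y * d * q + 2 * y * d * r + 10 * y * x - 14 * y * q + 6 * y + 6 * d^2 * q * r + 42 * d^2 * q + d^2 * r^2 + 5 * d^2 * r + 11 * d^2 + 10 * d * q * r + 4 * d * q + 2 * d * r^2 + 4 * d * r + 2 * d + 5 * x^4 - 2 * x^3 * q + 8 * x^3 - 32 * x^2 * q + 4 * x^2 * r + 3 * x^2 + 8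 * x * q + 8 * x * r + 14 * x - 12 * q * r - 40 * q + r^2 + 3 * r + 9) * hr + (26 * y * d^2 * q * r + 15 * y * d^2 * q + 6 * y * d^2 * r - 2 * y * d * q * r - 46 * y * d * q - 3 * y * d * r - 2 * y * d + y * x^6 + 2 * y * x^5 * q + 7 * y * x^5 + 4 * y * x^4 * q + y * x^4 * r + 5 * y * x^4 + 2 * y * x^3 * q * r + 25 * y * x^3 * q + 10 * y * x^3 * r + y * x^3 - 4 * y * x^2 * q * r + 11 * y * x^2 * q + 7 * y * x^2 * r + 7 * y * x^2 + 26 * y * x * q * r + 10 * y * x * q + 4 * y * x * r - y * x - 14 * y * q * r + 27 * y * q + 9 * y * r + 2 * y + 56 * d^2 * q * r + 41 * d^2 * q + 8 * d^2 * r + d^2 - 31 * d * q * r - 48 * d * q - x^7 * q - 2 * x^7 - 9 * x^6 * q + x^6 * r - 5 * x^6 - 2 * x^5 * q * r - 13 * x^5 * q - x^5 * r - 2 * x^5 - 20 * x^4 * q * r - 29 * x^4 * q - 3 * x^4 * r - 5 * x^4 - 15 * x^3 * q * r - 23 * x^3 * q + 5 * x^3 * r - 4 * x^3 -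 53 * x^2 * q * r - 29 * x^2 * q - x^2 * r + 2 * x^2 - 14 * x * q * r - 22 * x * q + 3 * x * r - 3 * x - 21 * q * r + 12 * q + 10 * r + 2) * h2
  obtain ⟨hN, eN⟩ := neg_ex (W.toAffine⁄K) ea1 ea3 hφ
  rw [eφ, eφφ, eN, eD]
  exact add_add_eq_zero_of_collinear _ hφφ hN hD h12 h13 h23' hcol

/-! ### From the generic points to all points -/

/-- An endomorphism of an infinite abelian group vanishing off a finite set is zero. -/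
theorem hom_eq_zero_of_cofinite {G : Type*} [AddCommGroup G] [Infinite G] (ψ : G →+ G)
    (B : Set G) (hB : B.Finite) (h : ∀ P, P ∉ B → ψ P = 0) (P : G) : ψ P = 0 := by
  have hfin : (B ∪ (fun R => R - P) '' B).Finite := hB.union (hB.image _)
  obtain ⟨Q, hQ⟩ := hfin.exists_notMem
  have hQ1 : Q ∉ B := fun hq => hQ (Or.inl hq)
  have hQ2 : P + Q ∉ B := fun hq => hQ (Or.inr ⟨P + Q, hq, add_sub_cancel_left P Q⟩)
  have h3 := h (P + Q) hQ2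
  rw [map_add, h Q hQ1, add_zero] at h3
  exact h3

/-- The points with a given `x`-coordinate form a finite set. -/
theorem fiber_finite (E : WeierstrassCurve.Affine K) (x : K) :
    {P : E.Point | ∃ (y : K) (h : E.Nonsingular x y), P = Point.some x y h}.Finite := by
  by_cases hne : ∃ (y : K) (_ : E.Nonsingular x y), True
  · obtain ⟨y₀, h₀, -⟩ := hne
    refine Set.Finite.subset (Set.toFinite {Point.some x y₀ h₀, -Point.some x y₀ h₀}) ?_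
    rintro P ⟨y, h, rfl⟩
    rcases (Point.X_eq_iff (h₁ := h) (h₂ := h₀)).mp rfl with e | e
    · exact Or.inl e
    · exact Or.inr e
  · convert Set.finite_empty (α := E.Point)
    ext P
    simp only [Set.mem_ofPred_eq, Set.mem_empty_iff_false, iff_false]
    rintro ⟨y, h, -⟩
    exact hne ⟨y, h, trivial⟩

/-- The points with `x`-coordinate in a finite set form a finite set. -/
theorem bad_finite (E : WeierstrassCurve.Affine K) (S : Set K) (hS : S.Finite) :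
    {P : E.Point | ∃ (x y : K) (h : E.Nonsingular x y), P = Point.some x y h ∧ x ∈ S}.Finite := by
  refine Set.Finite.subset (hS.biUnion (fun x _ => fiber_finite E x)) ?_
  rintro P ⟨x, y, h, rfl, hx⟩
  exact Set.mem_biUnion hx ⟨y, h, rfl⟩

/-- Over an algebraically closed field a nonsingular Weierstrass curve has infinitely many
points. -/
theorem infinite_point [IsAlgClosed K] (E : WeierstrassCurve.Affine K) (hΔ : E.Δ ≠ 0) :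
    Infinite E.Point := by
  have hex : ∀ x : K, ∃ y : K, E.Equation x y := by
    intro x
    obtain ⟨y, hy⟩ := IsAlgClosed.exists_root
      (Polynomial.C 1 * Polynomial.X ^ 2 + Polynomial.C (E.a₁ * x + E.a₃) * Polynomial.X +
        Polynomial.C (-(x ^ 3 + E.a₂ * x ^ 2 + E.a₄ * x + E.a₆)))
      (by rw [Polynomial.degree_quadratic one_ne_zero]; norm_num)
    refine ⟨y, (equation_iff _ _).mpr ?_⟩
    simp only [Polynomial.IsRoot, Polynomial.eval_add, Polynomial.eval_mul, Polynomial.eval_pow,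
      Polynomial.eval_X, Polynomial.eval_C] at hy
    linear_combination hy
  choose f hf using hex
  exact Infinite.of_injective
    (fun x => Point.some x (f x) ((equation_iff_nonsingular_of_Δ_ne_zero hΔ).mp (hf x)))
    (fun x x' e => (Point.some.inj e).1)

theorem baseChange_Δ_ne (hΔ : W.Δ ≠ 0) : (W.toAffine⁄K).Δ ≠ 0 := by
  show (W.map (algebraMap (ZMod 2) K)).Δ ≠ 0
  rw [WeierstrassCurve.map_Δ]
  exact (map_ne_zero _).mpr hΔ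

/-- The exceptional `x`-coordinates of the ordinary family. -/
theorem bad_x_finite (q : K) :
    {x : K | x = 0 ∨ x = 1 ∨ x + q = 0 ∨ x ^ 6 + (q + 1) * x ^ 4 + q * x ^ 2 + 1 = 0}.Finite := by
  have h1 : ({0, 1, -q} : Set K).Finite := Set.toFinite _
  have hpoly : (Polynomial.X ^ 6 + Polynomial.C (q + 1) * Polynomial.X ^ 4 +
      Polynomial.C q * Polynomial.X ^ 2 + 1 : Polynomial K) ≠ 0 := by
    intro h0
    have h00 := congrArg (Polynomial.eval 0) h0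
    simp at h00
  refine Set.Finite.subset (h1.union (Polynomial.finite_setOfPred_isRoot hpoly)) ?_
  rintro x (hx | hx | hx | hx)
  · exact Or.inl (Or.inl hx)
  · exact Or.inl (Or.inr (Or.inl hx))
  · exact Or.inl (Or.inr (Or.inr (eq_neg_of_add_eq_zero_left hx)))
  · refine Or.inr ?_
    simp only [Set.mem_ofPred_eq, Polynomial.IsRoot, Polynomial.eval_add, Polynomial.eval_mul,
      Polynomial.eval_pow, Polynomial.eval_X, Polynomial.eval_C, Polynomial.eval_one]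
    exact hx

/-! ### The ordinary family: all points -/

theorem rel_orm [IsAlgClosed K] (hΔ : W.Δ ≠ 0) (h1 : W.a₁ = 1)
    (h6 : W.a₆ = 1 + W.a₄ + W.a₃ * (W.a₄ + W.a₂)) (h23 : W.a₂ = W.a₃)
    (P : (W.toAffine⁄K).Point) :
    frob W (frob W P) + frob W P + (P + P) = 0 := by
  have : Infinite (W.toAffine⁄K).Point := infinite_point _ (baseChange_Δ_ne W hΔ)
  have key := hom_eq_zero_of_cofinite
    ((frob W).comp (frob W) + frob W +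
      (AddMonoidHom.id (W.toAffine⁄K).Point + AddMonoidHom.id (W.toAffine⁄K).Point))
    _ (bad_finite (W.toAffine⁄K) _ (bad_x_finite (algebraMap (ZMod 2) K W.a₃))) ?_ P
  · exact key
  · rintro (_ | ⟨x, y, h⟩) hP
    · exact map_zero _
    · have hx : ¬ (x = 0 ∨ x = 1 ∨ x + algebraMap (ZMod 2) K W.a₃ = 0 ∨
          x ^ 6 + (algebraMap (ZMod 2) K W.a₃ + 1) * x ^ 4 +
            algebraMap (ZMod 2) K W.a₃ * x ^ 2 + 1 = 0) :=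
        fun hx => hP ⟨x, y, h, rfl, hx⟩
      simp only [not_or] at hx
      obtain ⟨hx0, hx1, hxq, hR⟩ := hx
      exact rel_orm_generic W h1 h6 h23 h hx0 hx1 hxq hR

theorem rel_orp [IsAlgClosed K] (hΔ : W.Δ ≠ 0) (h1 : W.a₁ = 1)
    (h6 : W.a₆ = 1 + W.a₄ + W.a₃ * (W.a₄ + W.a₂)) (h23 : W.a₂ = W.a₃ + 1)
    (P : (W.toAffine⁄K).Point) :
    frob W (frob W P) + -frob W P + (P + P) = 0 := by
  have : Infinite (W.toAffine⁄K).Point := infinite_point _ (baseChange_Δ_ne W hΔ)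
  have key := hom_eq_zero_of_cofinite
    ((frob W).comp (frob W) + -frob (K := K) W +
      (AddMonoidHom.id (W.toAffine⁄K).Point + AddMonoidHom.id (W.toAffine⁄K).Point))
    _ (bad_finite (W.toAffine⁄K) _ (bad_x_finite (algebraMap (ZMod 2) K W.a₃))) ?_ P
  · exact key
  · rintro (_ | ⟨x, y, h⟩) hP
    · exact map_zero _
    · have hx : ¬ (x = 0 ∨ x = 1 ∨ x + algebraMap (ZMod 2) K W.a₃ = 0 ∨
          x ^ 6 + (algebraMap (ZMod 2) K W.a₃ + 1) * x ^ 4 +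
            algebraMap (ZMod 2) K W.a₃ * x ^ 2 + 1 = 0) :=
        fun hx => hP ⟨x, y, h, rfl, hx⟩
      simp only [not_or] at hx
      obtain ⟨hx0, hx1, hxq, hR⟩ := hx
      exact rel_orp_generic W h1 h6 h23 h hx0 hx1 hxq hR

/-! ### The point counts over `F_2` -/

theorem cl_two : ∀ a1 a2 a3 a4 a6 : ZMod 2, (WeierstrassCurve.mk a1 a2 a3 a4 a6).Δ ≠ 0 →
    (a1 = 0 ∧ a3 = 1) ∨ (a1 = 1 ∧ a6 = 1 + a4 + a3 * (a4 + a2)) := by decide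

/-- The number of points of `y² + a₁xy + a₃y = x³ + a₂x² + a₄x + a₆` over `F_2` (with the point
at infinity). -/
def cnt (a1 a2 a3 a4 a6 : ZMod 2) : ℕ :=
  1 + ∑ c : ZMod 2, (Finset.univ.filter (fun y : ZMod 2 =>
    y ^ 2 + a1 * c * y + a3 * y = c ^ 3 + a2 * c ^ 2 + a4 * c + a6)).card

theorem cnt_ss0 : ∀ a2 a6 : ZMod 2, cnt 0 a2 1 a2 a6 = 3 := by decide
theorem cnt_ssp : ∀ a2 : ZMod 2, cnt 0 a2 1 (a2 + 1) 1 = 1 := by decide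
theorem cnt_ssm : ∀ a2 : ZMod 2, cnt 0 a2 1 (a2 + 1) 0 = 5 := by decide
theorem cnt_ordm : ∀ a3 a4 : ZMod 2, cnt 1 a3 a3 a4 (1 + a4 + a3 * (a4 + a3)) = 4 := by decide
theorem cnt_ordp : ∀ a3 a4 : ZMod 2,
    cnt 1 (a3 + 1) a3 a4 (1 + a4 + a3 * (a4 + (a3 + 1))) = 2 := by decide
theorem dich : ∀ u v : ZMod 2, v = u ∨ v = u + 1 := by decide
theorem dich0 : ∀ u : ZMod 2, u = 0 ∨ u = 1 := by decide

theorem card_formula (hΔ : W.Δ ≠ 0) :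
    Nat.card W.toAffine.Point = cnt W.a₁ W.a₂ W.a₃ W.a₄ W.a₆ := by
  have h := Fermat.Agent.S52.Frob.Count.card_eq W hΔ
  rw [WeierstrassCurve.card] at h
  rw [h, cnt]
  congr 1
  refine Finset.sum_congr rfl (fun c _ => ?_)
  classical
  rw [Fermat.Agent.S52.Frob.Count.ny, Nat.card_eq_fintype_card, Fintype.card_subtype]
  congr 1
  ext y
  simp only [Finset.mem_filter, Finset.mem_univ, true_and]
  exact WeierstrassCurve.Affine.equation_iff _ _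

/-! ### Theorem F at `ℓ = 2` -/

/-- The relation over an algebraically closed field of characteristic two. -/
theorem relation_closed_two [IsAlgClosed K] (hΔ : W.Δ ≠ 0) (P : (W.toAffine⁄K).Point) :
    frob W (frob W P) - ((2 : ℤ) + 1 - (Nat.card W.toAffine.Point : ℤ)) • frob W P
      + (2 : ℤ) • P = 0 := by
  rw [card_formula W hΔ, two_zsmul]
  rcases cl_two W.a₁ W.a₂ W.a₃ W.a₄ W.a₆ hΔ with ⟨h1, h3⟩ | ⟨h1, h6⟩
  · rcases dich W.a₂ W.a₄ with h42 | h42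
    · have hc : cnt W.a₁ W.a₂ W.a₃ W.a₄ W.a₆ = 3 := by
        rw [h1, h3, h42]
        exact cnt_ss0 _ _
      have e : ((2 : ℤ) + 1 - ((3 : ℕ) : ℤ)) = 0 := by norm_num
      rw [hc, e, zero_smul, sub_zero]
      exact rel_ss0 W h1 h3 h42 P
    · rcases dich0 W.a₆ with h6 | h6
      · have hc : cnt W.a₁ W.a₂ W.a₃ W.a₄ W.a₆ = 5 := by
          rw [h1, h3, h42, h6]
          exact cnt_ssm _
        have e : ((2 : ℤ) + 1 - ((5 : ℕ) : ℤ)) = -2 := by norm_num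
        rw [hc, e, neg_smul, sub_neg_eq_add, two_zsmul, add_right_comm,
          rel_ssm W h1 h3 h42 h6 P, neg_add_cancel]
      · have hc : cnt W.a₁ W.a₂ W.a₃ W.a₄ W.a₆ = 1 := by
          rw [h1, h3, h42, h6]
          exact cnt_ssp _
        have e : ((2 : ℤ) + 1 - ((1 : ℕ) : ℤ)) = 2 := by norm_num
        rw [hc, e, two_zsmul, sub_add_eq_add_sub, rel_ssp W h1 h3 h42 h6 P, sub_self]
  · rcases dich W.a₃ W.a₂ with h23 | h23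
    · have hc : cnt W.a₁ W.a₂ W.a₃ W.a₄ W.a₆ = 4 := by
        rw [h1, h6, h23]
        exact cnt_ordm _ _
      have e : ((2 : ℤ) + 1 - ((4 : ℕ) : ℤ)) = -1 := by norm_num
      rw [hc, e, neg_smul, one_smul, sub_neg_eq_add]
      exact rel_orm W hΔ h1 h6 h23 P
    · have hc : cnt W.a₁ W.a₂ W.a₃ W.a₄ W.a₆ = 2 := by
        rw [h1, h6, h23]
        exact cnt_ordp _ _
      have e : ((2 : ℤ) + 1 - ((2 : ℕ) : ℤ)) = 1 := by norm_num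
      rw [hc, e, one_smul, sub_eq_add_neg]
      exact rel_orp W hΔ h1 h6 h23 P

end Frob

/-- **THEOREM F at `ℓ = 2`.**  For a Weierstrass curve `W` over `ZMod 2` with `Δ ≠ 0` and any field
`κ ⊇ ZMod 2`, the coordinatewise squaring Frobenius `φ` on `W(κ)` satisfies `φ² - t φ + 2 = 0`
with `t = 2 + 1 - #W(ZMod 2)`. -/
theorem frob_relation_two (W : WeierstrassCurve (ZMod 2)) (hΔ : W.Δ ≠ 0) (κ : Type u) [Field κ]
    [DecidableEq κ] [Algebra (ZMod 2) κ] (P : (W.toAffine⁄κ).Point) :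
    WeierstrassCurve.Affine.Point.map (W' := W.toAffine) (FiniteField.frobeniusAlgHom (ZMod 2) κ)
        (WeierstrassCurve.Affine.Point.map (W' := W.toAffine)
          (FiniteField.frobeniusAlgHom (ZMod 2) κ) P)
      - ((Nat.card (ZMod 2) : ℤ) + 1 - (Nat.card W.toAffine.Point : ℤ)) •
          WeierstrassCurve.Affine.Point.map (W' := W.toAffine)
            (FiniteField.frobeniusAlgHom (ZMod 2) κ) P
      + ((2 : ℕ) : ℤ) • P = 0 := by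
  have hcard : (Nat.card (ZMod 2) : ℤ) = 2 := by simp
  rw [hcard]
  refine Fermat.Agent.S52.Frob.descent_kappa 2 W _ ?_ κ P
  intro K _ _ _ _ Q
  exact relation_closed_two W hΔ Q

/-- **THEOREM F at every prime** (`S52.Frob.frob_relation` without the hypothesis `ℓ ≠ 2`). -/
theorem frob_relation_all (ℓ : ℕ) [Fact ℓ.Prime] (W : WeierstrassCurve (ZMod ℓ)) (hΔ : W.Δ ≠ 0)
    (κ : Type u) [Field κ] [DecidableEq κ] [Algebra (ZMod ℓ) κ] (P : (W.toAffine⁄κ).Point) :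
    WeierstrassCurve.Affine.Point.map (W' := W.toAffine) (FiniteField.frobeniusAlgHom (ZMod ℓ) κ)
        (WeierstrassCurve.Affine.Point.map (W' := W.toAffine)
          (FiniteField.frobeniusAlgHom (ZMod ℓ) κ) P)
      - ((Nat.card (ZMod ℓ) : ℤ) + 1 - (Nat.card W.toAffine.Point : ℤ)) •
          WeierstrassCurve.Affine.Point.map (W' := W.toAffine)
            (FiniteField.frobeniusAlgHom (ZMod ℓ) κ) P
      + (ℓ : ℤ) • P = 0 := by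
  by_cases hℓ : ℓ = 2
  · subst hℓ
    exact frob_relation_two W hΔ κ P
  · exact Fermat.Agent.S52.Frob.frob_relation ℓ hℓ W hΔ κ P

end Fermat.Agent.S58.FrobTwo
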