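/-
S58 campaign, CLOSERS (helper82): the Plan leaves `Plan.ThmF2Statement`, `Plan.FrobWStatement`
and `Plan.TRStatement` as closed terms, from the landed leaves

* `FrobTwo.frob_relation_two` (helper68)  — Theorem F at the prime `2`;
* `FrobLift.frobW_of_F2` (helper69)       — the Frobenius relation on torsion of `W(ℚ̄)`;
* `Cyc.cycFrob` (helper7)                 — Frobenius on roots of unity;
* `TransferC.trStatement` (helper82)      — the transfer lemma.
-/
import Mathlib
import Fermat.Agent.S58.Plan
import Fermat.Agent.S58.TransferC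
import Fermat.Agent.S58.FrobLift
import Fermat.Agent.S58.FrobTwo
import Fermat.Agent.S58.Cyc

set_option autoImplicit false

namespace Fermat.Agent.S58.TRCloser

open Fermat.Agent.S58

/-- **[F2]** `Plan.ThmF2Statement`, closed. -/
theorem thmF2 : Plan.ThmF2Statement :=
  fun W hΔ κ _ _ _ P => FrobTwo.frob_relation_two W hΔ κ P

/-- **[FROBW]** `Plan.FrobWStatement`, closed. -/
theorem frobW : Plan.FrobWStatement :=
  FrobLift.frobW_of_F2 thmF2

/-- **[TR]** `Plan.TRStatement`, closed. -/
theorem tr : Plan.TRStatement :=
  TransferC.trStatement frobW Cyc.cycFrob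

end Fermat.Agent.S58.TRCloser
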