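/-
S58 leaf [AUX] (helper50): the auxiliary prime.

* `exists_prime_dvd_eval` (Schur): a nonconstant integer polynomial has a root modulo a prime
  outside any prescribed finite set.
* `exists_prime_ringHom`: for an algebraic integer `α` and a finite set `T`, there is a prime
  `lam ∉ T` and, for every subring `R` of `ℂ` contained in `ℤ[α]`, an INJECTIVE ring hom
  `R →+* ℤ_[lam]` (Schur + Hensel for the minimal polynomial of `α`).
* `finite_residueField`, `natCast_mem_maximalIdeal`: the two facts about `ℤ_[lam]` needed to use it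
  as the coefficient ring `O'` of the frozen S35 / S36.
-/
import Mathlib

set_option autoImplicit false

namespace Fermat.Agent.S58.AuxPrime

open Polynomial

/-- **Schur.** A nonconstant integer polynomial has a root modulo a prime outside any finite
set. -/
theorem exists_prime_dvd_eval (f : ℤ[X]) (hf : 0 < f.natDegree) (T : Finset ℕ) :
    ∃ (lam : ℕ) (x : ℤ), lam.Prime ∧ lam ∉ T ∧ (lam : ℤ) ∣ f.eval x := by
  classical
  set c : ℤ := f.eval 0 with hc
  by_cases hc0 : c = 0
  · obtain ⟨lam, hlam, hprime⟩ := Nat.exists_infinite_primes (T.sup id + 1)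
    refine ⟨lam, 0, hprime, fun hmem => ?_, ?_⟩
    · have : lam ≤ T.sup id := Finset.le_sup (f := id) hmem
      omega
    · rw [← hc, hc0]; exact dvd_zero _
  · -- `m` = the product of the primes of `T`
    set m : ℤ := ∏ q ∈ T, (if q.Prime then (q : ℤ) else 1) with hm
    have hm0 : m ≠ 0 := by
      rw [hm]
      refine Finset.prod_ne_zero_iff.mpr fun q _ => ?_
      split_ifs with hq
      · exact_mod_cast hq.ne_zero
      · exact one_ne_zero
    have hmdvd : ∀ q ∈ T, q.Prime → (q : ℤ) ∣ m := by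
      intro q hq hqp
      rw [hm]
      have := Finset.dvd_prod_of_mem (fun q : ℕ => if q.Prime then (q : ℤ) else 1) hq
      simpa [hqp] using this
    -- the three polynomials whose roots we avoid
    have hfne : f ≠ 0 := by
      rintro rfl; simp at hf
    have hdeg : ∀ a : ℤ, (f - C a).natDegree = f.natDegree := fun a => by
      rw [natDegree_sub_C]
    have hne : ∀ a : ℤ, f - C a ≠ 0 := fun a h0 => by
      have := hdeg a
      rw [h0, natDegree_zero] at this
      omega
    set F : ℤ[X] := f * (f - C c) * (f - C (-c)) with hF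
    have hF0 : F ≠ 0 := mul_ne_zero (mul_ne_zero hfne (hne c)) (hne (-c))
    have hfin : {y : ℤ | F.IsRoot y}.Finite := Polynomial.finite_setOfPred_isRoot hF0
    have hcm : c * m ≠ 0 := mul_ne_zero hc0 hm0
    have hinj : Function.Injective fun x : ℤ => c * m * x := fun x y hxy =>
      mul_left_cancel₀ hcm hxy
    have hfin' : ((fun x : ℤ => c * m * x) ⁻¹' {y : ℤ | F.IsRoot y}).Finite :=
      hfin.preimage hinj.injOn
    obtain ⟨x, hx⟩ := hfin'.infinite_compl.nonempty
    have hx' : ¬ F.IsRoot (c * m * x) := hx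
    rw [hF, IsRoot.def, eval_mul, eval_mul, eval_sub, eval_sub, eval_C, eval_C] at hx'
    have h1 : f.eval (c * m * x) ≠ 0 := fun h => hx' (by rw [h]; ring)
    have h2 : f.eval (c * m * x) ≠ c := fun h => hx' (by rw [h]; ring)
    have h3 : f.eval (c * m * x) ≠ -c := fun h => hx' (by rw [h]; ring)
    obtain ⟨t, ht⟩ := Polynomial.sub_dvd_eval_sub (c * m * x) 0 f
    have hfx : f.eval (c * m * x) = c * (1 + m * x * t) := by
      have : f.eval (c * m * x) = c + (c * m * x - 0) * t := by rw [← ht, hc]; ring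
      rw [this]; ring
    set k : ℤ := 1 + m * x * t with hk
    have hk0 : k ≠ 0 := fun h => h1 (by rw [hfx, h, mul_zero])
    have hk1 : k ≠ 1 := fun h => h2 (by rw [hfx, h, mul_one])
    have hk2 : k ≠ -1 := fun h => h3 (by rw [hfx, h]; ring)
    have hkabs : k.natAbs ≠ 1 := by
      intro h
      rcases Int.natAbs_eq k with h' | h'
      · exact hk1 (by rw [h', h]; rfl)
      · exact hk2 (by rw [h', h]; rfl)
    obtain ⟨lam, hprime, hdvd⟩ := Nat.exists_prime_and_dvd hkabs
    have hdvdk : (lam : ℤ) ∣ k := Int.natCast_dvd.mpr hdvd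
    refine ⟨lam, c * m * x, hprime, fun hmem => ?_, ?_⟩
    · have h4 : (lam : ℤ) ∣ m * x * t := Dvd.dvd.mul_right (Dvd.dvd.mul_right (hmdvd lam hmem hprime) x) t
      have h5 : (lam : ℤ) ∣ 1 := by
        have := dvd_sub hdvdk h4
        rwa [hk, add_sub_cancel_right] at this
      have h6 : lam ∣ 1 := by exact_mod_cast h5
      exact hprime.one_lt.ne' (Nat.dvd_one.mp h6)
    · rw [hfx]; exact Dvd.dvd.mul_left hdvdk c

/-- Bezout over `ℤ` for the minimal polynomial of an algebraic integer and its derivative: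
`U * p + V * p' = D` with a NONZERO integer `D`. -/
theorem exists_bezout_minpoly (α : ℂ) (hα : IsIntegral ℤ α) :
    ∃ (U V : ℤ[X]) (D : ℤ), D ≠ 0 ∧
      U * minpoly ℤ α + V * derivative (minpoly ℤ α) = C D := by
  have hmonic : (minpoly ℤ α).Monic := minpoly.monic hα
  have hirr : Irreducible (minpoly ℤ α) := minpoly.irreducible hα
  have hirrQ : Irreducible ((minpoly ℤ α).map (algebraMap ℤ ℚ)) :=
    (Polynomial.Monic.irreducible_iff_irreducible_map_fraction_map (K := ℚ) hmonic).mp hirr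
  have hsep : ((minpoly ℤ α).map (algebraMap ℤ ℚ)).Separable := hirrQ.separable
  obtain ⟨a, b, hab⟩ := hsep
  obtain ⟨d₁, hd₁, hA⟩ := IsLocalization.integerNormalization_spec (nonZeroDivisors ℤ) a
  obtain ⟨d₂, hd₂, hB⟩ := IsLocalization.integerNormalization_spec (nonZeroDivisors ℤ) b
  set A := IsLocalization.integerNormalization (nonZeroDivisors ℤ) a with hAdef
  set B := IsLocalization.integerNormalization (nonZeroDivisors ℤ) b with hBdef
  have hd₁0 : d₁ ≠ 0 := nonZeroDivisors.ne_zero hd₁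
  have hd₂0 : d₂ ≠ 0 := nonZeroDivisors.ne_zero hd₂
  refine ⟨C d₂ * A, C d₁ * B, d₁ * d₂, mul_ne_zero hd₁0 hd₂0, ?_⟩
  have hA' : A.map (algebraMap ℤ ℚ) = C (d₁ : ℚ) * a := by
    rw [hA, zsmul_eq_mul, Polynomial.C_eq_intCast]
  have hB' : B.map (algebraMap ℤ ℚ) = C (d₂ : ℚ) * b := by
    rw [hB, zsmul_eq_mul, Polynomial.C_eq_intCast]
  apply Polynomial.map_injective (algebraMap ℤ ℚ) (algebraMap ℤ ℚ).injective_int
  rw [Polynomial.map_add, Polynomial.map_mul, Polynomial.map_mul, Polynomial.map_mul,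
    Polynomial.map_mul, hA', hB', ← derivative_map, Polynomial.map_C, Polynomial.map_C,
    Polynomial.map_C, map_mul, eq_intCast, eq_intCast, C_mul]
  linear_combination (C (d₁ : ℚ) * C (d₂ : ℚ)) * hab

/-- A root of the minimal polynomial of an algebraic integer in `ℤ_[lam]`, for a prime `lam`
outside any finite set (Schur + Hensel). -/
theorem exists_prime_root (α : ℂ) (hα : IsIntegral ℤ α) (T : Finset ℕ) :
    ∃ (lam : ℕ) (_ : Fact lam.Prime), lam ∉ T ∧
      ∃ r : ℤ_[lam], aeval r (minpoly ℤ α) = 0 := by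
  classical
  obtain ⟨U, V, D, hD, hUV⟩ := exists_bezout_minpoly α hα
  obtain ⟨lam, x, hprime, hnot, hdvd⟩ :=
    exists_prime_dvd_eval (minpoly ℤ α) (minpoly.natDegree_pos hα) (T ∪ D.natAbs.primeFactors)
  have : Fact lam.Prime := ⟨hprime⟩
  have hlamT : lam ∉ T := fun h => hnot (Finset.mem_union_left _ h)
  have hlamD : ¬ (lam : ℤ) ∣ D := by
    intro h
    apply hnot
    apply Finset.mem_union_right
    rw [Nat.mem_primeFactors]
    exact ⟨hprime, Int.natCast_dvd.mp h, Int.natAbs_ne_zero.mpr hD⟩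
  have hder : ¬ (lam : ℤ) ∣ (derivative (minpoly ℤ α)).eval x := by
    intro h
    apply hlamD
    have h1 := congrArg (eval x) hUV
    rw [eval_add, eval_mul, eval_mul, eval_C] at h1
    rw [← h1]
    exact dvd_add (Dvd.dvd.mul_left hdvd _) (Dvd.dvd.mul_left h _)
  have e1 : ∀ f : ℤ[X], aeval (x : ℤ_[lam]) f = ((f.eval x : ℤ) : ℤ_[lam]) := by
    intro f
    have := Polynomial.aeval_algebraMap_apply_eq_algebraMap_eval (A := ℤ_[lam]) x f
    simpa [eq_intCast] using this
  have h1 : ‖(((minpoly ℤ α).eval x : ℤ) : ℤ_[lam])‖ < 1 :=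
    (PadicInt.norm_int_lt_one_iff_dvd _).mpr hdvd
  have h2 : ‖(((derivative (minpoly ℤ α)).eval x : ℤ) : ℤ_[lam])‖ = 1 := by
    have h3 := (PadicInt.norm_int_lt_one_iff_dvd (p := lam)
      ((derivative (minpoly ℤ α)).eval x)).not.mpr hder
    exact le_antisymm (PadicInt.norm_le_one _) (not_lt.mp h3)
  have hnorm : ‖aeval (x : ℤ_[lam]) (minpoly ℤ α)‖ <
      ‖aeval (x : ℤ_[lam]) (derivative (minpoly ℤ α))‖ ^ 2 := by
    rw [e1, e1, h2, one_pow]
    exact h1
  obtain ⟨r, hr, -⟩ := hensels_lemma hnorm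
  exact ⟨lam, ⟨hprime⟩, hlamT, r, hr⟩

/-- **[AUX]** For an algebraic integer `α` and a finite set `T` there is a prime `lam ∉ T` such
that every subring of `ℂ` contained in `ℤ[α]` embeds (as a ring) into `ℤ_[lam]`. -/
theorem exists_prime_ringHom (α : ℂ) (hα : IsIntegral ℤ α) (T : Finset ℕ) :
    ∃ (lam : ℕ) (_ : Fact lam.Prime), lam ∉ T ∧
      ∀ R : Subring ℂ, (∀ x ∈ R, x ∈ Algebra.adjoin ℤ ({α} : Set ℂ)) →
        ∃ ι : R →+* ℤ_[lam], Function.Injective ι := by
  obtain ⟨lam, hfact, hT, r, hr⟩ := exists_prime_root α hα T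
  refine ⟨lam, hfact, hT, fun R hR => ?_⟩
  let e : AdjoinRoot (minpoly ℤ α) ≃ₐ[ℤ] Algebra.adjoin ℤ ({α} : Set ℂ) := minpoly.equivAdjoin hα
  let l : AdjoinRoot (minpoly ℤ α) →+* ℤ_[lam] :=
    AdjoinRoot.lift (algebraMap ℤ ℤ_[lam]) r (by rw [← aeval_def]; exact hr)
  let ι₀ : Algebra.adjoin ℤ ({α} : Set ℂ) →+* ℤ_[lam] := l.comp (e.symm : _ →+* _)
  have hinj₀ : Function.Injective ι₀ := by
    rw [RingHom.injective_iff_ker_eq_bot]
    have : Algebra.IsIntegral ℤ (Algebra.adjoin ℤ ({α} : Set ℂ)) :=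
      Algebra.IsIntegral.adjoin fun x hx => by
        rw [Set.mem_singleton_iff.mp hx]; exact hα
    apply Ideal.eq_bot_of_comap_eq_bot (R := ℤ)
    rw [eq_bot_iff]
    intro n hn
    rw [Ideal.mem_comap, RingHom.mem_ker, eq_intCast, map_intCast] at hn
    have hn' : (n : ℤ_[lam]) = 0 := hn
    rw [Ideal.mem_bot]
    exact_mod_cast hn'
  let j : R →+* Algebra.adjoin ℤ ({α} : Set ℂ) :=
    R.subtype.codRestrict (Algebra.adjoin ℤ ({α} : Set ℂ)) (fun x => hR x x.2)
  refine ⟨ι₀.comp j, hinj₀.comp ?_⟩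
  intro x y hxy
  have h := congrArg Subtype.val hxy
  exact Subtype.ext h

/-- The residue field of `ℤ_[p]` is finite. -/
theorem finite_residueField (p : ℕ) [Fact p.Prime] :
    Finite (IsLocalRing.ResidueField ℤ_[p]) :=
  Finite.of_equiv (ZMod p) (PadicInt.residueField (p := p)).symm.toEquiv

/-- `p` lies in the maximal ideal of `ℤ_[p]`. -/
theorem natCast_mem_maximalIdeal (p : ℕ) [Fact p.Prime] :
    (p : ℤ_[p]) ∈ IsLocalRing.maximalIdeal ℤ_[p] := by
  rw [PadicInt.maximalIdeal_eq_span_p]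
  exact Ideal.subset_span rfl

/-- How injectivity is used: if `ι x` is the image of an integer `a`, then `x = a`. -/
theorem eq_intCast_of_apply_eq {p : ℕ} [Fact p.Prime] {R : Subring ℂ} (ι : R →+* ℤ_[p])
    (hι : Function.Injective ι) (x : R) (a : ℤ) (h : ι x = (a : ℤ_[p])) :
    (x : ℂ) = (a : ℂ) := by
  have h1 : ι x = ι (a : R) := by rw [h, map_intCast]
  have h2 : x = (a : R) := hι h1
  rw [h2]
  simp

end Fermat.Agent.S58.AuxPrime
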