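/-
S58, leaf [EIG] (helper91): the eigencharacter of a normalized eigenform.

For a normalized eigenform `g` of level `M` (Prelude sense: multiplicative `q`-coefficients) and a
set `S` containing every prime dividing `M`, the Hecke algebra `heckeAlgebra M 2 S` is generated by
the `T_ℓ`, `ℓ ∤ M`, `ℓ ∉ S`, and each of them has `g` as an eigenvector with eigenvalue `a_ℓ(g)`
(`S41.FSEigen.heckeTLin_eq_smul`).  Hence every element `T` of the algebra satisfies
`T g = chig T • g` for a unique complex number `chig T`, and `chig` is a ring homomorphism: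

* `exists_eigenchar`  : `chig` with `chig (T_ℓ) = a_ℓ(g)` (the hypothesis `hchig` of the frozen
  statements S35 / S36, verbatim) and with range inside every subring of `ℂ` containing the
  `a_ℓ(g)`, `ℓ ∤ M`, `ℓ ∉ S`;
* `exists_iota_of_int` : a ring hom `chi.range →+* O'` when the range consists of integers;
* `iota_comp_apply_of_eq_intCast` : any such `iota` sends an integer value to the same integer.
-/
import Mathlib
import Fermat.Prelude.Def_CuspForm_HeckeAlgebra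
import Fermat.Prelude.Def_FLTPrelim_ModularRep
import Fermat.Agent.S41.FSEigen

set_option autoImplicit false

namespace Fermat.Agent.S58.EigChar

open CongruenceSubgroup ModularFormClass

section Eig

variable {M : ℕ} [NeZero M]

/-- Every generator of the Hecke algebra away from `S ⊇ primes(M)` acts on the eigenform `g` by a
scalar lying in any subring containing the relevant coefficients. -/
theorem generator_apply (g : CuspForm (Gamma0 M) 2) (hg : g.IsNormalizedEigenform)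
    (S : Set ℕ) (hMS : ∀ q : ℕ, q.Prime → q ∣ M → q ∈ S) (R : Subring ℂ)
    (hR : ∀ ℓ : ℕ, ℓ.Prime → ¬ ℓ ∣ M → ℓ ∉ S → qCoeff g ℓ ∈ R)
    (T : Module.End ℂ (CuspForm (Gamma0 M) 2)) (hT : T ∈ CuspForm.heckeGenerators M 2 S) :
    ∃ c ∈ R, T g = c • g := by
  rcases hT with ⟨ℓ, hℓ, hℓM, hℓS, rfl⟩ | ⟨q, hqM, hq, hqS, rfl⟩
  · exact ⟨qCoeff g ℓ, hR ℓ hℓ hℓM hℓS,
      Fermat.Agent.S41.FSEigen.heckeTLin_eq_smul g hg hℓ hℓM⟩
  · exact absurd (hMS q hq hqM) hqS

/-- Every element of the Hecke algebra away from `S ⊇ primes(M)` acts on the eigenform `g` by a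
scalar lying in any subring containing the relevant coefficients. -/
theorem mem_apply (g : CuspForm (Gamma0 M) 2) (hg : g.IsNormalizedEigenform)
    (S : Set ℕ) (hMS : ∀ q : ℕ, q.Prime → q ∣ M → q ∈ S) (R : Subring ℂ)
    (hR : ∀ ℓ : ℕ, ℓ.Prime → ¬ ℓ ∣ M → ℓ ∉ S → qCoeff g ℓ ∈ R)
    (T : Module.End ℂ (CuspForm (Gamma0 M) 2)) (hT : T ∈ CuspForm.heckeAlgebra M 2 S) :
    ∃ c ∈ R, T g = c • g := by
  unfold CuspForm.heckeAlgebra at hT
  induction hT using Algebra.adjoin_induction with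
  | mem x hx => exact generator_apply g hg S hMS R hR x hx
  | algebraMap r =>
    refine ⟨(r : ℂ), intCast_mem R r, ?_⟩
    rw [Algebra.algebraMap_eq_smul_one, LinearMap.smul_apply, Module.End.one_apply,
      Int.cast_smul_eq_zsmul]
  | add x y hx hy ihx ihy =>
    obtain ⟨c, hc, h1⟩ := ihx
    obtain ⟨d, hd, h2⟩ := ihy
    exact ⟨c + d, R.add_mem hc hd, by rw [LinearMap.add_apply, h1, h2, add_smul]⟩
  | mul x y hx hy ihx ihy =>
    obtain ⟨c, hc, h1⟩ := ihx
    obtain ⟨d, hd, h2⟩ := ihy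
    exact ⟨c * d, R.mul_mem hc hd, by
      rw [Module.End.mul_apply, h2, map_smul, h1, smul_smul, mul_comm]⟩

omit [NeZero M] in
/-- Uniqueness of the eigenvalue. -/
theorem smul_cancel (g : CuspForm (Gamma0 M) 2) (hg0 : g ≠ 0) {c d : ℂ} (h : c • g = d • g) :
    c = d := by
  have h1 : (c - d) • g = 0 := by rw [sub_smul, h, sub_self]
  rcases smul_eq_zero.mp h1 with h2 | h2
  · exact sub_eq_zero.mp h2
  · exact absurd h2 hg0

/-- The eigenvalue of an element of the Hecke algebra on `g`. -/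
noncomputable def eigVal (g : CuspForm (Gamma0 M) 2) (hg : g.IsNormalizedEigenform)
    (S : Set ℕ) (hMS : ∀ q : ℕ, q.Prime → q ∣ M → q ∈ S)
    (T : CuspForm.heckeAlgebra M 2 S) : ℂ :=
  Classical.choose (mem_apply g hg S hMS ⊤ (fun _ _ _ _ => Subring.mem_top _) T.1 T.2)

theorem eigVal_spec (g : CuspForm (Gamma0 M) 2) (hg : g.IsNormalizedEigenform)
    (S : Set ℕ) (hMS : ∀ q : ℕ, q.Prime → q ∣ M → q ∈ S)
    (T : CuspForm.heckeAlgebra M 2 S) :
    (T : Module.End ℂ (CuspForm (Gamma0 M) 2)) g = eigVal g hg S hMS T • g :=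
  (Classical.choose_spec
    (mem_apply g hg S hMS ⊤ (fun _ _ _ _ => Subring.mem_top _) T.1 T.2)).2

theorem eigVal_eq (g : CuspForm (Gamma0 M) 2) (hg : g.IsNormalizedEigenform)
    (S : Set ℕ) (hMS : ∀ q : ℕ, q.Prime → q ∣ M → q ∈ S)
    (T : CuspForm.heckeAlgebra M 2 S) {c : ℂ}
    (h : (T : Module.End ℂ (CuspForm (Gamma0 M) 2)) g = c • g) :
    eigVal g hg S hMS T = c :=
  smul_cancel g hg.ne_zero ((eigVal_spec g hg S hMS T).symm.trans h)

/-- The eigencharacter as a ring homomorphism. -/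
noncomputable def eigChar (g : CuspForm (Gamma0 M) 2) (hg : g.IsNormalizedEigenform)
    (S : Set ℕ) (hMS : ∀ q : ℕ, q.Prime → q ∣ M → q ∈ S) :
    CuspForm.heckeAlgebra M 2 S →+* ℂ where
  toFun := eigVal g hg S hMS
  map_one' := by
    apply eigVal_eq
    show (1 : Module.End ℂ (CuspForm (Gamma0 M) 2)) g = (1 : ℂ) • g
    rw [Module.End.one_apply, one_smul]
  map_mul' T T' := by
    apply eigVal_eq
    show ((T : Module.End ℂ (CuspForm (Gamma0 M) 2)) *
      (T' : Module.End ℂ (CuspForm (Gamma0 M) 2))) g = _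
    rw [Module.End.mul_apply, eigVal_spec g hg S hMS T', map_smul, eigVal_spec g hg S hMS T,
      smul_smul, mul_comm]
  map_zero' := by
    apply eigVal_eq
    show (0 : Module.End ℂ (CuspForm (Gamma0 M) 2)) g = (0 : ℂ) • g
    rw [LinearMap.zero_apply, zero_smul]
  map_add' T T' := by
    apply eigVal_eq
    show ((T : Module.End ℂ (CuspForm (Gamma0 M) 2)) +
      (T' : Module.End ℂ (CuspForm (Gamma0 M) 2))) g = _
    rw [LinearMap.add_apply, eigVal_spec g hg S hMS T, eigVal_spec g hg S hMS T', add_smul]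

theorem eigChar_apply (g : CuspForm (Gamma0 M) 2) (hg : g.IsNormalizedEigenform)
    (S : Set ℕ) (hMS : ∀ q : ℕ, q.Prime → q ∣ M → q ∈ S) (T : CuspForm.heckeAlgebra M 2 S) :
    (T : Module.End ℂ (CuspForm (Gamma0 M) 2)) g = eigChar g hg S hMS T • g :=
  eigVal_spec g hg S hMS T

theorem eigChar_T (g : CuspForm (Gamma0 M) 2) (hg : g.IsNormalizedEigenform)
    (S : Set ℕ) (hMS : ∀ q : ℕ, q.Prime → q ∣ M → q ∈ S)
    {ℓ : ℕ} (hℓ : ℓ.Prime) (hℓM : ¬ ℓ ∣ M) (hℓS : ℓ ∉ S) :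
    eigChar g hg S hMS (CuspForm.heckeAlgebra.T hℓ hℓM hℓS) = qCoeff g ℓ :=
  eigVal_eq g hg S hMS _ (Fermat.Agent.S41.FSEigen.heckeTLin_eq_smul g hg hℓ hℓM)

theorem eigChar_mem (g : CuspForm (Gamma0 M) 2) (hg : g.IsNormalizedEigenform)
    (S : Set ℕ) (hMS : ∀ q : ℕ, q.Prime → q ∣ M → q ∈ S) (R : Subring ℂ)
    (hR : ∀ ℓ : ℕ, ℓ.Prime → ¬ ℓ ∣ M → ℓ ∉ S → qCoeff g ℓ ∈ R)
    (T : CuspForm.heckeAlgebra M 2 S) : eigChar g hg S hMS T ∈ R := by
  obtain ⟨c, hc, h⟩ := mem_apply g hg S hMS R hR T.1 T.2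
  have : eigChar g hg S hMS T = c := eigVal_eq g hg S hMS T h
  rw [this]
  exact hc

/-- **[EIG]** The eigencharacter of a normalized eigenform `g` of level `M` on the Hecke algebra
away from a set `S` containing the primes dividing `M`: it sends `T_ℓ` to `a_ℓ(g)`, every `T` acts
on `g` by `chig T`, and its range lies in every subring of `ℂ` containing the `a_ℓ(g)`
(`ℓ ∤ M`, `ℓ ∉ S`). -/
theorem exists_eigenchar' (g : CuspForm (Gamma0 M) 2) (hg : g.IsNormalizedEigenform)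
    (S : Set ℕ) (hMS : ∀ q : ℕ, q.Prime → q ∣ M → q ∈ S) :
    ∃ chig : CuspForm.heckeAlgebra M 2 S →+* ℂ,
      (∀ (ℓ : ℕ) (hℓ : ℓ.Prime) (hℓM : ¬ ℓ ∣ M) (hℓS : ℓ ∉ S),
        chig (CuspForm.heckeAlgebra.T hℓ hℓM hℓS) = qCoeff g ℓ) ∧
      (∀ R : Subring ℂ, (∀ ℓ : ℕ, ℓ.Prime → ¬ ℓ ∣ M → ℓ ∉ S → qCoeff g ℓ ∈ R) →
        ∀ x ∈ chig.range, x ∈ R) ∧
      (∀ T : CuspForm.heckeAlgebra M 2 S,
        (T : Module.End ℂ (CuspForm (Gamma0 M) 2)) g = chig T • g) := by
  refine ⟨eigChar g hg S hMS, fun ℓ hℓ hℓM hℓS => eigChar_T g hg S hMS hℓ hℓM hℓS, ?_,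
    eigChar_apply g hg S hMS⟩
  rintro R hR x ⟨T, rfl⟩
  exact eigChar_mem g hg S hMS R hR T

/-- **[EIG]**, the two clauses used by the S58 assembly. -/
theorem exists_eigenchar (g : CuspForm (Gamma0 M) 2) (hg : g.IsNormalizedEigenform)
    (S : Set ℕ) (hMS : ∀ q : ℕ, q.Prime → q ∣ M → q ∈ S) :
    ∃ chig : CuspForm.heckeAlgebra M 2 S →+* ℂ,
      (∀ (ℓ : ℕ) (hℓ : ℓ.Prime) (hℓM : ¬ ℓ ∣ M) (hℓS : ℓ ∉ S),
        chig (CuspForm.heckeAlgebra.T hℓ hℓM hℓS) = qCoeff g ℓ) ∧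
      (∀ R : Subring ℂ, (∀ ℓ : ℕ, ℓ.Prime → ¬ ℓ ∣ M → ℓ ∉ S → qCoeff g ℓ ∈ R) →
        ∀ x ∈ chig.range, x ∈ R) := by
  obtain ⟨chig, h1, h2, -⟩ := exists_eigenchar' g hg S hMS
  exact ⟨chig, h1, h2⟩

end Eig

section Iota

/-- A ring hom out of the range of a character with integer values. -/
theorem exists_iota_of_int {A : Type*} [Ring A] (chi : A →+* ℂ)
    (h : ∀ x ∈ chi.range, ∃ n : ℤ, x = (n : ℂ)) (O' : Type*) [Ring O'] :
    Nonempty (chi.range →+* O') := by
  have hinj : Function.Injective (Int.castRingHom chi.range) := by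
    intro a b hab
    have h1 : ((Int.castRingHom chi.range a : chi.range) : ℂ) =
        ((Int.castRingHom chi.range b : chi.range) : ℂ) := congrArg Subtype.val hab
    simpa using h1
  have hsurj : Function.Surjective (Int.castRingHom chi.range) := by
    rintro ⟨x, hx⟩
    obtain ⟨n, rfl⟩ := h x hx
    exact ⟨n, Subtype.ext (by simp)⟩
  let e : ℤ ≃+* chi.range := RingEquiv.ofBijective (Int.castRingHom chi.range) ⟨hinj, hsurj⟩
  exact ⟨(Int.castRingHom O').comp e.symm.toRingHom⟩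

/-- Any ring hom out of the range of a character sends an integer value to the same integer. -/
theorem iota_comp_apply_of_eq_intCast {A : Type*} [Ring A] (chi : A →+* ℂ) {O' : Type*} [Ring O']
    (iota : chi.range →+* O') (T : A) (n : ℤ) (h : chi T = (n : ℂ)) :
    (iota.comp chi.rangeRestrict) T = (n : O') := by
  have h1 : chi.rangeRestrict T = ((n : ℤ) : chi.range) := Subtype.ext (by simpa using h)
  rw [RingHom.comp_apply, h1, map_intCast]

end Iota

end Fermat.Agent.S58.EigChar
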