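/-
S58 / [USE-TR] (helper87): the two abstract consumers of the transfer lemma [TR].

Setting: `O` a Noetherian local ring (e.g. the DVR `O''` of S35/S36), `f : Module.End O V` with
`V` free of rank two (`f = ρ.ρ g`), `lam` a natural number with `(lam : O) ∈ 𝔪`.  The transfer
lemma gives, for every `n`, integers `m ≡ tr f`, `d ≡ det f` modulo `𝔪 ^ n` together with a
quadratic relation `g² P - m g P + d P = 0` on the `lam ^ n`-torsion of the curve and the action
`ζ ↦ ζ ^ d` on `μ_{lam ^ n}`.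

* `dvd_of_fixed`, `dvd_sub_of_relations`, `dvd_sub_of_zpow_eq`, `dvd_sub_of_pow_eq`: the torsion /
  roots-of-unity side, turning these relations into divisibilities of integers;
* `eq_intCast_of_congr`: Krull intersection;
* `charpoly_eq_unipotent`: (i) `charpoly f = (X - 1) ^ 2`;
* `charpoly_eq_frob`: (ii) `charpoly f = X ^ 2 - a X + q`.

Mathlib only.
-/
import Mathlib

set_option autoImplicit false

open Polynomial

namespace Fermat.Agent.S58.TrUse

/-! ### The torsion side -/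

/-- A point `P` of exact order `N` fixed by `τ` and satisfying `τ² P - m τ P + d P = 0` forces
`N ∣ 1 - m + d`. -/
theorem dvd_of_fixed {V : Type*} [AddCommGroup V] (τ : V →+ V) {P : V} {N : ℕ}
    (hP : addOrderOf P = N) (hfix : τ P = P) {m d : ℤ}
    (hrel : τ (τ P) - m • τ P + d • P = 0) : (N : ℤ) ∣ 1 - m + d := by
  rw [hfix, hfix] at hrel
  have h : (1 - m + d) • P = 0 := by
    rw [add_smul, sub_smul, one_smul]; exact hrel
  rw [← hP]
  exact addOrderOf_dvd_iff_zsmul_eq_zero.mpr h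

/-- Two quadratic relations for an injective `σ` at a point of exact order `N`, with constant
terms congruent modulo `N`, have linear terms congruent modulo `N`. -/
theorem dvd_sub_of_relations {V : Type*} [AddCommGroup V] (σ : V →+ V)
    (hσ : Function.Injective σ) {P : V} {N : ℕ} (hP : addOrderOf P = N) {m d a q : ℤ}
    (h1 : σ (σ P) - m • σ P + d • P = 0) (h2 : σ (σ P) - a • σ P + q • P = 0)
    (hdq : (N : ℤ) ∣ d - q) : (N : ℤ) ∣ m - a := by
  have hdqP : (d - q) • P = 0 := by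
    apply addOrderOf_dvd_iff_zsmul_eq_zero.mp
    rw [hP]; exact hdq
  have h3 : (a - m) • σ P + (d - q) • P = 0 := by
    have : (a - m) • σ P + (d - q) • P
        = (σ (σ P) - m • σ P + d • P) - (σ (σ P) - a • σ P + q • P) := by
      rw [sub_smul, sub_smul]; abel
    rw [this, h1, h2, sub_zero]
  rw [hdqP, add_zero] at h3
  have h4 : σ ((a - m) • P) = 0 := by rw [map_zsmul]; exact h3
  have h5 : (a - m) • P = 0 := hσ (by rw [h4, map_zero])
  have h6 : (N : ℤ) ∣ a - m := by
    rw [← hP]; exact addOrderOf_dvd_iff_zsmul_eq_zero.mpr h5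
  have : m - a = -(a - m) := by ring
  rw [this]
  exact (dvd_neg).mpr h6

/-- Integer exponents on a primitive root. -/
theorem dvd_sub_of_zpow_eq {K : Type*} [Field K] {ζ : K} {N : ℕ} (hζ : IsPrimitiveRoot ζ N)
    (hN : N ≠ 0) {d e : ℤ} (h : ζ ^ d = ζ ^ e) : (N : ℤ) ∣ d - e := by
  have hζ0 : ζ ≠ 0 := hζ.ne_zero hN
  rw [← hζ.zpow_eq_one_iff_dvd, zpow_sub₀ hζ0, h]
  exact div_self (zpow_ne_zero _ hζ0)

/-- Natural-number exponents on a primitive root. -/
theorem dvd_sub_of_pow_eq {K : Type*} [Field K] {ζ : K} {N : ℕ} (hζ : IsPrimitiveRoot ζ N)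
    (hN : N ≠ 0) {d e : ℕ} (h : ζ ^ d = ζ ^ e) : (N : ℤ) ∣ (d : ℤ) - (e : ℤ) := by
  apply dvd_sub_of_zpow_eq hζ hN
  rw [zpow_natCast, zpow_natCast, h]

/-! ### Krull intersection -/

/-- In a Noetherian local ring an element lying in every power of the maximal ideal is zero. -/
theorem eq_zero_of_forall_mem_pow {O : Type*} [CommRing O] [IsLocalRing O] [IsNoetherianRing O]
    {x : O} (h : ∀ n : ℕ, x ∈ IsLocalRing.maximalIdeal O ^ n) : x = 0 := by
  have hbot : ⨅ n : ℕ, IsLocalRing.maximalIdeal O ^ n = ⊥ :=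
    Ideal.iInf_pow_eq_bot_of_isLocalRing _ (IsLocalRing.maximalIdeal.isMaximal O).ne_top
  have hx : x ∈ ⨅ n : ℕ, IsLocalRing.maximalIdeal O ^ n := by
    rw [Submodule.mem_iInf]; exact h
  rw [hbot] at hx
  exact hx

/-- An integer divisible by `lam ^ n` lies in `𝔪 ^ n` when `lam ∈ 𝔪`. -/
theorem intCast_mem_pow {O : Type*} [CommRing O] [IsLocalRing O] {lam : ℕ}
    (hlamO : (lam : O) ∈ IsLocalRing.maximalIdeal O) {n : ℕ} {k : ℤ}
    (hk : (lam : ℤ) ^ n ∣ k) : (k : O) ∈ IsLocalRing.maximalIdeal O ^ n := by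
  obtain ⟨j, rfl⟩ := hk
  have : (((lam : ℤ) ^ n * j : ℤ) : O) = (lam : O) ^ n * (j : O) := by push_cast; ring
  rw [this]
  exact Ideal.mul_mem_right _ _ (Ideal.pow_mem_pow hlamO n)

/-- If for every `n` there is an integer `m ≡ t` modulo `𝔪 ^ n` with `lam ^ n ∣ m - a`, then
`t = a`. -/
theorem eq_intCast_of_congr {O : Type*} [CommRing O] [IsLocalRing O] [IsNoetherianRing O]
    {lam : ℕ} (hlamO : (lam : O) ∈ IsLocalRing.maximalIdeal O) {t : O} {a : ℤ}
    (h : ∀ n : ℕ, ∃ m : ℤ, (m : O) - t ∈ IsLocalRing.maximalIdeal O ^ n ∧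
      (lam : ℤ) ^ n ∣ m - a) : t = (a : O) := by
  have h0 : (a : O) - t = 0 := by
    apply eq_zero_of_forall_mem_pow
    intro n
    obtain ⟨m, hm, hma⟩ := h n
    have h1 : (((m - a : ℤ)) : O) ∈ IsLocalRing.maximalIdeal O ^ n := intCast_mem_pow hlamO hma
    have h2 : (a : O) - t = ((m : O) - t) - ((m - a : ℤ) : O) := by push_cast; ring
    rw [h2]
    exact Ideal.sub_mem _ hm h1
  exact (sub_eq_zero.mp h0).symm

/-! ### Rank two -/

/-- In rank two, `charpoly f = X² - tr f · X + det f`. -/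
theorem charpoly_eq_trace_det {O : Type*} [CommRing O] [Nontrivial O] {V : Type*}
    [AddCommGroup V] [Module O V] [Module.Free O V] [Module.Finite O V]
    (hV : Module.finrank O V = 2) (f : Module.End O V) :
    LinearMap.charpoly f = X ^ 2 - C (LinearMap.trace O V f) * X + C (LinearMap.det f) := by
  classical
  let b := Module.Free.chooseBasis O V
  have hcard : Fintype.card (Module.Free.ChooseBasisIndex O V) = 2 := by
    rw [← Module.finrank_eq_card_chooseBasisIndex, hV]
  let e : Module.Free.ChooseBasisIndex O V ≃ Fin 2 := Fintype.equivFinOfCardEq hcard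
  let b' : Module.Basis (Fin 2) O V := b.reindex e
  rw [← LinearMap.charpoly_toMatrix f b', Matrix.charpoly_fin_two,
    LinearMap.trace_eq_matrix_trace O b' f, ← LinearMap.det_toMatrix b' f]

/-- **(ii), algebra part.**  If for every `n` there are integers `m ≡ tr f`, `d ≡ det f` modulo
`𝔪 ^ n` with `lam ^ n ∣ m - a` and `lam ^ n ∣ d - q`, then `charpoly f = X² - a X + q`. -/
theorem charpoly_eq_frob {O : Type*} [CommRing O] [IsLocalRing O] [IsNoetherianRing O]
    {V : Type*} [AddCommGroup V] [Module O V] [Module.Free O V] [Module.Finite O V]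
    (hV : Module.finrank O V = 2) (f : Module.End O V)
    {lam : ℕ} (hlamO : (lam : O) ∈ IsLocalRing.maximalIdeal O) (a q : ℤ)
    (h : ∀ n : ℕ, ∃ m d : ℤ,
      (m : O) - LinearMap.trace O V f ∈ IsLocalRing.maximalIdeal O ^ n ∧
      (d : O) - LinearMap.det f ∈ IsLocalRing.maximalIdeal O ^ n ∧
      (lam : ℤ) ^ n ∣ m - a ∧ (lam : ℤ) ^ n ∣ d - q) :
    LinearMap.charpoly f = X ^ 2 - C (a : O) * X + C (q : O) := by
  have ht : LinearMap.trace O V f = (a : O) :=
    eq_intCast_of_congr hlamO fun n => by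
      obtain ⟨m, d, h1, -, h3, -⟩ := h n
      exact ⟨m, h1, h3⟩
  have hd : LinearMap.det f = (q : O) :=
    eq_intCast_of_congr hlamO fun n => by
      obtain ⟨m, d, -, h2, -, h4⟩ := h n
      exact ⟨d, h2, h4⟩
  rw [charpoly_eq_trace_det hV f, ht, hd]

/-- **(i), algebra part.**  If for every `n` there are integers `m ≡ tr f`, `d ≡ det f` modulo
`𝔪 ^ n` with `lam ^ n ∣ 1 - m + d` (a fixed point of exact order `lam ^ n`) and
`lam ^ n ∣ d - 1` (trivial action on `μ_{lam ^ n}`), then `charpoly f = (X - 1) ^ 2`. -/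
theorem charpoly_eq_unipotent {O : Type*} [CommRing O] [IsLocalRing O] [IsNoetherianRing O]
    {V : Type*} [AddCommGroup V] [Module O V] [Module.Free O V] [Module.Finite O V]
    (hV : Module.finrank O V = 2) (f : Module.End O V)
    {lam : ℕ} (hlamO : (lam : O) ∈ IsLocalRing.maximalIdeal O)
    (h : ∀ n : ℕ, ∃ m d : ℤ,
      (m : O) - LinearMap.trace O V f ∈ IsLocalRing.maximalIdeal O ^ n ∧
      (d : O) - LinearMap.det f ∈ IsLocalRing.maximalIdeal O ^ n ∧
      (lam : ℤ) ^ n ∣ 1 - m + d ∧ (lam : ℤ) ^ n ∣ d - 1) :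
    LinearMap.charpoly f = (X - 1) ^ 2 := by
  have h' := charpoly_eq_frob hV f hlamO 2 1 fun n => by
    obtain ⟨m, d, h1, h2, h3, h4⟩ := h n
    refine ⟨m, d, h1, h2, ?_, h4⟩
    have : m - 2 = (d - 1) - (1 - m + d) := by ring
    rw [this]
    exact dvd_sub h4 h3
  rw [h']
  have h2 : (C (((2 : ℤ) : O)) : O[X]) = 2 := by
    rw [Int.cast_ofNat]; exact map_ofNat C 2
  have h1 : (C (((1 : ℤ) : O)) : O[X]) = 1 := by
    rw [Int.cast_one, map_one]
  rw [h2, h1]; ring

end Fermat.Agent.S58.TrUse
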