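/-
S58 campaign, leaf [EIGVAL] (B-copy; architect deal of helper77, A = helper10 `S58/EigId.lean`).

Step (3) of the plan: for the minimal-level newform `g` (level `M ∣ N`) with the good eigensystem
of the semistable curve `W`, the equality `a_ℓ(g) = a_ℓ(W)` holds at EVERY good prime `ℓ ∤ M` of
`W` (also when `ℓ ∣ N`, where the modularity hypothesis says nothing).

Proof.  Put `α := a_ℓ(g)`, an algebraic integer (`S29.EigB.isIntegral_qCoeff`).  Choose a prime
`λ ≠ ℓ` with an injective ring homomorphism `ℤ[α] → ℤ_λ` ([IOTA]).  Away from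
`S := (primes of N, except ℓ) ∪ {λ}` the Hecke algebra of level `M` is generated by the `T_{ℓ'}`
with `ℓ' = ℓ` or `ℓ' ∤ N`, so the eigencharacter of `g` ([EIGCHAR]) has range inside `ℤ[α]` and
`ι : range → ℤ_λ` is injective.  The frozen statement S35 (on main) gives a `λ`-adic
representation `ρ` with `charpoly ρ(Frob_{ℓ'}) = X² − ι(a_{ℓ'}(g)) X + ℓ'` for `ℓ' ∉ S`, `ℓ' ∤ M`;
for `ℓ' ∤ N` this is the Frobenius hypothesis of `W`, so the trace statement (T) gives
`tr ρ(Frob_ℓ) = a_ℓ(W)`, while clause 1 of S35 at `ℓ` itself gives `tr ρ(Frob_ℓ) = ι(α)`.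
Injectivity of `ι` (and of `ℤ_λ → O''`) yields `α = a_ℓ(W)`.
-/
import Mathlib
import Fermat.Agent.S58.Plan
import Fermat.Agent.S58.TrUse
import Fermat.Agent.S58.EigChar
import Fermat.Agent.S58.AuxPrime
import Fermat.Agent.S35
import Fermat.Agent.S29.EigB
import Fermat.Agent.S54.Frobenius

set_option autoImplicit false

namespace Fermat.Agent.S58.EigVal

open Polynomial CongruenceSubgroup
open Fermat.Agent.S58

/-- The coefficient of `X` in `X² − a X + b`. -/
theorem coeff_one_quad {R : Type*} [CommRing R] (a b : R) :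
    (X ^ 2 - C a * X + C b : R[X]).coeff 1 = -a := by
  simp [coeff_X_pow, coeff_C]

/-- Two monic quadratics `X² − a X + b = X² − a' X + b'` have the same linear coefficient. -/
theorem eq_of_quad_eq {R : Type*} [CommRing R] {a b a' b' : R}
    (h : (X ^ 2 - C a * X + C b : R[X]) = X ^ 2 - C a' * X + C b') : a = a' := by
  have h1 := congrArg (fun f : R[X] => f.coeff 1) h
  simp only [coeff_one_quad] at h1
  exact neg_injective h1

/-- **[EIGVAL], hypothesis form over the Plan leaves.**  Step (3): `a_ℓ(g) = a_ℓ(W)` at every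
good prime `ℓ ∤ M`, from the trace statement (T), the eigencharacter [EIGCHAR], the auxiliary
prime [IOTA], and the frozen statement S35 (clause 1). -/
theorem eigVal_of (hTrace : Plan.TraceStatement) (hEig : Plan.EigCharStatement)
    (hIota : Plan.IotaStatement) : Plan.EigValStatement := by
  intro W N M _ g hS ℓ hℓ hgood hℓM
  classical
  have hαint : IsIntegral ℤ (ModularFormClass.qCoeff g ℓ) :=
    Fermat.Agent.S29.EigB.isIntegral_qCoeff M g hS.hg.1 hℓ hℓM
  -- the auxiliary prime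
  obtain ⟨lam, hlamF, hlam, ι₀, hι₀⟩ := hIota (ModularFormClass.qCoeff g ℓ) hαint ({ℓ} : Finset ℕ)
  have : Fact lam.Prime := hlamF
  have : Finite (IsLocalRing.ResidueField ℤ_[lam]) := AuxPrime.finite_residueField lam
  have hlamℓ : lam ≠ ℓ := fun h => hlam (by rw [h]; exact Finset.mem_singleton_self ℓ)
  -- the exceptional set of the Hecke algebra
  have hMS : ∀ q : ℕ, q.Prime → q ∣ M → q ∈ N.primeFactors.erase ℓ ∪ {lam} := by
    intro q hq hqM
    refine Finset.mem_union_left _ (Finset.mem_erase.mpr ⟨?_, ?_⟩)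
    · rintro rfl
      exact hℓM hqM
    · exact Nat.mem_primeFactors.mpr ⟨hq, hqM.trans hS.hMN, hS.hN⟩
  have hlamS : lam ∈ N.primeFactors.erase ℓ ∪ {lam} :=
    Finset.mem_union_right _ (Finset.mem_singleton_self lam)
  have hℓS : ℓ ∉ ((N.primeFactors.erase ℓ ∪ {lam} : Finset ℕ) : Set ℕ) := by
    intro h
    rcases Finset.mem_union.mp (Finset.mem_coe.mp h) with h | h
    · exact (Finset.mem_erase.mp h).1 rfl
    · exact hlamℓ (Finset.mem_singleton.mp h).symm
  -- outside the exceptional set a prime is `ℓ` or does not divide `N`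
  have hout : ∀ ℓ' : ℕ, ℓ'.Prime → ℓ' ∉ (N.primeFactors.erase ℓ ∪ {lam} : Finset ℕ) → ℓ' ≠ ℓ →
      ¬ ℓ' ∣ N := by
    intro ℓ' hℓ' hℓ'S hne hd
    exact hℓ'S (Finset.mem_union_left _
      (Finset.mem_erase.mpr ⟨hne, Nat.mem_primeFactors.mpr ⟨hℓ', hd, hS.hN⟩⟩))
  -- the eigencharacter, with range in `ℤ[α]`
  obtain ⟨chig, hchig, hrange⟩ := hEig M g hS.hg.1 (N.primeFactors.erase ℓ ∪ {lam}) hMS
  have hle : chig.range ≤ Subring.closure ({ModularFormClass.qCoeff g ℓ} : Set ℂ) := by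
    intro x hx
    refine (Subring.closure_le.mpr ?_) (hrange x hx)
    rintro y ⟨ℓ', hℓ', -, hℓ'S, rfl⟩
    by_cases h : ℓ' = ℓ
    · subst h
      exact Subring.subset_closure rfl
    · rw [hS.hap ℓ' hℓ' (hout ℓ' hℓ' hℓ'S h)]
      exact intCast_mem _ _
  have hι : Function.Injective (ι₀.comp (Subring.inclusion hle)) :=
    hι₀.comp (Subring.inclusion_injective hle)
  -- the `λ`-adic representation of `g` (frozen statement S35, on main)
  obtain ⟨O'', _, _, _, _, _, _, _, _, hloc, hinj, ρ, hρ1, -⟩ :=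
    Fermat.Agent.S35.result (M := M) (g := g) hS.hg lam (N.primeFactors.erase ℓ ∪ {lam}) ℤ_[lam]
      (AuxPrime.natCast_mem_maximalIdeal lam) chig hchig (ι₀.comp (Subring.inclusion hle))
      hlamS hMS
  have hlamO'' : (lam : O'') ∈ IsLocalRing.maximalIdeal O'' := by
    have h := map_nonunit (algebraMap ℤ_[lam] O'') (lam : ℤ_[lam])
      (AuxPrime.natCast_mem_maximalIdeal lam)
    rwa [map_natCast] at h
  -- the Frobenius hypothesis of `W` for `ρ`, away from `S ∪ {ℓ} ∪ primes(N)`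
  have hFrob : Plan.FrobHyp W ((N.primeFactors.erase ℓ ∪ {lam}) ∪ insert ℓ N.primeFactors) O'' ρ := by
    intro ℓ' hℓ' hℓ'S A hA σ hσ
    have hℓ'S₁ : ℓ' ∉ (N.primeFactors.erase ℓ ∪ {lam} : Finset ℕ) := fun h =>
      hℓ'S (Finset.mem_union_left _ h)
    have hne : ℓ' ≠ ℓ := fun h =>
      hℓ'S (Finset.mem_union_right _ (by rw [h]; exact Finset.mem_insert_self _ _))
    have hℓ'N : ¬ ℓ' ∣ N := hout ℓ' hℓ' hℓ'S₁ hne
    have hℓ'M : ¬ ℓ' ∣ M := fun hd => hℓ'N (hd.trans hS.hMN)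
    have hℓ'S₂ : ℓ' ∉ ((N.primeFactors.erase ℓ ∪ {lam} : Finset ℕ) : Set ℕ) := fun h =>
      hℓ'S₁ (Finset.mem_coe.mp h)
    rw [hρ1 ℓ' hℓ' hℓ'M hℓ'S₂ A hA σ hσ,
      EigChar.iota_comp_apply_of_eq_intCast chig (ι₀.comp (Subring.inclusion hle))
        (CuspForm.heckeAlgebra.T hℓ' hℓ'M hℓ'S₂) (W.apOfModel ℓ')
        ((hchig ℓ' hℓ' hℓ'M hℓ'S₂).trans (hS.hap ℓ' hℓ' hℓ'N)), map_intCast]
  -- a Frobenius element at `ℓ`
  obtain ⟨A, σ, hA, hσ⟩ := Fermat.Agent.S54.exists_isFrobeniusAt ℓ hℓ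
  -- (T): the trace of `ρ(σ)` is `a_ℓ(W)`
  have htr : LinearMap.trace O'' ρ.V (ρ.ρ σ) = ((W.apOfModel ℓ : ℤ) : O'') :=
    hTrace W hS.hΔ ℓ lam hℓ hlamF.out (Ne.symm hlamℓ) hgood _ O'' hlamO'' ρ hFrob A hA σ hσ
  -- clause 1 of S35 at `ℓ`: the trace of `ρ(σ)` is `ι(α)`
  have hch := hρ1 ℓ hℓ hℓM hℓS A hA σ hσ
  rw [TrUse.charpoly_eq_trace_det ρ.finrank_eq (ρ.ρ σ)] at hch
  have htr' := eq_of_quad_eq hch
  rw [htr, ← map_intCast (algebraMap ℤ_[lam] O'')] at htr'
  have h1 : ((ι₀.comp (Subring.inclusion hle)).comp chig.rangeRestrict)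
      (CuspForm.heckeAlgebra.T hℓ hℓM hℓS) = ((W.apOfModel ℓ : ℤ) : ℤ_[lam]) := (hinj htr').symm
  have h2 : chig.rangeRestrict (CuspForm.heckeAlgebra.T hℓ hℓM hℓS) =
      ((W.apOfModel ℓ : ℤ) : chig.range) := by
    apply hι
    rw [map_intCast]
    exact h1
  have h3 := congrArg (fun x : chig.range => (x : ℂ)) h2
  simp only [RingHom.coe_rangeRestrict, SubringClass.coe_intCast] at h3
  rw [← hchig ℓ hℓ hℓM hℓS]
  exact h3

/-- [EIGCHAR] from the landed leaf `EigChar.exists_eigenchar`. -/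
theorem eigCharStatement : Plan.EigCharStatement := by
  intro M _ g hg S hMS
  obtain ⟨chig, h1, h2⟩ := EigChar.exists_eigenchar g hg (↑S : Set ℕ) hMS
  refine ⟨chig, h1, fun x hx => h2 _ (fun ℓ hℓ hℓM hℓS => ?_) x hx⟩
  exact Subring.subset_closure ⟨ℓ, hℓ, hℓM, fun h => hℓS (Finset.mem_coe.mpr h), rfl⟩

/-- [IOTA] from the landed leaf `AuxPrime.exists_prime_ringHom`. -/
theorem iotaStatement : Plan.IotaStatement := by
  intro α hα F
  obtain ⟨lam, hlamF, hlam, h⟩ := AuxPrime.exists_prime_ringHom α hα F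
  refine ⟨lam, hlamF, hlam, h _ (fun x hx => ?_)⟩
  have hle : Subring.closure ({α} : Set ℂ) ≤ (Algebra.adjoin ℤ ({α} : Set ℂ)).toSubring :=
    Subring.closure_le.mpr (Set.singleton_subset_iff.mpr (Algebra.self_mem_adjoin_singleton ℤ α))
  exact hle hx

/-- **[EIGVAL]** from the trace statement (T) alone (the other inputs are on main). -/
theorem eigVal (hTrace : Plan.TraceStatement) : Plan.EigValStatement :=
  eigVal_of hTrace eigCharStatement iotaStatement

end Fermat.Agent.S58.EigVal
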