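/-
S58 — GoodFix.lean (helper93): leaf [FIX-good] of the S58 plan (step (i) of the route, the GOOD
primes).

For an integral Weierstrass curve `W` over `ℤ`, a prime `q` not dividing `Δ(W)`, a valuation
subring `A` of `ℚ̄` over `q` and `τ` in the inertia group of `A`:

* `coord_fixed_of_inertiaLike`, `coord_fixed` : `τ` fixes the coordinates of every point of
  `W(ℚ̄)` killed by an integer `m` prime to `q` (`S41.Red.redHomOf` + `S05.F1_inE1`);
* `conjHom_eq`, `smul_eq` : the same as `S41.Local.conjHom W τ P = P`, resp. `τ • P = P` for the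
  Galois action of the Prelude on `(W⁄ℚ̄).Point`;
* `exists_nsmul_eq`, `exists_addOrderOf_eq_prime_pow` : over an algebraically closed field of
  characteristic zero the group of points of an elliptic curve is divisible and has a point of
  exact order `p ^ n` for every prime `p` (`S41.T1.card_torsion` +
  `S41.T1Short.exists_point_nsmul_eq`);
* `exists_fixed`, `exists_fixed_smul` : **(FIX) at a good prime** — a point of exact order
  `lam ^ n` of `W(ℚ̄)` fixed by the whole inertia group of `A` (`lam ≠ q` prime);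
* `smul_eq_rat`, `exists_fixed_of_good` : the same for the point type
  `((W.map (Int.castRingHom ℚ))⁄ℚ̄).Point` of the frozen statements and any order `m > 0` prime
  to `q` (`exists_addOrderOf_eq`: a point of exact order `m`).
-/
import Mathlib
import Fermat.Agent.S05.Inertia
import Fermat.Agent.S05.FormalGroup
import Fermat.Agent.S41.LocalCore
import Fermat.Agent.S41.T1

set_option autoImplicit false

namespace Fermat.Agent.S58.GoodFix

open WeierstrassCurve WeierstrassCurve.Affine IsLocalRing
open Fermat.Agent Fermat.Agent.S05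

local notation "Qbar" => AlgebraicClosure ℚ
local notation "GQ" => (AlgebraicClosure ℚ ≃ₐ[ℚ] AlgebraicClosure ℚ)

/-! ### Divisibility and points of exact prime-power order -/

section Order

variable {L : Type*} [Field L] [CharZero L] [IsAlgClosed L] [DecidableEq L]

/-- The group of points of a short curve is divisible. -/
theorem exists_nsmul_eq_short {α β : L} (hβ : β ≠ 0) (hd : α ^ 2 - 4 * β ≠ 0) {p : ℕ}
    (hp : p ≠ 0) (R : (shortCurve α β).toAffine.Point) :
    ∃ T : (shortCurve α β).toAffine.Point, p • T = R := by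
  by_cases hR : R = 0
  · exact ⟨0, by rw [smul_zero, hR]⟩
  · have hnum : (S13.MPoly.num α β p).natDegree = p ^ 2 := S13.MPoly.natDegree_num hβ hd p
    have hden : (S13.MPoly.den α β p).natDegree + 1 = p ^ 2 := S13.MPoly.natDegree_den hβ hd hp
    have hmonic := S13.MPoly.num_monic hβ hd p
    have hlt : (Polynomial.C (PB.xco R) * S13.MPoly.den α β p).degree <
        (S13.MPoly.num α β p).degree := by
      calc (Polynomial.C (PB.xco R) * S13.MPoly.den α β p).degree
          ≤ (Polynomial.C (PB.xco R)).degree + (S13.MPoly.den α β p).degree :=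
            Polynomial.degree_mul_le _ _
        _ ≤ 0 + (S13.MPoly.den α β p).degree := add_le_add_left Polynomial.degree_C_le _
        _ = (S13.MPoly.den α β p).degree := zero_add _
        _ ≤ ((S13.MPoly.den α β p).natDegree : WithBot ℕ) := Polynomial.degree_le_natDegree
        _ < ((S13.MPoly.num α β p).natDegree : WithBot ℕ) := by
            rw [hnum]
            exact_mod_cast (by omega : (S13.MPoly.den α β p).natDegree < p ^ 2)
        _ = (S13.MPoly.num α β p).degree := (Polynomial.degree_eq_natDegree hmonic.ne_zero).symm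
    have hdeg : (S13.MPoly.num α β p - Polynomial.C (PB.xco R) * S13.MPoly.den α β p).degree ≠
        0 := by
      rw [Polynomial.degree_sub_eq_left_of_degree_lt hlt,
        Polynomial.degree_eq_natDegree hmonic.ne_zero, hnum]
      exact_mod_cast pow_ne_zero 2 hp
    obtain ⟨ξ, hξ⟩ := IsAlgClosed.exists_root _ hdeg
    obtain ⟨T, -, hT⟩ := S41.T1Short.exists_point_nsmul_eq hβ hd p R hR ξ hξ
    exact ⟨T, hT⟩

/-- The group of points of an elliptic curve over an algebraically closed field of
characteristic zero is divisible. -/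
theorem exists_nsmul_eq (W : WeierstrassCurve L) [W.IsElliptic] {p : ℕ} (hp : p ≠ 0)
    (R : W.toAffine.Point) : ∃ T : W.toAffine.Point, p • T = R := by
  obtain ⟨C, α, β, hβ, hd, -, -, hC⟩ := S41.T1.exists_short_model W
  obtain ⟨T, hT⟩ := exists_nsmul_eq_short hβ hd hp
    ((S41.VC.vcEquiv W (shortCurve α β) C hC).symm R)
  exact ⟨S41.VC.vcEquiv W (shortCurve α β) C hC T, by
    rw [← map_nsmul, hT, AddEquiv.apply_symm_apply]⟩

/-- A point of exact prime order. -/
theorem exists_addOrderOf_eq_prime (W : WeierstrassCurve L) [W.IsElliptic] {p : ℕ}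
    (hp : p.Prime) : ∃ P : W.toAffine.Point, addOrderOf P = p := by
  have hcard := S41.T1.card_torsion W p hp
  have h1 : 1 < Nat.card (Submodule.torsionBy ℤ W.toAffine.Point p) := by
    rw [hcard]
    exact Nat.one_lt_pow two_ne_zero hp.one_lt
  have : Finite (Submodule.torsionBy ℤ W.toAffine.Point p) :=
    Nat.finite_of_card_ne_zero (by omega)
  have : Nontrivial (Submodule.torsionBy ℤ W.toAffine.Point p) :=
    Finite.one_lt_card_iff_nontrivial.mp h1
  obtain ⟨x, hx⟩ := exists_ne (0 : Submodule.torsionBy ℤ W.toAffine.Point p)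
  have hx0 : (x : W.toAffine.Point) ≠ 0 := fun h => hx (Subtype.ext h)
  have hxp : p • (x : W.toAffine.Point) = 0 := by
    have h := (Submodule.mem_torsionBy_iff _ _).mp x.2
    rwa [natCast_zsmul] at h
  have : Fact p.Prime := ⟨hp⟩
  exact ⟨x, addOrderOf_eq_prime hxp hx0⟩

/-- **A point of exact order `p ^ n`** on an elliptic curve over an algebraically closed field
of characteristic zero. -/
theorem exists_addOrderOf_eq_prime_pow (W : WeierstrassCurve L) [W.IsElliptic] {p : ℕ}
    (hp : p.Prime) (n : ℕ) : ∃ P : W.toAffine.Point, addOrderOf P = p ^ n := by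
  induction n with
  | zero => exact ⟨0, by simp⟩
  | succ n ih =>
    rcases Nat.eq_zero_or_pos n with rfl | hn
    · simpa using exists_addOrderOf_eq_prime W hp
    · obtain ⟨P, hP⟩ := ih
      obtain ⟨T, hT⟩ := exists_nsmul_eq W hp.ne_zero P
      refine ⟨T, ?_⟩
      have : Fact p.Prime := ⟨hp⟩
      apply addOrderOf_eq_prime_pow
      · intro h0
        obtain ⟨k, rfl⟩ : ∃ k, n = k + 1 := ⟨n - 1, by omega⟩
        rw [pow_succ, mul_smul, hT] at h0
        have h1 := addOrderOf_dvd_of_nsmul_eq_zero h0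
        rw [hP] at h1
        have h2 := (Nat.pow_dvd_pow_iff_le_right hp.one_lt).mp h1
        omega
      · rw [pow_succ, mul_smul, hT, ← hP]
        exact addOrderOf_nsmul_eq_zero P

/-- **A point of exact order `m`** (any `m > 0`) on an elliptic curve over an algebraically
closed field of characteristic zero. -/
theorem exists_addOrderOf_eq (W : WeierstrassCurve L) [W.IsElliptic] {m : ℕ} (hm : 0 < m) :
    ∃ P : W.toAffine.Point, addOrderOf P = m := by
  induction m using Nat.recOnPosPrimePosCoprime with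
  | prime_pow p n hp _ => exact exists_addOrderOf_eq_prime_pow W hp n
  | zero => exact absurd hm (lt_irrefl 0)
  | one => exact ⟨0, by simp⟩
  | coprime a b ha hb hab iha ihb =>
    obtain ⟨P, hP⟩ := iha (by omega)
    obtain ⟨Q, hQ⟩ := ihb (by omega)
    refine ⟨P + Q, ?_⟩
    rw [(AddCommute.all P Q).addOrderOf_add_eq_mul_addOrderOf_of_coprime (by rw [hP, hQ]; exact hab),
      hP, hQ]

end Order

/-! ### Inertia at a good prime -/

section Good

variable (W : WeierstrassCurve ℤ) {q : ℕ} (hq : q.Prime) (hgood : ¬ (q : ℤ) ∣ W.Δ)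
  (A : ValuationSubring Qbar) (hA : A.LiesOverPrime q)

include hq hgood hA in
/-- An inertia-like endomorphism at a good prime `q` fixes the coordinates of every point killed
by an integer prime to `q`. -/
theorem coord_fixed_of_inertiaLike (σ : Qbar →+* Qbar) (hσ : InertiaLike A σ) {m : ℕ}
    (hm : ¬ q ∣ m) {x y : Qbar} (h : (W.map (Int.castRingHom Qbar)).toAffine.Nonsingular x y)
    (hP : m • Point.some x y h = 0) : σ x = x ∧ σ y = y := by
  classical
  set WA : WeierstrassCurve A := W.map (Int.castRingHom A) with hWA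
  have hΔA : IsUnit WA.Δ := by
    rw [ValuationSubring.valuation_eq_one_iff, hWA, WeierstrassCurve.map_Δ]
    have := S05.valuation_intCast_eq_one A hq hA hgood
    simpa using this
  have hmA : A.valuation ((m : ℕ) : Qbar) = 1 := S05.valuation_natCast_eq_one A hq hA hm
  have hWK : WA.map (algebraMap A Qbar) = W.map (Int.castRingHom Qbar) :=
    S41.Local.map_int_comp W _
  have hWk : WA.map (residue A) = W.map (Int.castRingHom (ResidueField A)) :=
    S41.Local.map_int_comp W _
  obtain ⟨hc, ec⟩ := S41.Local.conjHom_some W σ h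
  have hcm : m • Point.some (σ x) (σ y) hc = 0 := by
    rw [← ec, ← map_nsmul, hP, map_zero]
  have hD : InE1 A (Point.some (σ x) (σ y) hc - Point.some x y h) := by
    rw [← S41.Red.redHomOf_eq_zero_iff A WA hWK hWk hΔA, map_sub, sub_eq_zero]
    by_cases hx : x ∈ A
    · have hy : y ∈ A := S41.Red.y_mem_of A WA hWK h.1 hx
      have hσx : σ x ∈ A := (hσ.mem_iff x).mpr hx
      have hσy : σ y ∈ A := (hσ.mem_iff y).mpr hy
      obtain ⟨r, er⟩ := S41.Red.redHomOf_some A WA hWK hWk hΔA h ⟨x, hx⟩ ⟨y, hy⟩ rfl rfl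
      obtain ⟨rc, erc⟩ :=
        S41.Red.redHomOf_some A WA hWK hWk hΔA hc ⟨σ x, hσx⟩ ⟨σ y, hσy⟩ rfl rfl
      rw [er, erc]
      exact S41.Red.some_eq_some _ _
        ((S41.Red.res_eq_iff A _ _).mpr (hσ.sub_mem x hx))
        ((S41.Red.res_eq_iff A _ _).mpr (hσ.sub_mem y hy))
    · have h1 : InE1 A (Point.some x y h) := hx
      have h2 : InE1 A (Point.some (σ x) (σ y) hc) := fun h' => hx ((hσ.mem_iff x).mp h')
      rw [(S41.Red.redHomOf_eq_zero_iff A WA hWK hWk hΔA _).mpr h1,
        (S41.Red.redHomOf_eq_zero_iff A WA hWK hWk hΔA _).mpr h2]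
  have hDm : m • (Point.some (σ x) (σ y) hc - Point.some x y h) = 0 := by
    rw [smul_sub, hcm, hP, sub_self]
  have hD0 := F1_inE1 A (W.map (Int.castRingHom Qbar)) (S41.Local.intCast_mem' A _)
    (S41.Local.intCast_mem' A _) (S41.Local.intCast_mem' A _) (S41.Local.intCast_mem' A _)
    (S41.Local.intCast_mem' A _) hmA hD hDm
  have hfix := sub_eq_zero.mp hD0
  simp only [Point.some.injEq] at hfix
  exact hfix

include hq hgood hA in
/-- An element of the inertia group at a good prime `q` fixes the coordinates of every point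
killed by an integer prime to `q`. -/
theorem coord_fixed (τ : GQ) (hτ : τ ∈ A.inertiaSubgroupIn ℚ) {m : ℕ} (hm : ¬ q ∣ m)
    {x y : Qbar} (h : (W.map (Int.castRingHom Qbar)).toAffine.Nonsingular x y)
    (hP : m • Point.some x y h = 0) : τ x = x ∧ τ y = y :=
  coord_fixed_of_inertiaLike W hq hgood A hA (τ : Qbar →+* Qbar) (S05.inertiaLike_of_mem A τ hτ)
    hm h hP

include hq hgood hA in
/-- The same for the endomorphism `S41.Local.conjHom` of the group of points. -/
theorem conjHom_eq (τ : GQ) (hτ : τ ∈ A.inertiaSubgroupIn ℚ) {m : ℕ} (hm : ¬ q ∣ m)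
    (P : (W.map (Int.castRingHom Qbar)).toAffine.Point) (hP : m • P = 0) :
    S41.Local.conjHom W (τ : Qbar →+* Qbar) P = P := by
  rcases P with _ | ⟨x, y, h⟩
  · exact map_zero _
  · obtain ⟨hc, ec⟩ := S41.Local.conjHom_some W (τ : Qbar →+* Qbar) h
    obtain ⟨hx, hy⟩ := coord_fixed W hq hgood A hA τ hτ hm h hP
    rw [ec]
    exact S41.Red.some_eq_some _ _ hx hy

include hq hgood hA in
/-- The same for the Galois action of the Prelude on `(W⁄ℚ̄).Point`. -/
theorem smul_eq (τ : GQ) (hτ : τ ∈ A.inertiaSubgroupIn ℚ) {m : ℕ} (hm : ¬ q ∣ m)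
    (P : (W.toAffine⁄Qbar).Point) (hP : m • P = 0) : τ • P = P := by
  rcases P with _ | ⟨x, y, h⟩
  · rfl
  · obtain ⟨hx, hy⟩ := coord_fixed W hq hgood A hA τ hτ hm (x := x) (y := y) h hP
    rw [Point.algEquiv_smul_def, Point.map_some]
    exact S41.Red.some_eq_some _ _ hx hy

include hgood in
/-- A good prime forces `Δ ≠ 0`. -/
theorem Δ_ne_zero : W.Δ ≠ 0 := fun h0 => hgood (h0 ▸ dvd_zero _)

include hgood in
/-- The base change to `ℚ̄` is an elliptic curve. -/
theorem isElliptic : (W.map (Int.castRingHom Qbar)).IsElliptic := by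
  have hΔK : (W.map (Int.castRingHom Qbar)).Δ ≠ 0 := by
    rw [WeierstrassCurve.map_Δ]
    simpa using Δ_ne_zero W hgood
  exact ⟨isUnit_iff_ne_zero.mpr hΔK⟩

include hq hgood hA in
/-- **(FIX) at a good prime**, `conjHom` form: a point of exact order `lam ^ n` fixed by the
inertia group. -/
theorem exists_fixed {lam : ℕ} (hlam : lam.Prime) (hlq : lam ≠ q) (n : ℕ) :
    ∃ P : (W.map (Int.castRingHom Qbar)).toAffine.Point, addOrderOf P = lam ^ n ∧
      ∀ τ : GQ, τ ∈ A.inertiaSubgroupIn ℚ → S41.Local.conjHom W (τ : Qbar →+* Qbar) P = P := by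
  have := isElliptic W hgood
  obtain ⟨P, hP⟩ := exists_addOrderOf_eq_prime_pow (W.map (Int.castRingHom Qbar)) hlam n
  have hm : ¬ q ∣ lam ^ n := fun h =>
    hlq ((Nat.prime_dvd_prime_iff_eq hq hlam).mp (hq.dvd_of_dvd_pow h)).symm
  exact ⟨P, hP, fun τ hτ => conjHom_eq W hq hgood A hA τ hτ hm P
    (by rw [← hP]; exact addOrderOf_nsmul_eq_zero P)⟩

include hq hgood hA in
/-- **(FIX) at a good prime**, Prelude action form. -/
theorem exists_fixed_smul {lam : ℕ} (hlam : lam.Prime) (hlq : lam ≠ q) (n : ℕ) :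
    ∃ P : (W.toAffine⁄Qbar).Point, addOrderOf P = lam ^ n ∧
      ∀ τ : GQ, τ ∈ A.inertiaSubgroupIn ℚ → τ • P = P := by
  have : (W.toAffine⁄Qbar).IsElliptic := isElliptic W hgood
  obtain ⟨P, hP⟩ := exists_addOrderOf_eq_prime_pow (W.toAffine⁄Qbar) hlam n
  have hm : ¬ q ∣ lam ^ n := fun h =>
    hlq ((Nat.prime_dvd_prime_iff_eq hq hlam).mp (hq.dvd_of_dvd_pow h)).symm
  exact ⟨P, hP, fun τ hτ => smul_eq W hq hgood A hA τ hτ hm P
    (by rw [← hP]; exact addOrderOf_nsmul_eq_zero P)⟩

/-! ### The same for the point type `((W.map (Int.castRingHom ℚ))⁄ℚ̄).Point` of the frozen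
statements (seam shape of the [E0U] block) -/

include hq hgood hA in
/-- `coord_fixed` for any curve over `ℚ̄` equal to the base change of `W`. -/
theorem coord_fixed_of_eq (WK : WeierstrassCurve Qbar) (hWK : WK = W.map (Int.castRingHom Qbar))
    (τ : GQ) (hτ : τ ∈ A.inertiaSubgroupIn ℚ) {m : ℕ} (hm : ¬ q ∣ m) {x y : Qbar}
    (h : WK.toAffine.Nonsingular x y) (hP : m • Point.some x y h = 0) : τ x = x ∧ τ y = y := by
  subst hWK
  exact coord_fixed W hq hgood A hA τ hτ hm h hP

include hq hgood hA in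
/-- Inertia at a good prime `q` fixes every point of `((W.map (Int.castRingHom ℚ))⁄ℚ̄)` killed by
an integer prime to `q` (Galois action of the Prelude). -/
theorem smul_eq_rat (τ : GQ) (hτ : τ ∈ A.inertiaSubgroupIn ℚ) {m : ℕ} (hm : ¬ q ∣ m)
    (P : ((W.map (Int.castRingHom ℚ))⁄Qbar).Point) (hP : m • P = 0) : τ • P = P := by
  rcases P with _ | ⟨x, y, h⟩
  · rfl
  · obtain ⟨hx, hy⟩ := coord_fixed_of_eq W hq hgood A hA _
      (S41.Local.map_int_comp W (algebraMap ℚ Qbar)) τ hτ hm (x := x) (y := y) h hP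
    rw [Point.algEquiv_smul_def, Point.map_some]
    exact S41.Red.some_eq_some _ _ hx hy

include hgood in
/-- The base change of `W.map (Int.castRingHom ℚ)` to `ℚ̄` is an elliptic curve. -/
theorem isElliptic_rat : ((W.map (Int.castRingHom ℚ))⁄Qbar).IsElliptic := by
  have h : ((W.map (Int.castRingHom ℚ))⁄Qbar) = W.map (Int.castRingHom Qbar) :=
    S41.Local.map_int_comp W (algebraMap ℚ Qbar)
  rw [h]
  exact isElliptic W hgood

include hq hgood hA in
/-- **(FIX) at a good prime, seam shape** (the twin of `exists_fixed_of_mult` of the [E0U]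
block): a point of exact order `m` fixed by the whole inertia group, for every `m > 0` prime to
`q`. -/
theorem exists_fixed_of_good {m : ℕ} (hm : 0 < m) (hqm : ¬ q ∣ m) :
    ∃ P : ((W.map (Int.castRingHom ℚ))⁄Qbar).Point, addOrderOf P = m ∧
      ∀ σ : Qbar ≃ₐ[ℚ] Qbar, σ ∈ A.inertiaSubgroupIn ℚ → σ • P = P := by
  have := isElliptic_rat W hgood
  obtain ⟨P, hP⟩ := exists_addOrderOf_eq ((W.map (Int.castRingHom ℚ))⁄Qbar) hm
  exact ⟨P, hP, fun σ hσ => smul_eq_rat W hq hgood A hA σ hσ hqm P
    (by rw [← hP]; exact addOrderOf_nsmul_eq_zero P)⟩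

end Good

end Fermat.Agent.S58.GoodFix
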