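/-
S58 — GoodFixCloser.lean (helper93): the closers of the Plan Props

* `Plan.FixGoodStatement` ([FIXGOOD]) : `fixGood`  (from `GoodFix.smul_eq_rat`);
* `Plan.TorsStatement`    ([TORS])    : `tors`     (from `GoodFix.exists_addOrderOf_eq_prime_pow`),

and the semistable existence form used by the unipotence seam:

* `exists_fixed_good` : at a good prime `q ≠ λ`, for every `n`, a point of exact order `λ ^ n`
  fixed by the whole inertia group (the shape of `Plan.FixMultStatement`, with one point for all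
  inertia elements).
-/
import Mathlib
import Fermat.Agent.S58.Plan
import Fermat.Agent.S58.GoodFix

set_option autoImplicit false

namespace Fermat.Agent.S58.GoodFixCloser

open WeierstrassCurve WeierstrassCurve.Affine
open Fermat.Agent Fermat.Agent.S58

/-- The generic fibre over `ℚ̄` of an integral model with `Δ ≠ 0` is an elliptic curve. -/
theorem isElliptic_of_Δ_ne_zero (W : WeierstrassCurve ℤ) (hΔ : W.Δ ≠ 0) :
    ((W.map (Int.castRingHom ℚ))⁄Plan.Qb).IsElliptic := by
  have h : ((W.map (Int.castRingHom ℚ))⁄Plan.Qb) = W.map (Int.castRingHom Plan.Qb) :=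
    S41.Local.map_int_comp W (algebraMap ℚ Plan.Qb)
  rw [h]
  have hΔK : (W.map (Int.castRingHom Plan.Qb)).Δ ≠ 0 := by
    rw [WeierstrassCurve.map_Δ]
    simpa using hΔ
  exact ⟨isUnit_iff_ne_zero.mpr hΔK⟩

/-- **[TORS]**: points of exact order `λ ^ n` exist. -/
theorem tors : Plan.TorsStatement := by
  intro W hΔ lam hlam n
  have := isElliptic_of_Δ_ne_zero W hΔ
  exact GoodFix.exists_addOrderOf_eq_prime_pow ((W.map (Int.castRingHom ℚ))⁄Plan.Qb) hlam n

/-- **[FIXGOOD]**: inertia at a prime `q ≠ λ` of good reduction fixes all `λ`-power torsion. -/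
theorem fixGood : Plan.FixGoodStatement := by
  intro W q lam hq hlam hql hgood A hA τ hτ n P hP
  have hm : ¬ q ∣ lam ^ n := fun h =>
    hql ((Nat.prime_dvd_prime_iff_eq hq hlam).mp (hq.dvd_of_dvd_pow h))
  exact GoodFix.smul_eq_rat W hq hgood A hA τ hτ hm P hP

/-- At a good prime `q ≠ λ`: for every `n` a point of exact order `λ ^ n` fixed by the whole
inertia group (the shape of `Plan.FixMultStatement`). -/
theorem exists_fixed_good (W : WeierstrassCurve ℤ) (q lam : ℕ) (hq : q.Prime) (hlam : lam.Prime)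
    (hql : q ≠ lam) (hgood : ¬ (q : ℤ) ∣ W.Δ) (A : ValuationSubring Plan.Qb)
    (hA : A.LiesOverPrime q) (n : ℕ) :
    ∃ P : Plan.Pt W, addOrderOf P = lam ^ n ∧ ∀ τ ∈ A.inertiaSubgroupIn ℚ, τ • P = P := by
  have hm : ¬ q ∣ lam ^ n := fun h =>
    hql ((Nat.prime_dvd_prime_iff_eq hq hlam).mp (hq.dvd_of_dvd_pow h))
  exact GoodFix.exists_fixed_of_good W hq hgood A hA (pow_pos hlam.pos n) hm

end Fermat.Agent.S58.GoodFixCloser
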