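/-
S58 — PtSeam.lean (helper9; leaf [PT-seam], lead's deal m476513292).

Step (2) of the S58 route: a good prime `q` of `W` cannot divide the level `M` of the minimal-level
newform exactly once.

* `natCard_point_le`     : `#W(F) ≤ 2 #F + 1` for a Weierstrass curve over a finite field;
* `abs_traceOfFrobenius_le` : `|#F + 1 - #W(F)| ≤ #F`;
* `abs_apOfModel_le`     : `|W.apOfModel q| ≤ q` for `W` over `ℤ`, `q` prime (no goodness needed);
* `trace_eq_neg_coeff_one` : on a free module of rank two, `trace f = - (charpoly f).coeff 1`;
* `false_of_trace`       : `trace f = a`, `|a| ≤ q` (`a : ℤ`) contradicts the conclusion of clause 2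
                           of the frozen S35 (`charpoly f = X² ∓ (q + 1) X + q`), over any
                           commutative ring of characteristic zero;
* `false_of_charpoly`    : the same with `charpoly f = X² - a X + q` instead of the trace;
* `false_of_trace_apOfModel`, `false_of_charpoly_apOfModel` : the two forms for `a = W.apOfModel q`.
-/
import Mathlib
import Fermat.Prelude.Def_FLTPrelim_Modularity

set_option autoImplicit false

namespace Fermat.Agent.S58.PtSeam

open Polynomial

/-! ### The point count -/

section Count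

variable {F : Type*} [Field F]

/-- For fixed `x`, the equation of a Weierstrass curve has at most two solutions `y`. -/
theorem card_equation_le_two [Fintype F] [DecidableEq F] (W : WeierstrassCurve F) (x : F)
    [DecidablePred fun y : F => W.toAffine.Equation x y] :
    (Finset.univ.filter fun y : F => W.toAffine.Equation x y).card ≤ 2 := by
  by_cases hne : (Finset.univ.filter fun y : F => W.toAffine.Equation x y).Nonempty
  · obtain ⟨y₁, hy₁⟩ := hne
    rw [Finset.mem_filter, WeierstrassCurve.Affine.equation_iff] at hy₁
    have hsub : (Finset.univ.filter fun y : F => W.toAffine.Equation x y) ⊆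
        {y₁, -y₁ - (W.a₁ * x + W.a₃)} := by
      intro y hy
      rw [Finset.mem_filter, WeierstrassCurve.Affine.equation_iff] at hy
      have hprod : (y - y₁) * (y - (-y₁ - (W.a₁ * x + W.a₃))) = 0 := by
        linear_combination hy.2 - hy₁.2
      rcases mul_eq_zero.mp hprod with h | h
      · rw [Finset.mem_insert]
        exact Or.inl (sub_eq_zero.mp h)
      · rw [Finset.mem_insert, Finset.mem_singleton]
        exact Or.inr (sub_eq_zero.mp h)
    exact (Finset.card_le_card hsub).trans Finset.card_le_two
  · rw [Finset.not_nonempty_iff_eq_empty] at hne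
    rw [hne, Finset.card_empty]
    exact Nat.zero_le 2

/-- **The point count**: `#W(F) ≤ 2 #F + 1` over a finite field. -/
theorem natCard_point_le [Finite F] (W : WeierstrassCurve F) :
    Nat.card W.toAffine.Point ≤ 2 * Nat.card F + 1 := by
  classical
  haveI : Fintype F := Fintype.ofFinite F
  let T := Σ x : F, {y : F // W.toAffine.Equation x y}
  let φ : W.toAffine.Point → Option T := fun P =>
    match P with
    | .zero => none
    | .some x y h => some ⟨x, y, h.1⟩
  have hφ : Function.Injective φ := by
    rintro (_ | ⟨x₁, y₁, h₁⟩) (_ | ⟨x₂, y₂, h₂⟩) h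
    · rfl
    · exact absurd h (by simp [φ])
    · exact absurd h (by simp [φ])
    · have h' : (⟨x₁, y₁, h₁.1⟩ : T) = ⟨x₂, y₂, h₂.1⟩ := Option.some.inj h
      have hx : x₁ = x₂ := congrArg Sigma.fst h'
      subst hx
      have hy : y₁ = y₂ := by
        have := eq_of_heq (Sigma.mk.inj h').2
        exact congrArg Subtype.val this
      subst hy
      rfl
  have hT : Fintype.card T ≤ 2 * Fintype.card F := by
    rw [Fintype.card_sigma]
    calc ∑ x : F, Fintype.card {y : F // W.toAffine.Equation x y}
        ≤ ∑ _x : F, 2 := by
          refine Finset.sum_le_sum fun x _ => ?_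
          rw [Fintype.card_subtype]
          exact card_equation_le_two W x
      _ = 2 * Fintype.card F := by
          rw [Finset.sum_const, Finset.card_univ, smul_eq_mul, mul_comm]
  calc Nat.card W.toAffine.Point ≤ Nat.card (Option T) := Nat.card_le_card_of_injective φ hφ
    _ = Fintype.card T + 1 := by rw [Nat.card_eq_fintype_card, Fintype.card_option]
    _ ≤ 2 * Nat.card F + 1 := by
        rw [Nat.card_eq_fintype_card]
        exact Nat.succ_le_succ hT

/-- `1 ≤ #W(F)` (the point at infinity). -/
theorem one_le_natCard_point [Finite F] (W : WeierstrassCurve F) :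
    1 ≤ Nat.card W.toAffine.Point := by
  classical
  haveI : Finite W.toAffine.Point := by
    haveI : Fintype F := Fintype.ofFinite F
    let T := Σ x : F, {y : F // W.toAffine.Equation x y}
    let φ : W.toAffine.Point → Option T := fun P =>
      match P with
      | .zero => none
      | .some x y h => some ⟨x, y, h.1⟩
    refine Finite.of_injective φ ?_
    rintro (_ | ⟨x₁, y₁, h₁⟩) (_ | ⟨x₂, y₂, h₂⟩) h
    · rfl
    · exact absurd h (by simp [φ])
    · exact absurd h (by simp [φ])
    · have h' : (⟨x₁, y₁, h₁.1⟩ : T) = ⟨x₂, y₂, h₂.1⟩ := Option.some.inj h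
      have hx : x₁ = x₂ := congrArg Sigma.fst h'
      subst hx
      have hy : y₁ = y₂ := by
        have := eq_of_heq (Sigma.mk.inj h').2
        exact congrArg Subtype.val this
      subst hy
      rfl
  exact Nat.card_pos (α := W.toAffine.Point)

/-- `|#F + 1 - #W(F)| ≤ #F`. -/
theorem abs_traceOfFrobenius_le [Finite F] (W : WeierstrassCurve F) :
    |W.traceOfFrobenius| ≤ (Nat.card F : ℤ) := by
  have h1 := one_le_natCard_point W
  have h2 := natCard_point_le W
  have e : W.traceOfFrobenius = (Nat.card F : ℤ) + 1 - (Nat.card W.toAffine.Point : ℤ) := rfl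
  rw [e, abs_le]
  constructor <;> omega

end Count

/-- **`|a_q(W)| ≤ q`** for a Weierstrass curve over `ℤ` and a prime `q`. -/
theorem abs_apOfModel_le (W : WeierstrassCurve ℤ) (q : ℕ) [Fact q.Prime] :
    |W.apOfModel q| ≤ (q : ℤ) := by
  have h := abs_traceOfFrobenius_le (W.reductionMod q)
  rw [Nat.card_zmod] at h
  exact h

/-! ### The comparison with clause 2 of S35 -/

section Compare

variable {R : Type*} [CommRing R] {V : Type*} [AddCommGroup V] [Module R V]
  [Module.Free R V] [Module.Finite R V]

/-- On a free module of rank two, `trace f = - (charpoly f).coeff 1`. -/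
theorem trace_eq_neg_coeff_one [Nontrivial R] (hV : Module.finrank R V = 2)
    (f : Module.End R V) : LinearMap.trace R V f = -(LinearMap.charpoly f).coeff 1 := by
  classical
  have hcard : Fintype.card (Module.Free.ChooseBasisIndex R V) = 2 := by
    rw [← Module.finrank_eq_card_chooseBasisIndex, hV]
  haveI : Nonempty (Module.Free.ChooseBasisIndex R V) :=
    Fintype.card_pos_iff.mp (by rw [hcard]; exact Nat.two_pos)
  rw [LinearMap.trace_eq_matrix_trace R (Module.Free.chooseBasis R V) f,
    Matrix.trace_eq_neg_charpoly_coeff, hcard]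
  rfl

theorem coeff_one_clause_minus (c d : R) :
    (X ^ 2 - C c * X + C d : R[X]).coeff 1 = -c := by
  rw [coeff_add, coeff_sub, coeff_X_pow, coeff_C_mul_X, coeff_C]
  simp

theorem coeff_one_clause_plus (c d : R) :
    (X ^ 2 + C c * X + C d : R[X]).coeff 1 = c := by
  rw [coeff_add, coeff_add, coeff_X_pow, coeff_C_mul_X, coeff_C]
  simp

/-- **Step (2), trace form**: `trace f = a` with `|a| ≤ q` contradicts clause 2 of S35. -/
theorem false_of_trace [CharZero R] (hV : Module.finrank R V = 2) (f : Module.End R V)
    {q : ℕ} {a : ℤ} (ha : |a| ≤ (q : ℤ)) (htr : LinearMap.trace R V f = (a : R))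
    (h : LinearMap.charpoly f = X ^ 2 - C ((q : R) + 1) * X + C (q : R) ∨
      LinearMap.charpoly f = X ^ 2 + C ((q : R) + 1) * X + C (q : R)) : False := by
  have htr' := trace_eq_neg_coeff_one hV f
  rw [htr] at htr'
  rcases h with h | h
  · rw [h, coeff_one_clause_minus, neg_neg] at htr'
    have e : (a : R) = (((q : ℤ) + 1 : ℤ) : R) := by
      rw [htr']; push_cast; rfl
    have e' : a = (q : ℤ) + 1 := Int.cast_injective e
    rw [e', abs_le] at ha
    omega
  · rw [h, coeff_one_clause_plus] at htr'
    have e : (a : R) = ((-((q : ℤ) + 1) : ℤ) : R) := by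
      rw [htr']; push_cast; rfl
    have e' : a = -((q : ℤ) + 1) := Int.cast_injective e
    rw [e', abs_le] at ha
    omega

/-- **Step (2), characteristic-polynomial form**: `charpoly f = X² - a X + q` with `|a| ≤ q`
contradicts clause 2 of S35. -/
theorem false_of_charpoly [CharZero R] (f : Module.End R V)
    {q : ℕ} {a : ℤ} (ha : |a| ≤ (q : ℤ))
    (hcp : LinearMap.charpoly f = X ^ 2 - C (a : R) * X + C (q : R))
    (h : LinearMap.charpoly f = X ^ 2 - C ((q : R) + 1) * X + C (q : R) ∨
      LinearMap.charpoly f = X ^ 2 + C ((q : R) + 1) * X + C (q : R)) : False := by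
  have h1 : (LinearMap.charpoly f).coeff 1 = -(a : R) := by
    rw [hcp, coeff_one_clause_minus]
  rcases h with h | h
  · rw [h, coeff_one_clause_minus] at h1
    have e : (a : R) = (((q : ℤ) + 1 : ℤ) : R) := by
      rw [← neg_inj, ← h1]; push_cast; rfl
    have e' : a = (q : ℤ) + 1 := Int.cast_injective e
    rw [e', abs_le] at ha
    omega
  · rw [h, coeff_one_clause_plus] at h1
    have e : (a : R) = ((-((q : ℤ) + 1) : ℤ) : R) := by
      rw [← neg_inj, ← h1]; push_cast; ring
    have e' : a = -((q : ℤ) + 1) := Int.cast_injective e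
    rw [e', abs_le] at ha
    omega

/-- Step (2) for `a = a_q(W)`, trace form. -/
theorem false_of_trace_apOfModel [CharZero R] (W : WeierstrassCurve ℤ) (q : ℕ) [Fact q.Prime]
    (hV : Module.finrank R V = 2) (f : Module.End R V)
    (htr : LinearMap.trace R V f = ((W.apOfModel q : ℤ) : R))
    (h : LinearMap.charpoly f = X ^ 2 - C ((q : R) + 1) * X + C (q : R) ∨
      LinearMap.charpoly f = X ^ 2 + C ((q : R) + 1) * X + C (q : R)) : False :=
  false_of_trace hV f (abs_apOfModel_le W q) htr h

/-- Step (2) for `a = a_q(W)`, characteristic-polynomial form. -/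
theorem false_of_charpoly_apOfModel [CharZero R] (W : WeierstrassCurve ℤ) (q : ℕ)
    [Fact q.Prime] (f : Module.End R V)
    (hcp : LinearMap.charpoly f = X ^ 2 - C ((W.apOfModel q : ℤ) : R) * X + C (q : R))
    (h : LinearMap.charpoly f = X ^ 2 - C ((q : R) + 1) * X + C (q : R) ∨
      LinearMap.charpoly f = X ^ 2 + C ((q : R) + 1) * X + C (q : R)) : False :=
  false_of_charpoly f (abs_apOfModel_le W q) hcp h

end Compare

end Fermat.Agent.S58.PtSeam
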