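/-
S58 — GoodQ.lean (helper65; architect deal helper77 m234892303).  Leaf [NOGOOD] = step (2) of the
route: a prime `q` exactly dividing the level `M` of the minimal-level newform `g` is a bad prime
of `W`.

Proof.  Suppose `q ∤ Δ(W)`.  Take a prime `λ ≠ q`, `S := primes(N) ∪ primes(Δ) ∪ {λ}`, the
eigencharacter `chig` of `g` away from `S` (`S58/EigChar`): all its values are the integers
`a_ℓ(W)`, so there is `iota : chig.range → ℤ_[λ]`.  Frozen S35 (`Fermat.Agent.S35.result`) gives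
`ρ` over `O''` with (clause 1) `Plan.FrobHyp W S O'' ρ` and (clause 2)
`charpoly ρ(Frob_q) = X² ∓ (q + 1) X + q`.  The trace statement (T) of the Plan gives
`tr ρ(Frob_q) = a_q(W)`, and `|a_q(W)| ≤ q` (`S58/PtSeam`): contradiction.

* `noGood : Plan.TraceStatement → Plan.NoGoodStatement`.
-/
import Mathlib
import Fermat.Agent.S35
import Fermat.Agent.S54.Frobenius
import Fermat.Agent.S58.Plan
import Fermat.Agent.S58.EigChar
import Fermat.Agent.S58.PtSeam

set_option autoImplicit false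

namespace Fermat.Agent.S58.GoodQ

open Polynomial WeierstrassCurve CongruenceSubgroup

/-- A prime different from `q`. -/
theorem exists_prime_ne (q : ℕ) : ∃ lam : ℕ, lam.Prime ∧ q ≠ lam := by
  by_cases h : q = 2
  · exact ⟨3, Nat.prime_three, by omega⟩
  · exact ⟨2, Nat.prime_two, h⟩

/-- The residue field of `ℤ_[p]` is finite. -/
theorem finite_residueField_padicInt (p : ℕ) [Fact p.Prime] :
    Finite (IsLocalRing.ResidueField ℤ_[p]) :=
  Finite.of_equiv (ZMod p) (PadicInt.residueField (p := p)).symm.toEquiv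

/-- `p` lies in the maximal ideal of `ℤ_[p]`. -/
theorem natCast_mem_maximalIdeal_padicInt (p : ℕ) [Fact p.Prime] :
    (p : ℤ_[p]) ∈ IsLocalRing.maximalIdeal ℤ_[p] := by
  rw [PadicInt.maximalIdeal_eq_span_p]
  exact Ideal.subset_span rfl

/-- A local homomorphism maps the maximal ideal into the maximal ideal (for a natural number). -/
theorem natCast_mem_maximalIdeal_of_isLocalHom {O' O'' : Type*} [CommRing O'] [CommRing O'']
    [IsLocalRing O'] [IsLocalRing O''] [Algebra O' O''] [IsLocalHom (algebraMap O' O'')]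
    {lam : ℕ} (h : (lam : O') ∈ IsLocalRing.maximalIdeal O') :
    (lam : O'') ∈ IsLocalRing.maximalIdeal O'' := by
  rw [IsLocalRing.mem_maximalIdeal, mem_nonunits_iff] at h ⊢
  intro hu
  apply h
  have h1 : (lam : O'') = algebraMap O' O'' (lam : O') := by rw [map_natCast]
  rw [h1] at hu
  exact IsUnit.of_map (algebraMap O' O'') _ hu

/-- **[NOGOOD]** step (2): a prime exactly dividing `M` is a bad prime of `W`. -/
theorem noGood (hTrace : Plan.TraceStatement) : Plan.NoGoodStatement := by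
  intro W N M _ g hsetup q hq hqM hq2M
  by_contra hgood
  have : Fact q.Prime := ⟨hq⟩
  obtain ⟨lam, hlam, hqlam⟩ := exists_prime_ne q
  have : Fact lam.Prime := ⟨hlam⟩
  -- the finite set of primes
  set S : Finset ℕ := N.primeFactors ∪ W.Δ.natAbs.primeFactors ∪ {lam} with hS
  have hlamS : lam ∈ S := by
    rw [hS]; exact Finset.mem_union_right _ (Finset.mem_singleton_self lam)
  have hNS : ∀ ℓ : ℕ, ℓ.Prime → ℓ ∉ S → ¬ ℓ ∣ N := by
    intro ℓ hℓ hℓS hℓN
    apply hℓS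
    rw [hS]
    exact Finset.mem_union_left _ (Finset.mem_union_left _
      (Nat.mem_primeFactors.mpr ⟨hℓ, hℓN, hsetup.hN⟩))
  have hMS : ∀ q' : ℕ, q'.Prime → q' ∣ M → q' ∈ S := by
    intro q' hq' hq'M
    by_contra hq'S
    exact hNS q' hq' hq'S (hq'M.trans hsetup.hMN)
  -- the eigencharacter and `iota`
  obtain ⟨chig, hchig, hrange⟩ :=
    EigChar.exists_eigenchar g hsetup.hg.1 (↑S : Set ℕ) hMS
  have hval : ∀ (ℓ : ℕ) (hℓ : ℓ.Prime) (hℓM : ¬ ℓ ∣ M) (hℓS : ℓ ∉ (↑S : Set ℕ)),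
      chig (CuspForm.heckeAlgebra.T hℓ hℓM hℓS) = ((W.apOfModel ℓ : ℤ) : ℂ) := by
    intro ℓ hℓ hℓM hℓS
    rw [hchig ℓ hℓ hℓM hℓS]
    exact hsetup.hap ℓ hℓ (hNS ℓ hℓ (by simpa using hℓS))
  have hint : ∀ x ∈ chig.range, ∃ n : ℤ, x = (n : ℂ) := by
    intro x hx
    have h1 := hrange (Int.castRingHom ℂ).range (fun ℓ hℓ hℓM hℓS => by
      rw [hsetup.hap ℓ hℓ (hNS ℓ hℓ (by simpa using hℓS))]
      exact ⟨W.apOfModel ℓ, by simp⟩) x hx
    obtain ⟨n, hn⟩ := h1
    exact ⟨n, by rw [← hn]; simp⟩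
  obtain ⟨iota⟩ := EigChar.exists_iota_of_int chig hint ℤ_[lam]
  -- frozen S35
  have : Finite (IsLocalRing.ResidueField ℤ_[lam]) := finite_residueField_padicInt lam
  obtain ⟨O'', _, _, _, _, _, _, _, _, _, hinj, ρ, hcl1, hcl2⟩ :=
    Fermat.Agent.S35.result hsetup.hg lam S ℤ_[lam] (natCast_mem_maximalIdeal_padicInt lam)
      chig hchig iota hlamS hMS
  have hlamO'' : (lam : O'') ∈ IsLocalRing.maximalIdeal O'' :=
    natCast_mem_maximalIdeal_of_isLocalHom (O' := ℤ_[lam])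
      (natCast_mem_maximalIdeal_padicInt lam)
  -- `FrobHyp`
  have hFrob : Plan.FrobHyp W S O'' ρ := by
    intro ℓ hℓ hℓS A hA σ hσ
    have hℓM : ¬ ℓ ∣ M := fun h => hℓS (hMS ℓ hℓ h)
    have hℓS' : ℓ ∉ (↑S : Set ℕ) := by simpa using hℓS
    rw [hcl1 ℓ hℓ hℓM hℓS' A hA σ hσ,
      EigChar.iota_comp_apply_of_eq_intCast chig iota _ _ (hval ℓ hℓ hℓM hℓS'), map_intCast]
  -- a Frobenius element at `q`
  obtain ⟨A, σ, hA, hσ⟩ := Fermat.Agent.S54.exists_isFrobeniusAt q hq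
  have htr := hTrace W hsetup.hΔ q lam hq hlam hqlam hgood S O'' hlamO'' ρ hFrob A hA σ hσ
  exact PtSeam.false_of_trace_apOfModel W q ρ.finrank_eq (ρ.ρ σ) htr
    (hcl2 q hq hqlam hqM hq2M A hA σ hσ)

end Fermat.Agent.S58.GoodQ
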