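/-
S58 — MinLevel.lean (helper41).  [MIN]: the minimal-level form of a good eigensystem is a
newform in the sense of the Prelude (`CuspForm.IsNewform`).

For a normalized eigenform `f` of level `N ≠ 0` there are a divisor `M ∣ N` and a NEWFORM `g` of
level `M` with `a_ℓ(g) = a_ℓ(f)` for every prime `ℓ ∤ N` (take `M` minimal among the divisors of
`N` at which the system `(a_ℓ(f))_{ℓ ∤ N}` occurs).  No mathematics beyond well-ordering.
-/
import Mathlib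
import Fermat.Prelude.Def_CuspForm_Newforms

set_option autoImplicit false

open ModularFormClass

namespace Fermat.Agent.S58.MinLevel

/-- The system of eigenvalues of `f` away from `N` occurs at level `M ∣ N`. -/
def OccursAt {N : ℕ} (f : CuspForm (CongruenceSubgroup.Gamma0 N) 2) (M : ℕ) : Prop :=
  M ∣ N ∧ ∃ g : CuspForm (CongruenceSubgroup.Gamma0 M) 2, g.IsNormalizedEigenform ∧
    ∀ ℓ : ℕ, ℓ.Prime → ¬ ℓ ∣ N → qCoeff g ℓ = qCoeff f ℓ

theorem occursAt_self {N : ℕ} {f : CuspForm (CongruenceSubgroup.Gamma0 N) 2}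
    (hf : f.IsNormalizedEigenform) : OccursAt f N :=
  ⟨dvd_rfl, f, hf, fun _ _ _ => rfl⟩

/-- **[MIN]** a normalized eigenform of level `N ≠ 0` has the eigenvalues away from `N` of a
NEWFORM of some level `M ∣ N`. -/
theorem exists_newform {N : ℕ} (hN : N ≠ 0) {f : CuspForm (CongruenceSubgroup.Gamma0 N) 2}
    (hf : f.IsNormalizedEigenform) :
    ∃ M : ℕ, M ∣ N ∧ ∃ g : CuspForm (CongruenceSubgroup.Gamma0 M) 2, g.IsNewform ∧
      ∀ ℓ : ℕ, ℓ.Prime → ¬ ℓ ∣ N → qCoeff g ℓ = qCoeff f ℓ := by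
  classical
  have hex : ∃ M, OccursAt f M := ⟨N, occursAt_self hf⟩
  obtain ⟨hMN, g, hg, hgf⟩ := Nat.find_spec hex
  refine ⟨Nat.find hex, hMN, g, ⟨hg, ?_⟩, hgf⟩
  intro M' hM' hne hocc
  obtain ⟨g', hg', hg'g⟩ := hocc
  have hM0 : Nat.find hex ≠ 0 := fun h0 => hN (by simpa [h0] using hMN)
  have hlt : M' < Nat.find hex :=
    lt_of_le_of_ne (Nat.le_of_dvd (Nat.pos_of_ne_zero hM0) hM') hne
  refine Nat.find_min hex hlt ⟨hM'.trans hMN, g', hg', fun ℓ hℓ hℓN => ?_⟩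
  rw [hg'g ℓ hℓ (fun h => hℓN (h.trans hMN)), hgf ℓ hℓ hℓN]

/-- The same for a modular model: the Prelude's `IsModularModelOfLevel W N` gives a newform of a
level `M ∣ N` whose eigenvalues at the good primes `ℓ ∤ N` are the `a_ℓ(W)`. -/
theorem exists_newform_of_isModularModelOfLevel {W : WeierstrassCurve ℤ} {N : ℕ} (hN : N ≠ 0)
    (h : W.IsModularModelOfLevel N) :
    ∃ M : ℕ, M ∣ N ∧ ∃ g : CuspForm (CongruenceSubgroup.Gamma0 M) 2, g.IsNewform ∧
      ∀ ℓ : ℕ, ℓ.Prime → W.IsGoodPrimeFor ℓ → ¬ ℓ ∣ N → qCoeff g ℓ = (W.apOfModel ℓ : ℂ) := by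
  obtain ⟨f, hf, hfW⟩ := h
  obtain ⟨M, hMN, g, hg, hgf⟩ := exists_newform hN hf
  exact ⟨M, hMN, g, hg, fun ℓ hℓ hgood hℓN => by rw [hgf ℓ hℓ hℓN, hfW ℓ hℓ hgood hℓN]⟩

end Fermat.Agent.S58.MinLevel
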