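/-
S58 — MinCloser.lean (helper41; architect deal): the closer of the Plan Prop `Plan.MinStatement`
([MIN], minimal-level newform) from `S58/MinLevel.lean`.
-/
import Mathlib
import Fermat.Agent.S58.Plan
import Fermat.Agent.S58.MinLevel

set_option autoImplicit false

namespace Fermat.Agent.S58.MinCloser

/-- **[MIN], closed**: `Plan.MinStatement`. -/
theorem minStatement : Fermat.Agent.S58.Plan.MinStatement := by
  intro N hN f hf
  obtain ⟨M, hMN, g, hg, hgf⟩ := Fermat.Agent.S58.MinLevel.exists_newform hN hf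
  have hM0 : M ≠ 0 := fun h0 => hN (by rw [h0] at hMN; exact zero_dvd_iff.mp hMN)
  exact ⟨M, ⟨hM0⟩, g, hMN, hg, hgf⟩

end Fermat.Agent.S58.MinCloser
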