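/-
S58, top-side seam [SQ-SEAM] (helper40).

The landed proofs of S35 and S36 are specialised to a newform `g` whose good eigenvalues are the
integers `a_ℓ(W)` of a Weierstrass curve `W` over `ℤ`:

* `HasFrobOf W S ρ` : `ρ` has the Frobenius characteristic polynomials of `W` outside `S`;
* `EigStatement g S` : the eigencharacter of `g` away from `S` (the leaf [EIG], a named input);
* `exists_rho_s36` : Carayol (the proof term of S36, which needs no residual hypothesis) gives a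
  `ρ` with `HasFrobOf W S ρ` which is NOT unipotent on inertia at any `q ≠ lam` with `q² ∥ M`;
* `exists_rho_s35` : the same with the conclusion of S35 at the primes `q ∥ M`;
* `UnipStatement W lam q` : the leaf [UNIP] (every such `ρ` is unipotent on inertia at `q`);
* `factorization_ne_two`, `squarefree_of_unip` : step (1) of the route, "the minimal level is
  squarefree".
-/
import Fermat.Agent.S36.Top36B
import Fermat.Agent.S36.ChainM3F
import Fermat.Agent.S35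
import Fermat.Agent.S58.AuxPrime

set_option autoImplicit false

open Polynomial

namespace Fermat.Agent.S58.CarayolSeam

/-- `ρ` has the Frobenius characteristic polynomials of the curve `W` at every prime outside
`S`. -/
def HasFrobOf (W : WeierstrassCurve ℤ) (S : Finset ℕ) {O : Type} [CommRing O] [IsLocalRing O]
    (ρ : GaloisRepAdic O) : Prop :=
  ∀ ℓ : ℕ, ℓ.Prime → ℓ ∉ S →
    ∀ A : ValuationSubring (AlgebraicClosure ℚ), A.LiesOverPrime ℓ →
      ∀ σ : AlgebraicClosure ℚ ≃ₐ[ℚ] AlgebraicClosure ℚ, A.IsFrobeniusAt σ ℓ →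
        LinearMap.charpoly (ρ.ρ σ) = X ^ 2 - C (((W.apOfModel ℓ : ℤ) : O)) * X + C ((ℓ : O))

/-- [EIG] the eigencharacter of `g` away from `S`, with control of its range. -/
def EigStatement {M : ℕ} [NeZero M] (g : CuspForm (CongruenceSubgroup.Gamma0 M) 2)
    (S : Finset ℕ) : Prop :=
  ∃ chig : CuspForm.heckeAlgebra M 2 (↑S : Set ℕ) →+* ℂ,
    (∀ (ℓ : ℕ) (hℓ : ℓ.Prime) (hℓM : ¬ ℓ ∣ M) (hℓS : ℓ ∉ (↑S : Set ℕ)),
      chig (CuspForm.heckeAlgebra.T hℓ hℓM hℓS) = ModularFormClass.qCoeff g ℓ) ∧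
    (∀ R : Subring ℂ,
      (∀ ℓ : ℕ, ℓ.Prime → ¬ ℓ ∣ M → ℓ ∉ (↑S : Set ℕ) → ModularFormClass.qCoeff g ℓ ∈ R) →
        ∀ x ∈ chig.range, x ∈ R)

/-- A subring of `ℂ` all of whose elements are rational integers maps to every ring. -/
theorem nonempty_ringHom_of_int (R : Subring ℂ) (h : ∀ x ∈ R, ∃ n : ℤ, (n : ℂ) = x)
    (O' : Type) [Ring O'] : Nonempty (R →+* O') := by
  have hbij : Function.Bijective (Int.castRingHom R) := by
    constructor
    · intro a b hab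
      have h1 : ((Int.castRingHom R a : R) : ℂ) = ((Int.castRingHom R b : R) : ℂ) := by rw [hab]
      simpa using h1
    · intro x
      obtain ⟨n, hn⟩ := h x x.2
      exact ⟨n, Subtype.ext (by simpa using hn)⟩
  exact ⟨(Int.castRingHom O').comp (RingEquiv.ofBijective (Int.castRingHom R) hbij).symm.toRingHom⟩

/-- The Hecke-side Frobenius polynomials of the conclusions of S35/S36 are those of `W`. -/
theorem hasFrobOf_of_charpoly (W : WeierstrassCurve ℤ) {M : ℕ} [NeZero M]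
    {g : CuspForm (CongruenceSubgroup.Gamma0 M) 2} (S : Finset ℕ)
    (hMS : ∀ q : ℕ, q.Prime → q ∣ M → q ∈ S)
    (hgW : ∀ ℓ : ℕ, ℓ.Prime → ℓ ∉ S → ModularFormClass.qCoeff g ℓ = ((W.apOfModel ℓ : ℤ) : ℂ))
    {O' : Type} [CommRing O']
    (chig : CuspForm.heckeAlgebra M 2 (↑S : Set ℕ) →+* ℂ)
    (hchig : ∀ (ℓ : ℕ) (hℓ : ℓ.Prime) (hℓM : ¬ ℓ ∣ M) (hℓS : ℓ ∉ (↑S : Set ℕ)),
      chig (CuspForm.heckeAlgebra.T hℓ hℓM hℓS) = ModularFormClass.qCoeff g ℓ)
    (iota : chig.range →+* O')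
    {O'' : Type} [CommRing O''] [IsLocalRing O''] [Algebra O' O''] (ρ : GaloisRepAdic O'')
    (h : ∀ (ℓ : ℕ) (hℓ : ℓ.Prime) (hℓM : ¬ ℓ ∣ M) (hℓS : ℓ ∉ (↑S : Set ℕ)),
      ∀ A : ValuationSubring (AlgebraicClosure ℚ), A.LiesOverPrime ℓ →
        ∀ σ : AlgebraicClosure ℚ ≃ₐ[ℚ] AlgebraicClosure ℚ, A.IsFrobeniusAt σ ℓ →
          LinearMap.charpoly (ρ.ρ σ) =
            X ^ 2 - C (algebraMap O' O'' ((iota.comp chig.rangeRestrict)
              (CuspForm.heckeAlgebra.T hℓ hℓM hℓS))) * X + C ((ℓ : O''))) :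
    HasFrobOf W S ρ := by
  intro ℓ hℓ hℓS A hA σ hσ
  have hℓM : ¬ ℓ ∣ M := fun h' => hℓS (hMS ℓ hℓ h')
  have hℓS' : ℓ ∉ (↑S : Set ℕ) := by simpa using hℓS
  rw [h ℓ hℓ hℓM hℓS' A hA σ hσ]
  have h1 : chig.rangeRestrict (CuspForm.heckeAlgebra.T hℓ hℓM hℓS')
      = ((W.apOfModel ℓ : ℤ) : chig.range) := by
    apply Subtype.ext
    rw [RingHom.coe_rangeRestrict, hchig ℓ hℓ hℓM hℓS', hgW ℓ hℓ hℓS]
    simp
  have h2 : algebraMap O' O'' ((iota.comp chig.rangeRestrict)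
      (CuspForm.heckeAlgebra.T hℓ hℓM hℓS')) = ((W.apOfModel ℓ : ℤ) : O'') := by
    rw [RingHom.comp_apply, h1, map_intCast, map_intCast]
  rw [h2]

/-- The data needed to feed the proof terms of S35/S36: an eigencharacter with values in `ℤ`
and a ring homomorphism from its range to `ℤ_[lam]`. -/
theorem exists_chig_iota (W : WeierstrassCurve ℤ) {M : ℕ} [NeZero M]
    {g : CuspForm (CongruenceSubgroup.Gamma0 M) 2} (S : Finset ℕ)
    (hgW : ∀ ℓ : ℕ, ℓ.Prime → ℓ ∉ S → ModularFormClass.qCoeff g ℓ = ((W.apOfModel ℓ : ℤ) : ℂ))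
    (hE : EigStatement g S) (O' : Type) [Ring O'] :
    ∃ chig : CuspForm.heckeAlgebra M 2 (↑S : Set ℕ) →+* ℂ,
      (∀ (ℓ : ℕ) (hℓ : ℓ.Prime) (hℓM : ¬ ℓ ∣ M) (hℓS : ℓ ∉ (↑S : Set ℕ)),
        chig (CuspForm.heckeAlgebra.T hℓ hℓM hℓS) = ModularFormClass.qCoeff g ℓ) ∧
      Nonempty (chig.range →+* O') := by
  obtain ⟨chig, hchig, hR⟩ := hE
  refine ⟨chig, hchig, nonempty_ringHom_of_int chig.range ?_ O'⟩
  intro x hx
  have hx' := hR (Int.castRingHom ℂ).range (fun ℓ hℓ _ hℓS => by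
    rw [hgW ℓ hℓ (by simpa using hℓS)]
    exact ⟨W.apOfModel ℓ, by simp⟩) x hx
  obtain ⟨n, hn⟩ := hx'
  exact ⟨n, by simpa using hn⟩

theorem natCast_mem_maximalIdeal_of_isLocalHom {O' O'' : Type} [CommRing O'] [IsLocalRing O']
    [CommRing O''] [IsLocalRing O''] [Algebra O' O''] [IsLocalHom (algebraMap O' O'')] (lam : ℕ)
    (h : (lam : O') ∈ IsLocalRing.maximalIdeal O') : (lam : O'') ∈ IsLocalRing.maximalIdeal O'' := by
  rw [IsLocalRing.mem_maximalIdeal, mem_nonunits_iff] at h ⊢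
  intro hu
  apply h
  have h3 : IsUnit (algebraMap O' O'' (lam : O')) := by rwa [map_natCast]
  exact IsUnit.of_map (algebraMap O' O'') _ h3

/-- **Carayol for the curve `W`** (the proof term of S36): a newform `g` of level `M` with the
good eigenvalues of `W` has a `lam`-adic representation with the Frobenius polynomials of `W`
which is not unipotent on inertia at the primes `q ≠ lam` with `q² ∥ M`. -/
theorem exists_rho_s36 (W : WeierstrassCurve ℤ) {M : ℕ} [NeZero M]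
    {g : CuspForm (CongruenceSubgroup.Gamma0 M) 2} (hg : g.IsNewform)
    (lam : ℕ) [Fact lam.Prime] (S : Finset ℕ) (hlamS : lam ∈ S)
    (hMS : ∀ q : ℕ, q.Prime → q ∣ M → q ∈ S)
    (hgW : ∀ ℓ : ℕ, ℓ.Prime → ℓ ∉ S → ModularFormClass.qCoeff g ℓ = ((W.apOfModel ℓ : ℤ) : ℂ))
    (hE : EigStatement g S) :
    ∃ (O : Type) (_ : CommRing O) (_ : IsDomain O) (_ : IsDiscreteValuationRing O)
      (_ : IsAdicComplete (IsLocalRing.maximalIdeal O) O)
      (_ : Finite (IsLocalRing.ResidueField O)) (_ : CharZero O),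
      (lam : O) ∈ IsLocalRing.maximalIdeal O ∧
      ∃ ρ : GaloisRepAdic O, HasFrobOf W S ρ ∧
        ∀ q : ℕ, q.Prime → q ≠ lam → M.factorization q = 2 → ¬ ρ.IsUnipotentOnInertiaAt q := by
  obtain ⟨chig, hchig, ⟨iota⟩⟩ := exists_chig_iota W S hgW hE ℤ_[lam]
  have := Fermat.Agent.S58.AuxPrime.finite_residueField lam
  obtain ⟨O'', i1, i2, i3, i4, i5, i6, i7, i8, i9, -, ρ, hF, hU⟩ :=
    Fermat.Agent.S36.Top36B.result_of_inertTors Fermat.Agent.S36.ChainM3F.inertTors hg lam S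
      ℤ_[lam] (Fermat.Agent.S58.AuxPrime.natCast_mem_maximalIdeal lam) chig hchig iota hlamS hMS
  exact ⟨O'', i1, i2, i3, i4, i5, i6,
    natCast_mem_maximalIdeal_of_isLocalHom lam
      (Fermat.Agent.S58.AuxPrime.natCast_mem_maximalIdeal lam),
    ρ, hasFrobOf_of_charpoly W S hMS hgW chig hchig iota ρ hF, hU⟩

/-- **S35 for the curve `W`**: the same with the conclusion of S35 at the primes `q ∥ M`. -/
theorem exists_rho_s35 (W : WeierstrassCurve ℤ) {M : ℕ} [NeZero M]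
    {g : CuspForm (CongruenceSubgroup.Gamma0 M) 2} (hg : g.IsNewform)
    (lam : ℕ) [Fact lam.Prime] (S : Finset ℕ) (hlamS : lam ∈ S)
    (hMS : ∀ q : ℕ, q.Prime → q ∣ M → q ∈ S)
    (hgW : ∀ ℓ : ℕ, ℓ.Prime → ℓ ∉ S → ModularFormClass.qCoeff g ℓ = ((W.apOfModel ℓ : ℤ) : ℂ))
    (hE : EigStatement g S) :
    ∃ (O : Type) (_ : CommRing O) (_ : IsDomain O) (_ : IsDiscreteValuationRing O)
      (_ : IsAdicComplete (IsLocalRing.maximalIdeal O) O)
      (_ : Finite (IsLocalRing.ResidueField O)) (_ : CharZero O),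
      (lam : O) ∈ IsLocalRing.maximalIdeal O ∧
      ∃ ρ : GaloisRepAdic O, HasFrobOf W S ρ ∧
        ∀ q : ℕ, q.Prime → q ≠ lam → q ∣ M → ¬ q ^ 2 ∣ M →
          ∀ A : ValuationSubring (AlgebraicClosure ℚ), A.LiesOverPrime q →
            ∀ σ : AlgebraicClosure ℚ ≃ₐ[ℚ] AlgebraicClosure ℚ, A.IsFrobeniusAt σ q →
              LinearMap.charpoly (ρ.ρ σ) = X ^ 2 - C ((q : O) + 1) * X + C ((q : O)) ∨
              LinearMap.charpoly (ρ.ρ σ) = X ^ 2 + C ((q : O) + 1) * X + C ((q : O)) := by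
  obtain ⟨chig, hchig, ⟨iota⟩⟩ := exists_chig_iota W S hgW hE ℤ_[lam]
  have := Fermat.Agent.S58.AuxPrime.finite_residueField lam
  obtain ⟨O'', i1, i2, i3, i4, i5, i6, i7, i8, i9, -, ρ, hF, hU⟩ :=
    Fermat.Agent.S35.result hg lam S
      ℤ_[lam] (Fermat.Agent.S58.AuxPrime.natCast_mem_maximalIdeal lam) chig hchig iota hlamS hMS
  exact ⟨O'', i1, i2, i3, i4, i5, i6,
    natCast_mem_maximalIdeal_of_isLocalHom lam
      (Fermat.Agent.S58.AuxPrime.natCast_mem_maximalIdeal lam),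
    ρ, hasFrobOf_of_charpoly W S hMS hgW chig hchig iota ρ hF, hU⟩

/-- [UNIP] (a named input, from the transfer lemma): every `lam`-adic representation with the
Frobenius polynomials of `W` outside a finite set is unipotent on inertia at `q`. -/
def UnipStatement (W : WeierstrassCurve ℤ) (lam q : ℕ) : Prop :=
  ∀ (S : Finset ℕ) (O : Type) [CommRing O] [IsDomain O] [IsDiscreteValuationRing O]
    [IsAdicComplete (IsLocalRing.maximalIdeal O) O] [Finite (IsLocalRing.ResidueField O)]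
    [CharZero O], (lam : O) ∈ IsLocalRing.maximalIdeal O →
    ∀ ρ : GaloisRepAdic O, HasFrobOf W S ρ → ρ.IsUnipotentOnInertiaAt q

/-- Step (1), one prime: `q²` does not exactly divide the level of a newform with the good
eigenvalues of `W`, if [UNIP] holds at `q` for one prime `lam ≠ q`. -/
theorem factorization_ne_two (W : WeierstrassCurve ℤ) {M : ℕ} [NeZero M]
    {g : CuspForm (CongruenceSubgroup.Gamma0 M) 2} (hg : g.IsNewform)
    (T : Finset ℕ) (hMT : ∀ q : ℕ, q.Prime → q ∣ M → q ∈ T)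
    (hgW : ∀ ℓ : ℕ, ℓ.Prime → ℓ ∉ T → ModularFormClass.qCoeff g ℓ = ((W.apOfModel ℓ : ℤ) : ℂ))
    (q : ℕ) (hq : q.Prime) (lam : ℕ) [Fact lam.Prime] (hne : q ≠ lam)
    (hE : EigStatement g (insert lam T)) (hU : UnipStatement W lam q) :
    M.factorization q ≠ 2 := by
  intro hfac
  obtain ⟨O, i1, i2, i3, i4, i5, i6, hlam, ρ, hF, hN⟩ :=
    exists_rho_s36 W hg lam (insert lam T) (Finset.mem_insert_self _ _)
      (fun r hr hrM => Finset.mem_insert_of_mem (hMT r hr hrM))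
      (fun ℓ hℓ hℓS => hgW ℓ hℓ (fun h => hℓS (Finset.mem_insert_of_mem h))) hE
  exact hN q hq hne hfac (hU (insert lam T) O hlam ρ hF)

/-- Step (1): the level of a newform with the good eigenvalues of `W` is squarefree, if it is
cube-free and [UNIP] holds at every prime `q` for some prime `lam ≠ q`. -/
theorem squarefree_of_unip (W : WeierstrassCurve ℤ) {M : ℕ} [NeZero M]
    {g : CuspForm (CongruenceSubgroup.Gamma0 M) 2} (hg : g.IsNewform)
    (T : Finset ℕ) (hMT : ∀ q : ℕ, q.Prime → q ∣ M → q ∈ T)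
    (hgW : ∀ ℓ : ℕ, ℓ.Prime → ℓ ∉ T → ModularFormClass.qCoeff g ℓ = ((W.apOfModel ℓ : ℤ) : ℂ))
    (hcube : ∀ q : ℕ, q.Prime → ¬ q ^ 3 ∣ M)
    (hE : ∀ S : Finset ℕ, (∀ q : ℕ, q.Prime → q ∣ M → q ∈ S) → EigStatement g S)
    (hU : ∀ q : ℕ, q.Prime → ∃ lam : ℕ, lam.Prime ∧ q ≠ lam ∧ UnipStatement W lam q) :
    Squarefree M := by
  have hM : M ≠ 0 := NeZero.ne M
  rw [Nat.squarefree_iff_factorization_le_one hM]
  intro q
  by_cases hq : q.Prime
  · obtain ⟨lam, hlam, hne, hUq⟩ := hU q hq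
    have : Fact lam.Prime := ⟨hlam⟩
    have h2 : M.factorization q ≠ 2 :=
      factorization_ne_two W hg T hMT hgW q hq lam hne
        (hE (insert lam T) (fun r hr hrM => Finset.mem_insert_of_mem (hMT r hr hrM))) hUq
    have h3 : ¬ 3 ≤ M.factorization q := fun h =>
      hcube q hq ((hq.pow_dvd_iff_le_factorization hM).mpr h)
    omega
  · rw [Nat.factorization_eq_zero_of_not_prime M hq]
    exact Nat.zero_le 1

end Fermat.Agent.S58.CarayolSeam
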