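/-
S58, closer of the Plan leaf [NOSQ] (helper40): step (1) of the route,
"no prime `q` with `v_q(M) = 2`", from the seam `S58/CarayolSeam.lean` (the proof term of S36,
which needs no residual hypothesis, specialised to the curve `W`), the eigencharacter
`S58/EigChar.lean` and the Plan seam (U) `Plan.UnipStatement`.
-/
import Fermat.Agent.S58.Plan
import Fermat.Agent.S58.CarayolSeam
import Fermat.Agent.S58.EigChar

set_option autoImplicit false

namespace Fermat.Agent.S58.NoSq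

open Fermat.Agent.S58

/-- A prime different from `q`. -/
theorem exists_prime_ne (q : ℕ) : ∃ lam : ℕ, lam.Prime ∧ q ≠ lam := by
  by_cases h : q = 2
  · exact ⟨3, Nat.prime_three, by omega⟩
  · exact ⟨2, Nat.prime_two, h⟩

/-- The eigencharacter of a normalized eigenform, in the shape consumed by `CarayolSeam`. -/
theorem eigStatement {M : ℕ} [NeZero M] (g : CuspForm (CongruenceSubgroup.Gamma0 M) 2)
    (hg : g.IsNormalizedEigenform) (S : Finset ℕ) (hMS : ∀ q : ℕ, q.Prime → q ∣ M → q ∈ S) :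
    CarayolSeam.EigStatement g S :=
  EigChar.exists_eigenchar g hg (↑S : Set ℕ) (fun q hq hqM => Finset.mem_coe.mpr (hMS q hq hqM))

/-- The Plan seam (U) in the shape consumed by `CarayolSeam`. -/
theorem unipStatement (hU : Plan.UnipStatement) (W : WeierstrassCurve ℤ) (hΔ : W.Δ ≠ 0)
    (hss : W.IsSemistableModel) (q lam : ℕ) (hq : q.Prime) (hlam : lam.Prime) (hne : q ≠ lam) :
    CarayolSeam.UnipStatement W lam q := by
  intro S O _ _ _ _ _ _ hlamO ρ hF
  have hsemi : ¬ (q : ℤ) ∣ W.Δ ∨ ¬ (q : ℤ) ∣ W.c₄ := by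
    by_cases h : (q : ℤ) ∣ W.Δ
    · exact Or.inr (hss q hq h)
    · exact Or.inl h
  exact hU W hΔ q lam hq hlam hne hsemi S O hlamO ρ hF

/-- **[NOSQ]** from the Plan seam (U). -/
theorem noSq_of_unip (hU : Plan.UnipStatement) : Plan.NoSqStatement := by
  intro W N M _ g hS q hq
  obtain ⟨lam, hlam, hne⟩ := exists_prime_ne q
  have : Fact lam.Prime := ⟨hlam⟩
  have hMT : ∀ r : ℕ, r.Prime → r ∣ M → r ∈ N.primeFactors := fun r hr hrM =>
    Nat.mem_primeFactors.mpr ⟨hr, hrM.trans hS.hMN, hS.hN⟩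
  have hgW : ∀ ℓ : ℕ, ℓ.Prime → ℓ ∉ N.primeFactors →
      ModularFormClass.qCoeff g ℓ = ((W.apOfModel ℓ : ℤ) : ℂ) := fun ℓ hℓ hℓT =>
    hS.hap ℓ hℓ (fun hd => hℓT (Nat.mem_primeFactors.mpr ⟨hℓ, hd, hS.hN⟩))
  exact CarayolSeam.factorization_ne_two W hS.hg N.primeFactors hMT hgW q hq lam hne
    (eigStatement g hS.hg.1 _ (fun r hr hrM => Finset.mem_insert_of_mem (hMT r hr hrM)))
    (unipStatement hU W hS.hΔ hS.hss q lam hq hlam hne)

end Fermat.Agent.S58.NoSq
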