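import Mathlib
import Fermat.Prelude.Def_FLTPrelim_Modularity
import Fermat.Prelude.Def_WeierstrassCurve_ConductorLevel
import Fermat.Agent.S49.QCoeff

/-!
# S58 leaf [STAB] (owner: helper1): stabilisation to a multiple of the level

From a normalized eigenform `g` of level `M` and a multiple `R ≠ 0` of `M`, a normalized eigenform
of level `R` with the same `q`-coefficients at all primes not dividing `R / M`.

* `incl` : level inclusion `CuspForm (Gamma0 M) k →ₗ[ℂ] CuspForm (Gamma0 R) k` for `M ∣ R`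
  (same function).
* `vq` : `V_q g := q⁻¹ • (incl (T_q g) − U_q (incl g))` of level `M * q`, with
  `a_n(V_q g) = [q ∣ n] a_{n/q}(g)`.
* `exists_stab` : one prime `q ∤ M`: `f := incl g − β • V_q g`, `β` a root of `X² − a_q(g) X + q`.
* `exists_stab_of_dvd`, `isModularModelOfLevel_of_dvd`.
-/

set_option autoImplicit false

namespace Fermat.Agent.S58.Stab

open ModularFormClass CongruenceSubgroup

theorem gamma0_le_of_dvd {M R : ℕ} (h : M ∣ R) : Gamma0 R ≤ Gamma0 M := by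
  intro γ hγ
  rw [Gamma0_mem] at hγ ⊢
  rw [ZMod.intCast_zmod_eq_zero_iff_dvd] at hγ ⊢
  exact dvd_trans (Int.natCast_dvd_natCast.mpr h) hγ

/-- Level inclusion (same function). -/
def incl {M R : ℕ} (h : M ∣ R) {k : ℤ} : CuspForm (Gamma0 M) k →ₗ[ℂ] CuspForm (Gamma0 R) k where
  toFun f :=
    { toFun := ⇑f
      slash_action_eq' := fun γ hγ =>
        SlashInvariantFormClass.slash_action_eq f γ
          (Subgroup.map_mono (gamma0_le_of_dvd h) hγ)
      holo' := CuspFormClass.holo f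
      zero_at_cusps' := fun hc =>
        CuspFormClass.zero_at_cusps f (hc.mono (Subgroup.map_mono (gamma0_le_of_dvd h))) }
  map_add' _ _ := DFunLike.coe_injective rfl
  map_smul' _ _ := DFunLike.coe_injective rfl

theorem coe_incl {M R : ℕ} (h : M ∣ R) {k : ℤ} (f : CuspForm (Gamma0 M) k) :
    ⇑(incl h f) = ⇑f := rfl

theorem qCoeff_incl {M R : ℕ} (h : M ∣ R) {k : ℤ} (f : CuspForm (Gamma0 M) k) (n : ℕ) :
    qCoeff ⇑(incl h f) n = qCoeff ⇑f n := rfl

/-- Level inclusion between levels with the same prime divisors preserves normalized eigenforms. -/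
theorem isNormalizedEigenform_incl {M R : ℕ} (h : M ∣ R)
    (hprime : ∀ p : ℕ, p.Prime → p ∣ R → p ∣ M)
    {g : CuspForm (Gamma0 M) 2} (hg : g.IsNormalizedEigenform) :
    (incl h g).IsNormalizedEigenform :=
  ⟨hg.qCoeff_one, hg.qCoeff_mul_of_coprime,
    fun p r hp hpR => hg.qCoeff_prime_pow_of_not_dvd p r hp (fun h' => hpR (h'.trans h)),
    fun p r hp hpR => hg.qCoeff_prime_pow_of_dvd p r hp (hprime p hp hpR)⟩

theorem neZero_mul_of_not_dvd {M q : ℕ} (hq : q.Prime) (hqM : ¬ q ∣ M) : NeZero (M * q) :=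
  ⟨Nat.mul_ne_zero (fun h => hqM (h ▸ dvd_zero q)) hq.ne_zero⟩

/-- `V_q g := q⁻¹ • (incl (T_q g) − U_q (incl g))`, a cusp form of level `M * q`. -/
noncomputable def vq {M q : ℕ} (hq : q.Prime) (hqM : ¬ q ∣ M) (g : CuspForm (Gamma0 M) 2) :
    CuspForm (Gamma0 (M * q)) 2 :=
  haveI : NeZero (M * q) := neZero_mul_of_not_dvd hq hqM
  ((q : ℂ))⁻¹ • (incl (Dvd.intro q rfl) (CuspForm.heckeTLin 2 hq hqM g)
    - CuspForm.heckeULin 2 (Dvd.intro_left M rfl) (incl (Dvd.intro q rfl) g))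

theorem qCoeff_vq {M q : ℕ} (hq : q.Prime) (hqM : ¬ q ∣ M) (g : CuspForm (Gamma0 M) 2) (n : ℕ) :
    qCoeff ⇑(vq hq hqM g) n = if q ∣ n then qCoeff ⇑g (n / q) else 0 := by
  have : NeZero (M * q) := neZero_mul_of_not_dvd hq hqM
  have hq0 : (q : ℂ) ≠ 0 := Nat.cast_ne_zero.mpr hq.ne_zero
  unfold vq
  rw [S49.qCoeff_smul, S49.qCoeff_sub, qCoeff_incl, S49.qCoeff_heckeTLin hq hqM,
    S49.qCoeff_heckeULin hq, qCoeff_incl]
  split_ifs with h
  · have h21 : ((2 : ℤ) - 1) = 1 := by norm_num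
    rw [h21, zpow_one]
    field_simp
    ring
  · simp

/-- One prime `q ∤ M`: `f := incl g − β • V_q g`, `β` a root of `X² − a_q(g) X + q`. -/
theorem exists_stab {M : ℕ} (g : CuspForm (Gamma0 M) 2) (hg : g.IsNormalizedEigenform)
    {q : ℕ} (hq : q.Prime) (hqM : ¬ q ∣ M) :
    ∃ f : CuspForm (Gamma0 (M * q)) 2, f.IsNormalizedEigenform ∧
      ∀ ℓ : ℕ, ℓ.Prime → ℓ ≠ q → qCoeff ⇑f ℓ = qCoeff ⇑g ℓ := by
  obtain ⟨β, hβ⟩ : ∃ β : ℂ, β ^ 2 - qCoeff ⇑g q * β + q = 0 := by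
    obtain ⟨s, hs⟩ := IsAlgClosed.exists_eq_mul_self ((qCoeff ⇑g q) ^ 2 - 4 * (q : ℂ))
    refine ⟨(qCoeff ⇑g q + s) / 2, ?_⟩
    linear_combination (-1 / 4 : ℂ) * hs
  have key : ∀ n : ℕ, qCoeff ⇑(incl (Dvd.intro q rfl) g - β • vq hq hqM g) n =
      qCoeff ⇑g n - β * (if q ∣ n then qCoeff ⇑g (n / q) else 0) := by
    intro n
    rw [S49.qCoeff_sub, S49.qCoeff_smul, qCoeff_incl, qCoeff_vq]
  have hnd : ∀ {p : ℕ}, p.Prime → p ≠ q → ∀ j : ℕ, ¬ q ∣ p ^ j := by
    intro p hp hpq j hdvd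
    exact hpq ((Nat.prime_dvd_prime_iff_eq hq hp).mp (hq.dvd_of_dvd_pow hdvd)).symm
  have hq1 : ¬ q ∣ 1 := fun h => hq.one_lt.ne' (Nat.dvd_one.mp h)
  refine ⟨incl (Dvd.intro q rfl) g - β • vq hq hqM g, ⟨?_, ?_, ?_, ?_⟩, ?_⟩
  · rw [key, if_neg hq1, mul_zero, sub_zero]
    exact hg.qCoeff_one
  · intro m n hmn
    rw [key, key, key]
    by_cases hm : q ∣ m
    · have hn : ¬ q ∣ n := fun hn => hq1 (hmn ▸ Nat.dvd_gcd hm hn)
      rw [if_pos (hm.mul_right n), if_pos hm, if_neg hn, mul_zero, sub_zero,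
        ← Nat.div_mul_right_comm hm n,
        hg.qCoeff_mul_of_coprime _ _ (Nat.Coprime.coprime_div_left hmn hm),
        hg.qCoeff_mul_of_coprime _ _ hmn]
      ring
    · by_cases hn : q ∣ n
      · rw [if_pos (hn.mul_left m), if_neg hm, if_pos hn, mul_zero, sub_zero,
          Nat.mul_div_assoc m hn,
          hg.qCoeff_mul_of_coprime _ _ (Nat.Coprime.coprime_div_right hmn hn),
          hg.qCoeff_mul_of_coprime _ _ hmn]
        ring
      · have hmn' : ¬ q ∣ m * n := fun h => (hq.dvd_mul.mp h).elim hm hn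
        rw [if_neg hmn', if_neg hm, if_neg hn, mul_zero, sub_zero, sub_zero, sub_zero]
        exact hg.qCoeff_mul_of_coprime _ _ hmn
  · intro p r hp hpMq
    have hpq : p ≠ q := fun h => hpMq (h ▸ Dvd.intro_left M rfl)
    have hpM : ¬ p ∣ M := fun h => hpMq (h.mul_right q)
    rw [key, key, key, key, if_neg (hnd hp hpq _), if_neg (hnd hp hpq _), if_neg (hnd hp hpq _),
      if_neg (fun h => hnd hp hpq 1 (by rwa [pow_one])), mul_zero, sub_zero, sub_zero, sub_zero,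
      sub_zero]
    exact hg.qCoeff_prime_pow_of_not_dvd p r hp hpM
  · intro p r hp hpMq
    by_cases hpq : p = q
    · subst hpq
      have h2 : p ^ (r + 2) / p = p ^ (r + 1) := by
        rw [pow_succ, Nat.mul_div_cancel _ hp.pos]
      have h1 : p ^ (r + 1) / p = p ^ r := by
        rw [pow_succ, Nat.mul_div_cancel _ hp.pos]
      have hrec := hg.qCoeff_prime_pow_of_not_dvd p r hp hqM
      rw [key, key, key, if_pos (dvd_pow_self p (by omega)), if_pos (dvd_refl p),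
        if_pos (dvd_pow_self p (by omega)), h2, h1, Nat.div_self hp.pos, hg.qCoeff_one]
      linear_combination hrec - qCoeff ⇑g (p ^ r) * hβ
    · have hpM : p ∣ M := (hp.dvd_mul.mp hpMq).resolve_right
        (fun h => hpq ((Nat.prime_dvd_prime_iff_eq hp hq).mp h))
      rw [key, key, key, if_neg (hnd hp hpq _), if_neg (hnd hp hpq _),
        if_neg (fun h => hnd hp hpq 1 (by rwa [pow_one])), mul_zero, sub_zero, sub_zero, sub_zero]
      exact hg.qCoeff_prime_pow_of_dvd p r hp hpM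
  · intro ℓ hℓ hℓq
    rw [key, if_neg (fun h => hnd hℓ hℓq 1 (by rwa [pow_one])), mul_zero, sub_zero]

/-- Raising the level by one prime `q` (dividing the level or not). -/
theorem exists_step {M : ℕ} (g : CuspForm (Gamma0 M) 2) (hg : g.IsNormalizedEigenform)
    {q : ℕ} (hq : q.Prime) :
    ∃ f : CuspForm (Gamma0 (M * q)) 2, f.IsNormalizedEigenform ∧
      ∀ ℓ : ℕ, ℓ.Prime → ℓ ≠ q → qCoeff ⇑f ℓ = qCoeff ⇑g ℓ := by
  by_cases hqM : q ∣ M
  · refine ⟨incl (Dvd.intro q rfl) g, isNormalizedEigenform_incl _ ?_ hg, fun ℓ _ _ => rfl⟩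
    intro p hp hpMq
    rcases hp.dvd_mul.mp hpMq with h | h
    · exact h
    · exact ((Nat.prime_dvd_prime_iff_eq hp hq).mp h) ▸ hqM
  · exact exists_stab g hg hq hqM

/-- Raising the level by any factor `d ≠ 0`. -/
theorem exists_stab_mul (d : ℕ) : ∀ {M : ℕ} (g : CuspForm (Gamma0 M) 2),
    g.IsNormalizedEigenform → d ≠ 0 →
    ∃ f : CuspForm (Gamma0 (M * d)) 2, f.IsNormalizedEigenform ∧
      ∀ ℓ : ℕ, ℓ.Prime → ¬ ℓ ∣ d → qCoeff ⇑f ℓ = qCoeff ⇑g ℓ := by
  induction d using Nat.strong_induction_on with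
  | _ d ih =>
    intro M g hg hd
    by_cases hd1 : d = 1
    · subst hd1
      exact ⟨incl (Dvd.intro 1 rfl) g,
        isNormalizedEigenform_incl _ (fun p _ h => by rwa [mul_one] at h) hg, fun ℓ _ _ => rfl⟩
    · have hqd : d.minFac ∣ d := Nat.minFac_dvd d
      have hq : d.minFac.Prime := Nat.minFac_prime hd1
      obtain ⟨d', hd'⟩ := hqd
      have hd'0 : d' ≠ 0 := by
        rintro rfl
        exact hd (by rw [hd', mul_zero])
      have hd'lt : d' < d := by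
        have h2 := hq.two_le
        have hpos : 0 < d' := Nat.pos_of_ne_zero hd'0
        calc d' = 1 * d' := (one_mul _).symm
          _ < d.minFac * d' := Nat.mul_lt_mul_of_pos_right (by omega) hpos
          _ = d := hd'.symm
      obtain ⟨g', hg', hc'⟩ := exists_step g hg hq
      obtain ⟨f', hf', hcf'⟩ := ih d' hd'lt g' hg' hd'0
      have hdvd : M * d.minFac * d' ∣ M * d := by
        rw [mul_assoc, ← hd']
      have hprime : ∀ p : ℕ, p.Prime → p ∣ M * d → p ∣ M * d.minFac * d' := by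
        intro p _ h
        rwa [mul_assoc, ← hd']
      refine ⟨incl hdvd f', isNormalizedEigenform_incl hdvd hprime hf', ?_⟩
      intro ℓ hℓ hℓd
      have h1 : ¬ ℓ ∣ d' := fun h => hℓd (hd' ▸ h.mul_left _)
      have h2 : ℓ ≠ d.minFac := fun h => hℓd (h ▸ Nat.minFac_dvd d)
      rw [qCoeff_incl, hcf' ℓ hℓ h1, hc' ℓ hℓ h2]

/-- [STAB], general multiple: no squarefreeness needed. -/
theorem exists_stab_of_dvd' {M R : ℕ} (hR : R ≠ 0) (hMR : M ∣ R)
    (g : CuspForm (Gamma0 M) 2) (hg : g.IsNormalizedEigenform) :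
    ∃ f : CuspForm (Gamma0 R) 2, f.IsNormalizedEigenform ∧
      ∀ ℓ : ℕ, ℓ.Prime → ¬ ℓ ∣ R / M → qCoeff ⇑f ℓ = qCoeff ⇑g ℓ := by
  have hRM : M * (R / M) = R := Nat.mul_div_cancel' hMR
  have hd : R / M ≠ 0 := by
    intro h
    rw [h, mul_zero] at hRM
    exact hR hRM.symm
  obtain ⟨f, hf, hc⟩ := exists_stab_mul (R / M) g hg hd
  have hdvd : M * (R / M) ∣ R := hRM.dvd
  refine ⟨incl hdvd f, isNormalizedEigenform_incl hdvd (fun p _ h => by rwa [hRM]) hf, ?_⟩
  intro ℓ hℓ hℓd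
  rw [qCoeff_incl, hc ℓ hℓ hℓd]

/-- [STAB] to any squarefree multiple (`R := W.conductorLevel`). -/
theorem exists_stab_of_dvd {M R : ℕ} (hR : Squarefree R) (hMR : M ∣ R)
    (g : CuspForm (Gamma0 M) 2) (hg : g.IsNormalizedEigenform) :
    ∃ f : CuspForm (Gamma0 R) 2, f.IsNormalizedEigenform ∧
      ∀ ℓ : ℕ, ℓ.Prime → ¬ ℓ ∣ R / M → qCoeff ⇑f ℓ = qCoeff ⇑g ℓ :=
  exists_stab_of_dvd' hR.ne_zero hMR g hg

/-- Corollary in the shape of the frozen conclusion of S58. -/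
theorem isModularModelOfLevel_of_dvd (W : WeierstrassCurve ℤ) {M : ℕ}
    (hM : M ∣ W.conductorLevel)
    (g : CuspForm (Gamma0 M) 2) (hg : g.IsNormalizedEigenform)
    (h : ∀ ℓ : ℕ, ℓ.Prime → W.IsGoodPrimeFor ℓ → qCoeff ⇑g ℓ = (W.apOfModel ℓ : ℂ)) :
    W.IsModularModelOfLevel W.conductorLevel := by
  obtain ⟨f, hf, hc⟩ := exists_stab_of_dvd' W.conductorLevel_pos.ne' hM g hg
  refine ⟨f, hf, fun p hp hgood hpN => ?_⟩
  rw [hc p hp (fun h' => hpN (h'.trans (Nat.div_dvd_of_dvd hM)))]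
  exact h p hp hgood

end Fermat.Agent.S58.Stab
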