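import Fermat.Agent.S58.Plan
import Fermat.Agent.S58.Stab

/-!
# S58: closer of the Plan leaf [STAB] (owner: helper1)

`stabStatement : Plan.StabStatement`, from `Stab.exists_stab_of_dvd`.
-/

set_option autoImplicit false

namespace Fermat.Agent.S58.StabCloser

/-- **[STAB]** closed: the Plan `Prop` `Plan.StabStatement`. -/
theorem stabStatement : Plan.StabStatement := by
  intro M R _ _ hMR hR g hg
  obtain ⟨f, hf, hc⟩ := Stab.exists_stab_of_dvd hR hMR g hg
  exact ⟨f, hf, fun ℓ hℓ hℓR => hc ℓ hℓ (fun h => hℓR (h.trans (Nat.div_dvd_of_dvd hMR)))⟩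

end Fermat.Agent.S58.StabCloser
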