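/-
S58 campaign, seam (T), B-copy (helper90; A = helper127 `S58/TraceQ.lean`).

`Plan.TraceStatement` from the Plan leaves [TR], [FROBW], [TORS], [CYCF] (as hypotheses):
under `FrobHyp`, a Frobenius element `σ` at a good prime `q ≠ λ` has trace `a_q(W)`.

For every `n`, [TR] gives integers `m ≡ tr ρ(σ)`, `d ≡ det ρ(σ)` modulo `𝔪ⁿ` with
`σ² − m σ + d = 0` on `W[λⁿ]` and `σ μ = μ ^ d` on `μ_{λⁿ}`; [CYCF] gives `σ μ = μ ^ q`, hence
`λⁿ ∣ d − q`; [FROBW] gives `σ² − a_q σ + q = 0` on `W[λⁿ]`; at a point of exact order `λⁿ`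
([TORS]) the two relations give `λⁿ ∣ m − a_q` (`TrUse.dvd_sub_of_relations`); Krull
(`TrUse.eq_intCast_of_congr`) concludes.
-/
import Fermat.Agent.S58.Plan
import Fermat.Agent.S58.TrUse

set_option autoImplicit false

namespace Fermat.Agent.S58.TraceQB

open Polynomial WeierstrassCurve
open Fermat.Agent.S58

/-- A primitive `N`-th root of unity in `ℚ̄`, `N ≠ 0`. -/
theorem exists_primitiveRoot (N : ℕ) (hN : N ≠ 0) : ∃ ζ : Plan.Qb, IsPrimitiveRoot ζ N := by
  have : NeZero (N : Plan.Qb) := ⟨Nat.cast_ne_zero.mpr hN⟩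
  exact HasEnoughRootsOfUnity.exists_primitiveRoot Plan.Qb N

/-- **(T), B-copy.** -/
theorem traceStatement (hTR : Plan.TRStatement) (hFW : Plan.FrobWStatement)
    (hTors : Plan.TorsStatement) (hCyc : Plan.CycFrobStatement) : Plan.TraceStatement := by
  intro W hΔ q lam hq hlam hne hgood S O _ _ _ hlamO ρ hF A hA σ hσ
  refine TrUse.eq_intCast_of_congr hlamO (fun n => ?_)
  obtain ⟨m, d, hm, -, hrel, hmu⟩ := hTR W hΔ lam hlam S O ρ hF σ n
  have hN0 : lam ^ n ≠ 0 := pow_ne_zero n hlam.ne_zero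
  refine ⟨m, ?_, ?_⟩
  · have h := neg_mem hm
    rwa [neg_sub] at h
  · obtain ⟨P, hP⟩ := hTors W hΔ lam hlam n
    have hP0 : (lam ^ n) • P = 0 := by rw [← hP]; exact addOrderOf_nsmul_eq_zero P
    obtain ⟨ζ, hζ⟩ := exists_primitiveRoot (lam ^ n) hN0
    have hdq : ((lam ^ n : ℕ) : ℤ) ∣ d - (q : ℤ) := by
      apply TrUse.dvd_sub_of_zpow_eq hζ hN0
      rw [← hmu ζ hζ.pow_eq_one, hCyc q lam hq hlam hne A hA σ hσ n ζ hζ.pow_eq_one,
        zpow_natCast]
    have h1 := hrel P hP0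
    have h2 := hFW W q lam hq hlam hne hgood A hA σ hσ n P hP0
    have h3 := TrUse.dvd_sub_of_relations (DistribSMul.toAddMonoidHom (Plan.Pt W) σ)
      (MulAction.injective σ) hP (m := m) (d := d) (a := W.apOfModel q) (q := (q : ℤ)) h1 h2 hdq
    rwa [Nat.cast_pow] at h3

end Fermat.Agent.S58.TraceQB
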