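/-
S58 / [UNIP] (helper27): step (i) of the route — "inertia at `q ≠ λ` is unipotent on `ρ`" —
assembled from the output of the transfer lemma [TR] and an inertia-fixed point of exact order
`λⁿ` ([FIX-good] at the good primes, [E0U] at the multiplicative ones).

The group of points and the Galois action are ABSTRACT (`E` any additive commutative group,
`act : GQ → E →+ E` any family of endomorphisms), so the statements plug into any spelling of
`W(ℚ̄)` and of the action.  The algebra is `S58/TrUse.lean` (helper87); the triviality of inertia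
on the `λⁿ`-th roots of unity is `S30.CycN.inertia_apply_of_pow_eq_one`.

* `charpoly_of_fixed`       : one element `τ` fixing the `λ`-power roots of unity and, for every
                              `n`, a point of exact order `λⁿ`  ⟹  `charpoly ρ(τ) = (X - 1)²`;
* `isUnipotentOnInertiaAt`  : `ρ.IsUnipotentOnInertiaAt q` (the Prelude predicate) for `q ≠ λ`;
* `isUnipotentOnInertiaAt'` : the same with the fixed point chosen uniformly in `τ`;
* `isUnipotentOnInertiaAt_smul` : the same for a `DistribMulAction` of `G_ℚ` on `E` (e.g. the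
                              Prelude action `σ • P` on `(W'⁄ℚ̄).Point`), relations and fixed
                              point written with `•`.
-/
import Mathlib
import Fermat.Prelude.Def_GaloisRep_LocalConditions
import Fermat.Agent.S30.CycN
import Fermat.Agent.S58.TrUse

set_option autoImplicit false

namespace Fermat.Agent.S58.Unip

open Polynomial

/-- **(i) for one element.**  Let `τ ∈ G_ℚ` fix the `λ`-power roots of unity.  If for every `n`
the transfer relation holds for `τ` (integers `m ≡ tr ρ(τ)`, `d ≡ det ρ(τ)` modulo `𝔪ⁿ`,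
`τ² P - m τ P + d P = 0` on the `λⁿ`-torsion, `τ ζ = ζ ^ d` on `μ_{λⁿ}`) and `τ` fixes a point of
exact order `λⁿ`, then `charpoly ρ(τ) = (X - 1)²`. -/
theorem charpoly_of_fixed {O : Type} [CommRing O] [IsLocalRing O] [IsNoetherianRing O]
    (ρ : GaloisRepAdic O) {lam : ℕ} (hlam : lam ≠ 0)
    (hlamO : (lam : O) ∈ IsLocalRing.maximalIdeal O)
    {E : Type*} [AddCommGroup E] (act : E →+ E)
    (τ : AlgebraicClosure ℚ ≃ₐ[ℚ] AlgebraicClosure ℚ)
    (hroot : ∀ (n : ℕ) (ζ : AlgebraicClosure ℚ), ζ ^ (lam ^ n) = 1 → τ ζ = ζ)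
    (hTR : ∀ n : ℕ, ∃ m d : ℤ,
      (m : O) - LinearMap.trace O ρ.V (ρ.ρ τ) ∈ IsLocalRing.maximalIdeal O ^ n ∧
      (d : O) - LinearMap.det (ρ.ρ τ) ∈ IsLocalRing.maximalIdeal O ^ n ∧
      (∀ P : E, (lam ^ n) • P = 0 → act (act P) - m • act P + d • P = 0) ∧
      (∀ ζ : AlgebraicClosure ℚ, ζ ^ (lam ^ n) = 1 → τ ζ = ζ ^ d))
    (hFIX : ∀ n : ℕ, ∃ P : E, addOrderOf P = lam ^ n ∧ act P = P) :
    LinearMap.charpoly (ρ.ρ τ) = (X - 1) ^ 2 := by
  refine TrUse.charpoly_eq_unipotent ρ.finrank_eq (ρ.ρ τ) hlamO fun n => ?_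
  obtain ⟨m, d, h1, h2, h3, h4⟩ := hTR n
  obtain ⟨P, hP, hfix⟩ := hFIX n
  have hn0 : lam ^ n ≠ 0 := pow_ne_zero n hlam
  refine ⟨m, d, h1, h2, ?_, ?_⟩
  · have h5 := TrUse.dvd_of_fixed act hP hfix
      (h3 P (by rw [← hP]; exact addOrderOf_nsmul_eq_zero P))
    rwa [Nat.cast_pow] at h5
  · have : NeZero (lam ^ n) := ⟨hn0⟩
    obtain ⟨ζ, hζ⟩ := HasEnoughRootsOfUnity.exists_primitiveRoot (AlgebraicClosure ℚ) (lam ^ n)
    have e1 : ζ = ζ ^ d := by
      rw [← h4 ζ hζ.pow_eq_one]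
      exact (hroot n ζ hζ.pow_eq_one).symm
    have h5 := TrUse.dvd_sub_of_zpow_eq hζ hn0 (d := d) (e := 1) (by rw [zpow_one]; exact e1.symm)
    rwa [Nat.cast_pow] at h5

/-- **(i): `ρ` is unipotent on inertia at `q ≠ λ`**, from the transfer relations [TR] (for every
`g` and `n`) and, for every place `A` over `q`, every `τ` in its inertia group and every `n`, a
point of exact order `λⁿ` fixed by `τ`. -/
theorem isUnipotentOnInertiaAt {O : Type} [CommRing O] [IsLocalRing O] [IsNoetherianRing O]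
    (ρ : GaloisRepAdic O) {lam q : ℕ} (hlam : lam.Prime) (hq : q.Prime) (hqlam : q ≠ lam)
    (hlamO : (lam : O) ∈ IsLocalRing.maximalIdeal O)
    {E : Type*} [AddCommGroup E]
    (act : (AlgebraicClosure ℚ ≃ₐ[ℚ] AlgebraicClosure ℚ) → E →+ E)
    (hTR : ∀ (g : AlgebraicClosure ℚ ≃ₐ[ℚ] AlgebraicClosure ℚ) (n : ℕ), ∃ m d : ℤ,
      (m : O) - LinearMap.trace O ρ.V (ρ.ρ g) ∈ IsLocalRing.maximalIdeal O ^ n ∧
      (d : O) - LinearMap.det (ρ.ρ g) ∈ IsLocalRing.maximalIdeal O ^ n ∧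
      (∀ P : E, (lam ^ n) • P = 0 → act g (act g P) - m • act g P + d • P = 0) ∧
      (∀ ζ : AlgebraicClosure ℚ, ζ ^ (lam ^ n) = 1 → g ζ = ζ ^ d))
    (hFIX : ∀ A : ValuationSubring (AlgebraicClosure ℚ), A.LiesOverPrime q →
      ∀ τ ∈ A.inertiaSubgroupIn ℚ, ∀ n : ℕ, ∃ P : E, addOrderOf P = lam ^ n ∧ act τ P = P) :
    ρ.IsUnipotentOnInertiaAt q := by
  intro A hA τ hτ
  exact charpoly_of_fixed ρ hlam.ne_zero hlamO (act τ) τ
    (fun n ζ hζ => Fermat.Agent.S30.CycN.inertia_apply_of_pow_eq_one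
      (pow_ne_zero n hlam.ne_zero) hq
      (Fermat.Agent.S30.CycN.not_dvd_prime_pow hq hlam hqlam n) A hA τ hτ ζ hζ)
    (hTR τ) (hFIX A hA τ hτ)

/-- The same with the fixed point chosen uniformly in `τ` (the shape of [E0U] / [FIX-good]). -/
theorem isUnipotentOnInertiaAt' {O : Type} [CommRing O] [IsLocalRing O] [IsNoetherianRing O]
    (ρ : GaloisRepAdic O) {lam q : ℕ} (hlam : lam.Prime) (hq : q.Prime) (hqlam : q ≠ lam)
    (hlamO : (lam : O) ∈ IsLocalRing.maximalIdeal O)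
    {E : Type*} [AddCommGroup E]
    (act : (AlgebraicClosure ℚ ≃ₐ[ℚ] AlgebraicClosure ℚ) → E →+ E)
    (hTR : ∀ (g : AlgebraicClosure ℚ ≃ₐ[ℚ] AlgebraicClosure ℚ) (n : ℕ), ∃ m d : ℤ,
      (m : O) - LinearMap.trace O ρ.V (ρ.ρ g) ∈ IsLocalRing.maximalIdeal O ^ n ∧
      (d : O) - LinearMap.det (ρ.ρ g) ∈ IsLocalRing.maximalIdeal O ^ n ∧
      (∀ P : E, (lam ^ n) • P = 0 → act g (act g P) - m • act g P + d • P = 0) ∧
      (∀ ζ : AlgebraicClosure ℚ, ζ ^ (lam ^ n) = 1 → g ζ = ζ ^ d))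
    (hFIX : ∀ A : ValuationSubring (AlgebraicClosure ℚ), A.LiesOverPrime q →
      ∀ n : ℕ, ∃ P : E, addOrderOf P = lam ^ n ∧ ∀ τ ∈ A.inertiaSubgroupIn ℚ, act τ P = P) :
    ρ.IsUnipotentOnInertiaAt q :=
  isUnipotentOnInertiaAt ρ hlam hq hqlam hlamO act hTR fun A hA τ hτ n => by
    obtain ⟨P, hP, hfix⟩ := hFIX A hA n
    exact ⟨P, hP, hfix τ hτ⟩

/-- **(i) for a `DistribMulAction`** of `G_ℚ` on the group of points (e.g. the Prelude action
`σ • P` on `(W'⁄ℚ̄).Point`): transfer relations and fixed point written with `•`. -/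
theorem isUnipotentOnInertiaAt_smul {O : Type} [CommRing O] [IsLocalRing O] [IsNoetherianRing O]
    (ρ : GaloisRepAdic O) {lam q : ℕ} (hlam : lam.Prime) (hq : q.Prime) (hqlam : q ≠ lam)
    (hlamO : (lam : O) ∈ IsLocalRing.maximalIdeal O)
    {E : Type*} [AddCommGroup E]
    [DistribMulAction (AlgebraicClosure ℚ ≃ₐ[ℚ] AlgebraicClosure ℚ) E]
    (hTR : ∀ (g : AlgebraicClosure ℚ ≃ₐ[ℚ] AlgebraicClosure ℚ) (n : ℕ), ∃ m d : ℤ,
      (m : O) - LinearMap.trace O ρ.V (ρ.ρ g) ∈ IsLocalRing.maximalIdeal O ^ n ∧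
      (d : O) - LinearMap.det (ρ.ρ g) ∈ IsLocalRing.maximalIdeal O ^ n ∧
      (∀ P : E, (lam ^ n) • P = 0 → g • g • P - m • g • P + d • P = 0) ∧
      (∀ ζ : AlgebraicClosure ℚ, ζ ^ (lam ^ n) = 1 → g ζ = ζ ^ d))
    (hFIX : ∀ A : ValuationSubring (AlgebraicClosure ℚ), A.LiesOverPrime q →
      ∀ n : ℕ, ∃ P : E, addOrderOf P = lam ^ n ∧
        ∀ σ : AlgebraicClosure ℚ ≃ₐ[ℚ] AlgebraicClosure ℚ, σ ∈ A.inertiaSubgroupIn ℚ →
          σ • P = P) :
    ρ.IsUnipotentOnInertiaAt q :=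
  isUnipotentOnInertiaAt' ρ hlam hq hqlam hlamO
    (fun g => DistribSMul.toAddMonoidHom E g) hTR hFIX

end Fermat.Agent.S58.Unip
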