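/-
S58 / [UNIP], closer of the Plan Prop `Plan.UnipStatement` (helper27).

`unipStatement : TRStatement → FixGoodStatement → TorsStatement → FixMultStatement →
  CycInertiaStatement → UnipStatement`

Under the Frobenius hypothesis, `ρ` is unipotent on inertia at every prime `q ≠ λ` at which `W` is
semistable: for `τ` in an inertia group at `q` and every `n`, the transfer lemma gives integers
`m ≡ tr ρ(τ)`, `d ≡ det ρ(τ)` modulo `𝔪ⁿ` with `τ² - m τ + d = 0` on `W[λⁿ]` and `τ = (μ ↦ μ ^ d)`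
on `μ_{λⁿ}`; `τ` fixes a point of exact order `λⁿ` ([TORS] + [FIXGOOD] at a good prime, [FIXMULT]
at a multiplicative one) and `μ_{λⁿ}` ([CYCI]); hence `λⁿ ∣ 1 - m + d`, `λⁿ ∣ d - 1`, and
`charpoly ρ(τ) = (X - 1)²` (`S58/Unip.charpoly_of_fixed`, `S58/TrUse`).
-/
import Mathlib
import Fermat.Agent.S58.Plan
import Fermat.Agent.S58.Unip

set_option autoImplicit false

namespace Fermat.Agent.S58.UnipCloser

open Polynomial WeierstrassCurve
open scoped WeierstrassCurve.Affine
open Fermat.Agent.S58.Plan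

/-- **Closer of `Plan.UnipStatement`.** -/
theorem unipStatement (hTR : TRStatement) (hG : FixGoodStatement) (hT : TorsStatement)
    (hM : FixMultStatement) (hC : CycInertiaStatement) : UnipStatement := by
  intro W hΔ q lam hq hlam hqlam hss S O _ _ _ hlamO ρ hF A hA τ hτ
  refine Unip.charpoly_of_fixed ρ hlam.ne_zero hlamO (DistribSMul.toAddMonoidHom (Pt W) τ) τ
    (fun n μ hμ => hC q lam hq hlam hqlam A hA τ hτ n μ hμ) (fun n => ?_) (fun n => ?_)
  · obtain ⟨m, d, h1, h2, h3, h4⟩ := hTR W hΔ lam hlam S O ρ hF τ n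
    refine ⟨m, d, ?_, ?_, fun P hP => h3 P hP, h4⟩
    · rw [← neg_sub]
      exact (Ideal.neg_mem_iff _).mpr h1
    · rw [← neg_sub]
      exact (Ideal.neg_mem_iff _).mpr h2
  · by_cases hgood : (q : ℤ) ∣ W.Δ
    · have hc₄ : ¬ (q : ℤ) ∣ W.c₄ := hss.resolve_left (not_not.mpr hgood)
      exact hM W hΔ q lam hq hlam hqlam hgood hc₄ A hA τ hτ n
    · obtain ⟨P, hP⟩ := hT W hΔ lam hlam n
      refine ⟨P, hP, ?_⟩
      exact hG W q lam hq hlam hqlam hgood A hA τ hτ n P
        (by rw [← hP]; exact addOrderOf_nsmul_eq_zero P)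

end Fermat.Agent.S58.UnipCloser
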