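/-
S58 campaign, TOP-A (helper73; deal of the architect helper77).

The frozen statement S58 (binder list verbatim) assembled through `Plan.result_of_leaves` from the
landed closers of the Plan Props:

* [MIN]    `MinCloser.minStatement`,   [STAB] `StabCloser.stabStatement`,
* [NOSQ]   `NoSq.noSq_of_unip`,        [NOGOOD] `GoodQ.noGood`,   [EIGVAL] `EigVal.eigVal`,
* (U)      `UnipCloser.unipStatement`, (T) `TraceQB.traceStatement`,
* [TORS]   `Tors.tors`,                [FIXGOOD] `GoodFixCloser.fixGood`.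

`result_of_unip_trace` : the frozen statement from the two seams (U), (T);
`result_of_five`       : the frozen statement from the five leaves [TR], [FIXMULT], [FROBW],
                         [CYCF], [CYCI] of `Plan.lean`.
-/
import Mathlib
import Fermat.Agent.S58.Plan
import Fermat.Agent.S58.MinCloser
import Fermat.Agent.S58.StabCloser
import Fermat.Agent.S58.NoSq
import Fermat.Agent.S58.GoodQ
import Fermat.Agent.S58.EigVal
import Fermat.Agent.S58.UnipCloser
import Fermat.Agent.S58.TraceQB
import Fermat.Agent.S58.Tors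
import Fermat.Agent.S58.GoodFixCloser

set_option autoImplicit false

namespace Fermat.Agent.S58.Top

open WeierstrassCurve
open Fermat.Agent.S58.Plan

/-- The frozen statement S58 from the seams **(U)** (unipotence on inertia at the primes of
semistable reduction) and **(T)** (Frobenius traces at the good primes). -/
theorem result_of_unip_trace (hU : UnipStatement) (hT : TraceStatement)
    (W : WeierstrassCurve ℤ) (hss : W.IsSemistableModel) (N : ℕ)
    (p : ℕ) [Fact p.Prime] (hp2 : p ≠ 2) (hirr : W.ModRepIsIrreducible p)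
    (hp2N : ¬ p ^ 2 ∣ N)
    (hN : W.IsModularModelOfLevel N) (hbad : ∀ ℓ : ℕ, ℓ.Prime → (ℓ : ℤ) ∣ W.Δ → ℓ ∣ N)
    (hN3 : ∀ q : ℕ, q.Prime → ¬ q ^ 3 ∣ N) :
    W.IsModularModelOfLevel W.conductorLevel :=
  Plan.result_of_leaves MinCloser.minStatement (NoSq.noSq_of_unip hU) (GoodQ.noGood hT)
    (EigVal.eigVal hT) StabCloser.stabStatement W hss N p hp2 hirr hp2N hN hbad hN3

/-- The frozen statement S58 from the five leaves **[TR]**, **[FIXMULT]**, **[FROBW]**,
**[CYCF]**, **[CYCI]** of the plan. -/
theorem result_of_five (hTR : TRStatement) (hFM : FixMultStatement) (hFW : FrobWStatement)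
    (hCF : CycFrobStatement) (hCI : CycInertiaStatement)
    (W : WeierstrassCurve ℤ) (hss : W.IsSemistableModel) (N : ℕ)
    (p : ℕ) [Fact p.Prime] (hp2 : p ≠ 2) (hirr : W.ModRepIsIrreducible p)
    (hp2N : ¬ p ^ 2 ∣ N)
    (hN : W.IsModularModelOfLevel N) (hbad : ∀ ℓ : ℕ, ℓ.Prime → (ℓ : ℤ) ∣ W.Δ → ℓ ∣ N)
    (hN3 : ∀ q : ℕ, q.Prime → ¬ q ^ 3 ∣ N) :
    W.IsModularModelOfLevel W.conductorLevel :=
  result_of_unip_trace
    (UnipCloser.unipStatement hTR GoodFixCloser.fixGood Tors.tors hFM hCI)
    (TraceQB.traceStatement hTR hFW Tors.tors hCF) W hss N p hp2 hirr hp2N hN hbad hN3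

end Fermat.Agent.S58.Top
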