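/-
S58 campaign, leaves [CYCF] / [CYCI], B-copy (helper15; A = helper7 `S58/Cyc.lean`).

`cycFrob : Plan.CycFrobStatement` and `cycInertia : Plan.CycInertiaStatement`: at a prime
`q ≠ λ`, every Frobenius element raises the `λ`-power roots of unity of `ℚ̄` to the `q`-th power
and the inertia group fixes them.  Both are instances (`m := λ ^ n`) of
`S30.CycN.frobenius_apply_of_pow_eq_one` / `S30.CycN.inertia_apply_of_pow_eq_one`.
-/
import Fermat.Agent.S58.Plan
import Fermat.Agent.S30.CycN

set_option autoImplicit false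

namespace Fermat.Agent.S58.CycB

open Fermat.Agent.S30

/-- **[CYCF]** (Plan Prop): a Frobenius element at `q ≠ λ` raises the `λ`-power roots of unity
to the `q`-th power. -/
theorem cycFrob : Plan.CycFrobStatement := by
  intro q lam hq hlam hqlam A hA σ hσ n μ hμ
  exact CycN.frobenius_apply_of_pow_eq_one (pow_ne_zero n hlam.ne_zero) hq
    (CycN.not_dvd_prime_pow hq hlam hqlam n) A hA σ hσ μ hμ

/-- **[CYCI]** (Plan Prop): inertia at `q ≠ λ` fixes the `λ`-power roots of unity. -/
theorem cycInertia : Plan.CycInertiaStatement := by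
  intro q lam hq hlam hqlam A hA τ hτ n μ hμ
  exact CycN.inertia_apply_of_pow_eq_one (pow_ne_zero n hlam.ne_zero) hq
    (CycN.not_dvd_prime_pow hq hlam hqlam n) A hA τ hτ μ hμ

end Fermat.Agent.S58.CycB
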