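/-
S58 — E0U.lean (helper71), leaf [E0U] (route 2: no translation of the node, no transport).

Reduction of the points with NONSINGULAR reduction of an arbitrary integral Weierstrass curve
`WA` over a valuation subring `A` of a field `K` (no hypothesis on the discriminant): the set
`E₀` of points which are in the kernel of reduction `InE1` or are integral with nonsingular
reduction is a subgroup, and the reduction map `E₀ → W̃(k)` into the group of nonsingular points
of the reduced curve is a group homomorphism with kernel `InE1`, surjective when `K` is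
algebraically closed and the generic fibre is nonsingular.  This is the generalisation of
`S41/Red.redHom` (good reduction) needed at the primes of multiplicative reduction.

Consequence (`exists_fixed_point`): if the group of nonsingular points of the reduced curve has a
point of exact order `m` (`m` a unit of `A`) and the kernel of reduction is `m`-divisible, then
there is a point of exact order `m` of the generic fibre which is fixed by every inertia-like
endomorphism of `K`.
-/
import Mathlib
import Fermat.Agent.S41.Red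

set_option autoImplicit false

namespace Fermat.Agent.S58.E0U

open WeierstrassCurve WeierstrassCurve.Affine IsLocalRing
open Fermat.Agent.S05 Fermat.Agent.S41.Red

section Curve

variable {K : Type*} [Field K] (A : ValuationSubring K) (WA : WeierstrassCurve A)

/-- The integral pair `(a, b)` reduces to a nonsingular point of the reduced curve. -/
abbrev NsRes (a b : A) : Prop :=
  (WA.map (residue A)).toAffine.Nonsingular (residue A a) (residue A b)

/-- `E₀`: the kernel of reduction together with the integral points of nonsingular reduction. -/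
def E0 (P : (WA.map (algebraMap A K)).toAffine.Point) : Prop :=
  InE1 A P ∨ ∃ (a b : A) (h : (WA.map (algebraMap A K)).toAffine.Nonsingular (a : K) (b : K)),
    P = Point.some _ _ h ∧ NsRes A WA a b

/-- The reduction map (value `0` at the integral points of singular reduction). -/
noncomputable def red :
    (WA.map (algebraMap A K)).toAffine.Point → (WA.map (residue A)).toAffine.Point
  | .zero => .zero
  | .some x y h => open Classical in
      if hx : x ∈ A then
        if hns : NsRes A WA ⟨x, hx⟩ ⟨y, y_mem A WA h.1 hx⟩ then .some _ _ hns else .zero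
      else .zero

theorem red_zero : red A WA 0 = 0 := rfl

theorem red_some {x y : K} (h : (WA.map (algebraMap A K)).toAffine.Nonsingular x y) (a b : A)
    (hx : x = a) (hy : y = b) (hns : NsRes A WA a b) :
    red A WA (Point.some x y h) = Point.some _ _ hns := by
  subst hx hy
  simp only [red, dif_pos a.2]
  exact dif_pos hns

theorem red_of_inE1 {P : (WA.map (algebraMap A K)).toAffine.Point} (hP : InE1 A P) :
    red A WA P = 0 := by
  rcases P with _ | ⟨x, y, h⟩
  · rfl
  · have hx : x ∉ A := hP
    simp only [red, dif_neg hx]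
    rfl

theorem e0_of_inE1 {P : (WA.map (algebraMap A K)).toAffine.Point} (hP : InE1 A P) :
    E0 A WA P := Or.inl hP

theorem e0_some {x y : K} (h : (WA.map (algebraMap A K)).toAffine.Nonsingular x y) (a b : A)
    (hx : x = a) (hy : y = b) (hns : NsRes A WA a b) : E0 A WA (Point.some x y h) := by
  subst hx hy
  exact Or.inr ⟨a, b, h, rfl, hns⟩

theorem exists_of_e0 {P : (WA.map (algebraMap A K)).toAffine.Point} (hP : E0 A WA P)
    (hP1 : ¬ InE1 A P) :
    ∃ (a b : A) (h : (WA.map (algebraMap A K)).toAffine.Nonsingular (a : K) (b : K)),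
      P = Point.some _ _ h ∧ NsRes A WA a b := hP.resolve_left hP1

theorem inE1_of_red_eq_zero {P : (WA.map (algebraMap A K)).toAffine.Point} (hP : E0 A WA P)
    (h0 : red A WA P = 0) : InE1 A P := by
  by_contra hP1
  obtain ⟨a, b, h, rfl, hns⟩ := exists_of_e0 A WA hP hP1
  rw [red_some A WA h a b rfl rfl hns] at h0
  exact Point.some_ne_zero _ h0

theorem nsRes_neg {a b : A} (hns : NsRes A WA a b) : NsRes A WA a (WA.toAffine.negY a b) := by
  show (WA.map (residue A)).toAffine.Nonsingular (residue A a) (residue A (WA.toAffine.negY a b))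
  rw [← Affine.map_negY]
  exact (Affine.nonsingular_neg ..).mpr hns

theorem e0_neg {P : (WA.map (algebraMap A K)).toAffine.Point} (hP : E0 A WA P) :
    E0 A WA (-P) ∧ red A WA (-P) = -red A WA P := by
  rcases hP with hP | ⟨a, b, h, rfl, hns⟩
  · have hn := inE1_neg A hP
    exact ⟨Or.inl hn, by rw [red_of_inE1 A WA hn, red_of_inE1 A WA hP]; rfl⟩
  · obtain ⟨hn, en⟩ := neg_some_coe A WA h
    have hns' := nsRes_neg A WA hns
    refine ⟨?_, ?_⟩
    · rw [en]
      exact e0_some A WA hn a _ rfl rfl hns'
    · rw [en, red_some A WA hn a _ rfl rfl hns', red_some A WA h a b rfl rfl hns, Point.neg_some]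
      exact some_eq_some _ _ rfl (Affine.map_negY ..).symm

variable [DecidableEq K] [DecidableEq (ResidueField A)]

/-- Sum of two integral points of nonsingular reduction with distinct `x`-coordinates modulo the
maximal ideal. -/
theorem red_add_of_res_ne {a₁ b₁ a₂ b₂ : A}
    (h₁ : (WA.map (algebraMap A K)).toAffine.Nonsingular (a₁ : K) (b₁ : K))
    (h₂ : (WA.map (algebraMap A K)).toAffine.Nonsingular (a₂ : K) (b₂ : K))
    (n₁ : NsRes A WA a₁ b₁) (n₂ : NsRes A WA a₂ b₂)
    (hne : residue A a₁ ≠ residue A a₂) :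
    E0 A WA (Point.some _ _ h₁ + Point.some _ _ h₂) ∧
      red A WA (Point.some _ _ h₁ + Point.some _ _ h₂) =
        red A WA (Point.some _ _ h₁) + red A WA (Point.some _ _ h₂) := by
  have hu : IsUnit (a₁ - a₂) := by
    rw [← res_ne_zero_iff, map_sub]
    exact sub_ne_zero.mpr hne
  obtain ⟨u, hu⟩ := hu
  set L : A := (b₁ - b₂) * ↑u⁻¹ with hL
  have hxK : (a₁ : K) ≠ a₂ := by
    intro h
    exact hne (by rw [Subtype.ext h])
  have hLu : L * (a₁ - a₂) = b₁ - b₂ := by
    rw [hL, ← hu, mul_assoc, Units.inv_mul, mul_one]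
  have hslopeK : (WA.map (algebraMap A K)).toAffine.slope (a₁ : K) a₂ b₁ b₂ = (L : K) := by
    rw [Affine.slope_of_X_ne hxK, div_eq_iff (sub_ne_zero.mpr hxK)]
    have := congrArg (fun t : A => (t : K)) hLu
    simpa using this.symm
  have hslopek : (WA.map (residue A)).toAffine.slope (residue A a₁) (residue A a₂) (residue A b₁)
      (residue A b₂) = residue A L := by
    rw [Affine.slope_of_X_ne hne, div_eq_iff (sub_ne_zero.mpr hne), ← map_sub, ← map_sub,
      ← map_mul, hLu]
  have n3 : NsRes A WA (WA.toAffine.addX a₁ a₂ L) (WA.toAffine.addY a₁ a₂ b₁ L) := by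
    have h3 := Affine.nonsingular_add n₁ n₂ (fun hxy => hne hxy.left)
    rw [hslopek, Affine.map_addX, Affine.map_addY] at h3
    exact h3
  have hK3 := Affine.nonsingular_add h₁ h₂ (fun hxy => hxK hxy.left)
  have ex : (WA.map (algebraMap A K)).toAffine.addX (a₁ : K) a₂
      ((WA.map (algebraMap A K)).toAffine.slope (a₁ : K) a₂ b₁ b₂) =
        ((WA.toAffine.addX a₁ a₂ L : A) : K) := by
    rw [hslopeK]; exact Affine.map_addX (algebraMap A K) a₁ a₂ L
  have ey : (WA.map (algebraMap A K)).toAffine.addY (a₁ : K) a₂ b₁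
      ((WA.map (algebraMap A K)).toAffine.slope (a₁ : K) a₂ b₁ b₂) =
        ((WA.toAffine.addY a₁ a₂ b₁ L : A) : K) := by
    rw [hslopeK]; exact Affine.map_addY (algebraMap A K) a₁ b₁ a₂ L
  rw [Point.add_of_X_ne hxK]
  refine ⟨e0_some A WA hK3 _ _ ex ey n3, ?_⟩
  rw [red_some A WA hK3 _ _ ex ey n3, red_some A WA h₁ a₁ b₁ rfl rfl n₁,
    red_some A WA h₂ a₂ b₂ rfl rfl n₂, Point.add_of_X_ne hne]
  refine some_eq_some _ _ ?_ ?_
  · rw [hslopek, Affine.map_addX]
  · rw [hslopek, Affine.map_addY]

omit [DecidableEq (ResidueField A)] in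
/-- The sum of two integral points with distinct `x`-coordinates modulo the maximal ideal is not
in the kernel of reduction. -/
theorem not_inE1_add_of_res_ne {a₁ b₁ a₂ b₂ : A}
    (h₁ : (WA.map (algebraMap A K)).toAffine.Nonsingular (a₁ : K) (b₁ : K))
    (h₂ : (WA.map (algebraMap A K)).toAffine.Nonsingular (a₂ : K) (b₂ : K))
    (hne : residue A a₁ ≠ residue A a₂) :
    ¬ InE1 A (Point.some _ _ h₁ + Point.some _ _ h₂) := by
  have hu : IsUnit (a₁ - a₂) := by
    rw [← res_ne_zero_iff, map_sub]
    exact sub_ne_zero.mpr hne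
  obtain ⟨u, hu⟩ := hu
  set L : A := (b₁ - b₂) * ↑u⁻¹ with hL
  have hxK : (a₁ : K) ≠ a₂ := by
    intro h
    exact hne (by rw [Subtype.ext h])
  have hLu : L * (a₁ - a₂) = b₁ - b₂ := by
    rw [hL, ← hu, mul_assoc, Units.inv_mul, mul_one]
  have hslopeK : (WA.map (algebraMap A K)).toAffine.slope (a₁ : K) a₂ b₁ b₂ = (L : K) := by
    rw [Affine.slope_of_X_ne hxK, div_eq_iff (sub_ne_zero.mpr hxK)]
    have := congrArg (fun t : A => (t : K)) hLu
    simpa using this.symm
  have ex : (WA.map (algebraMap A K)).toAffine.addX (a₁ : K) a₂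
      ((WA.map (algebraMap A K)).toAffine.slope (a₁ : K) a₂ b₁ b₂) =
        ((WA.toAffine.addX a₁ a₂ L : A) : K) := by
    rw [hslopeK]; exact Affine.map_addX (algebraMap A K) a₁ a₂ L
  rw [Point.add_of_X_ne hxK]
  intro hin
  have hin' : (WA.map (algebraMap A K)).toAffine.addX (a₁ : K) a₂
      ((WA.map (algebraMap A K)).toAffine.slope (a₁ : K) a₂ b₁ b₂) ∉ A := hin
  rw [ex] at hin'
  exact hin' (WA.toAffine.addX a₁ a₂ L).2

/-- Doubling of an integral point of nonsingular reduction whose reduction is not `2`-torsion. -/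
theorem red_dbl_of_unit {a b : A}
    (h : (WA.map (algebraMap A K)).toAffine.Nonsingular (a : K) (b : K)) (hns : NsRes A WA a b)
    (hD : residue A (2 * b + WA.a₁ * a + WA.a₃) ≠ 0) :
    E0 A WA (Point.some _ _ h + Point.some _ _ h) ∧
      red A WA (Point.some _ _ h + Point.some _ _ h) =
        red A WA (Point.some _ _ h) + red A WA (Point.some _ _ h) := by
  obtain ⟨u, hu⟩ := (res_ne_zero_iff A _).mp hD
  set L : A := (3 * a ^ 2 + 2 * WA.a₂ * a + WA.a₄ - WA.a₁ * b) * ↑u⁻¹ with hL
  have hLu : L * (2 * b + WA.a₁ * a + WA.a₃) =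
      3 * a ^ 2 + 2 * WA.a₂ * a + WA.a₄ - WA.a₁ * b := by
    rw [hL, ← hu, mul_assoc, Units.inv_mul, mul_one]
  have hDK0 : ((2 * b + WA.a₁ * a + WA.a₃ : A) : K) ≠ 0 := by
    intro h0
    apply hD
    have : (2 * b + WA.a₁ * a + WA.a₃ : A) = 0 := Subtype.ext h0
    rw [this, map_zero]
  have hyK : (b : K) ≠ (WA.map (algebraMap A K)).toAffine.negY (a : K) b := by
    intro h0
    apply hDK0
    rw [← coe_sub_negY, ← h0, sub_self]
  have hyk : residue A b ≠ (WA.map (residue A)).toAffine.negY (residue A a) (residue A b) := by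
    intro h0
    apply hD
    rw [← res_sub_negY, ← h0, sub_self]
  have hslopeK : (WA.map (algebraMap A K)).toAffine.slope (a : K) a b b = (L : K) := by
    rw [Affine.slope_of_Y_ne rfl hyK, coe_sub_negY, div_eq_iff hDK0, coe_a₁, coe_a₂, coe_a₄]
    have e : (L : K) * ((2 * b + WA.a₁ * a + WA.a₃ : A) : K) =
        ((3 * a ^ 2 + 2 * WA.a₂ * a + WA.a₄ - WA.a₁ * b : A) : K) := by
      rw [← hLu]
      rfl
    rw [e]
    push_cast
    rw [coe_two, coe_three]
  have hslopek : (WA.map (residue A)).toAffine.slope (residue A a) (residue A a) (residue A b)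
      (residue A b) = residue A L := by
    rw [Affine.slope_of_Y_ne rfl hyk, res_sub_negY, div_eq_iff hD, ← map_mul, hLu]
    simp only [WeierstrassCurve.map_a₁, WeierstrassCurve.map_a₂, WeierstrassCurve.map_a₄, map_sub,
      map_add, map_mul, map_pow, map_ofNat]
  have n3 : NsRes A WA (WA.toAffine.addX a a L) (WA.toAffine.addY a a b L) := by
    have h3 := Affine.nonsingular_add hns hns (fun hxy => hyk hxy.right)
    rw [hslopek, Affine.map_addX, Affine.map_addY] at h3
    exact h3
  have hK3 := Affine.nonsingular_add h h (fun hxy => hyK hxy.right)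
  have ex : (WA.map (algebraMap A K)).toAffine.addX (a : K) a
      ((WA.map (algebraMap A K)).toAffine.slope (a : K) a b b) =
        ((WA.toAffine.addX a a L : A) : K) := by
    rw [hslopeK]; exact Affine.map_addX (algebraMap A K) a a L
  have ey : (WA.map (algebraMap A K)).toAffine.addY (a : K) a b
      ((WA.map (algebraMap A K)).toAffine.slope (a : K) a b b) =
        ((WA.toAffine.addY a a b L : A) : K) := by
    rw [hslopeK]; exact Affine.map_addY (algebraMap A K) a b a L
  rw [Point.add_self_of_Y_ne hyK]
  refine ⟨e0_some A WA hK3 _ _ ex ey n3, ?_⟩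
  rw [red_some A WA hK3 _ _ ex ey n3, red_some A WA h a b rfl rfl hns,
    Point.add_self_of_Y_ne hyk]
  refine some_eq_some _ _ ?_ ?_
  · rw [hslopek, Affine.map_addX]
  · rw [hslopek, Affine.map_addY]

omit [DecidableEq K] [DecidableEq (ResidueField A)] in
/-- At an integral pair of nonsingular reduction the two partial derivatives do not vanish
simultaneously modulo the maximal ideal. -/
theorem res_ne_zero_or' {a b : A} (hns : NsRes A WA a b) :
    residue A (2 * b + WA.a₁ * a + WA.a₃) ≠ 0 ∨
      residue A (3 * a ^ 2 + 2 * WA.a₂ * a + WA.a₄ - WA.a₁ * b) ≠ 0 := by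
  have hns' : (WA.map (residue A)).toAffine.Nonsingular (residue A a) (residue A b) := hns
  rw [Affine.nonsingular_iff'] at hns'
  rcases hns'.2 with h1 | h1
  · right
    intro h0
    apply h1
    have : residue A (3 * a ^ 2 + 2 * WA.a₂ * a + WA.a₄ - WA.a₁ * b) =
        -((WA.map (residue A)).a₁ * residue A b - (3 * residue A a ^ 2 +
          2 * (WA.map (residue A)).a₂ * residue A a + (WA.map (residue A)).a₄)) := by
      simp only [WeierstrassCurve.map_a₁, WeierstrassCurve.map_a₂, WeierstrassCurve.map_a₄,
        map_sub, map_add, map_mul, map_pow, map_ofNat]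
      ring
    rw [this, neg_eq_zero] at h0
    exact h0
  · left
    intro h0
    apply h1
    rw [← h0]
    simp only [WeierstrassCurve.map_a₁, WeierstrassCurve.map_a₃, map_add, map_mul, map_ofNat]

omit [DecidableEq (ResidueField A)] in
/-- Doubling of an integral point of nonsingular reduction whose reduction is `2`-torsion lands
in the kernel of reduction. -/
theorem inE1_dbl_of_not_unit' {a b : A}
    (h : (WA.map (algebraMap A K)).toAffine.Nonsingular (a : K) (b : K)) (hns : NsRes A WA a b)
    (hD : residue A (2 * b + WA.a₁ * a + WA.a₃) = 0) :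
    InE1 A (Point.some _ _ h + Point.some _ _ h) := by
  by_cases hyK : (b : K) = (WA.map (algebraMap A K)).toAffine.negY (a : K) b
  · rw [Point.add_self_of_Y_eq hyK]
    trivial
  · rw [Point.add_self_of_Y_ne hyK]
    show (WA.map (algebraMap A K)).toAffine.addX (a : K) a
      ((WA.map (algebraMap A K)).toAffine.slope (a : K) a b b) ∉ A
    have hnum : residue A (3 * a ^ 2 + 2 * WA.a₂ * a + WA.a₄ - WA.a₁ * b) ≠ 0 :=
      (res_ne_zero_or' A WA hns).resolve_left (not_not.mpr hD)
    have hden : ((2 * b + WA.a₁ * a + WA.a₃ : A) : K) ∈ A.nonunits :=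
      (res_eq_zero_iff A _).mp hD
    have hden0 : ((2 * b + WA.a₁ * a + WA.a₃ : A) : K) ≠ 0 := by
      rw [← coe_sub_negY]
      exact sub_ne_zero.mpr hyK
    have hslope : (WA.map (algebraMap A K)).toAffine.slope (a : K) a b b ∉ A := by
      rw [Affine.slope_of_Y_ne rfl hyK, coe_sub_negY]
      have hn : (3 * (a : K) ^ 2 + 2 * (WA.map (algebraMap A K)).a₂ * a +
          (WA.map (algebraMap A K)).a₄ - (WA.map (algebraMap A K)).a₁ * b) =
          ((3 * a ^ 2 + 2 * WA.a₂ * a + WA.a₄ - WA.a₁ * b : A) : K) := by
        rw [coe_a₁, coe_a₂, coe_a₄]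
        push_cast
        rw [coe_two, coe_three]
      rw [hn]
      refine not_mem_of_div A ?_ hden hden0
      intro hmem
      exact hnum ((res_eq_zero_iff A _).mpr hmem)
    have key := Reduction.sq_add_mul_sub_not_mem A (a := (WA.a₁ : K))
      (c := (WA.a₂ : K) + a + a) WA.a₁.2 (add_mem (add_mem WA.a₂.2 a.2) a.2) hslope
    simp only [Affine.addX, coe_a₁, coe_a₂]
    convert key using 2
    ring

omit [DecidableEq (ResidueField A)] in
/-- Two integral points with the same nonsingular reduction differ by an element of the kernel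
of reduction. -/
theorem inE1_sub_of_res_eq' {a₁ b₁ a₂ b₂ : A}
    (h₁ : (WA.map (algebraMap A K)).toAffine.Nonsingular (a₁ : K) (b₁ : K))
    (h₂ : (WA.map (algebraMap A K)).toAffine.Nonsingular (a₂ : K) (b₂ : K))
    (n₁ : NsRes A WA a₁ b₁)
    (hx : residue A a₁ = residue A a₂) (hy : residue A b₁ = residue A b₂) :
    InE1 A (Point.some _ _ h₁ - Point.some _ _ h₂) := by
  refine F2_inE1 A (WA.map (algebraMap A K)) WA.a₁.2 WA.a₂.2 h₁ h₂ a₁.2
    ((res_eq_iff A _ _).mp hx) ((res_eq_iff A _ _).mp hy) ?_
  rw [coe_a₁, coe_a₂, coe_a₃, coe_a₄]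
  rcases res_ne_zero_or' A WA n₁ with h | h
  · left
    intro hmem
    apply h
    rw [res_eq_zero_iff]
    exact hmem
  · right
    intro hmem
    apply h
    rw [res_eq_zero_iff]
    exact hmem

/-- Adding an element of the kernel of reduction does not change the reduction. -/
theorem red_add_inE1 (P T : (WA.map (algebraMap A K)).toAffine.Point) (hP0 : E0 A WA P)
    (hP : ¬ InE1 A P) (hT : InE1 A T) :
    E0 A WA (P + T) ∧ red A WA (P + T) = red A WA P := by
  have hR : ¬ InE1 A (P + T) := by
    intro hR
    apply hP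
    have := inE1_sub' A WA hR hT
    rwa [add_sub_cancel_right] at this
  obtain ⟨a, b, h, rfl, n1⟩ := exists_of_e0 A WA hP0 hP
  obtain ⟨a₃, b₃, h₃, e₃⟩ := exists_lift A WA hR
  obtain ⟨hn, en⟩ := neg_some_coe A WA h
  have nn := nsRes_neg A WA n1
  have hT' : Point.some _ _ h₃ + Point.some _ _ hn = T := by
    rw [← e₃, ← en, ← sub_eq_add_neg, add_sub_cancel_left]
  rw [e₃]
  have r3eq : (WA.map (residue A)).toAffine.Equation (residue A a₃) (residue A b₃) :=
    (equation_of_coe A WA h₃.1).map (residue A)
  by_cases hx : residue A a₃ = residue A a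
  · rcases Affine.Y_eq_of_X_eq r3eq n1.1 hx with hy | hy
    · have n3 : NsRes A WA a₃ b₃ := by
        show (WA.map (residue A)).toAffine.Nonsingular (residue A a₃) (residue A b₃)
        rw [hx, hy]
        exact n1
      refine ⟨e0_some A WA h₃ a₃ b₃ rfl rfl n3, ?_⟩
      rw [red_some A WA h₃ a₃ b₃ rfl rfl n3, red_some A WA h a b rfl rfl n1]
      exact some_eq_some _ _ hx hy
    · by_cases hD : residue A (2 * b + WA.a₁ * a + WA.a₃) = 0
      · have hb : residue A b =
            (WA.map (residue A)).toAffine.negY (residue A a) (residue A b) := by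
          have := res_sub_negY A WA a b
          rwa [hD, sub_eq_zero] at this
        have n3 : NsRes A WA a₃ b₃ := by
          show (WA.map (residue A)).toAffine.Nonsingular (residue A a₃) (residue A b₃)
          rw [hx, hy, ← hb]
          exact n1
        refine ⟨e0_some A WA h₃ a₃ b₃ rfl rfl n3, ?_⟩
        rw [red_some A WA h₃ a₃ b₃ rfl rfl n3, red_some A WA h a b rfl rfl n1]
        exact some_eq_some _ _ hx (hy.trans hb.symm)
      · exfalso
        have hy' : residue A b₃ = residue A (WA.toAffine.negY a b) := by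
          rw [hy]
          exact Affine.map_negY (residue A) a b
        have n3 : NsRes A WA a₃ b₃ := by
          show (WA.map (residue A)).toAffine.Nonsingular (residue A a₃) (residue A b₃)
          rw [hx, hy']
          exact nn
        have h1 : InE1 A (Point.some _ _ h₃ - Point.some _ _ hn) :=
          inE1_sub_of_res_eq' A WA h₃ hn n3 hx hy'
        have h2 : InE1 A (Point.some _ _ h₃ + Point.some _ _ hn) := hT' ▸ hT
        have h3 : InE1 A (Point.some _ _ h + Point.some _ _ h) := by
          have e : Point.some _ _ h + Point.some _ _ h =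
              (Point.some _ _ h₃ - Point.some _ _ hn) -
                (Point.some _ _ h₃ + Point.some _ _ hn) := by
            rw [← en]
            abel
          rw [e]
          exact inE1_sub' A WA h1 h2
        have h4 := (red_dbl_of_unit A WA h n1 hD).2
        rw [red_of_inE1 A WA h3, red_some A WA h a b rfl rfl n1] at h4
        have hyk : residue A b ≠
            (WA.map (residue A)).toAffine.negY (residue A a) (residue A b) := by
          intro h0
          apply hD
          rw [← res_sub_negY, ← h0, sub_self]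
        rw [Point.add_self_of_Y_ne hyk] at h4
        exact Point.some_ne_zero _ h4.symm
  · exfalso
    exact not_inE1_add_of_res_ne A WA h₃ hn hx (hT' ▸ hT)

/-- **`E₀` is closed under addition and reduction is additive on it.** -/
theorem red_add (P Q : (WA.map (algebraMap A K)).toAffine.Point) (hP0 : E0 A WA P)
    (hQ0 : E0 A WA Q) :
    E0 A WA (P + Q) ∧ red A WA (P + Q) = red A WA P + red A WA Q := by
  by_cases hP : InE1 A P
  · by_cases hQ : InE1 A Q
    · have hPQ := inE1_add' A WA hP hQ
      refine ⟨Or.inl hPQ, ?_⟩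
      rw [red_of_inE1 A WA hP, red_of_inE1 A WA hQ, red_of_inE1 A WA hPQ, add_zero]
    · have key := red_add_inE1 A WA Q P hQ0 hQ hP
      rw [add_comm P Q]
      refine ⟨key.1, ?_⟩
      rw [key.2, red_of_inE1 A WA hP, zero_add]
  · by_cases hQ : InE1 A Q
    · have key := red_add_inE1 A WA P Q hP0 hP hQ
      refine ⟨key.1, ?_⟩
      rw [key.2, red_of_inE1 A WA hQ, add_zero]
    · obtain ⟨a₁, b₁, h₁, rfl, n₁⟩ := exists_of_e0 A WA hP0 hP
      obtain ⟨a₂, b₂, h₂, rfl, n₂⟩ := exists_of_e0 A WA hQ0 hQ
      by_cases hx : residue A a₁ = residue A a₂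
      · rcases Affine.Y_eq_of_X_eq n₁.1 n₂.1 hx with hy | hy
        · have hT : InE1 A (Point.some _ _ h₂ - Point.some _ _ h₁) :=
            inE1_sub_of_res_eq' A WA h₂ h₁ n₂ hx.symm hy.symm
          have e : Point.some _ _ h₁ + Point.some _ _ h₂ =
              (Point.some _ _ h₁ + Point.some _ _ h₁) +
                (Point.some _ _ h₂ - Point.some _ _ h₁) := by
            abel
          have e2 : red A WA (Point.some _ _ h₂) = red A WA (Point.some _ _ h₁) := by
            rw [red_some A WA h₁ a₁ b₁ rfl rfl n₁, red_some A WA h₂ a₂ b₂ rfl rfl n₂]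
            exact some_eq_some _ _ hx.symm hy.symm
          rw [e, e2]
          by_cases hD : residue A (2 * b₁ + WA.a₁ * a₁ + WA.a₃) = 0
          · have h2P := inE1_dbl_of_not_unit' A WA h₁ n₁ hD
            have hsum := inE1_add' A WA h2P hT
            refine ⟨Or.inl hsum, ?_⟩
            rw [red_of_inE1 A WA hsum, red_some A WA h₁ a₁ b₁ rfl rfl n₁]
            symm
            apply Point.add_self_of_Y_eq
            have := res_sub_negY A WA a₁ b₁
            rwa [hD, sub_eq_zero] at this
          · have h2 := red_dbl_of_unit A WA h₁ n₁ hD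
            have h2P : ¬ InE1 A (Point.some _ _ h₁ + Point.some _ _ h₁) := by
              intro hin
              have h0 := red_of_inE1 A WA hin
              rw [h2.2, red_some A WA h₁ a₁ b₁ rfl rfl n₁] at h0
              have hyk : residue A b₁ ≠
                  (WA.map (residue A)).toAffine.negY (residue A a₁) (residue A b₁) := by
                intro h0
                apply hD
                rw [← res_sub_negY, ← h0, sub_self]
              rw [Point.add_self_of_Y_ne hyk] at h0
              exact Point.some_ne_zero _ h0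
            have h3 := red_add_inE1 A WA _ _ h2.1 h2P hT
            exact ⟨h3.1, by rw [h3.2, h2.2]⟩
        · obtain ⟨hn, en⟩ := neg_some_coe A WA h₂
          have hy' : residue A b₁ = residue A (WA.toAffine.negY a₂ b₂) := by
            rw [hy]
            exact Affine.map_negY (residue A) a₂ b₂
          have hT : InE1 A (Point.some _ _ h₁ - Point.some _ _ hn) :=
            inE1_sub_of_res_eq' A WA h₁ hn n₁ hx hy'
          rw [← en, sub_neg_eq_add] at hT
          refine ⟨Or.inl hT, ?_⟩
          rw [red_of_inE1 A WA hT, red_some A WA h₁ a₁ b₁ rfl rfl n₁,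
            red_some A WA h₂ a₂ b₂ rfl rfl n₂, Point.add_of_Y_eq hx hy]
      · exact red_add_of_res_ne A WA h₁ h₂ n₁ n₂ hx

/-- The subgroup `E₀` of points with nonsingular reduction. -/
def E0sub : AddSubgroup (WA.map (algebraMap A K)).toAffine.Point where
  carrier := {P | E0 A WA P}
  zero_mem' := Or.inl trivial
  add_mem' := fun hP hQ => (red_add A WA _ _ hP hQ).1
  neg_mem' := fun hP => (e0_neg A WA hP).1

theorem mem_E0sub {P : (WA.map (algebraMap A K)).toAffine.Point} :
    P ∈ E0sub A WA ↔ E0 A WA P := Iff.rfl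

/-- The reduction homomorphism `E₀ → W̃ₙₛ(k)`. -/
noncomputable def redHom₀ : E0sub A WA →+ (WA.map (residue A)).toAffine.Point where
  toFun P := red A WA P.1
  map_zero' := rfl
  map_add' P Q := (red_add A WA _ _ P.2 Q.2).2

theorem redHom₀_apply (P : E0sub A WA) : redHom₀ A WA P = red A WA P.1 := rfl

theorem redHom₀_eq_zero_iff (P : E0sub A WA) : redHom₀ A WA P = 0 ↔ InE1 A P.1 :=
  ⟨fun h => inE1_of_red_eq_zero A WA P.2 h, fun h => red_of_inE1 A WA h⟩

theorem e0_nsmul (n : ℕ) {P : (WA.map (algebraMap A K)).toAffine.Point} (hP : E0 A WA P) :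
    E0 A WA (n • P) ∧ red A WA (n • P) = n • red A WA P := by
  refine ⟨(E0sub A WA).nsmul_mem hP n, ?_⟩
  have := map_nsmul (redHom₀ A WA) n ⟨P, hP⟩
  exact this

theorem e0_sub {P Q : (WA.map (algebraMap A K)).toAffine.Point} (hP : E0 A WA P)
    (hQ : E0 A WA Q) : E0 A WA (P - Q) ∧ red A WA (P - Q) = red A WA P - red A WA Q := by
  refine ⟨(E0sub A WA).sub_mem hP hQ, ?_⟩
  have := map_sub (redHom₀ A WA) ⟨P, hP⟩ ⟨Q, hQ⟩
  exact this

omit [DecidableEq K] [DecidableEq (ResidueField A)] in
/-- Over an algebraically closed field with nonsingular generic fibre, every nonsingular point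
of the reduced curve lifts to `E₀`. -/
theorem exists_red_eq [IsAlgClosed K] (hΔK : (WA.map (algebraMap A K)).Δ ≠ 0)
    (R : (WA.map (residue A)).toAffine.Point) :
    ∃ P : (WA.map (algebraMap A K)).toAffine.Point, E0 A WA P ∧ red A WA P = R := by
  rcases R with _ | ⟨x', y', h'⟩
  · exact ⟨0, Or.inl trivial, rfl⟩
  · obtain ⟨a, rfl⟩ := IsLocalRing.residue_surjective x'
    set c1 : K := (WA.a₁ : K) * a + WA.a₃ with hc1
    set c0 : K := -((a : K) ^ 3 + (WA.a₂ : K) * (a : K) ^ 2 + (WA.a₄ : K) * a + WA.a₆) with hc0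
    have hdeg : (Polynomial.C (1 : K) * Polynomial.X ^ 2 + Polynomial.C c1 * Polynomial.X +
        Polynomial.C c0 : Polynomial K).degree ≠ 0 := by
      rw [Polynomial.degree_quadratic one_ne_zero]
      norm_num
    obtain ⟨y, hy⟩ := IsAlgClosed.exists_root _ hdeg
    simp only [Polynomial.IsRoot, Polynomial.eval_add, Polynomial.eval_pow, Polynomial.eval_X,
      Polynomial.eval_mul, Polynomial.eval_C, one_mul] at hy
    have heq : (WA.map (algebraMap A K)).toAffine.Equation (a : K) y := by
      rw [Affine.equation_iff, coe_a₁, coe_a₂, coe_a₃, coe_a₄, coe_a₆]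
      rw [hc1, hc0] at hy
      linear_combination hy
    have hyA : y ∈ A := y_mem A WA heq a.2
    have hns : (WA.map (algebraMap A K)).toAffine.Nonsingular (a : K) y :=
      (Affine.equation_iff_nonsingular_of_Δ_ne_zero hΔK).mp heq
    have req : (WA.map (residue A)).toAffine.Equation (residue A a) (residue A ⟨y, hyA⟩) :=
      (equation_of_coe A WA (a := a) (b := ⟨y, hyA⟩) heq).map (residue A)
    rcases Affine.Y_eq_of_X_eq h'.1 req rfl with hy' | hy'
    · have n1 : NsRes A WA a ⟨y, hyA⟩ := by
        show (WA.map (residue A)).toAffine.Nonsingular (residue A a) (residue A ⟨y, hyA⟩)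
        rw [← hy']
        exact h'
      refine ⟨Point.some _ _ hns, e0_some A WA hns a ⟨y, hyA⟩ rfl rfl n1, ?_⟩
      rw [red_some A WA hns a ⟨y, hyA⟩ rfl rfl n1]
      exact some_eq_some _ _ rfl hy'.symm
    · have n1 : NsRes A WA a ⟨y, hyA⟩ := by
        show (WA.map (residue A)).toAffine.Nonsingular (residue A a) (residue A ⟨y, hyA⟩)
        have h2 := (Affine.nonsingular_neg (W' := (WA.map (residue A)).toAffine) _ _).mpr h'
        rw [hy', Affine.negY_negY] at h2
        exact h2
      have e0P := e0_some A WA hns a ⟨y, hyA⟩ rfl rfl n1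
      have hneg := e0_neg A WA e0P
      refine ⟨-Point.some _ _ hns, hneg.1, ?_⟩
      rw [hneg.2, red_some A WA hns a ⟨y, hyA⟩ rfl rfl n1, Point.neg_some]
      exact some_eq_some _ _ rfl hy'.symm

end Curve

end Fermat.Agent.S58.E0U
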