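/-
S58 — NodeGm.lean (helper14; leaf [E0U], part (II) of route 2, dealt by helper71).

The nonsingular points of a NODAL Weierstrass cubic over a field `k` form a group isomorphic to
`kˣ` (split case: both tangent slopes in `k`).  Mathlib only; general position (no translation).

If `(x₀, y₀)` is the singular point and `s₁ ≠ s₂` are the slopes of the two tangents, the cubic is

  `(Y - y₀ - s₁ (X - x₀)) * (Y - y₀ - s₂ (X - x₀)) = (X - x₀) ^ 3`      (`NodeForm`)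

and `φ (x, y) := (y - y₀ - s₁ (x - x₀)) / (y - y₀ - s₂ (x - x₀))` is an injective group homomorphism
`W.Point → kˣ` (`phi`, `phi_injective`), onto (`exists_phi_eq`).  Hence for `k` algebraically closed
and `(m : k) ≠ 0` there is a point of exact order `m` (`exists_addOrderOf_eq`).

Proof of multiplicativity: for the three intersection points of a line `Y = ℓ (X - x₁) + y₁` with
the cubic, `∏ (y_i - y₀ - s (x_i - x₀)) = β ^ 3` with `β = ℓ (x₀ - x₁) + y₁ - y₀`, for `s = s₁` and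
for `s = s₂` (`vieta`): evaluate Mathlib's factorisation `addPolynomial_slope` at the zero of
`(ℓ - s) (t - x₀) + β`.
-/
import Mathlib

set_option autoImplicit false

namespace Fermat.Agent.S58.NodeGm

open WeierstrassCurve

variable {k : Type*} [Field k]

/-- Nodal normal form: the cubic is `(Y - y₀ - s₁ (X - x₀)) (Y - y₀ - s₂ (X - x₀)) = (X - x₀)³`. -/
structure NodeForm (W : WeierstrassCurve k) (x₀ y₀ s₁ s₂ : k) : Prop where
  a₁ : W.a₁ = -(s₁ + s₂)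
  a₂ : W.a₂ = -(3 * x₀) - s₁ * s₂
  a₃ : W.a₃ = (s₁ + s₂) * x₀ - 2 * y₀
  a₄ : W.a₄ = 3 * x₀ ^ 2 - (s₁ + s₂) * y₀ + 2 * s₁ * s₂ * x₀
  a₆ : W.a₆ = -x₀ ^ 3 - y₀ ^ 2 + (s₁ + s₂) * x₀ * y₀ - s₁ * s₂ * x₀ ^ 2

variable {W : WeierstrassCurve k} {x₀ y₀ s₁ s₂ : k}

theorem NodeForm.symm (h : NodeForm W x₀ y₀ s₁ s₂) : NodeForm W x₀ y₀ s₂ s₁ :=
  ⟨by rw [h.a₁]; ring, by rw [h.a₂]; ring, by rw [h.a₃]; ring, by rw [h.a₄]; ring,
    by rw [h.a₆]; ring⟩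

/-- The linear form `y - y₀ - s (x - x₀)`. -/
def lin (x₀ y₀ s x y : k) : k := y - y₀ - s * (x - x₀)

theorem equation_iff_lin (h : NodeForm W x₀ y₀ s₁ s₂) (x y : k) :
    W.toAffine.Equation x y ↔ lin x₀ y₀ s₁ x y * lin x₀ y₀ s₂ x y = (x - x₀) ^ 3 := by
  rw [Affine.equation_iff, h.a₁, h.a₂, h.a₃, h.a₄, h.a₆]
  unfold lin
  constructor <;> intro e <;> linear_combination e

theorem lin_ne_zero (h : NodeForm W x₀ y₀ s₁ s₂) {x y : k} (hP : W.toAffine.Nonsingular x y) :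
    lin x₀ y₀ s₂ x y ≠ 0 := by
  intro h0
  rw [Affine.nonsingular_iff'] at hP
  obtain ⟨heq, hns⟩ := hP
  have e := (equation_iff_lin h x y).mp heq
  rw [h0, mul_zero] at e
  have hx : x = x₀ := by
    have := pow_eq_zero_iff (n := 3) (by norm_num) |>.mp e.symm
    exact sub_eq_zero.mp this
  have hy : y = y₀ := by
    unfold lin at h0
    rw [hx, sub_self, mul_zero, sub_zero] at h0
    exact sub_eq_zero.mp h0
  subst hx hy
  rw [h.a₁, h.a₂, h.a₃, h.a₄] at hns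
  rcases hns with hns | hns
  · exact hns (by ring)
  · exact hns (by ring)

theorem lin_ne_zero' (h : NodeForm W x₀ y₀ s₁ s₂) {x y : k} (hP : W.toAffine.Nonsingular x y) :
    lin x₀ y₀ s₁ x y ≠ 0 :=
  lin_ne_zero h.symm hP

theorem lin_negY (h : NodeForm W x₀ y₀ s₁ s₂) (x y : k) :
    lin x₀ y₀ s₁ x (W.toAffine.negY x y) = -lin x₀ y₀ s₂ x y := by
  rw [Affine.negY, h.a₁, h.a₃]
  unfold lin
  ring

section Vieta

variable [DecidableEq k]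

theorem line_eq {x₁ x₂ y₁ y₂ : k}
    (h₁ : W.toAffine.Equation x₁ y₁) (h₂ : W.toAffine.Equation x₂ y₂)
    (hxy : ¬(x₁ = x₂ ∧ y₁ = W.toAffine.negY x₂ y₂)) :
    y₂ = W.toAffine.slope x₁ x₂ y₁ y₂ * (x₂ - x₁) + y₁ := by
  by_cases hx : x₁ = x₂
  · have hy : y₁ ≠ W.toAffine.negY x₂ y₂ := fun hy => hxy ⟨hx, hy⟩
    have := Affine.Y_eq_of_Y_ne h₁ h₂ hx hy
    rw [hx, sub_self, mul_zero, zero_add, this]
  · rw [Affine.slope_of_X_ne hx]
    have hne : x₁ - x₂ ≠ 0 := sub_ne_zero.mpr hx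
    field_simp
    ring

omit [DecidableEq k] in
/-- The cubic restricted to the line through `(x₁, y₁)` of slope `ℓ`, in nodal coordinates. -/
theorem eval_addPolynomial (h : NodeForm W x₀ y₀ s₁ s₂) (x₁ y₁ ℓ t : k) :
    (W.toAffine.addPolynomial x₁ y₁ ℓ).eval t =
      ((ℓ - s₁) * (t - x₀) + (ℓ * (x₀ - x₁) + y₁ - y₀)) *
        ((ℓ - s₂) * (t - x₀) + (ℓ * (x₀ - x₁) + y₁ - y₀)) - (t - x₀) ^ 3 := by
  rw [Affine.addPolynomial_eq, Cubic.toPoly]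
  simp only [Polynomial.eval_neg, Polynomial.eval_add, Polynomial.eval_mul, Polynomial.eval_pow,
    Polynomial.eval_C, Polynomial.eval_X]
  rw [h.a₁, h.a₂, h.a₃, h.a₄, h.a₆]
  ring

/-- Vieta along a line, abstract form: if the cubic restricted to the line factors as
`-(t - x₁)(t - x₂)(t - x₃)`, then `∏ ((ℓ - s₁) (x_i - x₀) + β) = β ^ 3`. -/
theorem vieta_aux {ℓ β x₁ x₂ x₃ : k}
    (hG : ∀ t : k, ((ℓ - s₁) * (t - x₀) + β) * ((ℓ - s₂) * (t - x₀) + β) - (t - x₀) ^ 3 =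
      -((t - x₁) * (t - x₂) * (t - x₃))) :
    ((ℓ - s₁) * (x₁ - x₀) + β) * ((ℓ - s₁) * (x₂ - x₀) + β) * ((ℓ - s₁) * (x₃ - x₀) + β) =
      β ^ 3 := by
  by_cases hc : ℓ - s₁ = 0
  · rw [hc]; ring
  · have e0 : (ℓ - s₁) * (x₀ - β / (ℓ - s₁) - x₀) = -β := by
      have : (ℓ - s₁) * (β / (ℓ - s₁)) = β := by field_simp
      linear_combination -this
    have hGt := hG (x₀ - β / (ℓ - s₁))
    have h0 : (ℓ - s₁) * (x₀ - β / (ℓ - s₁) - x₀) + β = 0 := by rw [e0]; ring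
    rw [h0, zero_mul, zero_sub, neg_inj] at hGt
    have f₁ : (ℓ - s₁) * (x₁ - x₀) + β = -((ℓ - s₁) * (x₀ - β / (ℓ - s₁) - x₁)) := by
      linear_combination e0
    have f₂ : (ℓ - s₁) * (x₂ - x₀) + β = -((ℓ - s₁) * (x₀ - β / (ℓ - s₁) - x₂)) := by
      linear_combination e0
    have f₃ : (ℓ - s₁) * (x₃ - x₀) + β = -((ℓ - s₁) * (x₀ - β / (ℓ - s₁) - x₃)) := by
      linear_combination e0
    rw [f₁, f₂, f₃]
    have e1 : -((ℓ - s₁) * (x₀ - β / (ℓ - s₁) - x₁)) * -((ℓ - s₁) * (x₀ - β / (ℓ - s₁) - x₂)) *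
        -((ℓ - s₁) * (x₀ - β / (ℓ - s₁) - x₃)) =
        -((ℓ - s₁) ^ 3 * ((x₀ - β / (ℓ - s₁) - x₁) * (x₀ - β / (ℓ - s₁) - x₂) *
          (x₀ - β / (ℓ - s₁) - x₃))) := by ring
    rw [e1, ← hGt]
    have e2 : -((ℓ - s₁) ^ 3 * (x₀ - β / (ℓ - s₁) - x₀) ^ 3) =
        -(((ℓ - s₁) * (x₀ - β / (ℓ - s₁) - x₀)) ^ 3) := by ring
    rw [e2, e0]
    ring

theorem vieta (h : NodeForm W x₀ y₀ s₁ s₂) {x₁ x₂ y₁ y₂ : k}
    (h₁ : W.toAffine.Equation x₁ y₁) (h₂ : W.toAffine.Equation x₂ y₂)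
    (hxy : ¬(x₁ = x₂ ∧ y₁ = W.toAffine.negY x₂ y₂)) :
    lin x₀ y₀ s₁ x₁ y₁ * lin x₀ y₀ s₁ x₂ y₂ *
        lin x₀ y₀ s₁ (W.toAffine.addX x₁ x₂ (W.toAffine.slope x₁ x₂ y₁ y₂))
          (W.toAffine.negAddY x₁ x₂ y₁ (W.toAffine.slope x₁ x₂ y₁ y₂)) =
      (W.toAffine.slope x₁ x₂ y₁ y₂ * (x₀ - x₁) + y₁ - y₀) ^ 3 := by
  have hy₂ := line_eq h₁ h₂ hxy
  have hG : ∀ t : k, ((W.toAffine.slope x₁ x₂ y₁ y₂ - s₁) * (t - x₀) +
        (W.toAffine.slope x₁ x₂ y₁ y₂ * (x₀ - x₁) + y₁ - y₀)) *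
      ((W.toAffine.slope x₁ x₂ y₁ y₂ - s₂) * (t - x₀) +
        (W.toAffine.slope x₁ x₂ y₁ y₂ * (x₀ - x₁) + y₁ - y₀)) - (t - x₀) ^ 3 =
      -((t - x₁) * (t - x₂) *
        (t - W.toAffine.addX x₁ x₂ (W.toAffine.slope x₁ x₂ y₁ y₂))) := by
    intro t
    have e := congrArg (Polynomial.eval t) (Affine.addPolynomial_slope h₁ h₂ hxy)
    rw [eval_addPolynomial h] at e
    rw [e]
    simp only [Polynomial.eval_neg, Polynomial.eval_mul, Polynomial.eval_sub, Polynomial.eval_X,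
      Polynomial.eval_C]
  have hv := vieta_aux hG
  rw [← hv]
  have e₁ : lin x₀ y₀ s₁ x₁ y₁ = (W.toAffine.slope x₁ x₂ y₁ y₂ - s₁) * (x₁ - x₀) +
      (W.toAffine.slope x₁ x₂ y₁ y₂ * (x₀ - x₁) + y₁ - y₀) := by unfold lin; ring
  have e₂ : lin x₀ y₀ s₁ x₂ y₂ = (W.toAffine.slope x₁ x₂ y₁ y₂ - s₁) * (x₂ - x₀) +
      (W.toAffine.slope x₁ x₂ y₁ y₂ * (x₀ - x₁) + y₁ - y₀) := by
    unfold lin
    linear_combination hy₂
  have e₃ : lin x₀ y₀ s₁ (W.toAffine.addX x₁ x₂ (W.toAffine.slope x₁ x₂ y₁ y₂))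
      (W.toAffine.negAddY x₁ x₂ y₁ (W.toAffine.slope x₁ x₂ y₁ y₂)) =
      (W.toAffine.slope x₁ x₂ y₁ y₂ - s₁) *
        (W.toAffine.addX x₁ x₂ (W.toAffine.slope x₁ x₂ y₁ y₂) - x₀) +
      (W.toAffine.slope x₁ x₂ y₁ y₂ * (x₀ - x₁) + y₁ - y₀) := by
    unfold lin
    rw [Affine.negAddY]
    ring
  rw [e₁, e₂, e₃]

end Vieta

/-! ### The homomorphism to `kˣ` -/

section Hom

variable [DecidableEq k]

/-- `φ (x, y) = (y - y₀ - s₁ (x - x₀)) / (y - y₀ - s₂ (x - x₀))`, `φ 0 = 1`. -/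
noncomputable def phiFun (h : NodeForm W x₀ y₀ s₁ s₂) : W.toAffine.Point → kˣ
  | .zero => 1
  | .some x y hP => Units.mk0 (lin x₀ y₀ s₁ x y / lin x₀ y₀ s₂ x y)
      (div_ne_zero (lin_ne_zero' h hP) (lin_ne_zero h hP))

omit [DecidableEq k] in
theorem phiFun_zero (h : NodeForm W x₀ y₀ s₁ s₂) : phiFun h (0 : W.toAffine.Point) = 1 := rfl

omit [DecidableEq k] in
theorem phiFun_some (h : NodeForm W x₀ y₀ s₁ s₂) {x y : k} (hP : W.toAffine.Nonsingular x y) :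
    ((phiFun h (Affine.Point.some x y hP) : kˣ) : k) = lin x₀ y₀ s₁ x y / lin x₀ y₀ s₂ x y := rfl

omit [DecidableEq k] in
theorem phiFun_neg (h : NodeForm W x₀ y₀ s₁ s₂) (P : W.toAffine.Point) :
    phiFun h (-P) = (phiFun h P)⁻¹ := by
  rcases P with _ | ⟨x, y, hP⟩
  · show phiFun h 0 = (phiFun h 0)⁻¹
    rw [phiFun_zero, inv_one]
  · apply Units.ext
    rw [Affine.Point.neg_some, phiFun_some, Units.val_inv_eq_inv_val, phiFun_some, lin_negY h,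
      lin_negY h.symm, neg_div_neg_eq, inv_div]

theorem phiFun_add (h : NodeForm W x₀ y₀ s₁ s₂) (P Q : W.toAffine.Point) :
    phiFun h (P + Q) = phiFun h P * phiFun h Q := by
  rcases P with _ | ⟨x₁, y₁, h₁⟩
  · show phiFun h (0 + Q) = phiFun h 0 * phiFun h Q
    rw [zero_add, phiFun_zero, one_mul]
  rcases Q with _ | ⟨x₂, y₂, h₂⟩
  · show phiFun h (Affine.Point.some x₁ y₁ h₁ + 0) = phiFun h (Affine.Point.some x₁ y₁ h₁) * phiFun h 0
    rw [add_zero, phiFun_zero, mul_one]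
  have hn₁ := lin_ne_zero h h₁
  have hn₁' := lin_ne_zero' h h₁
  have hn₂ := lin_ne_zero h h₂
  have hn₂' := lin_ne_zero' h h₂
  by_cases hxy : x₁ = x₂ ∧ y₁ = W.toAffine.negY x₂ y₂
  · rw [Affine.Point.add_of_Y_eq hxy.1 hxy.2, phiFun_zero]
    apply Units.ext
    rw [Units.val_one, Units.val_mul, phiFun_some, phiFun_some]
    obtain ⟨rfl, rfl⟩ := hxy
    rw [lin_negY h, lin_negY h.symm, neg_div_neg_eq]
    field_simp
  · rw [Affine.Point.add_some hxy]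
    apply Units.ext
    rw [Units.val_mul, phiFun_some, phiFun_some, phiFun_some]
    have h₃ := Affine.nonsingular_negAdd h₁ h₂ hxy
    have hn₃ := lin_ne_zero h h₃
    have hn₃' := lin_ne_zero' h h₃
    have v₁ := vieta h h₁.1 h₂.1 hxy
    have v₂ := vieta h.symm h₁.1 h₂.1 hxy
    rw [Affine.addY, lin_negY h, lin_negY h.symm, neg_div_neg_eq]
    rw [div_mul_div_comm, div_eq_div_iff hn₃' (mul_ne_zero hn₁ hn₂)]
    linear_combination v₂ - v₁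

/-- The homomorphism `W.Point → kˣ` of a nodal cubic (additive form). -/
noncomputable def phi (h : NodeForm W x₀ y₀ s₁ s₂) : W.toAffine.Point →+ Additive kˣ :=
  AddMonoidHom.mk' (fun P => Additive.ofMul (phiFun h P)) (fun P Q => by
    rw [phiFun_add]; rfl)

theorem phi_apply (h : NodeForm W x₀ y₀ s₁ s₂) (P : W.toAffine.Point) :
    phi h P = Additive.ofMul (phiFun h P) := rfl

theorem phi_injective (h : NodeForm W x₀ y₀ s₁ s₂) (hs : s₁ ≠ s₂) :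
    Function.Injective (phi h) := by
  rw [injective_iff_map_eq_zero]
  intro P hP
  rcases P with _ | ⟨x, y, hns⟩
  · rfl
  · exfalso
    have h1 : phiFun h (Affine.Point.some x y hns) = 1 := hP
    have h2 : lin x₀ y₀ s₁ x y / lin x₀ y₀ s₂ x y = 1 := by
      rw [← phiFun_some h hns, h1, Units.val_one]
    have hn := lin_ne_zero h hns
    rw [div_eq_one_iff_eq hn] at h2
    have hx : x = x₀ := by
      unfold lin at h2
      have : (s₂ - s₁) * (x - x₀) = 0 := by linear_combination h2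
      rcases mul_eq_zero.mp this with h3 | h3
      · exact absurd (sub_eq_zero.mp h3).symm hs
      · exact sub_eq_zero.mp h3
    have e := (equation_iff_lin h x y).mp hns.1
    have e3 : (x - x₀) ^ 3 = 0 := by rw [hx, sub_self]; exact zero_pow (by norm_num)
    rw [e3] at e
    rcases mul_eq_zero.mp e with h3 | h3
    · exact lin_ne_zero' h hns h3
    · exact hn h3

/-- Explicit parametrisation: every `u ≠ 0, 1` is a value of `φ`. -/
theorem exists_phiFun_eq (h : NodeForm W x₀ y₀ s₁ s₂) (hs : s₁ ≠ s₂) {u : k} (hu0 : u ≠ 0)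
    (hu1 : u ≠ 1) :
    ∃ (x y : k) (hP : W.toAffine.Nonsingular x y),
      ((phiFun h (Affine.Point.some x y hP) : kˣ) : k) = u := by
  have hd : s₁ - s₂ ≠ 0 := sub_ne_zero.mpr hs
  have hw : 1 - u ≠ 0 := sub_ne_zero.mpr (Ne.symm hu1)
  set X : k := u * (s₁ - s₂) ^ 2 / (1 - u) ^ 2 with hX
  set Y : k := (s₁ - u * s₂) * X / (1 - u) with hY
  have hL₂ : lin x₀ y₀ s₂ (x₀ + X) (y₀ + Y) = u * (s₁ - s₂) ^ 3 / (1 - u) ^ 3 := by
    unfold lin
    rw [hY, hX]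
    field_simp
    ring
  have hL₁ : lin x₀ y₀ s₁ (x₀ + X) (y₀ + Y) = u * (u * (s₁ - s₂) ^ 3 / (1 - u) ^ 3) := by
    unfold lin
    rw [hY, hX]
    field_simp
    ring
  have hL₂0 : u * (s₁ - s₂) ^ 3 / (1 - u) ^ 3 ≠ 0 :=
    div_ne_zero (mul_ne_zero hu0 (pow_ne_zero _ hd)) (pow_ne_zero _ hw)
  have heq : W.toAffine.Equation (x₀ + X) (y₀ + Y) := by
    rw [equation_iff_lin h, hL₁, hL₂, add_sub_cancel_left, hX]
    field_simp
  have hns : W.toAffine.Nonsingular (x₀ + X) (y₀ + Y) := by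
    rw [Affine.nonsingular_iff']
    refine ⟨heq, ?_⟩
    have p₁ : 2 * (y₀ + Y) + W.a₁ * (x₀ + X) + W.a₃ =
        lin x₀ y₀ s₁ (x₀ + X) (y₀ + Y) + lin x₀ y₀ s₂ (x₀ + X) (y₀ + Y) := by
      rw [h.a₁, h.a₃]; unfold lin; ring
    have p₂ : W.a₁ * (y₀ + Y) - (3 * (x₀ + X) ^ 2 + 2 * W.a₂ * (x₀ + X) + W.a₄) =
        -s₁ * lin x₀ y₀ s₂ (x₀ + X) (y₀ + Y) - s₂ * lin x₀ y₀ s₁ (x₀ + X) (y₀ + Y) - 3 * X ^ 2 := by
      rw [h.a₁, h.a₂, h.a₄]; unfold lin; ring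
    by_cases hu2 : 1 + u = 0
    · left
      have hu : u = -1 := by linear_combination hu2
      have h2 : (2 : k) ≠ 0 := by
        have : (1 : k) - u = 2 := by rw [hu]; ring
        rw [← this]; exact hw
      rw [p₂, hL₁, hL₂, hX, hu]
      have : (1 : k) - -1 = 2 := by ring
      rw [this]
      have e : -s₁ * (-1 * (s₁ - s₂) ^ 3 / 2 ^ 3) - s₂ * (-1 * (-1 * (s₁ - s₂) ^ 3 / 2 ^ 3)) -
          3 * (-1 * (s₁ - s₂) ^ 2 / 2 ^ 2) ^ 2 = -((s₁ - s₂) ^ 4 / 2 ^ 4) := by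
        field_simp
        ring
      rw [e]
      exact neg_ne_zero.mpr (div_ne_zero (pow_ne_zero _ hd) (pow_ne_zero _ h2))
    · right
      rw [p₁, hL₁, hL₂]
      have : u * (u * (s₁ - s₂) ^ 3 / (1 - u) ^ 3) + u * (s₁ - s₂) ^ 3 / (1 - u) ^ 3 =
          (1 + u) * (u * (s₁ - s₂) ^ 3 / (1 - u) ^ 3) := by ring
      rw [this]
      exact mul_ne_zero hu2 hL₂0
  refine ⟨x₀ + X, y₀ + Y, hns, ?_⟩
  rw [phiFun_some, hL₁, hL₂]
  field_simp

theorem exists_phi_eq (h : NodeForm W x₀ y₀ s₁ s₂) (hs : s₁ ≠ s₂) (u : kˣ) :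
    ∃ P : W.toAffine.Point, phi h P = Additive.ofMul u := by
  by_cases hu : u = 1
  · exact ⟨0, by rw [map_zero, hu]; rfl⟩
  · have hu1 : (u : k) ≠ 1 := fun e => hu (Units.ext e)
    obtain ⟨x, y, hP, e⟩ := exists_phiFun_eq h hs u.ne_zero hu1
    exact ⟨Affine.Point.some x y hP, by rw [phi_apply]; exact congrArg _ (Units.ext e)⟩

end Hom

/-! ### Points of exact order `m` -/

/-- From a singular point with distinct tangents to the nodal normal form. -/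
theorem exists_nodeForm [IsAlgClosed k] (W : WeierstrassCurve k) (x₀ y₀ : k)
    (heq : W.toAffine.Equation x₀ y₀) (hY : 2 * y₀ + W.a₁ * x₀ + W.a₃ = 0)
    (hX : W.a₁ * y₀ - (3 * x₀ ^ 2 + 2 * W.a₂ * x₀ + W.a₄) = 0) (hb : W.b₂ + 12 * x₀ ≠ 0) :
    ∃ s₁ s₂ : k, NodeForm W x₀ y₀ s₁ s₂ ∧ s₁ ≠ s₂ := by
  obtain ⟨s₁, hs₁⟩ := IsAlgClosed.exists_root
    (Polynomial.X ^ 2 + Polynomial.C W.a₁ * Polynomial.X - Polynomial.C (W.a₂ + 3 * x₀))
    (by
      have : (Polynomial.X ^ 2 + Polynomial.C W.a₁ * Polynomial.X -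
          Polynomial.C (W.a₂ + 3 * x₀) : Polynomial k).degree = 2 := by
        compute_degree!
      rw [this]; norm_num)
  have hs₁' : s₁ ^ 2 + W.a₁ * s₁ - (W.a₂ + 3 * x₀) = 0 := by
    simpa using hs₁
  have heq' : y₀ ^ 2 + W.a₁ * x₀ * y₀ + W.a₃ * y₀ =
      x₀ ^ 3 + W.a₂ * x₀ ^ 2 + W.a₄ * x₀ + W.a₆ := (Affine.equation_iff _ _).mp heq
  refine ⟨s₁, -W.a₁ - s₁, ⟨by ring, by linear_combination -hs₁', by linear_combination hY,
    by linear_combination -hX + 2 * x₀ * hs₁',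
    by linear_combination -heq' + y₀ * hY + x₀ * hX - x₀ ^ 2 * hs₁'⟩, ?_⟩
  intro e
  apply hb
  rw [WeierstrassCurve.b₂]
  linear_combination (W.a₁ + 2 * s₁) * e - 4 * hs₁'

/-- **A nodal cubic over an algebraically closed field has points of every exact order `m` prime to
the characteristic.** -/
theorem exists_addOrderOf_eq [DecidableEq k] [IsAlgClosed k] (W : WeierstrassCurve k) (x₀ y₀ : k)
    (heq : W.toAffine.Equation x₀ y₀) (hY : 2 * y₀ + W.a₁ * x₀ + W.a₃ = 0)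
    (hX : W.a₁ * y₀ - (3 * x₀ ^ 2 + 2 * W.a₂ * x₀ + W.a₄) = 0) (hb : W.b₂ + 12 * x₀ ≠ 0)
    (m : ℕ) (hm : (m : k) ≠ 0) : ∃ P : W.toAffine.Point, addOrderOf P = m := by
  obtain ⟨s₁, s₂, h, hs⟩ := exists_nodeForm W x₀ y₀ heq hY hX hb
  have : NeZero (m : k) := ⟨hm⟩
  obtain ⟨ζ, hζ⟩ := HasEnoughRootsOfUnity.exists_primitiveRoot k m
  have hζ0 : ζ ≠ 0 := hζ.ne_zero (fun h0 => hm (by rw [h0, Nat.cast_zero]))
  have hu : IsPrimitiveRoot (Units.mk0 ζ hζ0) m := by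
    rw [← IsPrimitiveRoot.coe_units_iff]; exact hζ
  obtain ⟨P, hP⟩ := exists_phi_eq h hs (Units.mk0 ζ hζ0)
  refine ⟨P, ?_⟩
  rw [← addOrderOf_injective (phi h) (phi_injective h hs) P, hP, addOrderOf_ofMul_eq_orderOf,
    ← hu.eq_orderOf]


end Fermat.Agent.S58.NodeGm
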