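/-
S58 — E0UFix.lean (helper71), leaf [E0U]/[FIXMULT], route 2 for the curve ITSELF (no translation
of the node to the origin, no transport between models).

For an integral Weierstrass curve `W` over `ℤ` with `Δ ≠ 0` and a prime `q` of multiplicative
reduction (`q ∣ Δ`, `q ∤ c₄`), a valuation subring `A` of `ℚ̄` over `q` and `m > 0` prime to `q`:
there is a point of exact order `m` of `W(ℚ̄)` which is fixed by the whole inertia group of `A`
(`exists_fixed_of_mult`).

Proof: the reduced curve is a nodal cubic (`NodeEx.exists_node_field`), whose group of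
nonsingular points over the (algebraically closed) residue field has a point `R` of exact order
`m` (`NodeGm.exists_addOrderOf_eq`).  Lift `R` to a point `P₀` of the subgroup `E₀` of points of
nonsingular reduction (`E0U.exists_red_eq`); `m • P₀` is in the kernel of reduction, which is
`m`-divisible (`E1Div.inE1_divisible`), so `P₀ - Q` is killed by `m` for some `Q` in the kernel,
and it has exact order `m` because reduction is a homomorphism on `E₀` (`E0U.redHom₀`).  An
inertia element maps `P` to a point with the same nonsingular reduction, so the difference is in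
the kernel of reduction (`S05.F2_inE1`) and is killed by `m`, hence is zero (`S05.F1_inE1`).
-/
import Mathlib
import Fermat.Prelude.Def_FLTPrelim_GaloisRep
import Fermat.Agent.S05.Inertia
import Fermat.Agent.S18.BaseRes
import Fermat.Agent.S58.E0U
import Fermat.Agent.S58.NodeEx
import Fermat.Agent.S58.NodeGm
import Fermat.Agent.S58.E1Div

set_option autoImplicit false

namespace Fermat.Agent.S58.E0UFix

open WeierstrassCurve WeierstrassCurve.Affine IsLocalRing
open Fermat.Agent.S05 Fermat.Agent.S41.Red Fermat.Agent.S58.E0U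

section General

variable {K : Type*} [Field K] [DecidableEq K] (A : ValuationSubring K)
  [DecidableEq (ResidueField A)] (WA : WeierstrassCurve A)

/-- A point of `E₀` of exact order `m`, from a point of exact order `m` of the group of
nonsingular points of the reduced curve. -/
theorem exists_e0_addOrderOf [IsAlgClosed K] [CharZero K]
    (hΔK : (WA.map (algebraMap A K)).Δ ≠ 0) {m : ℕ} (hm0 : 0 < m)
    (hm : A.valuation (m : K) = 1) (R : (WA.map (residue A)).toAffine.Point)
    (hR : addOrderOf R = m) :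
    ∃ P : (WA.map (algebraMap A K)).toAffine.Point, E0 A WA P ∧ addOrderOf P = m := by
  obtain ⟨P₀, hP₀, hred⟩ := exists_red_eq A WA hΔK R
  have h1 := e0_nsmul A WA m hP₀
  have hmR : m • R = 0 := by
    rw [← hR]
    exact addOrderOf_nsmul_eq_zero R
  have h2 : InE1 A (m • P₀) := inE1_of_red_eq_zero A WA h1.1 (by rw [h1.2, hred, hmR])
  have : (WA.map (algebraMap A K)).IsElliptic := ⟨isUnit_iff_ne_zero.mpr hΔK⟩
  obtain ⟨Q, hQ, hmQ⟩ := Fermat.Agent.S58.E1Div.inE1_divisible A (WA.map (algebraMap A K)) m hm0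
    hm (m • P₀) h2
  have h3 := e0_sub A WA hP₀ (Or.inl hQ : E0 A WA Q)
  refine ⟨P₀ - Q, h3.1, ?_⟩
  have hmP : m • (P₀ - Q) = 0 := by rw [smul_sub, hmQ, sub_self]
  have hredP : red A WA (P₀ - Q) = R := by
    rw [h3.2, hred, red_of_inE1 A WA hQ, sub_zero]
  apply Nat.dvd_antisymm (addOrderOf_dvd_of_nsmul_eq_zero hmP)
  have hmem : P₀ - Q ∈ E0sub A WA := h3.1
  have h4 := addOrderOf_map_dvd (redHom₀ A WA) ⟨P₀ - Q, hmem⟩
  have h5 : redHom₀ A WA ⟨P₀ - Q, hmem⟩ = R := hredP
  rw [h5, hR, AddSubgroup.addOrderOf_mk] at h4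
  exact h4

omit [DecidableEq (ResidueField A)] in
/-- An inertia-like endomorphism fixes the coordinates of every point of `E₀` killed by an
integer which is a unit of `A`. -/
theorem coord_fixed_of_e0 {m : ℕ} (hm : A.valuation (m : K) = 1) (σ : K →+* K)
    (hσ : InertiaLike A σ) {x y : K} (h : (WA.map (algebraMap A K)).toAffine.Nonsingular x y)
    (hE : E0 A WA (Point.some x y h)) (hP : m • Point.some x y h = 0)
    (h' : (WA.map (algebraMap A K)).toAffine.Nonsingular (σ x) (σ y))
    (hP' : m • Point.some (σ x) (σ y) h' = 0) : σ x = x ∧ σ y = y := by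
  have hnot : ¬ InE1 A (Point.some x y h) := fun hin =>
    Point.some_ne_zero _ (F1_inE1 A _ WA.a₁.2 WA.a₂.2 WA.a₃.2 WA.a₄.2 WA.a₆.2 hm hin hP)
  obtain ⟨a, b, h2, e, hns⟩ := exists_of_e0 A WA hE hnot
  simp only [Point.some.injEq] at e
  obtain ⟨rfl, rfl⟩ := e
  have hσa : σ (a : K) ∈ A := (hσ.mem_iff a).mpr a.2
  have hσb : σ (b : K) ∈ A := (hσ.mem_iff b).mpr b.2
  have hneg : ∀ c : A, (c : K) - σ (c : K) ∈ A.nonunits := by
    intro c
    have h3 := hσ.sub_mem c c.2
    rw [ValuationSubring.mem_nonunits_iff] at h3 ⊢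
    have e : (c : K) - σ (c : K) = -(σ (c : K) - c) := by ring
    rw [e, Valuation.map_neg]
    exact h3
  have hx : residue A a = residue A ⟨σ a, hσa⟩ := (res_eq_iff A _ _).mpr (hneg a)
  have hy : residue A b = residue A ⟨σ b, hσb⟩ := (res_eq_iff A _ _).mpr (hneg b)
  have hD : InE1 A (Point.some _ _ h - Point.some _ _ h') :=
    inE1_sub_of_res_eq' A WA (a₂ := ⟨σ a, hσa⟩) (b₂ := ⟨σ b, hσb⟩) h h' hns hx hy
  have hDm : m • (Point.some _ _ h - Point.some _ _ h') = 0 := by
    rw [smul_sub, hP, hP', sub_self]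
  have hD0 := F1_inE1 A _ WA.a₁.2 WA.a₂.2 WA.a₃.2 WA.a₄.2 WA.a₆.2 hm hD hDm
  have hfix := sub_eq_zero.mp hD0
  simp only [Point.some.injEq] at hfix
  exact ⟨hfix.1.symm, hfix.2.symm⟩

/-- **Core of (FIX) at a prime of nonsingular-point reduction**: if the group of nonsingular
points of the reduced curve has a point of exact order `m` (`m` a unit of `A`), then the generic
fibre has a point of exact order `m` whose coordinates are fixed by every inertia-like
endomorphism mapping it to an `m`-torsion point of the curve. -/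
theorem exists_fixed_core [IsAlgClosed K] [CharZero K] {WK : WeierstrassCurve K}
    (hWK : WA.map (algebraMap A K) = WK) (hΔK : WK.Δ ≠ 0) {m : ℕ} (hm0 : 0 < m)
    (hm : A.valuation (m : K) = 1) (R : (WA.map (residue A)).toAffine.Point)
    (hR : addOrderOf R = m) :
    ∃ P : WK.toAffine.Point, addOrderOf P = m ∧
      (P = 0 ∨ ∃ (x y : K) (h : WK.toAffine.Nonsingular x y), P = Point.some x y h ∧
        ∀ σ : K →+* K, InertiaLike A σ → ∀ h' : WK.toAffine.Nonsingular (σ x) (σ y),
          m • Point.some (σ x) (σ y) h' = 0 → σ x = x ∧ σ y = y) := by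
  subst hWK
  obtain ⟨P, hE, hP⟩ := exists_e0_addOrderOf A WA hΔK hm0 hm R hR
  refine ⟨P, hP, ?_⟩
  have hmP : m • P = 0 := by
    rw [← hP]
    exact addOrderOf_nsmul_eq_zero P
  rcases P with _ | ⟨x, y, h⟩
  · exact Or.inl rfl
  · exact Or.inr ⟨x, y, h, rfl, fun σ hσ h' hP' =>
      coord_fixed_of_e0 A WA hm σ hσ h hE hmP h' hP'⟩

end General

section Arith

local notation "Qbar" => AlgebraicClosure ℚ

theorem map_int_comp {R S : Type*} [CommRing R] [CommRing S] (W : WeierstrassCurve ℤ)
    (f : R →+* S) : (W.map (Int.castRingHom R)).map f = W.map (Int.castRingHom S) := by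
  rw [WeierstrassCurve.map_map]
  congr 1
  exact RingHom.ext_int _ _

/-- **(FIX-M)**: at a prime `q` of multiplicative reduction of `W`, for every `m > 0` prime to
`q` there is a point of exact order `m` of `W(ℚ̄)` fixed by the inertia group of every valuation
subring of `ℚ̄` over `q`. -/
theorem exists_fixed_of_mult (W : WeierstrassCurve ℤ) {q : ℕ} (hq : q.Prime) (hΔ0 : W.Δ ≠ 0)
    (hΔ : (q : ℤ) ∣ W.Δ) (hc₄ : ¬ (q : ℤ) ∣ W.c₄) (A : ValuationSubring Qbar)
    (hA : A.LiesOverPrime q) {m : ℕ} (hm : 0 < m) (hqm : ¬ q ∣ m) :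
    ∃ P : ((W.map (Int.castRingHom ℚ))⁄Qbar).Point, addOrderOf P = m ∧
      ∀ σ : Qbar ≃ₐ[ℚ] Qbar, σ ∈ A.inertiaSubgroupIn ℚ → σ • P = P := by
  classical
  set WA : WeierstrassCurve A := W.map (Int.castRingHom A) with hWA
  have hrat : ((W.map (Int.castRingHom ℚ))⁄Qbar) = W.map (Int.castRingHom Qbar) :=
    map_int_comp W (algebraMap ℚ Qbar)
  have hWK : WA.map (algebraMap A Qbar) = ((W.map (Int.castRingHom ℚ))⁄Qbar) := by
    rw [hWA, map_int_comp]
    exact hrat.symm
  have hΔK : ((W.map (Int.castRingHom ℚ))⁄Qbar).Δ ≠ 0 := by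
    rw [hrat, WeierstrassCurve.map_Δ]
    simpa using hΔ0
  have hmA : A.valuation ((m : ℕ) : Qbar) = 1 := valuation_natCast_eq_one A hq hA hqm
  have : IsAlgClosed (ResidueField A) := Fermat.Agent.S18.BaseRes.isAlgClosed_residueField A
  have hΔk : (WA.map (residue A)).Δ = 0 := by
    rw [WeierstrassCurve.map_Δ, res_eq_zero_iff, hWA, WeierstrassCurve.map_Δ]
    have := intCast_mem_nonunits A hA hΔ
    simpa using this
  have hc₄k : (WA.map (residue A)).c₄ ≠ 0 := by
    rw [WeierstrassCurve.map_c₄, res_ne_zero_iff, ValuationSubring.valuation_eq_one_iff, hWA,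
      WeierstrassCurve.map_c₄]
    have := valuation_intCast_eq_one A hq hA hc₄
    simpa using this
  obtain ⟨x₀, y₀, heq, hY, hX, hb⟩ :=
    Fermat.Agent.S58.NodeEx.exists_node_field (WA.map (residue A)) hΔk hc₄k
  have hmk : ((m : ℕ) : ResidueField A) ≠ 0 := by
    have h1 : ((m : ℕ) : ResidueField A) = residue A ((m : ℕ) : A) :=
      (map_natCast (residue A) m).symm
    rw [h1, res_ne_zero_iff, ValuationSubring.valuation_eq_one_iff]
    simpa using hmA
  obtain ⟨R, hR⟩ := Fermat.Agent.S58.NodeGm.exists_addOrderOf_eq (WA.map (residue A)) x₀ y₀ heq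
    hY hX hb m hmk
  obtain ⟨P, hP, hfix⟩ := exists_fixed_core A WA hWK hΔK hm hmA R hR
  refine ⟨P, hP, fun σ hσ => ?_⟩
  rcases hfix with rfl | ⟨x, y, h, rfl, hfix⟩
  · rfl
  · have hσI := inertiaLike_of_mem A σ hσ
    obtain ⟨hs, hmap⟩ : ∃ hs : ((W.map (Int.castRingHom ℚ))⁄Qbar).Nonsingular (σ x) (σ y),
        σ • (Point.some x y h : ((W.map (Int.castRingHom ℚ))⁄Qbar).Point) =
          Point.some (σ x) (σ y) hs := ⟨_, rfl⟩
    have hmP : m • (Point.some x y h : ((W.map (Int.castRingHom ℚ))⁄Qbar).Point) = 0 := by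
      rw [← hP]
      exact addOrderOf_nsmul_eq_zero _
    have hmσ : m • (Point.some (σ x) (σ y) hs :
        ((W.map (Int.castRingHom ℚ))⁄Qbar).Point) = 0 := by
      rw [← hmap, Point.algEquiv_smul_def, ← map_nsmul, hmP, map_zero]
    obtain ⟨hx, hy⟩ := hfix (σ : Qbar →+* Qbar) hσI hs hmσ
    rw [hmap]
    exact some_eq_some _ _ hx hy

end Arith

end Fermat.Agent.S58.E0UFix
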