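/-
S58 — E0UCloser.lean (helper71): the closer of the plan leaf [FIXMULT],
`fixMultStatement : Plan.FixMultStatement`, from `E0UFix.exists_fixed_of_mult` (route 2 for the
curve itself).
-/
import Fermat.Agent.S58.Plan
import Fermat.Agent.S58.E0UFix

set_option autoImplicit false

namespace Fermat.Agent.S58.E0UCloser

/-- **[FIXMULT]**: every inertia element at a prime `q ≠ λ` of multiplicative reduction fixes a
point of exact order `λⁿ`, for every `n`. -/
theorem fixMultStatement : Fermat.Agent.S58.Plan.FixMultStatement := by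
  intro W hΔ0 q lam hq hlam hql hΔ hc₄ A hA τ hτ n
  have hqm : ¬ q ∣ lam ^ n := fun h =>
    hql ((Nat.prime_dvd_prime_iff_eq hq hlam).mp (hq.dvd_of_dvd_pow h))
  obtain ⟨P, hP, hfix⟩ := Fermat.Agent.S58.E0UFix.exists_fixed_of_mult W hq hΔ0 hΔ hc₄ A hA
    (pow_pos hlam.pos n) hqm
  exact ⟨P, hP, hfix τ hτ⟩

end Fermat.Agent.S58.E0UCloser
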