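/-
S58, leaf [EIG] (B-copy, owner: helper78) — the eigencharacter of a normalized eigenform.

For `S ⊇ primes(M)` the Hecke algebra `CuspForm.heckeAlgebra M 2 S` is generated by the `T_ℓ`
(`ℓ ∤ M`, `ℓ ∉ S`) only; a normalized eigenform `g` is a simultaneous eigenvector of all of them,
hence of the whole algebra, and the eigenvalue map is a ring homomorphism to `ℂ`.

* `exists_eigenchar` : the character `chig` with `chig (T_ℓ) = a_ℓ(g)`, with range inside every
  subring of `ℂ` containing the `a_ℓ(g)` (`ℓ ∤ M`, `ℓ ∉ S`);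
* `exists_iota_of_int` : a character with integer values admits a ring hom from its range to any
  ring;
* `iota_comp_apply_of_eq_intCast` : every such ring hom sends integer values to the same integer.
-/
import Mathlib
import Fermat.Prelude.Def_CuspForm_HeckeAlgebra
import Fermat.Prelude.Def_FLTPrelim_ModularRep
import Fermat.Agent.S41.FSEigen

set_option autoImplicit false

namespace Fermat.Agent.S58.EigCharB

open CongruenceSubgroup ModularFormClass

/-- Eigenvectors of a generating set are eigenvectors of the generated `ℤ`-algebra, with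
eigenvalues in any subring containing the eigenvalues of the generators. -/
theorem exists_smul_of_mem_adjoin {V : Type*} [AddCommGroup V] [Module ℂ V] (v : V)
    (G : Set (Module.End ℂ V)) (R : Subring ℂ) (hG : ∀ T ∈ G, ∃ c ∈ R, T v = c • v) :
    ∀ T ∈ Algebra.adjoin ℤ G, ∃ c ∈ R, T v = c • v := by
  intro T hT
  induction hT using Algebra.adjoin_induction with
  | mem x hx => exact hG x hx
  | algebraMap r =>
    refine ⟨(r : ℂ), intCast_mem R r, ?_⟩
    rw [Algebra.algebraMap_eq_smul_one, LinearMap.smul_apply, Module.End.one_apply,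
      Int.cast_smul_eq_zsmul]
  | add x y _ _ hx hy =>
    obtain ⟨c, hc, hcx⟩ := hx
    obtain ⟨d, hd, hdy⟩ := hy
    exact ⟨c + d, R.add_mem hc hd, by rw [LinearMap.add_apply, hcx, hdy, add_smul]⟩
  | mul x y _ _ hx hy =>
    obtain ⟨c, hc, hcx⟩ := hx
    obtain ⟨d, hd, hdy⟩ := hy
    refine ⟨c * d, R.mul_mem hc hd, ?_⟩
    rw [Module.End.mul_apply, hdy, map_smul, hcx, smul_smul, mul_comm]

/-- The eigenvalue map on a subalgebra all of whose elements have the nonzero vector `v` as an
eigenvector is a ring homomorphism. -/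
theorem exists_ringHom_of_eigen {V : Type*} [AddCommGroup V] [Module ℂ V] (v : V) (hv : v ≠ 0)
    (A : Subalgebra ℤ (Module.End ℂ V))
    (hA : ∀ T ∈ A, ∃ c : ℂ, T v = c • v) :
    ∃ chi : A →+* ℂ, ∀ x : A, (x : Module.End ℂ V) v = chi x • v := by
  have huniq : ∀ c d : ℂ, c • v = d • v → c = d := fun c d h => smul_left_injective ℂ hv h
  have hA' : ∀ x : A, ∃ c : ℂ, (x : Module.End ℂ V) v = c • v := fun x => hA x x.2
  choose f hf using hA'
  refine ⟨{ toFun := f
            map_one' := ?_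
            map_mul' := ?_
            map_zero' := ?_
            map_add' := ?_ }, fun x => hf x⟩
  · apply huniq
    rw [← hf, one_smul]
    rfl
  · intro x y
    apply huniq
    rw [← hf]
    show ((x : Module.End ℂ V) * (y : Module.End ℂ V)) v = _
    rw [Module.End.mul_apply, hf y, map_smul, hf x, smul_smul, mul_comm]
  · apply huniq
    rw [← hf, zero_smul]
    rfl
  · intro x y
    apply huniq
    rw [← hf]
    show ((x : Module.End ℂ V) + (y : Module.End ℂ V)) v = _
    rw [LinearMap.add_apply, hf x, hf y, add_smul]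

/-- [EIG] The eigencharacter of a normalized eigenform away from `S ⊇ primes(M)`. -/
theorem exists_eigenchar {M : ℕ} [NeZero M] (g : CuspForm (Gamma0 M) 2)
    (hg : g.IsNormalizedEigenform) (S : Set ℕ) (hMS : ∀ q : ℕ, q.Prime → q ∣ M → q ∈ S) :
    ∃ chig : CuspForm.heckeAlgebra M 2 S →+* ℂ,
      (∀ (ℓ : ℕ) (hℓ : ℓ.Prime) (hℓM : ¬ ℓ ∣ M) (hℓS : ℓ ∉ S),
        chig (CuspForm.heckeAlgebra.T hℓ hℓM hℓS) = qCoeff g ℓ) ∧
      (∀ R : Subring ℂ, (∀ ℓ : ℕ, ℓ.Prime → ¬ ℓ ∣ M → ℓ ∉ S → qCoeff g ℓ ∈ R) →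
        ∀ x ∈ chig.range, x ∈ R) := by
  have hg0 : g ≠ 0 := hg.ne_zero
  have huniq : ∀ c d : ℂ, c • g = d • g → c = d := fun c d h => smul_left_injective ℂ hg0 h
  -- generators are eigen with eigenvalue in any subring containing the `a_ℓ(g)`
  have hgen : ∀ R : Subring ℂ, (∀ ℓ : ℕ, ℓ.Prime → ¬ ℓ ∣ M → ℓ ∉ S → qCoeff g ℓ ∈ R) →
      ∀ T ∈ CuspForm.heckeGenerators M 2 S, ∃ c ∈ R, T g = c • g := by
    intro R hR T hT
    rcases hT with ⟨ℓ, hℓ, hℓN, hℓS, rfl⟩ | ⟨q, hqN, hq, hqS, rfl⟩
    · exact ⟨qCoeff g ℓ, hR ℓ hℓ hℓN hℓS,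
        Fermat.Agent.S41.FSEigen.heckeTLin_eq_smul g hg hℓ hℓN⟩
    · exact absurd (hMS q hq hqN) hqS
  have hall : ∀ R : Subring ℂ, (∀ ℓ : ℕ, ℓ.Prime → ¬ ℓ ∣ M → ℓ ∉ S → qCoeff g ℓ ∈ R) →
      ∀ T ∈ CuspForm.heckeAlgebra M 2 S, ∃ c ∈ R, T g = c • g := fun R hR =>
    exists_smul_of_mem_adjoin g (CuspForm.heckeGenerators M 2 S) R (hgen R hR)
  obtain ⟨chi, hchi⟩ := exists_ringHom_of_eigen g hg0 (CuspForm.heckeAlgebra M 2 S)
    (fun T hT => by
      obtain ⟨c, -, hc⟩ := hall ⊤ (fun _ _ _ _ => Subring.mem_top _) T hT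
      exact ⟨c, hc⟩)
  refine ⟨chi, ?_, ?_⟩
  · intro ℓ hℓ hℓM hℓS
    apply huniq
    rw [← hchi, CuspForm.heckeAlgebra.coe_T]
    exact Fermat.Agent.S41.FSEigen.heckeTLin_eq_smul g hg hℓ hℓM
  · intro R hR x hx
    obtain ⟨T, rfl⟩ := hx
    obtain ⟨c, hcR, hc⟩ := hall R hR T T.2
    have : chi T = c := huniq _ _ (by rw [← hchi, hc])
    rw [this]
    exact hcR

/-- A character all of whose values are rational integers admits a ring hom from its range to
any ring. -/
theorem exists_iota_of_int {A : Type*} [Ring A] (chi : A →+* ℂ)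
    (h : ∀ x ∈ chi.range, ∃ n : ℤ, x = (n : ℂ)) (O' : Type*) [Ring O'] :
    Nonempty (chi.range →+* O') := by
  have h' : ∀ x : chi.range, ∃ n : ℤ, (x : ℂ) = (n : ℂ) := fun x => h x x.2
  choose f hf using h'
  have hinj : ∀ m n : ℤ, (m : ℂ) = (n : ℂ) → m = n := fun m n hmn => Int.cast_injective hmn
  have h1 : f 1 = 1 := by
    apply hinj
    rw [← hf, Int.cast_one]
    rfl
  have h0 : f 0 = 0 := by
    apply hinj
    rw [← hf, Int.cast_zero]
    rfl
  have hmul : ∀ x y : chi.range, f (x * y) = f x * f y := by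
    intro x y
    apply hinj
    rw [← hf, Int.cast_mul, ← hf x, ← hf y]
    rfl
  have hadd : ∀ x y : chi.range, f (x + y) = f x + f y := by
    intro x y
    apply hinj
    rw [← hf, Int.cast_add, ← hf x, ← hf y]
    rfl
  exact ⟨{ toFun := fun x => ((f x : ℤ) : O')
           map_one' := by rw [h1, Int.cast_one]
           map_mul' := fun x y => by rw [hmul, Int.cast_mul]
           map_zero' := by rw [h0, Int.cast_zero]
           map_add' := fun x y => by rw [hadd, Int.cast_add] }⟩

/-- Any ring hom out of the range sends integer values to the same integer. -/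
theorem iota_comp_apply_of_eq_intCast {A : Type*} [Ring A] (chi : A →+* ℂ) {O' : Type*} [Ring O']
    (iota : chi.range →+* O') (T : A) (n : ℤ) (h : chi T = (n : ℂ)) :
    (iota.comp chi.rangeRestrict) T = (n : O') := by
  have h1 : chi.rangeRestrict T = ((n : ℤ) : chi.range) := by
    apply Subtype.ext
    rw [RingHom.coe_rangeRestrict, h]
    simp
  rw [RingHom.comp_apply, h1, map_intCast]

end Fermat.Agent.S58.EigCharB
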