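/-
S58 — EigId.lean (helper10).  Leaf [EIGID] of the S58 campaign = step (3) of the route of board
#3522: IDENTIFICATION OF THE EIGENVALUE AT A GOOD PRIME.

Let `W` be an integral Weierstrass model, `g` a newform of level `M` whose coefficients `a_ℓ(g)`
are the integers `a_ℓ(W)` for all primes `ℓ` outside a finite set `T ⊇ primes(M)`, and let `ℓ₀` be a
good prime of `W` with `ℓ₀ ∤ M` (typically `ℓ₀ ∈ T`: a good prime dividing the level `N` of the
modular form one started with).  Then `a_{ℓ₀}(g) = a_{ℓ₀}(W)`.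

Proof.  `α := a_{ℓ₀}(g)` is an algebraic integer (`S29.EigB.isIntegral_qCoeff`).  Take the
auxiliary prime `λ ∉ T ∪ {ℓ₀}` of `AuxPrime.exists_prime_ringHom`: every subring of `ℤ[α]` embeds
in `ℤ_[λ]`.  With `S := {λ} ∪ (T ∖ {ℓ₀})` the eigencharacter `chig` of `g` on
`heckeAlgebra M 2 S` has range inside `ℤ[α]` (every generator `T_ℓ`, `ℓ ∉ S`, `ℓ ∤ M`, goes to `α`
or to the integer `a_ℓ(W)`), whence an injective `ι : chig.range → ℤ_[λ]`.  The `λ`-adic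
representation `ρ` of (the proved) S35 has `charpoly ρ(Frob_ℓ) = X² - a_ℓ(W) X + ℓ` for
`ℓ ∉ S ∪ {ℓ₀}` and `charpoly ρ(Frob_{ℓ₀}) = X² - ι(α) X + ℓ₀`.  By (ii) (`FrobCharStatement`:
the Frobenius charpolys of `W` away from a finite set force the charpoly of `W` at the Frobenius
of every good prime `≠ λ` — the transfer lemma [TR] + Theorem F) the latter is
`X² - a_{ℓ₀}(W) X + ℓ₀`; so `ι(α) = a_{ℓ₀}(W)` and `α = a_{ℓ₀}(W)` by injectivity.

* `FrobCharAt`, `FrobCharStatement`  — the shape of (ii) consumed here (a `Prop`; binder list =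
                                        the instances produced by S35);
* `EigCharStatement`                 — the shape of the eigencharacter [EIG] consumed here
                                        (= `EigChar.exists_eigenchar` of board #3575 for one `g`);
* `qCoeff_eq_apOfModel`              — the identification, hypothesis form over (ii) and [EIG];
* `qCoeff_eq_apOfModel_of_forall`    — consumer form: all good primes `ℓ ∤ M` at once.
-/
import Mathlib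
import Fermat.Agent.S35
import Fermat.Agent.S29.EigB
import Fermat.Agent.S37.FrobEx
import Fermat.Agent.S13.AtP
import Fermat.Agent.S58.AuxPrime

set_option autoImplicit false

namespace Fermat.Agent.S58.EigId

open Polynomial CongruenceSubgroup ModularFormClass

/-- The Frobenius elements at `q` act through `ρ` with the characteristic polynomial
`X² - a_q(W) X + q` of `W`. -/
def FrobCharAt (W : WeierstrassCurve ℤ) (O'' : Type) [CommRing O''] [IsLocalRing O'']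
    (ρ : GaloisRepAdic O'') (q : ℕ) : Prop :=
  ∀ A : ValuationSubring (AlgebraicClosure ℚ), A.LiesOverPrime q →
    ∀ σ : AlgebraicClosure ℚ ≃ₐ[ℚ] AlgebraicClosure ℚ, A.IsFrobeniusAt σ q →
      LinearMap.charpoly (ρ.ρ σ) = X ^ 2 - C ((W.apOfModel q : ℤ) : O'') * X + C ((q : O''))

/-- **(ii)** for `W` (the output of the transfer lemma [TR] + Theorem F): an adic representation
over a complete discrete valuation ring of residue characteristic `λ` whose Frobenius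
characteristic polynomials are those of `W` away from a finite set `S` has the characteristic
polynomial of `W` at the Frobenius elements of EVERY good prime `q ≠ λ` of `W`. -/
def FrobCharStatement (W : WeierstrassCurve ℤ) : Prop :=
  ∀ (lam : ℕ) [Fact lam.Prime] (O'' : Type) [CommRing O''] [IsDomain O'']
    [IsDiscreteValuationRing O''] [IsAdicComplete (IsLocalRing.maximalIdeal O'') O'']
    [Finite (IsLocalRing.ResidueField O'')] [CharZero O''],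
    (lam : O'') ∈ IsLocalRing.maximalIdeal O'' → ∀ (ρ : GaloisRepAdic O'') (S : Finset ℕ),
      (∀ ℓ : ℕ, ℓ.Prime → ℓ ∉ S → FrobCharAt W O'' ρ ℓ) →
      ∀ q : ℕ, q.Prime → W.IsGoodPrimeFor q → q ≠ lam → FrobCharAt W O'' ρ q

/-- **[EIG]** for one normalized eigenform `g` of level `M`: the eigencharacter away from any set
`S ⊇ primes(M)`, with range in every subring containing the `a_ℓ(g)`, `ℓ ∉ S`, `ℓ ∤ M`. -/
def EigCharStatement {M : ℕ} [NeZero M] (g : CuspForm (Gamma0 M) 2) : Prop :=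
  ∀ S : Set ℕ, (∀ q : ℕ, q.Prime → q ∣ M → q ∈ S) →
    ∃ chig : CuspForm.heckeAlgebra M 2 S →+* ℂ,
      (∀ (ℓ : ℕ) (hℓ : ℓ.Prime) (hℓM : ¬ ℓ ∣ M) (hℓS : ℓ ∉ S),
        chig (CuspForm.heckeAlgebra.T hℓ hℓM hℓS) = qCoeff g ℓ) ∧
      (∀ R : Subring ℂ, (∀ ℓ : ℕ, ℓ.Prime → ¬ ℓ ∣ M → ℓ ∉ S → qCoeff g ℓ ∈ R) →
        ∀ x ∈ chig.range, x ∈ R)

/-- **[EIGID]** (step (3)): the eigenvalue of the newform `g` at a good prime `ℓ₀ ∤ M` of `W` is
`a_{ℓ₀}(W)`, as soon as `a_ℓ(g) = a_ℓ(W)` for all primes `ℓ` outside a finite set `T ⊇ primes(M)`.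
Hypothesis form over (ii) and [EIG]. -/
theorem qCoeff_eq_apOfModel (W : WeierstrassCurve ℤ) (hii : FrobCharStatement W)
    {M : ℕ} [NeZero M] {g : CuspForm (Gamma0 M) 2} (hg : g.IsNewform)
    (Heig : EigCharStatement g)
    (T : Finset ℕ) (hMT : ∀ q : ℕ, q.Prime → q ∣ M → q ∈ T)
    (hT : ∀ ℓ : ℕ, ℓ.Prime → ℓ ∉ T → qCoeff g ℓ = ((W.apOfModel ℓ : ℤ) : ℂ))
    {ℓ₀ : ℕ} (hℓ₀ : ℓ₀.Prime) (hℓ₀M : ¬ ℓ₀ ∣ M) (hgood : W.IsGoodPrimeFor ℓ₀) :
    qCoeff g ℓ₀ = ((W.apOfModel ℓ₀ : ℤ) : ℂ) := by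
  classical
  -- the auxiliary prime
  have hαint : IsIntegral ℤ (qCoeff g ℓ₀) :=
    Fermat.Agent.S29.EigB.isIntegral_qCoeff M g hg.1 hℓ₀ hℓ₀M
  obtain ⟨lam, hlam, hlamT, hι⟩ :=
    AuxPrime.exists_prime_ringHom (qCoeff g ℓ₀) hαint (insert ℓ₀ T)
  have hlamℓ₀ : lam ≠ ℓ₀ := fun h => hlamT (h ▸ Finset.mem_insert_self _ _)
  have hlamT' : lam ∉ T := fun h => hlamT (Finset.mem_insert_of_mem h)
  -- the set `S`
  let S : Finset ℕ := insert lam (T.erase ℓ₀)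
  have hmemS : ∀ ℓ : ℕ, ℓ ∈ S ↔ ℓ = lam ∨ (ℓ ≠ ℓ₀ ∧ ℓ ∈ T) := by
    intro ℓ
    rw [Finset.mem_insert, Finset.mem_erase]
  have hMS : ∀ q : ℕ, q.Prime → q ∣ M → q ∈ S := fun q hq hqM =>
    (hmemS q).mpr (Or.inr ⟨fun h => hℓ₀M (h ▸ hqM), hMT q hq hqM⟩)
  have hlamS : lam ∈ S := (hmemS lam).mpr (Or.inl rfl)
  have hℓ₀S : ℓ₀ ∉ (↑S : Set ℕ) := by
    rw [Finset.mem_coe, hmemS]
    rintro (h | h)
    · exact hlamℓ₀ h.symm
    · exact h.1 rfl
  have hST : ∀ ℓ : ℕ, ℓ ∉ (↑S : Set ℕ) → ℓ ≠ ℓ₀ → ℓ ∉ T := by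
    intro ℓ hℓS hne hℓT
    exact hℓS (Finset.mem_coe.mpr ((hmemS ℓ).mpr (Or.inr ⟨hne, hℓT⟩)))
  -- the eigencharacter and `ι`
  obtain ⟨chig, hchig, hrange⟩ := Heig (↑S) hMS
  have hR : ∀ x ∈ chig.range, x ∈ Algebra.adjoin ℤ ({qCoeff g ℓ₀} : Set ℂ) := by
    intro x hx
    have h := hrange (Algebra.adjoin ℤ ({qCoeff g ℓ₀} : Set ℂ)).toSubring (fun ℓ hℓ hℓM hℓS => ?_)
      x hx
    · exact h
    · by_cases h : ℓ = ℓ₀
      · subst h
        exact Algebra.subset_adjoin rfl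
      · rw [hT ℓ hℓ (hST ℓ hℓS h)]
        exact intCast_mem (Algebra.adjoin ℤ ({qCoeff g ℓ₀} : Set ℂ)) _
  obtain ⟨ι, hιinj⟩ := hι chig.range hR
  -- the representation of S35
  have := hlam
  have : Finite (IsLocalRing.ResidueField ℤ_[lam]) := AuxPrime.finite_residueField lam
  obtain ⟨O'', i1, i2, i3, i4, i5, i6, i7, i8, i9, hinj, ρ, h1, -⟩ :=
    Fermat.Agent.S35.result hg lam S ℤ_[lam] (AuxPrime.natCast_mem_maximalIdeal lam) chig hchig ι
      hlamS hMS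
  have hlamO'' : (lam : O'') ∈ IsLocalRing.maximalIdeal O'' := by
    have h0 := AuxPrime.natCast_mem_maximalIdeal lam
    rw [IsLocalRing.mem_maximalIdeal, mem_nonunits_iff] at h0 ⊢
    intro hu
    apply h0
    have hu' : IsUnit (algebraMap ℤ_[lam] O'' (lam : ℤ_[lam])) := by
      rw [map_natCast]
      exact hu
    exact isUnit_of_map_unit (algebraMap ℤ_[lam] O'') _ hu'
  -- the values of `ι ∘ chig` at the integral generators
  have hval : ∀ (ℓ : ℕ) (hℓ : ℓ.Prime) (hℓM : ¬ ℓ ∣ M) (hℓS : ℓ ∉ (↑S : Set ℕ)), ℓ ≠ ℓ₀ →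
      (ι.comp chig.rangeRestrict) (CuspForm.heckeAlgebra.T hℓ hℓM hℓS) =
        ((W.apOfModel ℓ : ℤ) : ℤ_[lam]) := by
    intro ℓ hℓ hℓM hℓS hne
    have h5 : chig.rangeRestrict (CuspForm.heckeAlgebra.T hℓ hℓM hℓS) =
        ((W.apOfModel ℓ : ℤ) : chig.range) := by
      apply Subtype.ext
      rw [RingHom.coe_rangeRestrict, hchig, hT ℓ hℓ (hST ℓ hℓS hne)]
      simp
    rw [RingHom.comp_apply, h5, map_intCast]
  -- a Frobenius at `ℓ₀`
  obtain ⟨A, hA⟩ := Fermat.Agent.S13.AtP.exists_liesOverPrime hℓ₀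
  obtain ⟨σ, hσ⟩ := Fermat.Agent.S37.FrobEx.exists_isFrobeniusAt_of_liesOver ℓ₀ hℓ₀ A hA
  have e35 := h1 ℓ₀ hℓ₀ hℓ₀M hℓ₀S A hA σ hσ
  -- (ii)
  have eii : LinearMap.charpoly (ρ.ρ σ) =
      X ^ 2 - C ((W.apOfModel ℓ₀ : ℤ) : O'') * X + C ((ℓ₀ : O'')) := by
    refine hii lam O'' hlamO'' ρ (insert ℓ₀ S) (fun ℓ hℓ hℓS' A' hA' σ' hσ' => ?_) ℓ₀ hℓ₀ hgood
      hlamℓ₀.symm A hA σ hσ
    have hne : ℓ ≠ ℓ₀ := fun h => hℓS' (h ▸ Finset.mem_insert_self _ _)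
    have hℓS : ℓ ∉ (↑S : Set ℕ) := fun h => hℓS' (Finset.mem_insert_of_mem (Finset.mem_coe.mp h))
    have hℓM : ¬ ℓ ∣ M := fun h => hℓS (Finset.mem_coe.mpr (hMS ℓ hℓ h))
    rw [h1 ℓ hℓ hℓM hℓS A' hA' σ' hσ', hval ℓ hℓ hℓM hℓS hne, map_intCast]
  -- comparison of the two characteristic polynomials
  rw [e35] at eii
  have hc := congrArg (fun f : O''[X] => f.coeff 1) eii
  simp only [coeff_add, coeff_sub, coeff_X_pow, coeff_C_mul, coeff_X_one, coeff_C] at hc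
  norm_num at hc
  have h2 : (ι.comp chig.rangeRestrict) (CuspForm.heckeAlgebra.T hℓ₀ hℓ₀M hℓ₀S) =
      ((W.apOfModel ℓ₀ : ℤ) : ℤ_[lam]) := by
    apply hinj
    rw [map_intCast]
    exact hc
  have h3 := AuxPrime.eq_intCast_of_apply_eq ι hιinj
    (chig.rangeRestrict (CuspForm.heckeAlgebra.T hℓ₀ hℓ₀M hℓ₀S)) (W.apOfModel ℓ₀) h2
  rw [RingHom.coe_rangeRestrict, hchig] at h3
  exact h3

/-- Consumer form: all good primes `ℓ ∤ M` at once. -/
theorem qCoeff_eq_apOfModel_of_forall (W : WeierstrassCurve ℤ) (hii : FrobCharStatement W)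
    {M : ℕ} [NeZero M] {g : CuspForm (Gamma0 M) 2} (hg : g.IsNewform)
    (Heig : EigCharStatement g)
    (T : Finset ℕ) (hMT : ∀ q : ℕ, q.Prime → q ∣ M → q ∈ T)
    (hT : ∀ ℓ : ℕ, ℓ.Prime → ℓ ∉ T → qCoeff g ℓ = ((W.apOfModel ℓ : ℤ) : ℂ)) :
    ∀ ℓ : ℕ, ℓ.Prime → W.IsGoodPrimeFor ℓ → ¬ ℓ ∣ M → qCoeff g ℓ = ((W.apOfModel ℓ : ℤ) : ℂ) :=
  fun _ hℓ hgood hℓM => qCoeff_eq_apOfModel W hii hg Heig T hMT hT hℓ hℓM hgood

end Fermat.Agent.S58.EigId
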