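/-
S58, step (3) (helper91): `a_ℓ(g) = a_ℓ(W)` at every good prime `ℓ ∤ M` — in the shape of the
Plan:  `eigVal_of_trace : Plan.TraceStatement → Plan.EigValStatement`.

For `ℓ ∤ N` this is part of the `Plan.Setup`.  For a good prime `ℓ ∣ N` (so `ℓ ∤ M`), put
`α := a_ℓ(g)`, an algebraic integer (`S29.EigB.isIntegral_qCoeff`); `S58.AuxPrime` gives a prime
`lam ≠ ℓ` and injective ring homs `R → ℤ_[lam]` for the subrings `R ⊆ ℤ[α]`.  With
`S := insert lam (N.primeFactors.erase ℓ)` the eigencharacter of `g` on `heckeAlgebra M 2 S`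
(`S58.EigChar`) has range inside `ℤ[α]`; the first clause of `S35.result` gives `ρ` with
`charpoly ρ(Frob_ℓ') = X² − a_ℓ'(W) X + ℓ'` for `ℓ' ∉ insert ℓ S` and
`charpoly ρ(Frob_ℓ) = X² − ι(α) X + ℓ`.  `Plan.TraceStatement` at `ℓ` gives
`tr ρ(Frob_ℓ) = a_ℓ(W)`, hence `ι(α) = a_ℓ(W)` and `α = a_ℓ(W)` by injectivity.
-/
import Mathlib
import Fermat.Agent.S58.Plan
import Fermat.Agent.S58.EigChar
import Fermat.Agent.S58.AuxPrime
import Fermat.Agent.S58.PtSeam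
import Fermat.Agent.S35
import Fermat.Agent.S29.EigB
import Fermat.Agent.S54.Frobenius

set_option autoImplicit false

namespace Fermat.Agent.S58.EigValC

open Polynomial CongruenceSubgroup ModularFormClass
open Fermat.Agent.S58

/-- **Step (3).**  `Plan.EigValStatement` from `Plan.TraceStatement`. -/
theorem eigVal_of_trace (hT : Plan.TraceStatement) : Plan.EigValStatement := by
  intro W N M _ g h ℓ hℓ hgood hℓM
  by_cases hℓN : ℓ ∣ N
  swap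
  · exact h.hap ℓ hℓ hℓN
  have hαint : IsIntegral ℤ (qCoeff g ℓ) :=
    Fermat.Agent.S29.EigB.isIntegral_qCoeff M g h.hg.1 hℓ hℓM
  obtain ⟨lam, hlamF, hlamT, hι⟩ := AuxPrime.exists_prime_ringHom (qCoeff g ℓ) hαint {ℓ}
  haveI := hlamF
  have hlamℓ : lam ≠ ℓ := fun e => hlamT (by rw [e]; exact Finset.mem_singleton_self ℓ)
  have hlamS : lam ∈ insert lam (N.primeFactors.erase ℓ) := Finset.mem_insert_self _ _
  have hMS : ∀ q : ℕ, q.Prime → q ∣ M → q ∈ insert lam (N.primeFactors.erase ℓ) := by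
    intro q hq hqM
    refine Finset.mem_insert_of_mem (Finset.mem_erase.mpr
      ⟨?_, Nat.mem_primeFactors.mpr ⟨hq, hqM.trans h.hMN, h.hN⟩⟩)
    rintro rfl
    exact hℓM hqM
  have hℓS : ℓ ∉ (↑(insert lam (N.primeFactors.erase ℓ)) : Set ℕ) := by
    intro hm
    rcases Finset.mem_insert.mp (Finset.mem_coe.mp hm) with e | e
    · exact hlamℓ e.symm
    · exact (Finset.mem_erase.mp e).1 rfl
  have hout : ∀ ℓ' : ℕ, ℓ'.Prime → ℓ' ∉ (↑(insert lam (N.primeFactors.erase ℓ)) : Set ℕ) →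
      ℓ' ≠ ℓ → ¬ ℓ' ∣ N := by
    intro ℓ' hℓ' hℓ'S hne hd
    exact hℓ'S (Finset.mem_coe.mpr (Finset.mem_insert_of_mem (Finset.mem_erase.mpr
      ⟨hne, Nat.mem_primeFactors.mpr ⟨hℓ', hd, h.hN⟩⟩)))
  obtain ⟨chig, hchig, hrange⟩ := EigChar.exists_eigenchar g h.hg.1
    (↑(insert lam (N.primeFactors.erase ℓ)) : Set ℕ)
    (fun q hq hqM => Finset.mem_coe.mpr (hMS q hq hqM))
  have hsub : ∀ x ∈ chig.range, x ∈ Algebra.adjoin ℤ ({qCoeff g ℓ} : Set ℂ) := by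
    intro x hx
    refine hrange (Algebra.adjoin ℤ ({qCoeff g ℓ} : Set ℂ)).toSubring ?_ x hx
    intro ℓ' hℓ' hℓ'M hℓ'S
    by_cases e : ℓ' = ℓ
    · rw [e]
      exact Algebra.subset_adjoin (Set.mem_singleton _)
    · rw [h.hap ℓ' hℓ' (hout ℓ' hℓ' hℓ'S e)]
      exact intCast_mem (Algebra.adjoin ℤ ({qCoeff g ℓ} : Set ℂ)) _
  obtain ⟨ι, hιinj⟩ := hι chig.range hsub
  have hlamO' := AuxPrime.natCast_mem_maximalIdeal lam
  obtain ⟨O'', i1, i2, i3, i4, i5, i6, i7, i8, i9, hinj, ρ, hρ, -⟩ :=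
    Fermat.Agent.S35.result h.hg lam (insert lam (N.primeFactors.erase ℓ)) ℤ_[lam] hlamO'
      chig hchig ι hlamS hMS
  have hlamO : (lam : O'') ∈ IsLocalRing.maximalIdeal O'' := by
    have h1 : (lam : O'') = algebraMap ℤ_[lam] O'' (lam : ℤ_[lam]) := (map_natCast _ lam).symm
    rw [h1]
    exact map_nonunit (algebraMap ℤ_[lam] O'') _ hlamO'
  have hF : Plan.FrobHyp W (insert ℓ (insert lam (N.primeFactors.erase ℓ))) O'' ρ := by
    intro ℓ' hℓ' hℓ'S A hA σ hσ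
    have hne : ℓ' ≠ ℓ := fun e => hℓ'S (e ▸ Finset.mem_insert_self _ _)
    have hℓ'S' : ℓ' ∉ (↑(insert lam (N.primeFactors.erase ℓ)) : Set ℕ) := fun hm =>
      hℓ'S (Finset.mem_insert_of_mem (Finset.mem_coe.mp hm))
    have hℓ'N := hout ℓ' hℓ' hℓ'S' hne
    have hℓ'M : ¬ ℓ' ∣ M := fun hd => hℓ'N (hd.trans h.hMN)
    rw [hρ ℓ' hℓ' hℓ'M hℓ'S' A hA σ hσ,
      EigChar.iota_comp_apply_of_eq_intCast chig ι _ (W.apOfModel ℓ')
        ((hchig ℓ' hℓ' hℓ'M hℓ'S').trans (h.hap ℓ' hℓ' hℓ'N)), map_intCast]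
  obtain ⟨A, σ, hA, hσ⟩ := Fermat.Agent.S54.exists_isFrobeniusAt ℓ hℓ
  have htr := hT W h.hΔ ℓ lam hℓ hlamF.out hlamℓ.symm hgood
    (insert ℓ (insert lam (N.primeFactors.erase ℓ))) O'' hlamO ρ hF A hA σ hσ
  have hcp := hρ ℓ hℓ hℓM hℓS A hA σ hσ
  have htr2 : LinearMap.trace O'' ρ.V (ρ.ρ σ) = algebraMap ℤ_[lam] O''
      ((ι.comp chig.rangeRestrict) (CuspForm.heckeAlgebra.T hℓ hℓM hℓS)) := by
    rw [PtSeam.trace_eq_neg_coeff_one ρ.finrank_eq, hcp, PtSeam.coeff_one_clause_minus, neg_neg]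
  have h1 : algebraMap ℤ_[lam] O''
      ((ι.comp chig.rangeRestrict) (CuspForm.heckeAlgebra.T hℓ hℓM hℓS)) =
      algebraMap ℤ_[lam] O'' ((W.apOfModel ℓ : ℤ) : ℤ_[lam]) := by
    rw [← htr2, htr, map_intCast]
  have h2 : ι (chig.rangeRestrict (CuspForm.heckeAlgebra.T hℓ hℓM hℓS)) =
      ((W.apOfModel ℓ : ℤ) : ℤ_[lam]) := hinj h1
  have h3 := AuxPrime.eq_intCast_of_apply_eq ι hιinj
    (chig.rangeRestrict (CuspForm.heckeAlgebra.T hℓ hℓM hℓS)) (W.apOfModel ℓ) h2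
  rw [← hchig ℓ hℓ hℓM hℓS]
  exact h3

end Fermat.Agent.S58.EigValC
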