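/-
S58 — EigValCloser.lean (helper10).  CLOSER of the plan leaf [EIGVAL] (`Plan.EigValStatement`,
step (3) of the route) over the seam (T) (`Plan.TraceStatement`).

Let `Plan.Setup W N M g`: `g` is a newform of level `M ∣ N` with `a_ℓ(g) = a_ℓ(W)` for all primes
`ℓ ∤ N`.  Let `ℓ₀` be a prime of good reduction of `W` with `ℓ₀ ∤ M` (the interesting case is
`ℓ₀ ∣ N`).  Then `a_{ℓ₀}(g) = a_{ℓ₀}(W)`.

Proof.  `α := a_{ℓ₀}(g)` is an algebraic integer (`S29.EigB.isIntegral_qCoeff`).  Take the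
auxiliary prime `λ ∉ primes(N) ∪ {ℓ₀}` of `AuxPrime.exists_prime_ringHom`: every subring of `ℤ[α]`
embeds in `ℤ_[λ]`.  With `S := {λ} ∪ (primes(N) ∖ {ℓ₀})` the eigencharacter `chig` of `g` on
`heckeAlgebra M 2 S` (`EigChar.exists_eigenchar`) has range inside `ℤ[α]` (every generator `T_ℓ`,
`ℓ ∉ S`, `ℓ ∤ M`, goes to `α` or to the integer `a_ℓ(W)`), whence an injective
`ι : chig.range → ℤ_[λ]`.  The `λ`-adic representation `ρ` of (the proved) S35 has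
`charpoly ρ(Frob_ℓ) = X² - a_ℓ(W) X + ℓ` for `ℓ ∉ S ∪ {ℓ₀}` — that is `Plan.FrobHyp W (S ∪ {ℓ₀})` —
and `charpoly ρ(Frob_{ℓ₀}) = X² - ι(α) X + ℓ₀`, so `tr ρ(Frob_{ℓ₀}) = ι(α)`.  By (T),
`tr ρ(Frob_{ℓ₀}) = a_{ℓ₀}(W)`; hence `ι(α) = a_{ℓ₀}(W)` and `α = a_{ℓ₀}(W)` by injectivity.

* `eigVal_of_trace : Plan.TraceStatement → Plan.EigValStatement`.
-/
import Mathlib
import Fermat.Agent.S35
import Fermat.Agent.S29.EigB
import Fermat.Agent.S37.FrobEx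
import Fermat.Agent.S13.AtP
import Fermat.Agent.S58.AuxPrime
import Fermat.Agent.S58.EigChar
import Fermat.Agent.S58.PtSeam
import Fermat.Agent.S58.Plan

set_option autoImplicit false

namespace Fermat.Agent.S58.EigValCloser

open Polynomial CongruenceSubgroup ModularFormClass

/-- The coefficient of `X` in `X² - C a * X + C b`. -/
theorem coeff_one_quadratic {R : Type*} [CommRing R] (a b : R) :
    (X ^ 2 - C a * X + C b : R[X]).coeff 1 = -a := by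
  simp only [coeff_add, coeff_sub, coeff_X_pow, coeff_C_mul, coeff_X_one, coeff_C]
  norm_num

/-- **[EIGVAL] over (T).**  Step (3): `a_ℓ(g) = a_ℓ(W)` at every good prime `ℓ ∤ M` of `W`, for the
newform `g` of a `Plan.Setup`. -/
theorem eigVal_of_trace (hT : Plan.TraceStatement) : Plan.EigValStatement := by
  classical
  intro W N M _ g hS ℓ₀ hℓ₀ hgood hℓ₀M
  obtain ⟨hΔ, hN, -, -, hMN, hg, hap⟩ := hS
  -- the finite set `T` of primes of `N`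
  have hMT : ∀ q : ℕ, q.Prime → q ∣ M → q ∈ N.primeFactors := fun q hq hqM =>
    Nat.mem_primeFactors.mpr ⟨hq, hqM.trans hMN, hN⟩
  have hTap : ∀ ℓ : ℕ, ℓ.Prime → ℓ ∉ N.primeFactors →
      qCoeff g ℓ = ((W.apOfModel ℓ : ℤ) : ℂ) := fun ℓ hℓ hℓT =>
    hap ℓ hℓ (fun hd => hℓT (Nat.mem_primeFactors.mpr ⟨hℓ, hd, hN⟩))
  -- the auxiliary prime
  have hαint : IsIntegral ℤ (qCoeff g ℓ₀) :=
    Fermat.Agent.S29.EigB.isIntegral_qCoeff M g hg.1 hℓ₀ hℓ₀M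
  obtain ⟨lam, hlam, hlamT, hι⟩ :=
    AuxPrime.exists_prime_ringHom (qCoeff g ℓ₀) hαint (insert ℓ₀ N.primeFactors)
  have hlamℓ₀ : lam ≠ ℓ₀ := fun h => hlamT (h ▸ Finset.mem_insert_self _ _)
  -- the set `S`
  let S : Finset ℕ := insert lam (N.primeFactors.erase ℓ₀)
  have hmemS : ∀ ℓ : ℕ, ℓ ∈ S ↔ ℓ = lam ∨ (ℓ ≠ ℓ₀ ∧ ℓ ∈ N.primeFactors) := by
    intro ℓ
    rw [Finset.mem_insert, Finset.mem_erase]
  have hMS : ∀ q : ℕ, q.Prime → q ∣ M → q ∈ S := fun q hq hqM =>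
    (hmemS q).mpr (Or.inr ⟨fun h => hℓ₀M (h ▸ hqM), hMT q hq hqM⟩)
  have hMS' : ∀ q : ℕ, q.Prime → q ∣ M → q ∈ (↑S : Set ℕ) := fun q hq hqM =>
    Finset.mem_coe.mpr (hMS q hq hqM)
  have hlamS : lam ∈ S := (hmemS lam).mpr (Or.inl rfl)
  have hℓ₀S : ℓ₀ ∉ (↑S : Set ℕ) := by
    rw [Finset.mem_coe, hmemS]
    rintro (h | h)
    · exact hlamℓ₀ h.symm
    · exact h.1 rfl
  have hST : ∀ ℓ : ℕ, ℓ ∉ (↑S : Set ℕ) → ℓ ≠ ℓ₀ → ℓ ∉ N.primeFactors := by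
    intro ℓ hℓS hne hℓT
    exact hℓS (Finset.mem_coe.mpr ((hmemS ℓ).mpr (Or.inr ⟨hne, hℓT⟩)))
  -- the eigencharacter and `ι`
  obtain ⟨chig, hchig, hrange⟩ := EigChar.exists_eigenchar g hg.1 (↑S : Set ℕ) hMS'
  have hR : ∀ x ∈ chig.range, x ∈ Algebra.adjoin ℤ ({qCoeff g ℓ₀} : Set ℂ) := by
    intro x hx
    have h := hrange (Algebra.adjoin ℤ ({qCoeff g ℓ₀} : Set ℂ)).toSubring (fun ℓ hℓ hℓM hℓS => ?_)
      x hx
    · exact h
    · by_cases h : ℓ = ℓ₀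
      · subst h
        exact Algebra.subset_adjoin rfl
      · rw [hTap ℓ hℓ (hST ℓ hℓS h)]
        exact intCast_mem (Algebra.adjoin ℤ ({qCoeff g ℓ₀} : Set ℂ)) _
  obtain ⟨ι, hιinj⟩ := hι chig.range hR
  -- the representation of S35
  have := hlam
  have : Finite (IsLocalRing.ResidueField ℤ_[lam]) := AuxPrime.finite_residueField lam
  obtain ⟨O'', i1, i2, i3, i4, i5, i6, i7, i8, i9, hinj, ρ, h1, -⟩ :=
    Fermat.Agent.S35.result hg lam S ℤ_[lam] (AuxPrime.natCast_mem_maximalIdeal lam) chig hchig ι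
      hlamS hMS
  have hlamO'' : (lam : O'') ∈ IsLocalRing.maximalIdeal O'' := by
    have h0 := AuxPrime.natCast_mem_maximalIdeal lam
    rw [IsLocalRing.mem_maximalIdeal, mem_nonunits_iff] at h0 ⊢
    intro hu
    apply h0
    have hu' : IsUnit (algebraMap ℤ_[lam] O'' (lam : ℤ_[lam])) := by
      rw [map_natCast]
      exact hu
    exact isUnit_of_map_unit (algebraMap ℤ_[lam] O'') _ hu'
  -- the values of `ι ∘ chig` at the integral generators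
  have hval : ∀ (ℓ : ℕ) (hℓ : ℓ.Prime) (hℓM : ¬ ℓ ∣ M) (hℓS : ℓ ∉ (↑S : Set ℕ)), ℓ ≠ ℓ₀ →
      (ι.comp chig.rangeRestrict) (CuspForm.heckeAlgebra.T hℓ hℓM hℓS) =
        ((W.apOfModel ℓ : ℤ) : ℤ_[lam]) := by
    intro ℓ hℓ hℓM hℓS hne
    have h5 : chig.rangeRestrict (CuspForm.heckeAlgebra.T hℓ hℓM hℓS) =
        ((W.apOfModel ℓ : ℤ) : chig.range) := by
      apply Subtype.ext
      rw [RingHom.coe_rangeRestrict, hchig, hTap ℓ hℓ (hST ℓ hℓS hne)]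
      simp
    rw [RingHom.comp_apply, h5, map_intCast]
  -- `Plan.FrobHyp` away from `S ∪ {ℓ₀}`
  have hFrob : Plan.FrobHyp W (insert ℓ₀ S) O'' ρ := by
    intro ℓ hℓ hℓS' A' hA' σ' hσ'
    have hne : ℓ ≠ ℓ₀ := fun h => hℓS' (h ▸ Finset.mem_insert_self _ _)
    have hℓS : ℓ ∉ (↑S : Set ℕ) := fun h => hℓS' (Finset.mem_insert_of_mem (Finset.mem_coe.mp h))
    have hℓM : ¬ ℓ ∣ M := fun h => hℓS (hMS' ℓ hℓ h)
    rw [h1 ℓ hℓ hℓM hℓS A' hA' σ' hσ', hval ℓ hℓ hℓM hℓS hne, map_intCast]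
  -- a Frobenius at `ℓ₀`
  obtain ⟨A, hA⟩ := Fermat.Agent.S13.AtP.exists_liesOverPrime hℓ₀
  obtain ⟨σ, hσ⟩ := Fermat.Agent.S37.FrobEx.exists_isFrobeniusAt_of_liesOver ℓ₀ hℓ₀ A hA
  have e35 := h1 ℓ₀ hℓ₀ hℓ₀M hℓ₀S A hA σ hσ
  -- (T): the trace of `ρ(Frob_{ℓ₀})`
  have eT : LinearMap.trace O'' ρ.V (ρ.ρ σ) = ((W.apOfModel ℓ₀ : ℤ) : O'') :=
    hT W hΔ ℓ₀ lam hℓ₀ hlam.out hlamℓ₀.symm hgood (insert ℓ₀ S) O'' hlamO'' ρ hFrob A hA σ hσ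
  -- the trace from the characteristic polynomial of S35
  have eTr : LinearMap.trace O'' ρ.V (ρ.ρ σ) =
      algebraMap ℤ_[lam] O''
        ((ι.comp chig.rangeRestrict) (CuspForm.heckeAlgebra.T hℓ₀ hℓ₀M hℓ₀S)) := by
    rw [PtSeam.trace_eq_neg_coeff_one ρ.finrank_eq (ρ.ρ σ), e35, coeff_one_quadratic, neg_neg]
  have h2 : (ι.comp chig.rangeRestrict) (CuspForm.heckeAlgebra.T hℓ₀ hℓ₀M hℓ₀S) =
      ((W.apOfModel ℓ₀ : ℤ) : ℤ_[lam]) := by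
    apply hinj
    rw [map_intCast, ← eTr, eT]
  have h3 := AuxPrime.eq_intCast_of_apply_eq ι hιinj
    (chig.rangeRestrict (CuspForm.heckeAlgebra.T hℓ₀ hℓ₀M hℓ₀S)) (W.apOfModel ℓ₀) h2
  rw [RingHom.coe_rangeRestrict, hchig] at h3
  exact h3

end Fermat.Agent.S58.EigValCloser
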