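/-
S58 / [TR-FL] (helper87): the FINITE LEVEL of the `λⁿ`-torsion of `W` and of `μ_{λⁿ}`.

`finLevel`: for an integral Weierstrass curve `W` with `Δ ≠ 0`, a prime `λ` and `n`, there is a
finite extension `L / ℚ` inside `ℚ̄` such that two elements of `G_ℚ` which agree on `L` act in
the same way on every point of `W(ℚ̄)` killed by `λⁿ` and on every `λⁿ`-th root of unity.
(`L` = the field generated by the coordinates of the finitely many `λⁿ`-torsion points and by
`μ_{λⁿ}`; finiteness of the torsion from `S41.T1.card_torsion` by induction on `n`.)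

This is the slice (FL) of the transfer lemma [TR] (`Plan.TRStatement`), in the exact shape of
`Transfer.FLStatement` (helper5) / `TransferB` (helper55).
-/
import Fermat.Agent.S58.Plan
import Fermat.Agent.S41.T1

set_option autoImplicit false

namespace Fermat.Agent.S58.FinLevel

open WeierstrassCurve WeierstrassCurve.Affine
open scoped WeierstrassCurve.Affine

/-- In an additive commutative group with finite `p`-torsion, the `pⁿ`-torsion is finite. -/
theorem finite_torsion_pow {G : Type*} [AddCommGroup G] {p : ℕ}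
    (h1 : {x : G | p • x = 0}.Finite) (n : ℕ) : {x : G | (p ^ n) • x = 0}.Finite := by
  induction n with
  | zero =>
    have : {x : G | (p ^ 0) • x = 0} = {0} := by
      ext x; simp
    rw [this]; exact Set.finite_singleton 0
  | succ n ih =>
    have hpre : {x : G | (p ^ (n + 1)) • x = 0} =
        (fun x : G => p • x) ⁻¹' {y : G | (p ^ n) • y = 0} := by
      ext x
      simp only [Set.mem_ofPred_eq, Set.mem_preimage, pow_succ, mul_smul]
    rw [hpre]
    refine Set.Finite.preimage' ih fun b _ => ?_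
    by_cases hb : ∃ x₀ : G, p • x₀ = b
    · obtain ⟨x₀, hx₀⟩ := hb
      refine (h1.image fun y => x₀ + y).subset ?_
      intro x hx
      have hx' : p • x = b := hx
      refine ⟨x - x₀, ?_, by simp⟩
      show p • (x - x₀) = 0
      rw [smul_sub, hx', hx₀, sub_self]
    · have : (fun x : G => p • x) ⁻¹' {b} = ∅ := by
        ext x
        simp only [Set.mem_preimage, Set.mem_singleton_iff, Set.mem_empty_iff_false, iff_false]
        exact fun hx => hb ⟨x, hx⟩
      rw [this]; exact Set.finite_empty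

/-- The generic fibre over `ℚ̄` of an integral Weierstrass curve with `Δ ≠ 0` is elliptic. -/
theorem isElliptic_pt (W : WeierstrassCurve ℤ) (hΔ : W.Δ ≠ 0) :
    ((W.map (Int.castRingHom ℚ))⁄Plan.Qb).IsElliptic := by
  refine ⟨isUnit_iff_ne_zero.mpr ?_⟩
  show ((W.map (Int.castRingHom ℚ)).map (algebraMap ℚ Plan.Qb)).Δ ≠ 0
  rw [WeierstrassCurve.map_Δ, WeierstrassCurve.map_Δ]
  simpa using hΔ

/-- The `λⁿ`-torsion of `W(ℚ̄)` is finite. -/
theorem finite_torsion (W : WeierstrassCurve ℤ) (hΔ : W.Δ ≠ 0) {lam : ℕ} (hlam : lam.Prime)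
    (n : ℕ) : {P : Plan.Pt W | (lam ^ n) • P = 0}.Finite := by
  have := isElliptic_pt W hΔ
  apply finite_torsion_pow
  have hcard := Fermat.Agent.S41.T1.card_torsion ((W.map (Int.castRingHom ℚ))⁄Plan.Qb) lam hlam
  have hfin : Finite (Submodule.torsionBy ℤ (Plan.Pt W) (lam : ℤ)) :=
    Nat.finite_of_card_ne_zero (by rw [hcard]; exact pow_ne_zero 2 hlam.ne_zero)
  have hset : {P : Plan.Pt W | lam • P = 0} =
      Set.range (Subtype.val : Submodule.torsionBy ℤ (Plan.Pt W) (lam : ℤ) → Plan.Pt W) := by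
    ext P
    simp only [Set.mem_ofPred_eq, Subtype.range_coe_subtype, Submodule.mem_torsionBy_iff,
      natCast_zsmul]
  rw [hset]
  exact Set.finite_range _

/-- `ℚ̄` is integral over `ℚ` (for the `ℚ`-algebra structure in use). -/
theorem isIntegral_qb : Algebra.IsIntegral ℚ Plan.Qb := by
  have h : (DivisionRing.toRatAlgebra : Algebra ℚ Plan.Qb) = AlgebraicClosure.instAlgebra ℚ :=
    Subsingleton.elim _ _
  have : Algebra.IsAlgebraic ℚ Plan.Qb := by
    rw [h]
    infer_instance
  exact Algebra.IsAlgebraic.isIntegral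

/-- The `x`-coordinate of a point (`0` at the origin). -/
noncomputable def cx (W : WeierstrassCurve ℤ) : Plan.Pt W → Plan.Qb
  | .zero => 0
  | .some x _ _ => x

/-- The `y`-coordinate of a point (`0` at the origin). -/
noncomputable def cy (W : WeierstrassCurve ℤ) : Plan.Pt W → Plan.Qb
  | .zero => 0
  | .some _ y _ => y

/-- **[TR-FL]** the finite level of `W[λⁿ](ℚ̄)` and `μ_{λⁿ}`. -/
theorem finLevel : ∀ (W : WeierstrassCurve ℤ), W.Δ ≠ 0 → ∀ (lam : ℕ), lam.Prime → ∀ n : ℕ,
    ∃ L : IntermediateField ℚ Plan.Qb, FiniteDimensional ℚ L ∧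
      ∀ g g' : Plan.GQ, (∀ x ∈ L, g x = g' x) →
        (∀ P : Plan.Pt W, (lam ^ n) • P = 0 → g • P = g' • P) ∧
        (∀ μ : Plan.Qb, μ ^ (lam ^ n) = 1 → g μ = g' μ) := by
  intro W hΔ lam hlam n
  classical
  have hTfin : {P : Plan.Pt W | (lam ^ n) • P = 0}.Finite := finite_torsion W hΔ hlam n
  have hN : 0 < lam ^ n := pow_pos hlam.pos n
  have hRfin : {μ : Plan.Qb | μ ^ (lam ^ n) = 1}.Finite := by
    refine (Polynomial.nthRoots (lam ^ n) (1 : Plan.Qb)).toFinset.finite_toSet.subset ?_
    intro μ hμ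
    simp only [Finset.mem_coe, Multiset.mem_toFinset, Polynomial.mem_nthRoots hN]
    exact hμ
  set S : Set Plan.Qb := cx W '' {P : Plan.Pt W | (lam ^ n) • P = 0} ∪
    cy W '' {P : Plan.Pt W | (lam ^ n) • P = 0} ∪ {μ : Plan.Qb | μ ^ (lam ^ n) = 1} with hS
  have hSfin : S.Finite := ((hTfin.image _).union (hTfin.image _)).union hRfin
  have : Finite S := Set.finite_coe_iff.mpr hSfin
  have := isIntegral_qb
  refine ⟨IntermediateField.adjoin ℚ S,
    IntermediateField.finiteDimensional_adjoin fun x _ => Algebra.IsIntegral.isIntegral x, ?_⟩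
  intro g g' hgg'
  refine ⟨fun P hP => ?_, fun μ hμ =>
    hgg' μ (IntermediateField.subset_adjoin ℚ S (Or.inr hμ))⟩
  rcases P with _ | ⟨x, y, h⟩
  · rfl
  · have hx : x ∈ IntermediateField.adjoin ℚ S :=
      IntermediateField.subset_adjoin ℚ S (Or.inl (Or.inl ⟨Point.some x y h, hP, rfl⟩))
    have hy : y ∈ IntermediateField.adjoin ℚ S :=
      IntermediateField.subset_adjoin ℚ S (Or.inl (Or.inr ⟨Point.some x y h, hP, rfl⟩))
    have hx' : g x = g' x := hgg' x hx
    have hy' : g y = g' y := hgg' y hy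
    rw [Point.algEquiv_smul_def, Point.algEquiv_smul_def, Point.map_some, Point.map_some]
    simp only [Point.some.injEq]
    exact ⟨hx', hy'⟩

end Fermat.Agent.S58.FinLevel
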