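/-
S58 team, leaf [RED0] (owner: helper51): the valuation half of [E0U].

`S41.Red.redHom` without good reduction.  For a Weierstrass curve `WA` over a valuation subring
`A` of a field `K` (no hypothesis on the discriminant), the relation `Red A WA P R` says that the
point `P` of the generic fibre reduces to the point `R` of Mathlib's group of nonsingular points
of the special fibre `(WA.map (residue A)).toAffine.Point`; points of the kernel of reduction
(`S05.InE1`) reduce to `0`.  The relation is functional, additive, compatible with negation, its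
domain `E0` is a subgroup, the kernel is `InE1`, every nonsingular point of the special fibre
lifts when `K` is algebraically closed, and it only depends on the coordinates modulo the
maximal ideal.
-/
import Mathlib
import Fermat.Agent.S05.FormalGroup
import Fermat.Agent.S05.Reduction
import Fermat.Agent.S41.Red

set_option autoImplicit false

namespace Fermat.Agent.S58.Red0

open WeierstrassCurve WeierstrassCurve.Affine IsLocalRing
open Fermat.Agent.S05
open Fermat.Agent.S41.Red

section Curve

variable {K : Type*} [Field K] (A : ValuationSubring K) (WA : WeierstrassCurve A)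

/-- `P` reduces to the nonsingular point `R` of the special fibre; the kernel of reduction
goes to `0`. -/
def Red (P : (WA.map (algebraMap A K)).toAffine.Point)
    (R : (WA.map (residue A)).toAffine.Point) : Prop :=
  (InE1 A P ∧ R = 0) ∨
    ∃ (a b : A) (h : (WA.map (algebraMap A K)).toAffine.Nonsingular (a : K) (b : K))
      (h' : (WA.map (residue A)).toAffine.Nonsingular (residue A a) (residue A b)),
      P = Point.some _ _ h ∧ R = Point.some _ _ h'

theorem red_of_inE1 {P : (WA.map (algebraMap A K)).toAffine.Point} (hP : InE1 A P) :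
    Red A WA P 0 :=
  Or.inl ⟨hP, rfl⟩

theorem red_zero : Red A WA 0 0 :=
  red_of_inE1 A WA trivial

theorem red_some {a b : A} (h : (WA.map (algebraMap A K)).toAffine.Nonsingular (a : K) (b : K))
    (h' : (WA.map (residue A)).toAffine.Nonsingular (residue A a) (residue A b)) :
    Red A WA (Point.some _ _ h) (Point.some _ _ h') :=
  Or.inr ⟨a, b, h, h', rfl, rfl⟩

/-- Transport of a point along equalities of coordinates. -/
theorem exists_some_eq {F : Type*} [Field F] {W : WeierstrassCurve F} {x y x' y' : F}
    (h : W.toAffine.Nonsingular x y) (hx : x' = x) (hy : y' = y) :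
    ∃ h' : W.toAffine.Nonsingular x' y', Point.some x y h = Point.some x' y' h' := by
  subst hx hy
  exact ⟨h, rfl⟩

theorem not_inE1_some {a b : A}
    (h : (WA.map (algebraMap A K)).toAffine.Nonsingular (a : K) (b : K)) :
    ¬ InE1 A (Point.some _ _ h) := fun h0 => h0 a.2

variable {A WA}

/-- The kernel of the reduction relation is the kernel of reduction. -/
theorem Red.inE1_iff {P : (WA.map (algebraMap A K)).toAffine.Point}
    {R : (WA.map (residue A)).toAffine.Point} (h : Red A WA P R) : InE1 A P ↔ R = 0 := by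
  rcases h with ⟨hP, rfl⟩ | ⟨a, b, h, h', rfl, rfl⟩
  · exact ⟨fun _ => rfl, fun _ => hP⟩
  · exact ⟨fun h0 => absurd h0 (not_inE1_some A WA h), fun h0 => absurd h0 (Point.some_ne_zero _)⟩

theorem red_zero_right_iff {P : (WA.map (algebraMap A K)).toAffine.Point} :
    Red A WA P 0 ↔ InE1 A P :=
  ⟨fun h => h.inE1_iff.mpr rfl, fun h => red_of_inE1 A WA h⟩

/-- The reduction relation is functional. -/
theorem Red.unique {P : (WA.map (algebraMap A K)).toAffine.Point}
    {R R' : (WA.map (residue A)).toAffine.Point} (h : Red A WA P R) (h' : Red A WA P R') :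
    R = R' := by
  rcases h with ⟨hP, rfl⟩ | ⟨a, b, h, hr, rfl, rfl⟩
  · exact (h'.inE1_iff.mp hP).symm
  · rcases h' with ⟨hP, rfl⟩ | ⟨a', b', h2, hr', e, rfl⟩
    · exact absurd hP (not_inE1_some A WA h)
    · simp only [Point.some.injEq] at e
      have ha : a = a' := Subtype.ext e.1
      have hb : b = b' := Subtype.ext e.2
      subst ha hb
      rfl

/-- A point outside the kernel of reduction which reduces to `R` has integral coordinates. -/
theorem Red.exists_lift {P : (WA.map (algebraMap A K)).toAffine.Point}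
    {R : (WA.map (residue A)).toAffine.Point} (h : Red A WA P R) (hP : ¬ InE1 A P) :
    ∃ (a b : A) (h : (WA.map (algebraMap A K)).toAffine.Nonsingular (a : K) (b : K))
      (h' : (WA.map (residue A)).toAffine.Nonsingular (residue A a) (residue A b)),
      P = Point.some _ _ h ∧ R = Point.some _ _ h' := by
  rcases h with ⟨hP', -⟩ | h
  · exact absurd hP' hP
  · exact h

theorem nonsingular_res_neg {a b : A}
    (h' : (WA.map (residue A)).toAffine.Nonsingular (residue A a) (residue A b)) :
    (WA.map (residue A)).toAffine.Nonsingular (residue A a)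
      (residue A (WA.toAffine.negY a b)) := by
  rw [← Affine.map_negY (residue A) a b]
  exact (Affine.nonsingular_neg ..).mpr h'

/-- Reduction commutes with negation. -/
theorem Red.neg {P : (WA.map (algebraMap A K)).toAffine.Point}
    {R : (WA.map (residue A)).toAffine.Point} (h : Red A WA P R) : Red A WA (-P) (-R) := by
  rcases h with ⟨hP, rfl⟩ | ⟨a, b, h, h', rfl, rfl⟩
  · exact red_of_inE1 A WA (inE1_neg A hP)
  · obtain ⟨hn, en⟩ := neg_some_coe A WA h
    refine Or.inr ⟨a, WA.toAffine.negY a b, hn, nonsingular_res_neg h', en, ?_⟩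
    rw [Point.neg_some]
    exact some_eq_some _ _ rfl (Affine.map_negY (residue A) a b)

variable [DecidableEq K] [DecidableEq (ResidueField A)]

/-- Sum of two integral points with distinct `x`-coordinates modulo the maximal ideal: the sum
is integral and its coordinates reduce to the chord formulas of the special fibre. -/
theorem add_of_res_ne {a₁ b₁ a₂ b₂ : A}
    (h₁ : (WA.map (algebraMap A K)).toAffine.Nonsingular (a₁ : K) (b₁ : K))
    (h₂ : (WA.map (algebraMap A K)).toAffine.Nonsingular (a₂ : K) (b₂ : K))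
    (hne : residue A a₁ ≠ residue A a₂) :
    ∃ (a₃ b₃ : A) (h₃ : (WA.map (algebraMap A K)).toAffine.Nonsingular (a₃ : K) (b₃ : K)),
      Point.some _ _ h₁ + Point.some _ _ h₂ = Point.some _ _ h₃ ∧
      residue A a₃ = (WA.map (residue A)).toAffine.addX (residue A a₁) (residue A a₂)
        ((WA.map (residue A)).toAffine.slope (residue A a₁) (residue A a₂) (residue A b₁)
          (residue A b₂)) ∧
      residue A b₃ = (WA.map (residue A)).toAffine.addY (residue A a₁) (residue A a₂)
        (residue A b₁)
        ((WA.map (residue A)).toAffine.slope (residue A a₁) (residue A a₂) (residue A b₁)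
          (residue A b₂)) := by
  have hu : IsUnit (a₁ - a₂) := by
    rw [← res_ne_zero_iff, map_sub]
    exact sub_ne_zero.mpr hne
  obtain ⟨u, hu⟩ := hu
  set L : A := (b₁ - b₂) * ↑u⁻¹ with hL
  have hxK : (a₁ : K) ≠ a₂ := by
    intro h
    exact hne (by rw [Subtype.ext h])
  have hLu : L * (a₁ - a₂) = b₁ - b₂ := by
    rw [hL, ← hu, mul_assoc, Units.inv_mul, mul_one]
  have hslopeK : (WA.map (algebraMap A K)).toAffine.slope (a₁ : K) a₂ b₁ b₂ = (L : K) := by
    rw [Affine.slope_of_X_ne hxK, div_eq_iff (sub_ne_zero.mpr hxK)]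
    have := congrArg (fun t : A => (t : K)) hLu
    simpa using this.symm
  have hslopek : (WA.map (residue A)).toAffine.slope (residue A a₁) (residue A a₂) (residue A b₁)
      (residue A b₂) = residue A L := by
    rw [Affine.slope_of_X_ne hne, div_eq_iff (sub_ne_zero.mpr hne), ← map_sub, ← map_sub,
      ← map_mul, hLu]
  obtain ⟨h₃, e₃⟩ := exists_some_eq (Affine.nonsingular_add h₁ h₂ fun hxy => hxK hxy.left)
    (x' := ((WA.toAffine.addX a₁ a₂ L : A) : K)) (y' := ((WA.toAffine.addY a₁ a₂ b₁ L : A) : K))
    (by rw [hslopeK]; exact (Affine.map_addX (algebraMap A K) a₁ a₂ L).symm)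
    (by rw [hslopeK]; exact (Affine.map_addY (algebraMap A K) a₁ b₁ a₂ L).symm)
  refine ⟨WA.toAffine.addX a₁ a₂ L, WA.toAffine.addY a₁ a₂ b₁ L, h₃, ?_, ?_, ?_⟩
  · rw [Point.add_of_X_ne hxK]
    exact e₃
  · rw [hslopek, Affine.map_addX]
  · rw [hslopek, Affine.map_addY]

/-- Sum of two integral points with nonsingular reductions of distinct `x`-coordinates. -/
theorem red_add_of_res_ne {a₁ b₁ a₂ b₂ : A}
    (h₁ : (WA.map (algebraMap A K)).toAffine.Nonsingular (a₁ : K) (b₁ : K))
    (h₂ : (WA.map (algebraMap A K)).toAffine.Nonsingular (a₂ : K) (b₂ : K))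
    (h₁' : (WA.map (residue A)).toAffine.Nonsingular (residue A a₁) (residue A b₁))
    (h₂' : (WA.map (residue A)).toAffine.Nonsingular (residue A a₂) (residue A b₂))
    (hne : residue A a₁ ≠ residue A a₂) :
    Red A WA (Point.some _ _ h₁ + Point.some _ _ h₂)
      (Point.some _ _ h₁' + Point.some _ _ h₂') := by
  obtain ⟨a₃, b₃, h₃, e, ex, ey⟩ := add_of_res_ne h₁ h₂ hne
  obtain ⟨h₃', e'⟩ := exists_some_eq (Affine.nonsingular_add h₁' h₂' fun hxy => hne hxy.left)
    ex ey
  refine Or.inr ⟨a₃, b₃, h₃, h₃', e, ?_⟩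
  rw [Point.add_of_X_ne hne]
  exact e'

/-- Doubling of an integral point whose reduction is not killed by the `y`-derivative: the
double is integral and its coordinates reduce to the tangent formulas of the special fibre. -/
theorem dbl_of_unit {a b : A}
    (h : (WA.map (algebraMap A K)).toAffine.Nonsingular (a : K) (b : K))
    (hD : residue A (2 * b + WA.a₁ * a + WA.a₃) ≠ 0) :
    ∃ (a₃ b₃ : A) (h₃ : (WA.map (algebraMap A K)).toAffine.Nonsingular (a₃ : K) (b₃ : K)),
      Point.some _ _ h + Point.some _ _ h = Point.some _ _ h₃ ∧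
      residue A a₃ = (WA.map (residue A)).toAffine.addX (residue A a) (residue A a)
        ((WA.map (residue A)).toAffine.slope (residue A a) (residue A a) (residue A b)
          (residue A b)) ∧
      residue A b₃ = (WA.map (residue A)).toAffine.addY (residue A a) (residue A a)
        (residue A b)
        ((WA.map (residue A)).toAffine.slope (residue A a) (residue A a) (residue A b)
          (residue A b)) := by
  obtain ⟨u, hu⟩ := (res_ne_zero_iff A _).mp hD
  set L : A := (3 * a ^ 2 + 2 * WA.a₂ * a + WA.a₄ - WA.a₁ * b) * ↑u⁻¹ with hL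
  have hLu : L * (2 * b + WA.a₁ * a + WA.a₃) =
      3 * a ^ 2 + 2 * WA.a₂ * a + WA.a₄ - WA.a₁ * b := by
    rw [hL, ← hu, mul_assoc, Units.inv_mul, mul_one]
  have hDK0 : ((2 * b + WA.a₁ * a + WA.a₃ : A) : K) ≠ 0 := by
    intro h0
    apply hD
    have : (2 * b + WA.a₁ * a + WA.a₃ : A) = 0 := Subtype.ext h0
    rw [this, map_zero]
  have hyK : (b : K) ≠ (WA.map (algebraMap A K)).toAffine.negY (a : K) b := by
    intro h0
    apply hDK0
    rw [← coe_sub_negY, ← h0, sub_self]
  have hyk : residue A b ≠ (WA.map (residue A)).toAffine.negY (residue A a) (residue A b) := by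
    intro h0
    apply hD
    rw [← res_sub_negY, ← h0, sub_self]
  have hslopeK : (WA.map (algebraMap A K)).toAffine.slope (a : K) a b b = (L : K) := by
    rw [Affine.slope_of_Y_ne rfl hyK, coe_sub_negY, div_eq_iff hDK0, coe_a₁, coe_a₂, coe_a₄]
    have e : (L : K) * ((2 * b + WA.a₁ * a + WA.a₃ : A) : K) =
        ((3 * a ^ 2 + 2 * WA.a₂ * a + WA.a₄ - WA.a₁ * b : A) : K) := by
      rw [← hLu]
      rfl
    rw [e]
    push_cast
    rw [coe_two, coe_three]
  have hslopek : (WA.map (residue A)).toAffine.slope (residue A a) (residue A a) (residue A b)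
      (residue A b) = residue A L := by
    rw [Affine.slope_of_Y_ne rfl hyk, res_sub_negY, div_eq_iff hD, ← map_mul, hLu]
    simp only [WeierstrassCurve.map_a₁, WeierstrassCurve.map_a₂, WeierstrassCurve.map_a₄, map_sub,
      map_add, map_mul, map_pow, map_ofNat]
  obtain ⟨h₃, e₃⟩ := exists_some_eq (Affine.nonsingular_add h h fun hxy => hyK hxy.right)
    (x' := ((WA.toAffine.addX a a L : A) : K)) (y' := ((WA.toAffine.addY a a b L : A) : K))
    (by rw [hslopeK]; exact (Affine.map_addX (algebraMap A K) a a L).symm)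
    (by rw [hslopeK]; exact (Affine.map_addY (algebraMap A K) a b a L).symm)
  refine ⟨WA.toAffine.addX a a L, WA.toAffine.addY a a b L, h₃, ?_, ?_, ?_⟩
  · rw [Point.add_self_of_Y_ne hyK]
    exact e₃
  · rw [hslopek, Affine.map_addX]
  · rw [hslopek, Affine.map_addY]

/-- Doubling of an integral point with nonsingular reduction which is not `2`-torsion. -/
theorem red_dbl_of_unit {a b : A}
    (h : (WA.map (algebraMap A K)).toAffine.Nonsingular (a : K) (b : K))
    (h' : (WA.map (residue A)).toAffine.Nonsingular (residue A a) (residue A b))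
    (hD : residue A (2 * b + WA.a₁ * a + WA.a₃) ≠ 0) :
    Red A WA (Point.some _ _ h + Point.some _ _ h) (Point.some _ _ h' + Point.some _ _ h') := by
  obtain ⟨a₃, b₃, h₃, e, ex, ey⟩ := dbl_of_unit h hD
  have hyk : residue A b ≠ (WA.map (residue A)).toAffine.negY (residue A a) (residue A b) := by
    intro h0
    apply hD
    rw [← res_sub_negY, ← h0, sub_self]
  obtain ⟨h₃', e'⟩ := exists_some_eq (Affine.nonsingular_add h' h' fun hxy => hyk hxy.right)
    ex ey
  refine Or.inr ⟨a₃, b₃, h₃, h₃', e, ?_⟩
  rw [Point.add_self_of_Y_ne hyk]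
  exact e'

omit [DecidableEq K] [DecidableEq (ResidueField A)] in
/-- At a nonsingular point of the special fibre the two partial derivatives do not vanish
simultaneously modulo the maximal ideal. -/
theorem res_ne_zero_or' {a b : A}
    (h' : (WA.map (residue A)).toAffine.Nonsingular (residue A a) (residue A b)) :
    residue A (2 * b + WA.a₁ * a + WA.a₃) ≠ 0 ∨
      residue A (3 * a ^ 2 + 2 * WA.a₂ * a + WA.a₄ - WA.a₁ * b) ≠ 0 := by
  rw [Affine.nonsingular_iff'] at h'
  rcases h'.2 with h1 | h1
  · right
    intro h0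
    apply h1
    have : residue A (3 * a ^ 2 + 2 * WA.a₂ * a + WA.a₄ - WA.a₁ * b) =
        -((WA.map (residue A)).a₁ * residue A b - (3 * residue A a ^ 2 +
          2 * (WA.map (residue A)).a₂ * residue A a + (WA.map (residue A)).a₄)) := by
      simp only [WeierstrassCurve.map_a₁, WeierstrassCurve.map_a₂, WeierstrassCurve.map_a₄,
        map_sub, map_add, map_mul, map_pow, map_ofNat]
      ring
    rw [this, neg_eq_zero] at h0
    exact h0
  · left
    intro h0
    apply h1
    rw [← h0]
    simp only [WeierstrassCurve.map_a₁, WeierstrassCurve.map_a₃, map_add, map_mul, map_ofNat]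

omit [DecidableEq K] [DecidableEq (ResidueField A)] in
/-- An integral solution of the Weierstrass equation with nonsingular reduction is a
nonsingular point of the generic fibre. -/
theorem nonsingular_of_res {a b : A}
    (heq : (WA.map (algebraMap A K)).toAffine.Equation (a : K) (b : K))
    (h' : (WA.map (residue A)).toAffine.Nonsingular (residue A a) (residue A b)) :
    (WA.map (algebraMap A K)).toAffine.Nonsingular (a : K) (b : K) := by
  rw [Affine.nonsingular_iff']
  refine ⟨heq, ?_⟩
  rcases res_ne_zero_or' h' with h | h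
  · right
    intro h0
    apply h
    have e : ((2 * b + WA.a₁ * a + WA.a₃ : A) : K) = 0 := by
      rw [← h0, coe_a₁, coe_a₃]
      push_cast
      rw [coe_two]
    have : (2 * b + WA.a₁ * a + WA.a₃ : A) = 0 := Subtype.ext e
    rw [this, map_zero]
  · left
    intro h0
    apply h
    have e : ((3 * a ^ 2 + 2 * WA.a₂ * a + WA.a₄ - WA.a₁ * b : A) : K) = 0 := by
      rw [coe_a₁, coe_a₂, coe_a₄] at h0
      push_cast
      rw [coe_two, coe_three]
      linear_combination -h0
    have : (3 * a ^ 2 + 2 * WA.a₂ * a + WA.a₄ - WA.a₁ * b : A) = 0 := Subtype.ext e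
    rw [this, map_zero]

omit [DecidableEq (ResidueField A)] in
/-- Doubling of an integral point whose (nonsingular) reduction is `2`-torsion lands in the
kernel of reduction. -/
theorem inE1_dbl_of_not_unit' {a b : A}
    (h : (WA.map (algebraMap A K)).toAffine.Nonsingular (a : K) (b : K))
    (h' : (WA.map (residue A)).toAffine.Nonsingular (residue A a) (residue A b))
    (hD : residue A (2 * b + WA.a₁ * a + WA.a₃) = 0) :
    InE1 A (Point.some _ _ h + Point.some _ _ h) := by
  by_cases hyK : (b : K) = (WA.map (algebraMap A K)).toAffine.negY (a : K) b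
  · rw [Point.add_self_of_Y_eq hyK]
    trivial
  · rw [Point.add_self_of_Y_ne hyK]
    show (WA.map (algebraMap A K)).toAffine.addX (a : K) a
      ((WA.map (algebraMap A K)).toAffine.slope (a : K) a b b) ∉ A
    have hnum : residue A (3 * a ^ 2 + 2 * WA.a₂ * a + WA.a₄ - WA.a₁ * b) ≠ 0 :=
      (res_ne_zero_or' h').resolve_left (not_not.mpr hD)
    have hden : ((2 * b + WA.a₁ * a + WA.a₃ : A) : K) ∈ A.nonunits :=
      (res_eq_zero_iff A _).mp hD
    have hden0 : ((2 * b + WA.a₁ * a + WA.a₃ : A) : K) ≠ 0 := by
      rw [← coe_sub_negY]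
      exact sub_ne_zero.mpr hyK
    have hslope : (WA.map (algebraMap A K)).toAffine.slope (a : K) a b b ∉ A := by
      rw [Affine.slope_of_Y_ne rfl hyK, coe_sub_negY]
      have hn : (3 * (a : K) ^ 2 + 2 * (WA.map (algebraMap A K)).a₂ * a +
          (WA.map (algebraMap A K)).a₄ - (WA.map (algebraMap A K)).a₁ * b) =
          ((3 * a ^ 2 + 2 * WA.a₂ * a + WA.a₄ - WA.a₁ * b : A) : K) := by
        rw [coe_a₁, coe_a₂, coe_a₄]
        push_cast
        rw [coe_two, coe_three]
      rw [hn]
      refine not_mem_of_div A ?_ hden hden0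
      intro hmem
      exact hnum ((res_eq_zero_iff A _).mpr hmem)
    have key := Reduction.sq_add_mul_sub_not_mem A (a := (WA.a₁ : K))
      (c := (WA.a₂ : K) + a + a) WA.a₁.2 (add_mem (add_mem WA.a₂.2 a.2) a.2) hslope
    simp only [Affine.addX, coe_a₁, coe_a₂]
    convert key using 2
    ring

omit [DecidableEq (ResidueField A)] in
/-- Two integral points with the same nonsingular reduction differ by an element of the kernel
of reduction. -/
theorem inE1_sub_of_res_eq' {a₁ b₁ a₂ b₂ : A}
    (h₁ : (WA.map (algebraMap A K)).toAffine.Nonsingular (a₁ : K) (b₁ : K))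
    (h₂ : (WA.map (algebraMap A K)).toAffine.Nonsingular (a₂ : K) (b₂ : K))
    (h₁' : (WA.map (residue A)).toAffine.Nonsingular (residue A a₁) (residue A b₁))
    (hx : residue A a₁ = residue A a₂) (hy : residue A b₁ = residue A b₂) :
    InE1 A (Point.some _ _ h₁ - Point.some _ _ h₂) := by
  refine F2_inE1 A (WA.map (algebraMap A K)) WA.a₁.2 WA.a₂.2 h₁ h₂ a₁.2
    ((res_eq_iff A _ _).mp hx) ((res_eq_iff A _ _).mp hy) ?_
  rw [coe_a₁, coe_a₂, coe_a₃, coe_a₄]
  rcases res_ne_zero_or' h₁' with h | h
  · left
    intro hmem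
    apply h
    rw [res_eq_zero_iff]
    exact hmem
  · right
    intro hmem
    apply h
    rw [res_eq_zero_iff]
    exact hmem

omit [DecidableEq K] [DecidableEq (ResidueField A)] in
theorem equation_res {a b : A}
    (h : (WA.map (algebraMap A K)).toAffine.Equation (a : K) (b : K)) :
    (WA.map (residue A)).toAffine.Equation (residue A a) (residue A b) :=
  (equation_of_coe A WA h).map (residue A)

/-- Adding an element of the kernel of reduction does not change the reduction. -/
theorem red_add_inE1 {P T : (WA.map (algebraMap A K)).toAffine.Point}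
    {R : (WA.map (residue A)).toAffine.Point} (hPR : Red A WA P R) (hP : ¬ InE1 A P)
    (hT : InE1 A T) : Red A WA (P + T) R := by
  have hR : ¬ InE1 A (P + T) := by
    intro hR
    apply hP
    have := inE1_sub' A WA hR hT
    rwa [add_sub_cancel_right] at this
  obtain ⟨a, b, h, h', rfl, rfl⟩ := hPR.exists_lift hP
  obtain ⟨a₃, b₃, h₃, e₃⟩ := Fermat.Agent.S41.Red.exists_lift A WA hR
  obtain ⟨hn, en⟩ := neg_some_coe A WA h
  have hn' := nonsingular_res_neg h'
  have hT' : Point.some _ _ h₃ + Point.some _ _ hn = T := by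
    rw [← e₃, ← en, ← sub_eq_add_neg, add_sub_cancel_left]
  rw [e₃]
  have same : residue A a₃ = residue A a → residue A b₃ = residue A b →
      Red A WA (Point.some _ _ h₃) (Point.some _ _ h') := by
    intro hx hy
    obtain ⟨h3', e⟩ := exists_some_eq h' hx hy
    exact Or.inr ⟨a₃, b₃, h₃, h3', rfl, e⟩
  by_cases hx : residue A a₃ = residue A a
  · rcases Affine.Y_eq_of_X_eq (equation_res h₃.1) h'.1 hx with hy | hy
    · exact same hx hy
    · by_cases hD : residue A (2 * b + WA.a₁ * a + WA.a₃) = 0
      · have hb : residue A b = (WA.map (residue A)).toAffine.negY (residue A a) (residue A b) := by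
          have := res_sub_negY A WA a b
          rwa [hD, sub_eq_zero] at this
        exact same hx (hy.trans hb.symm)
      · exfalso
        have hy' : residue A b₃ = residue A (WA.toAffine.negY a b) := by
          rw [hy]
          exact Affine.map_negY (residue A) a b
        have h1 : InE1 A (Point.some _ _ hn - Point.some _ _ h₃) :=
          inE1_sub_of_res_eq' hn h₃ hn' hx.symm hy'.symm
        have h2 : InE1 A (Point.some _ _ h₃ + Point.some _ _ hn) := hT' ▸ hT
        have h3 : InE1 A (Point.some _ _ h + Point.some _ _ h) := by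
          have e : Point.some _ _ h + Point.some _ _ h =
              -((Point.some _ _ hn - Point.some _ _ h₃) +
                (Point.some _ _ h₃ + Point.some _ _ hn)) := by
            rw [← en]
            abel
          rw [e]
          exact inE1_neg A (inE1_add' A WA h1 h2)
        obtain ⟨a₄, b₄, h₄, e₄, -, -⟩ := dbl_of_unit h hD
        rw [e₄] at h3
        exact h3 a₄.2
  · exfalso
    obtain ⟨a₄, b₄, h₄, e₄, -, -⟩ := add_of_res_ne h₃ hn hx
    rw [hT'] at e₄
    rw [e₄] at hT
    exact hT a₄.2

/-- **Reduction is additive** on points with nonsingular reduction. -/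
theorem Red.add {P Q : (WA.map (algebraMap A K)).toAffine.Point}
    {R R' : (WA.map (residue A)).toAffine.Point} (hPR : Red A WA P R) (hQR : Red A WA Q R') :
    Red A WA (P + Q) (R + R') := by
  by_cases hP : InE1 A P
  · have hR0 : R = 0 := hPR.inE1_iff.mp hP
    by_cases hQ : InE1 A Q
    · have hR0' : R' = 0 := hQR.inE1_iff.mp hQ
      rw [hR0, hR0', add_zero]
      exact red_of_inE1 A WA (inE1_add' A WA hP hQ)
    · rw [hR0, zero_add, add_comm P Q]
      exact red_add_inE1 hQR hQ hP
  · by_cases hQ : InE1 A Q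
    · have hR0' : R' = 0 := hQR.inE1_iff.mp hQ
      rw [hR0', add_zero]
      exact red_add_inE1 hPR hP hQ
    · obtain ⟨a₁, b₁, h₁, h₁', rfl, rfl⟩ := hPR.exists_lift hP
      obtain ⟨a₂, b₂, h₂, h₂', rfl, rfl⟩ := hQR.exists_lift hQ
      by_cases hx : residue A a₁ = residue A a₂
      · rcases Affine.Y_eq_of_X_eq h₁'.1 h₂'.1 hx with hy | hy
        · have hT : InE1 A (Point.some _ _ h₂ - Point.some _ _ h₁) :=
            inE1_sub_of_res_eq' h₂ h₁ h₂' hx.symm hy.symm
          have e : Point.some _ _ h₁ + Point.some _ _ h₂ =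
              (Point.some _ _ h₁ + Point.some _ _ h₁) +
                (Point.some _ _ h₂ - Point.some _ _ h₁) := by
            abel
          have e2 : Point.some _ _ h₂' = Point.some _ _ h₁' :=
            some_eq_some _ _ hx.symm hy.symm
          rw [e, e2]
          by_cases hD : residue A (2 * b₁ + WA.a₁ * a₁ + WA.a₃) = 0
          · have h2P := inE1_dbl_of_not_unit' h₁ h₁' hD
            have e0 : Point.some _ _ h₁' + Point.some _ _ h₁' = 0 := by
              apply Point.add_self_of_Y_eq
              have := res_sub_negY A WA a₁ b₁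
              rwa [hD, sub_eq_zero] at this
            rw [e0]
            exact red_of_inE1 A WA (inE1_add' A WA h2P hT)
          · have h2 := red_dbl_of_unit h₁ h₁' hD
            have h2P : ¬ InE1 A (Point.some _ _ h₁ + Point.some _ _ h₁) := by
              obtain ⟨a₄, b₄, h₄, e₄, -, -⟩ := dbl_of_unit h₁ hD
              rw [e₄]
              exact not_inE1_some A WA h₄
            exact red_add_inE1 h2 h2P hT
        · obtain ⟨hn, en⟩ := neg_some_coe A WA h₂
          have hy' : residue A b₁ = residue A (WA.toAffine.negY a₂ b₂) := by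
            rw [hy]
            exact Affine.map_negY (residue A) a₂ b₂
          have hT : InE1 A (Point.some _ _ h₁ - Point.some _ _ hn) :=
            inE1_sub_of_res_eq' h₁ hn h₁' hx hy'
          rw [← en, sub_neg_eq_add] at hT
          rw [Point.add_of_Y_eq hx hy]
          exact red_of_inE1 A WA hT
      · exact red_add_of_res_ne h₁ h₂ h₁' h₂' hx

theorem Red.sub {P Q : (WA.map (algebraMap A K)).toAffine.Point}
    {R R' : (WA.map (residue A)).toAffine.Point} (hPR : Red A WA P R) (hQR : Red A WA Q R') :
    Red A WA (P - Q) (R - R') := by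
  rw [sub_eq_add_neg, sub_eq_add_neg]
  exact hPR.add hQR.neg

theorem Red.nsmul {P : (WA.map (algebraMap A K)).toAffine.Point}
    {R : (WA.map (residue A)).toAffine.Point} (hPR : Red A WA P R) (n : ℕ) :
    Red A WA (n • P) (n • R) := by
  induction n with
  | zero =>
    rw [zero_nsmul, zero_nsmul]
    exact red_zero A WA
  | succ n ih =>
    rw [succ_nsmul, succ_nsmul]
    exact ih.add hPR

theorem Red.zsmul {P : (WA.map (algebraMap A K)).toAffine.Point}
    {R : (WA.map (residue A)).toAffine.Point} (hPR : Red A WA P R) (n : ℤ) :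
    Red A WA (n • P) (n • R) := by
  rcases n with n | n
  · rw [Int.ofNat_eq_natCast, natCast_zsmul, natCast_zsmul]
    exact hPR.nsmul n
  · rw [negSucc_zsmul, negSucc_zsmul]
    exact (hPR.nsmul (n + 1)).neg

omit [DecidableEq K] [DecidableEq (ResidueField A)] in
/-- The reduction only depends on the coordinates modulo the maximal ideal. -/
theorem Red.congr {x y x' y' : K} {h : (WA.map (algebraMap A K)).toAffine.Nonsingular x y}
    (h2 : (WA.map (algebraMap A K)).toAffine.Nonsingular x' y')
    (hx : x' ∈ A ↔ x ∈ A) (hx' : x ∈ A → x' - x ∈ A.nonunits)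
    (hy : x ∈ A → y ∈ A → y' ∈ A ∧ y' - y ∈ A.nonunits)
    {R : (WA.map (residue A)).toAffine.Point} (hR : Red A WA (Point.some x y h) R) :
    Red A WA (Point.some x' y' h2) R := by
  rcases hR with ⟨hP, rfl⟩ | ⟨a, b, h0, h', e, rfl⟩
  · exact red_of_inE1 A WA (fun hmem => hP (hx.mp hmem))
  · simp only [Point.some.injEq] at e
    obtain ⟨rfl, rfl⟩ := e
    have hxa := hx.mpr a.2
    obtain ⟨hyb, hyd⟩ := hy a.2 b.2
    have e1 : residue A (⟨x', hxa⟩ : A) = residue A a := (res_eq_iff A _ _).mpr (hx' a.2)
    have e2 : residue A (⟨y', hyb⟩ : A) = residue A b := (res_eq_iff A _ _).mpr hyd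
    obtain ⟨h'', e⟩ := exists_some_eq h' e1 e2
    exact Or.inr ⟨⟨x', hxa⟩, ⟨y', hyb⟩, h2, h'', rfl, e⟩

omit [DecidableEq K] [DecidableEq (ResidueField A)] in
/-- The reduction is invariant under an inertia-like endomorphism acting on coordinates. -/
theorem Red.map_inertiaLike {σ : K →+* K} (hσ : InertiaLike A σ) {x y : K}
    {h : (WA.map (algebraMap A K)).toAffine.Nonsingular x y}
    (h2 : (WA.map (algebraMap A K)).toAffine.Nonsingular (σ x) (σ y))
    {R : (WA.map (residue A)).toAffine.Point} (hR : Red A WA (Point.some x y h) R) :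
    Red A WA (Point.some (σ x) (σ y) h2) R :=
  hR.congr h2 (hσ.mem_iff x) (hσ.sub_mem x)
    (fun _ hy => ⟨(hσ.mem_iff y).mpr hy, hσ.sub_mem y hy⟩)

variable (A WA)

omit [DecidableEq K] [DecidableEq (ResidueField A)] in
/-- Over an algebraically closed field every nonsingular point of the special fibre lifts. -/
theorem exists_red [IsAlgClosed K] (R : (WA.map (residue A)).toAffine.Point) :
    ∃ P : (WA.map (algebraMap A K)).toAffine.Point, Red A WA P R := by
  rcases R with _ | ⟨x', y', h'⟩
  · exact ⟨0, red_zero A WA⟩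
  · obtain ⟨a, rfl⟩ := IsLocalRing.residue_surjective x'
    set c1 : K := (WA.a₁ : K) * a + WA.a₃ with hc1
    set c0 : K := -((a : K) ^ 3 + (WA.a₂ : K) * (a : K) ^ 2 + (WA.a₄ : K) * a + WA.a₆) with hc0
    have hdeg : (Polynomial.C (1 : K) * Polynomial.X ^ 2 + Polynomial.C c1 * Polynomial.X +
        Polynomial.C c0 : Polynomial K).degree ≠ 0 := by
      rw [Polynomial.degree_quadratic one_ne_zero]
      norm_num
    obtain ⟨y, hy⟩ := IsAlgClosed.exists_root _ hdeg
    simp only [Polynomial.IsRoot, Polynomial.eval_add, Polynomial.eval_pow, Polynomial.eval_X,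
      Polynomial.eval_mul, Polynomial.eval_C, one_mul] at hy
    have heq : (WA.map (algebraMap A K)).toAffine.Equation (a : K) y := by
      rw [Affine.equation_iff, coe_a₁, coe_a₂, coe_a₃, coe_a₄, coe_a₆]
      rw [hc1, hc0] at hy
      linear_combination hy
    have hyA : y ∈ A := y_mem A WA heq a.2
    have heqk : (WA.map (residue A)).toAffine.Equation (residue A a) (residue A ⟨y, hyA⟩) :=
      equation_res (a := a) (b := ⟨y, hyA⟩) heq
    rcases Affine.Y_eq_of_X_eq h'.1 heqk rfl with hy' | hy'
    · obtain ⟨hns', e⟩ := exists_some_eq h' rfl hy'.symm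
      have hns := nonsingular_of_res (a := a) (b := ⟨y, hyA⟩) heq hns'
      exact ⟨Point.some _ _ hns, Or.inr ⟨a, ⟨y, hyA⟩, hns, hns', rfl, e⟩⟩
    · have e0 : residue A (WA.toAffine.negY a ⟨y, hyA⟩) = y' := by
        rw [hy']
        exact (Affine.map_negY (residue A) a ⟨y, hyA⟩).symm
      obtain ⟨hns', e⟩ := exists_some_eq h' rfl e0
      have heq2 : (WA.map (algebraMap A K)).toAffine.Equation (a : K)
          ((WA.toAffine.negY a ⟨y, hyA⟩ : A) : K) := by
        rw [← coe_negY]
        exact (Affine.equation_neg ..).mpr heq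
      have hns := nonsingular_of_res heq2 hns'
      exact ⟨Point.some _ _ hns, Or.inr ⟨a, WA.toAffine.negY a ⟨y, hyA⟩, hns, hns', rfl, e⟩⟩

/-- The subgroup of points with nonsingular reduction (it contains the kernel of reduction). -/
def E0 : AddSubgroup (WA.map (algebraMap A K)).toAffine.Point where
  carrier := {P | ∃ R, Red A WA P R}
  zero_mem' := ⟨0, red_zero A WA⟩
  add_mem' := fun ⟨R, h⟩ ⟨R', h'⟩ => ⟨R + R', h.add h'⟩
  neg_mem' := fun ⟨R, h⟩ => ⟨-R, h.neg⟩

theorem mem_E0_iff {P : (WA.map (algebraMap A K)).toAffine.Point} :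
    P ∈ E0 A WA ↔ ∃ R, Red A WA P R := Iff.rfl

theorem mem_E0_of_inE1 {P : (WA.map (algebraMap A K)).toAffine.Point} (hP : InE1 A P) :
    P ∈ E0 A WA := ⟨0, red_of_inE1 A WA hP⟩

/-- The reduction homomorphism on the points with nonsingular reduction. -/
noncomputable def red0 : E0 A WA →+ (WA.map (residue A)).toAffine.Point where
  toFun P := Classical.choose P.2
  map_zero' := (Classical.choose_spec (0 : E0 A WA).2).unique (red_zero A WA)
  map_add' P Q := (Classical.choose_spec (P + Q).2).unique
    ((Classical.choose_spec P.2).add (Classical.choose_spec Q.2))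

theorem red0_spec (P : E0 A WA) : Red A WA (P : (WA.map (algebraMap A K)).toAffine.Point)
    (red0 A WA P) := Classical.choose_spec P.2

variable {A WA} in
theorem red0_eq_of_red {P : E0 A WA} {R : (WA.map (residue A)).toAffine.Point}
    (h : Red A WA (P : (WA.map (algebraMap A K)).toAffine.Point) R) : red0 A WA P = R :=
  (red0_spec A WA P).unique h

theorem red0_eq_zero_iff (P : E0 A WA) :
    red0 A WA P = 0 ↔ InE1 A (P : (WA.map (algebraMap A K)).toAffine.Point) :=
  (red0_spec A WA P).inE1_iff.symm

theorem red0_surjective [IsAlgClosed K] : Function.Surjective (red0 A WA) := by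
  intro R
  obtain ⟨P, h⟩ := exists_red A WA R
  exact ⟨⟨P, R, h⟩, red0_eq_of_red h⟩

end Curve

/-! ### Versions with the two curves given up to propositional equality -/

section Flex

variable {K : Type*} [Field K] (A : ValuationSubring K)
  {W : WeierstrassCurve K} {Wk : WeierstrassCurve (ResidueField A)}

/-- `P` reduces to the nonsingular point `R` of `Wk`; the kernel of reduction goes to `0`.
(The same relation as `Red`, for curves `W`, `Wk` which are only propositionally the generic and
the special fibre of an integral model.) -/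
def RedOf (P : W.toAffine.Point) (R : Wk.toAffine.Point) : Prop :=
  (InE1 A P ∧ R = 0) ∨
    ∃ (a b : A) (h : W.toAffine.Nonsingular (a : K) (b : K))
      (h' : Wk.toAffine.Nonsingular (residue A a) (residue A b)),
      P = Point.some _ _ h ∧ R = Point.some _ _ h'

theorem redOf_iff_red (WA : WeierstrassCurve A) (P : (WA.map (algebraMap A K)).toAffine.Point)
    (R : (WA.map (residue A)).toAffine.Point) : RedOf A P R ↔ Red A WA P R := Iff.rfl

theorem redOf_of_inE1 {P : W.toAffine.Point} (hP : InE1 A P) :
    RedOf A (Wk := Wk) P 0 := Or.inl ⟨hP, rfl⟩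

theorem redOf_zero : RedOf A (W := W) (Wk := Wk) 0 0 := redOf_of_inE1 A trivial

variable {A}

theorem RedOf.inE1_iff {P : W.toAffine.Point} {R : Wk.toAffine.Point} (h : RedOf A P R) :
    InE1 A P ↔ R = 0 := by
  rcases h with ⟨hP, rfl⟩ | ⟨a, b, h, h', rfl, rfl⟩
  · exact ⟨fun _ => rfl, fun _ => hP⟩
  · exact ⟨fun h0 => absurd a.2 h0, fun h0 => absurd h0 (Point.some_ne_zero _)⟩

theorem redOf_zero_right_iff {P : W.toAffine.Point} :
    RedOf A (Wk := Wk) P 0 ↔ InE1 A P :=
  ⟨fun h => h.inE1_iff.mpr rfl, fun h => redOf_of_inE1 A h⟩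

theorem RedOf.unique {P : W.toAffine.Point} {R R' : Wk.toAffine.Point} (h : RedOf A P R)
    (h' : RedOf A P R') : R = R' := by
  rcases h with ⟨hP, rfl⟩ | ⟨a, b, h, hr, rfl, rfl⟩
  · exact (h'.inE1_iff.mp hP).symm
  · rcases h' with ⟨hP, rfl⟩ | ⟨a', b', h2, hr', e, rfl⟩
    · exact absurd a.2 hP
    · simp only [Point.some.injEq] at e
      have ha : a = a' := Subtype.ext e.1
      have hb : b = b' := Subtype.ext e.2
      subst ha hb
      rfl

theorem RedOf.congr {x y x' y' : K} {h : W.toAffine.Nonsingular x y}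
    (h2 : W.toAffine.Nonsingular x' y')
    (hx : x' ∈ A ↔ x ∈ A) (hx' : x ∈ A → x' - x ∈ A.nonunits)
    (hy : x ∈ A → y ∈ A → y' ∈ A ∧ y' - y ∈ A.nonunits)
    {R : Wk.toAffine.Point} (hR : RedOf A (Point.some x y h) R) :
    RedOf A (Point.some x' y' h2) R := by
  rcases hR with ⟨hP, rfl⟩ | ⟨a, b, h0, h', e, rfl⟩
  · exact redOf_of_inE1 A (fun hmem => hP (hx.mp hmem))
  · simp only [Point.some.injEq] at e
    obtain ⟨rfl, rfl⟩ := e
    have hxa := hx.mpr a.2
    obtain ⟨hyb, hyd⟩ := hy a.2 b.2
    have e1 : residue A (⟨x', hxa⟩ : A) = residue A a := (res_eq_iff A _ _).mpr (hx' a.2)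
    have e2 : residue A (⟨y', hyb⟩ : A) = residue A b := (res_eq_iff A _ _).mpr hyd
    obtain ⟨h'', e⟩ := exists_some_eq h' e1 e2
    exact Or.inr ⟨⟨x', hxa⟩, ⟨y', hyb⟩, h2, h'', rfl, e⟩

/-- The reduction is invariant under an inertia-like endomorphism acting on coordinates. -/
theorem RedOf.map_inertiaLike {σ : K →+* K} (hσ : InertiaLike A σ) {x y : K}
    {h : W.toAffine.Nonsingular x y} (h2 : W.toAffine.Nonsingular (σ x) (σ y))
    {R : Wk.toAffine.Point} (hR : RedOf A (Point.some x y h) R) :
    RedOf A (Point.some (σ x) (σ y) h2) R :=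
  hR.congr h2 (hσ.mem_iff x) (hσ.sub_mem x)
    (fun _ hy => ⟨(hσ.mem_iff y).mpr hy, hσ.sub_mem y hy⟩)

theorem RedOf.neg (WA : WeierstrassCurve A) (hW : WA.map (algebraMap A K) = W)
    (hWk : WA.map (residue A) = Wk) {P : W.toAffine.Point} {R : Wk.toAffine.Point}
    (h : RedOf A P R) : RedOf A (-P) (-R) := by
  subst hW hWk
  exact Red.neg h

variable [DecidableEq K] [DecidableEq (ResidueField A)]

theorem RedOf.add (WA : WeierstrassCurve A) (hW : WA.map (algebraMap A K) = W)
    (hWk : WA.map (residue A) = Wk) {P Q : W.toAffine.Point} {R R' : Wk.toAffine.Point}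
    (h : RedOf A P R) (h' : RedOf A Q R') : RedOf A (P + Q) (R + R') := by
  subst hW hWk
  exact Red.add h h'

theorem RedOf.sub (WA : WeierstrassCurve A) (hW : WA.map (algebraMap A K) = W)
    (hWk : WA.map (residue A) = Wk) {P Q : W.toAffine.Point} {R R' : Wk.toAffine.Point}
    (h : RedOf A P R) (h' : RedOf A Q R') : RedOf A (P - Q) (R - R') := by
  subst hW hWk
  exact Red.sub h h'

theorem RedOf.nsmul (WA : WeierstrassCurve A) (hW : WA.map (algebraMap A K) = W)
    (hWk : WA.map (residue A) = Wk) {P : W.toAffine.Point} {R : Wk.toAffine.Point}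
    (h : RedOf A P R) (n : ℕ) : RedOf A (n • P) (n • R) := by
  subst hW hWk
  exact Red.nsmul h n

theorem RedOf.zsmul (WA : WeierstrassCurve A) (hW : WA.map (algebraMap A K) = W)
    (hWk : WA.map (residue A) = Wk) {P : W.toAffine.Point} {R : Wk.toAffine.Point}
    (h : RedOf A P R) (n : ℤ) : RedOf A (n • P) (n • R) := by
  subst hW hWk
  exact Red.zsmul h n

omit [DecidableEq K] [DecidableEq (ResidueField A)] in
theorem exists_redOf [IsAlgClosed K] (WA : WeierstrassCurve A)
    (hW : WA.map (algebraMap A K) = W) (hWk : WA.map (residue A) = Wk)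
    (R : Wk.toAffine.Point) : ∃ P : W.toAffine.Point, RedOf A P R := by
  subst hW hWk
  exact exists_red A WA R

end Flex

end Fermat.Agent.S58.Red0
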