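/-
S58 — FixMult.lean (helper52; block lead [E0U]/[FIXMULT]).

**(FIX-M)**: for an integral Weierstrass model `W` over `ℤ`, a prime `q` of multiplicative
reduction (`q ∣ Δ`, `q ∤ c₄`), a valuation subring `A` of `ℚ̄` over `q` and `m > 0` prime to `q`,
there is a point of exact order `m` of `W(ℚ̄)` fixed by the whole inertia group of `A`.

Route: the special fibre `W̃ = W mod 𝔪_A` is a nodal cubic over the algebraically closed residue
field `k` of `A` (`NodeEx.exists_node_field`), so it has a nonsingular point `P̄` of exact order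
`m` (`NodeGm.exists_addOrderOf_eq`); lift it along the reduction relation `Red0.RedOf`
(`exists_redOf`), correct the lift by an element of the kernel of reduction `E₁`
(`E1Div.inE1_divisible`) to get `P` of exact order `m` reducing to `P̄`; an inertia-like `σ` does
not change the reduction (`RedOf.map_inertiaLike`), so `σ P - P ∈ E₁` is killed by `m`, hence is
`0` (`S05.F1_inE1`).

* `exists_order_res`     : a point of exact order `m` on the special fibre;
* `exists_fixed_coord`   : the point `P` on `W.map (Int.castRingHom ℚ̄)`, coordinates fixed by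
                           every inertia-like endomorphism;
* `exists_fixed_conj`    : the same with `S41.Local.conjHom`;
* `exists_fixed_of_mult` : **(FIX-M)** for the point type `((W.map (Int.castRingHom ℚ))⁄ℚ̄).Point`
                           of the frozen statements and the Galois action of the Prelude;
* `FixAt`, `transport`   : (FIX-M) is invariant under variable changes over `ℤ`.
-/
import Mathlib
import Fermat.Agent.S05.Inertia
import Fermat.Agent.S05.FormalGroup
import Fermat.Agent.S18.BaseRes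
import Fermat.Agent.S41.LocalCore
import Fermat.Agent.S41.VCGal
import Fermat.Agent.S58.Red0
import Fermat.Agent.S58.E1Div
import Fermat.Agent.S58.NodeEx
import Fermat.Agent.S58.NodeGm

set_option autoImplicit false

namespace Fermat.Agent.S58.FixMult

open WeierstrassCurve WeierstrassCurve.Affine IsLocalRing
open Fermat.Agent Fermat.Agent.S05

local notation "Qbar" => AlgebraicClosure ℚ
local notation "GQ" => (AlgebraicClosure ℚ ≃ₐ[ℚ] AlgebraicClosure ℚ)

section Mult

variable (W : WeierstrassCurve ℤ) {q : ℕ} (hq : q.Prime) (hΔ0 : W.Δ ≠ 0)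
  (hΔ : (q : ℤ) ∣ W.Δ) (hc₄ : ¬ (q : ℤ) ∣ W.c₄)
  (A : ValuationSubring Qbar) (hA : A.LiesOverPrime q)

include hA in
/-- The residue of an integer divisible by `q` vanishes. -/
theorem intCast_res_eq_zero {z : ℤ} (hz : (q : ℤ) ∣ z) : ((z : ℤ) : ResidueField A) = 0 := by
  have h1 : ((z : ℤ) : Qbar) ∈ A.nonunits := S05.intCast_mem_nonunits A hA hz
  have h2 : residue A ((z : ℤ) : A) = 0 := by
    rw [S41.Red.res_eq_zero_iff]
    simpa using h1
  simpa using h2

include hq hA in
/-- The residue of an integer prime to `q` does not vanish. -/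
theorem intCast_res_ne_zero {z : ℤ} (hz : ¬ (q : ℤ) ∣ z) : ((z : ℤ) : ResidueField A) ≠ 0 := by
  have h1 : A.valuation ((z : ℤ) : Qbar) = 1 := S05.valuation_intCast_eq_one A hq hA hz
  have h2 : residue A ((z : ℤ) : A) ≠ 0 := by
    rw [S41.Red.res_ne_zero_iff, ValuationSubring.valuation_eq_one_iff]
    simpa using h1
  simpa using h2

include hq hΔ hc₄ hA in
/-- **A point of exact order `m` on the special fibre** (a nodal cubic over the algebraically
closed residue field). -/
theorem exists_order_res [DecidableEq (ResidueField A)] {m : ℕ} (hqm : ¬ q ∣ m) :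
    ∃ P : (W.map (Int.castRingHom (ResidueField A))).toAffine.Point, addOrderOf P = m := by
  have : IsAlgClosed (ResidueField A) := S18.BaseRes.isAlgClosed_residueField A
  have hΔk : (W.map (Int.castRingHom (ResidueField A))).Δ = 0 := by
    rw [WeierstrassCurve.map_Δ]
    simpa using intCast_res_eq_zero A hA hΔ
  have hck : (W.map (Int.castRingHom (ResidueField A))).c₄ ≠ 0 := by
    rw [WeierstrassCurve.map_c₄]
    simpa using intCast_res_ne_zero hq A hA hc₄
  have hmk : ((m : ℕ) : ResidueField A) ≠ 0 := by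
    have hz : ¬ (q : ℤ) ∣ ((m : ℕ) : ℤ) := fun h => hqm (Int.natCast_dvd_natCast.mp h)
    simpa using intCast_res_ne_zero hq A hA hz
  obtain ⟨x₀, y₀, heq, hY, hX, hb⟩ := NodeEx.exists_node_field _ hΔk hck
  exact NodeGm.exists_addOrderOf_eq _ x₀ y₀ heq hY hX hb m hmk

include hq hΔ0 hΔ hc₄ hA in
/-- **(FIX-M), coordinate form**: a point of exact order `m` of `W(ℚ̄)` whose coordinates are
fixed by every inertia-like endomorphism. -/
theorem exists_fixed_coord {m : ℕ} (hm : 0 < m) (hqm : ¬ q ∣ m) :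
    ∃ P : (W.map (Int.castRingHom Qbar)).toAffine.Point, addOrderOf P = m ∧
      ∀ σ : Qbar →+* Qbar, InertiaLike A σ →
        ∀ {x y : Qbar} (h : (W.map (Int.castRingHom Qbar)).toAffine.Nonsingular x y),
          P = Point.some x y h → σ x = x ∧ σ y = y := by
  classical
  set WA : WeierstrassCurve A := W.map (Int.castRingHom A) with hWA
  have hWK : WA.map (algebraMap A Qbar) = W.map (Int.castRingHom Qbar) :=
    S41.Local.map_int_comp W _
  have hWk : WA.map (residue A) = W.map (Int.castRingHom (ResidueField A)) :=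
    S41.Local.map_int_comp W _
  have hmA : A.valuation ((m : ℕ) : Qbar) = 1 := S05.valuation_natCast_eq_one A hq hA hqm
  have hΔK : (W.map (Int.castRingHom Qbar)).Δ ≠ 0 := by
    rw [WeierstrassCurve.map_Δ]
    simpa using hΔ0
  have : (W.map (Int.castRingHom Qbar)).IsElliptic := ⟨isUnit_iff_ne_zero.mpr hΔK⟩
  -- a point of exact order `m` on the special fibre and a lift
  obtain ⟨Pb, hPb⟩ := exists_order_res W hq hΔ hc₄ A hA hqm
  obtain ⟨P₀, hP₀⟩ := Red0.exists_redOf (A := A) WA hWK hWk Pb
  have hmPb : m • Pb = 0 := by rw [← hPb]; exact addOrderOf_nsmul_eq_zero Pb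
  have h1 : Red0.RedOf A (m • P₀) (0 : (W.map (Int.castRingHom (ResidueField A))).toAffine.Point) := by
    have := hP₀.nsmul WA hWK hWk m
    rwa [hmPb] at this
  have hE1 : InE1 A (m • P₀) := Red0.redOf_zero_right_iff.mp h1
  -- correct the lift by an element of the kernel of reduction
  obtain ⟨Q, hQ, hmQ⟩ := E1Div.inE1_divisible A (W.map (Int.castRingHom Qbar)) m hm hmA
    (m • P₀) hE1
  have hPred : Red0.RedOf A (P₀ - Q) Pb := by
    have := hP₀.sub WA hWK hWk (Red0.redOf_of_inE1 A (Wk := W.map (Int.castRingHom (ResidueField A))) hQ)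
    rwa [sub_zero] at this
  have hmP : m • (P₀ - Q) = 0 := by rw [smul_sub, hmQ, sub_self]
  refine ⟨P₀ - Q, ?_, ?_⟩
  · -- exact order
    refine Nat.dvd_antisymm (addOrderOf_dvd_of_nsmul_eq_zero hmP) ?_
    rw [← hPb]
    apply addOrderOf_dvd_of_nsmul_eq_zero
    have h2 := hPred.nsmul WA hWK hWk (addOrderOf (P₀ - Q))
    rw [addOrderOf_nsmul_eq_zero] at h2
    exact (h2.unique (Red0.redOf_zero A)).symm ▸ rfl
  · -- inertia
    intro σ hσ x y h hP
    obtain ⟨hc, ec⟩ := S41.Local.conjHom_some W σ h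
    have hP' : m • Point.some x y h = 0 := by rw [← hP]; exact hmP
    have hcm : m • Point.some (σ x) (σ y) hc = 0 := by
      rw [← ec, ← map_nsmul, hP', map_zero]
    have hred : Red0.RedOf A (Point.some x y h) Pb := hP ▸ hPred
    have hredσ : Red0.RedOf A (Point.some (σ x) (σ y) hc) Pb :=
      Red0.RedOf.map_inertiaLike hσ hc hred
    have hD : InE1 A (Point.some (σ x) (σ y) hc - Point.some x y h) := by
      have := hredσ.sub WA hWK hWk hred
      rw [sub_self] at this
      exact Red0.redOf_zero_right_iff.mp this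
    have hDm : m • (Point.some (σ x) (σ y) hc - Point.some x y h) = 0 := by
      rw [smul_sub, hcm, hP', sub_self]
    have hD0 := F1_inE1 A (W.map (Int.castRingHom Qbar)) (S41.Local.intCast_mem' A _)
      (S41.Local.intCast_mem' A _) (S41.Local.intCast_mem' A _) (S41.Local.intCast_mem' A _)
      (S41.Local.intCast_mem' A _) hmA hD hDm
    have hfix := sub_eq_zero.mp hD0
    simp only [Point.some.injEq] at hfix
    exact hfix

include hq hΔ0 hΔ hc₄ hA in
/-- **(FIX-M)** with `S41.Local.conjHom`. -/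
theorem exists_fixed_conj {m : ℕ} (hm : 0 < m) (hqm : ¬ q ∣ m) :
    ∃ P : (W.map (Int.castRingHom Qbar)).toAffine.Point, addOrderOf P = m ∧
      ∀ τ : GQ, τ ∈ A.inertiaSubgroupIn ℚ →
        S41.Local.conjHom W (τ : Qbar →+* Qbar) P = P := by
  obtain ⟨P, hP, hfix⟩ := exists_fixed_coord W hq hΔ0 hΔ hc₄ A hA hm hqm
  refine ⟨P, hP, fun τ hτ => ?_⟩
  rcases P with _ | ⟨x, y, h⟩
  · exact map_zero _
  · obtain ⟨hc, ec⟩ := S41.Local.conjHom_some W (τ : Qbar →+* Qbar) h
    obtain ⟨hx, hy⟩ := hfix (τ : Qbar →+* Qbar) (S05.inertiaLike_of_mem A τ hτ) h rfl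
    rw [ec]
    exact S41.Red.some_eq_some _ _ hx hy

include hq hΔ0 hΔ hc₄ hA in
/-- (FIX-M), coordinate form, for any curve over `ℚ̄` equal to the base change of `W`. -/
theorem exists_fixed_coord_of_eq (WK : WeierstrassCurve Qbar)
    (hWK : WK = W.map (Int.castRingHom Qbar)) {m : ℕ} (hm : 0 < m) (hqm : ¬ q ∣ m) :
    ∃ P : WK.toAffine.Point, addOrderOf P = m ∧
      ∀ τ : GQ, τ ∈ A.inertiaSubgroupIn ℚ →
        ∀ {x y : Qbar} (h : WK.toAffine.Nonsingular x y), P = Point.some x y h →
          τ x = x ∧ τ y = y := by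
  subst hWK
  obtain ⟨P, hP, hfix⟩ := exists_fixed_coord W hq hΔ0 hΔ hc₄ A hA hm hqm
  exact ⟨P, hP, fun τ hτ x y h hPe =>
    hfix (τ : Qbar →+* Qbar) (S05.inertiaLike_of_mem A τ hτ) h hPe⟩

include hq hΔ0 hΔ hc₄ hA in
/-- **(FIX-M)**: at a prime `q` of multiplicative reduction, the inertia group of a place `A`
over `q` fixes a point of exact order `m` of `W(ℚ̄)`, for every `m > 0` prime to `q`. -/
theorem exists_fixed_of_mult {m : ℕ} (hm : 0 < m) (hqm : ¬ q ∣ m) :
    ∃ P : ((W.map (Int.castRingHom ℚ))⁄Qbar).Point, addOrderOf P = m ∧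
      ∀ σ : Qbar ≃ₐ[ℚ] Qbar, σ ∈ A.inertiaSubgroupIn ℚ → σ • P = P := by
  obtain ⟨P, hP, hfix⟩ := exists_fixed_coord_of_eq W hq hΔ0 hΔ hc₄ A hA
    ((W.map (Int.castRingHom ℚ))⁄Qbar) (S41.Local.map_int_comp W (algebraMap ℚ Qbar)) hm hqm
  refine ⟨P, hP, fun σ hσ => ?_⟩
  rcases P with _ | ⟨x, y, h⟩
  · rfl
  · obtain ⟨hx, hy⟩ := hfix σ hσ h rfl
    rw [Point.algEquiv_smul_def, Point.map_some]
    exact S41.Red.some_eq_some _ _ hx hy

end Mult

/-! ### Invariance under variable changes over `ℤ` -/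

/-- The statement (FIX-M) for one model, one place and one order. -/
def FixAt (W : WeierstrassCurve ℤ) (A : ValuationSubring Qbar) (m : ℕ) : Prop :=
  ∃ P : ((W.map (Int.castRingHom ℚ))⁄Qbar).Point, addOrderOf P = m ∧
    ∀ σ : Qbar ≃ₐ[ℚ] Qbar, σ ∈ A.inertiaSubgroupIn ℚ → σ • P = P

/-- **Transport along a variable change over `ℤ`**: (FIX-M) for `C • W` gives (FIX-M) for `W`. -/
theorem transport (W : WeierstrassCurve ℤ) (C : VariableChange ℤ) (A : ValuationSubring Qbar)
    (m : ℕ) (h : FixAt (C • W) A m) : FixAt W A m := by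
  classical
  obtain ⟨P', hP', hfix⟩ := h
  have hC : C.map (Int.castRingHom ℚ) • W.map (Int.castRingHom ℚ) =
      (C • W).map (Int.castRingHom ℚ) := map_variableChange W C (Int.castRingHom ℚ)
  refine ⟨Fermat.Agent.S41.VC.vcEquivBC (K := Qbar) (W.map (Int.castRingHom ℚ))
    ((C • W).map (Int.castRingHom ℚ)) (C.map (Int.castRingHom ℚ)) hC P', ?_, ?_⟩
  · rw [AddEquiv.addOrderOf_eq, hP']
  · intro σ hσ
    rw [← Fermat.Agent.S41.VC.vcEquivBC_smul, hfix σ hσ]

end Fermat.Agent.S58.FixMult
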