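/-
S58 — FixSS.lean (helper93; deal of the [E0U]/[FIXMULT] block lead helper52).

(ii) **The point-type bridge.**  `bridge W : (W.map (Int.castRingHom ℚ̄)).toAffine.Point ≃+
Plan.Pt W` (`Plan.Pt W = ((W.map (Int.castRingHom ℚ))⁄ℚ̄).Point`, the point type of the frozen
statements), intertwining `S41.Local.conjHom W σ` with the Galois action `σ • ·` of the Prelude
and preserving orders; with it, the (FIX) statement passes from the `conjHom` form (resp. the
coordinate form) on `(W.map (Int.castRingHom ℚ̄)).toAffine.Point` to the Prelude form on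
`Plan.Pt W`: `fixAt_of_conjHom`, `fixAt_of_coord`.

(i) **(FIX) at a prime of semistable reduction**, good ∪ multiplicative in one theorem:
`exists_fixed_semistable` from the multiplicative statement `FixMultAll` (the shape of
`exists_fixed_of_mult` of the [FIXMULT] block) and `GoodFix.exists_fixed_of_good`;
`fixMult_of_all : FixMultAll → Plan.FixMultStatement`; `fixSS_of_plan` (the same from the Plan
Prop `Plan.FixMultStatement`).
-/
import Mathlib
import Fermat.Agent.S58.Plan
import Fermat.Agent.S58.GoodFix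

set_option autoImplicit false

namespace Fermat.Agent.S58.FixSS

open WeierstrassCurve WeierstrassCurve.Affine
open Fermat.Agent Fermat.Agent.S58

local notation "Qbar" => AlgebraicClosure ℚ
local notation "GQ" => (AlgebraicClosure ℚ ≃ₐ[ℚ] AlgebraicClosure ℚ)

/-! ### (ii) The point-type bridge -/

section Bridge

variable (W : WeierstrassCurve ℤ)

/-- The two descriptions of the generic fibre over `ℚ̄` of an integral model agree. -/
theorem map_rat : ((W.map (Int.castRingHom ℚ))⁄Qbar) = W.map (Int.castRingHom Qbar) :=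
  S41.Local.map_int_comp W (algebraMap ℚ Qbar)

/-- **The bridge** between the point type of `S41.Local` and the point type of the frozen
statements. -/
noncomputable def bridge : (W.map (Int.castRingHom Qbar)).toAffine.Point ≃+ Plan.Pt W :=
  S13.pointCongr (map_rat W).symm

theorem bridge_zero : bridge W 0 = 0 := map_zero _

theorem bridge_some {x y : Qbar} (h : (W.map (Int.castRingHom Qbar)).toAffine.Nonsingular x y) :
    ∃ h' : ((W.map (Int.castRingHom ℚ))⁄Qbar).toAffine.Nonsingular x y,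
      bridge W (Point.some x y h) = Point.some x y h' :=
  ⟨_, S13.pointCongr_some (map_rat W).symm h⟩

theorem bridge_symm_some {x y : Qbar}
    (h : ((W.map (Int.castRingHom ℚ))⁄Qbar).toAffine.Nonsingular x y) :
    ∃ h' : (W.map (Int.castRingHom Qbar)).toAffine.Nonsingular x y,
      (bridge W).symm (Point.some x y h) = Point.some x y h' := by
  refine ⟨(map_rat W) ▸ h, ?_⟩
  apply (bridge W).injective
  rw [AddEquiv.apply_symm_apply]
  obtain ⟨h'', e⟩ := bridge_some W ((map_rat W) ▸ h)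
  rw [e]

/-- The bridge preserves orders. -/
theorem addOrderOf_bridge (P : (W.map (Int.castRingHom Qbar)).toAffine.Point) :
    addOrderOf (bridge W P) = addOrderOf P :=
  (bridge W).addOrderOf_eq P

/-- The bridge intertwines `S41.Local.conjHom` with the Galois action of the Prelude. -/
theorem bridge_conjHom (σ : GQ) (P : (W.map (Int.castRingHom Qbar)).toAffine.Point) :
    bridge W (S41.Local.conjHom W (σ : Qbar →+* Qbar) P) = σ • bridge W P := by
  rcases P with _ | ⟨x, y, h⟩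
  · have h0 : (Point.zero : (W.map (Int.castRingHom Qbar)).toAffine.Point) = 0 := rfl
    rw [h0, map_zero, bridge_zero]
    rfl
  · obtain ⟨hc, ec⟩ := S41.Local.conjHom_some W (σ : Qbar →+* Qbar) h
    obtain ⟨h1, e1⟩ := bridge_some W hc
    obtain ⟨h2, e2⟩ := bridge_some W h
    rw [ec, e1, e2, Point.algEquiv_smul_def, Point.map_some]
    rfl

/-- The action on `Plan.Pt W` in coordinates. -/
theorem smul_some (σ : GQ) {x y : Qbar}
    (h : ((W.map (Int.castRingHom ℚ))⁄Qbar).toAffine.Nonsingular x y) :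
    ∃ h' : ((W.map (Int.castRingHom ℚ))⁄Qbar).toAffine.Nonsingular (σ x) (σ y),
      σ • (Point.some x y h : Plan.Pt W) = Point.some (σ x) (σ y) h' :=
  ⟨_, rfl⟩

/-- A point with `σ`-fixed coordinates is `σ`-fixed. -/
theorem smul_eq_of_coord (σ : GQ) {x y : Qbar}
    (h : ((W.map (Int.castRingHom ℚ))⁄Qbar).toAffine.Nonsingular x y) (hx : σ x = x)
    (hy : σ y = y) : σ • (Point.some x y h : Plan.Pt W) = Point.some x y h := by
  obtain ⟨h', e⟩ := smul_some W σ h
  rw [e]
  exact S41.Red.some_eq_some _ _ hx hy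

variable (A : ValuationSubring Qbar)

/-- **(ii) Bridge, `conjHom` form → Prelude form.** -/
theorem fixAt_of_conjHom {m : ℕ}
    (h : ∃ P : (W.map (Int.castRingHom Qbar)).toAffine.Point, addOrderOf P = m ∧
      ∀ σ : GQ, σ ∈ A.inertiaSubgroupIn ℚ → S41.Local.conjHom W (σ : Qbar →+* Qbar) P = P) :
    ∃ P : ((W.map (Int.castRingHom ℚ))⁄Qbar).Point, addOrderOf P = m ∧
      ∀ σ : GQ, σ ∈ A.inertiaSubgroupIn ℚ → σ • P = P := by
  obtain ⟨P, hP, hfix⟩ := h
  exact ⟨bridge W P, by rw [addOrderOf_bridge, hP], fun σ hσ => by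
    rw [← bridge_conjHom, hfix σ hσ]⟩

/-- **(ii) Bridge, Prelude form → `conjHom` form.** -/
theorem conjHom_of_fixAt {m : ℕ}
    (h : ∃ P : ((W.map (Int.castRingHom ℚ))⁄Qbar).Point, addOrderOf P = m ∧
      ∀ σ : GQ, σ ∈ A.inertiaSubgroupIn ℚ → σ • P = P) :
    ∃ P : (W.map (Int.castRingHom Qbar)).toAffine.Point, addOrderOf P = m ∧
      ∀ σ : GQ, σ ∈ A.inertiaSubgroupIn ℚ → S41.Local.conjHom W (σ : Qbar →+* Qbar) P = P := by
  obtain ⟨P, hP, hfix⟩ := h
  refine ⟨(bridge W).symm P, ?_, fun σ hσ => ?_⟩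
  · rw [← addOrderOf_bridge, AddEquiv.apply_symm_apply, hP]
  · apply (bridge W).injective
    rw [bridge_conjHom, AddEquiv.apply_symm_apply, hfix σ hσ]

/-- **(ii) Bridge, coordinate form → Prelude form**: an affine point of exact order `m` of
`W.map (Int.castRingHom ℚ̄)` whose coordinates are fixed by the inertia group. -/
theorem fixAt_of_coord {m : ℕ}
    (h : ∃ (x y : Qbar) (hxy : (W.map (Int.castRingHom Qbar)).toAffine.Nonsingular x y),
      addOrderOf (Point.some x y hxy) = m ∧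
      ∀ σ : GQ, σ ∈ A.inertiaSubgroupIn ℚ → σ x = x ∧ σ y = y) :
    ∃ P : ((W.map (Int.castRingHom ℚ))⁄Qbar).Point, addOrderOf P = m ∧
      ∀ σ : GQ, σ ∈ A.inertiaSubgroupIn ℚ → σ • P = P := by
  obtain ⟨x, y, hxy, hP, hfix⟩ := h
  obtain ⟨h', e⟩ := bridge_some W hxy
  refine ⟨bridge W (Point.some x y hxy), by rw [addOrderOf_bridge, hP], fun σ hσ => ?_⟩
  rw [e]
  exact smul_eq_of_coord W σ h' (hfix σ hσ).1 (hfix σ hσ).2

end Bridge

/-! ### (i) (FIX) at a prime of semistable reduction -/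

section Semistable

/-- The multiplicative statement, in the shape of `exists_fixed_of_mult` of the [FIXMULT] block:
at a prime `q` of multiplicative reduction, for every `m > 0` prime to `q`, a point of exact
order `m` fixed by the whole inertia group. -/
def FixMultAll : Prop :=
  ∀ (W : WeierstrassCurve ℤ) (q : ℕ), q.Prime → W.Δ ≠ 0 → (q : ℤ) ∣ W.Δ → ¬ (q : ℤ) ∣ W.c₄ →
    ∀ A : ValuationSubring Qbar, A.LiesOverPrime q → ∀ m : ℕ, 0 < m → ¬ q ∣ m →
      ∃ P : ((W.map (Int.castRingHom ℚ))⁄Qbar).Point, addOrderOf P = m ∧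
        ∀ σ : GQ, σ ∈ A.inertiaSubgroupIn ℚ → σ • P = P

/-- **(FIX) at a prime of semistable reduction** (good or multiplicative): for every `m > 0`
prime to `q`, a point of exact order `m` fixed by the whole inertia group. -/
theorem exists_fixed_semistable (hmult : FixMultAll) (W : WeierstrassCurve ℤ) (hΔ0 : W.Δ ≠ 0)
    {q : ℕ} (hq : q.Prime) (hss : ¬ (q : ℤ) ∣ W.Δ ∨ ¬ (q : ℤ) ∣ W.c₄)
    (A : ValuationSubring Qbar) (hA : A.LiesOverPrime q) {m : ℕ} (hm : 0 < m) (hqm : ¬ q ∣ m) :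
    ∃ P : ((W.map (Int.castRingHom ℚ))⁄Qbar).Point, addOrderOf P = m ∧
      ∀ σ : GQ, σ ∈ A.inertiaSubgroupIn ℚ → σ • P = P := by
  by_cases hΔ : (q : ℤ) ∣ W.Δ
  · exact hmult W q hq hΔ0 hΔ (hss.resolve_left (not_not.mpr hΔ)) A hA m hm hqm
  · exact GoodFix.exists_fixed_of_good W hq hΔ A hA hm hqm

/-- The same for a semistable model. -/
theorem exists_fixed_of_isSemistableModel (hmult : FixMultAll) (W : WeierstrassCurve ℤ)
    (hΔ0 : W.Δ ≠ 0) (hss : W.IsSemistableModel) {q : ℕ} (hq : q.Prime)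
    (A : ValuationSubring Qbar) (hA : A.LiesOverPrime q) {m : ℕ} (hm : 0 < m) (hqm : ¬ q ∣ m) :
    ∃ P : ((W.map (Int.castRingHom ℚ))⁄Qbar).Point, addOrderOf P = m ∧
      ∀ σ : GQ, σ ∈ A.inertiaSubgroupIn ℚ → σ • P = P :=
  exists_fixed_semistable hmult W hΔ0 hq
    (by
      by_cases hΔ : (q : ℤ) ∣ W.Δ
      · exact Or.inr (hss q hq hΔ)
      · exact Or.inl hΔ) A hA hm hqm

/-- `FixMultAll` gives the Plan Prop `Plan.FixMultStatement`. -/
theorem fixMult_of_all (hmult : FixMultAll) : Plan.FixMultStatement := by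
  intro W hΔ0 q lam hq hlam hql hΔ hc₄ A hA τ hτ n
  have hm : ¬ q ∣ lam ^ n := fun h =>
    hql ((Nat.prime_dvd_prime_iff_eq hq hlam).mp (hq.dvd_of_dvd_pow h))
  obtain ⟨P, hP, hfix⟩ := hmult W q hq hΔ0 hΔ hc₄ A hA (lam ^ n) (pow_pos hlam.pos n) hm
  exact ⟨P, hP, hfix τ hτ⟩

/-- **(FIX) at a semistable prime, Plan vocabulary**: from `Plan.FixMultStatement` (and
[FIXGOOD], [TORS], closed in `GoodFix`), every inertia element at a semistable prime `q ≠ λ`
fixes a point of exact order `λ ^ n`, for every `n`. -/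
theorem fixSS_of_plan (hMult : Plan.FixMultStatement) (W : WeierstrassCurve ℤ) (hΔ0 : W.Δ ≠ 0)
    (q lam : ℕ) (hq : q.Prime) (hlam : lam.Prime) (hql : q ≠ lam)
    (hss : ¬ (q : ℤ) ∣ W.Δ ∨ ¬ (q : ℤ) ∣ W.c₄) (A : ValuationSubring Plan.Qb)
    (hA : A.LiesOverPrime q) (τ : Plan.GQ) (hτ : τ ∈ A.inertiaSubgroupIn ℚ) (n : ℕ) :
    ∃ P : Plan.Pt W, addOrderOf P = lam ^ n ∧ τ • P = P := by
  by_cases hΔ : (q : ℤ) ∣ W.Δ
  · exact hMult W hΔ0 q lam hq hlam hql hΔ (hss.resolve_left (not_not.mpr hΔ)) A hA τ hτ n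
  · have hm : ¬ q ∣ lam ^ n := fun h =>
      hql ((Nat.prime_dvd_prime_iff_eq hq hlam).mp (hq.dvd_of_dvd_pow h))
    obtain ⟨P, hP, hfix⟩ := GoodFix.exists_fixed_of_good W hq hΔ A hA (pow_pos hlam.pos n) hm
    exact ⟨P, hP, hfix τ hτ⟩

end Semistable

end Fermat.Agent.S58.FixSS
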