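/-
S58 — NodeRes.lean (helper37): [NODE] at the residue field of a valuation subring.

`A` a valuation subring of an algebraically closed field `K`, `k` its residue field,
`WA : WeierstrassCurve A` an integral model whose reduction has a node AT THE ORIGIN:
`a₃, a₄, a₆ ≡ 0` and `b₂ ≢ 0` modulo the maximal ideal.  Then the reduction
`WA.map (residue A)` is in the nodal normal form of `S58/NodeGrp.lean` (tangent slopes = the
residues of the two roots `S₁, S₂ ∈ A` of `s² + a₁ s - a₂`), hence its group of nonsingular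
points is `kˣ` and contains a point of exact order `m` for every `m` invertible in `k`.

* `exists_roots`        : a monic quadratic over `A` splits in `A`;
* `exists_isNodal`      : the reduction is nodal in normal form;
* `exists_addOrderOf_eq`: a point of exact order `m` on the reduction (`(m : k) ≠ 0`);
* `exists_addOrderOf_eq_of_liesOver` : the same for `A.LiesOverPrime q`, `¬ q ∣ m`;
* `exists_addOrderOf_eq_int` : the same for a curve over `ℤ` with `q ∣ a₃, a₄, a₆`, `q ∤ b₂`.
-/
import Mathlib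
import Fermat.Agent.S18.BaseRes
import Fermat.Agent.S58.NodeGrp

set_option autoImplicit false

namespace Fermat.Agent.S58.NodeRes

open WeierstrassCurve IsLocalRing Polynomial

variable {K : Type*} [Field K] (A : ValuationSubring K)

/-- A monic quadratic `s² + a s - b` over a valuation subring of an algebraically closed field
splits over the valuation subring: `a = -(S₁ + S₂)`, `b = -(S₁ S₂)`. -/
theorem exists_roots [IsAlgClosed K] (a b : A) :
    ∃ S₁ S₂ : A, a = -(S₁ + S₂) ∧ b = -(S₁ * S₂) := by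
  have hdeg : (X ^ 2 + C (a : K) * X - C (b : K) : K[X]).degree ≠ 0 := by
    have h2 : (X ^ 2 + C (a : K) * X - C (b : K) : K[X]).degree = 2 := by compute_degree!
    rw [h2]
    norm_num
  obtain ⟨S, hS⟩ := IsAlgClosed.exists_root _ hdeg
  have hS' : S ^ 2 + (a : K) * S - (b : K) = 0 := by
    simpa [IsRoot] using hS
  have hSA : S ∈ A := by
    rcases A.mem_or_inv_mem S with h | h
    · exact h
    · by_cases hS0 : S = 0
      · rw [hS0]; exact A.zero_mem
      · have hSeq : S = -(a : K) + (b : K) * S⁻¹ := by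
          field_simp
          linear_combination hS'
        rw [hSeq]
        exact A.add_mem _ _ (A.neg_mem _ a.2) (A.mul_mem _ _ b.2 h)
  refine ⟨⟨S, hSA⟩, -a - ⟨S, hSA⟩, ?_, ?_⟩
  · ring
  · apply Subtype.ext
    show (b : K) = -(S * (-(a : K) - S))
    linear_combination -hS'

/-- **The reduction of an integral model with a node at the origin is nodal in normal form.** -/
theorem exists_isNodal [IsAlgClosed K] (WA : WeierstrassCurve A)
    (h₃ : residue A WA.a₃ = 0) (h₄ : residue A WA.a₄ = 0) (h₆ : residue A WA.a₆ = 0)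
    (hb₂ : residue A WA.b₂ ≠ 0) :
    ∃ s₁ s₂ : ResidueField A, NodeGrp.IsNodal (WA.map (residue A)) s₁ s₂ := by
  obtain ⟨S₁, S₂, h1, h2⟩ := exists_roots A WA.a₁ WA.a₂
  refine ⟨residue A S₁, residue A S₂, ⟨?_, ?_, ?_, h₃, h₄, h₆⟩⟩
  · intro heq
    apply hb₂
    have hb : WA.b₂ = (S₁ - S₂) ^ 2 := by
      rw [WeierstrassCurve.b₂, h1, h2]; ring
    rw [hb, map_pow, map_sub, heq, sub_self, zero_pow two_ne_zero]
  · show residue A WA.a₁ = -(residue A S₁ + residue A S₂)
    rw [h1, map_neg, map_add]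
  · show residue A WA.a₂ = -(residue A S₁ * residue A S₂)
    rw [h2, map_neg, map_mul]

/-- **A point of exact order `m` on the reduction** (`m` invertible in the residue field). -/
theorem exists_addOrderOf_eq [IsAlgClosed K] [DecidableEq (ResidueField A)]
    (WA : WeierstrassCurve A)
    (h₃ : residue A WA.a₃ = 0) (h₄ : residue A WA.a₄ = 0) (h₆ : residue A WA.a₆ = 0)
    (hb₂ : residue A WA.b₂ ≠ 0) (m : ℕ) (hm : (m : ResidueField A) ≠ 0) :
    ∃ P : (WA.map (residue A)).toAffine.Point, addOrderOf P = m := by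
  have := Fermat.Agent.S18.BaseRes.isAlgClosed_residueField A
  obtain ⟨s₁, s₂, h⟩ := exists_isNodal A WA h₃ h₄ h₆ hb₂
  exact NodeGrp.exists_addOrderOf_eq' h m hm

/-- The same when `A` lies over the prime `q` and `q ∤ m`. -/
theorem exists_addOrderOf_eq_of_liesOver [IsAlgClosed K] [DecidableEq (ResidueField A)]
    (q : ℕ) [Fact q.Prime] (hA : A.LiesOverPrime q) (WA : WeierstrassCurve A)
    (h₃ : residue A WA.a₃ = 0) (h₄ : residue A WA.a₄ = 0) (h₆ : residue A WA.a₆ = 0)
    (hb₂ : residue A WA.b₂ ≠ 0) {m : ℕ} (hqm : ¬ q ∣ m) :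
    ∃ P : (WA.map (residue A)).toAffine.Point, addOrderOf P = m := by
  have := Fermat.Agent.S18.BaseRes.charP_residueField q A hA
  refine exists_addOrderOf_eq A WA h₃ h₄ h₆ hb₂ m ?_
  intro h0
  exact hqm ((CharP.cast_eq_zero_iff (ResidueField A) q m).mp h0)

/-- Residues of integers: `q ∣ a ↔ a ≡ 0` when `A` lies over `q`. -/
theorem residue_intCast_eq_zero_iff (q : ℕ) [Fact q.Prime] (hA : A.LiesOverPrime q) (a : ℤ) :
    residue A ((a : ℤ) : A) = 0 ↔ (q : ℤ) ∣ a := by
  have := Fermat.Agent.S18.BaseRes.charP_residueField q A hA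
  rw [map_intCast]
  exact CharP.intCast_eq_zero_iff (ResidueField A) q a

/-- **A point of exact order `m` on the reduction of a curve over `ℤ`** with a node at the
origin modulo `q` (`q ∣ a₃, a₄, a₆`, `q ∤ b₂`), `q ∤ m`. -/
theorem exists_addOrderOf_eq_int [IsAlgClosed K] [DecidableEq (ResidueField A)]
    (q : ℕ) [Fact q.Prime] (hA : A.LiesOverPrime q) (W : WeierstrassCurve ℤ)
    (h₃ : (q : ℤ) ∣ W.a₃) (h₄ : (q : ℤ) ∣ W.a₄) (h₆ : (q : ℤ) ∣ W.a₆) (hb₂ : ¬ (q : ℤ) ∣ W.b₂)
    {m : ℕ} (hqm : ¬ q ∣ m) :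
    ∃ P : ((W.map (Int.castRingHom A)).map (residue A)).toAffine.Point, addOrderOf P = m := by
  refine exists_addOrderOf_eq_of_liesOver A q hA (W.map (Int.castRingHom A)) ?_ ?_ ?_ ?_ hqm
  · exact (residue_intCast_eq_zero_iff A q hA W.a₃).mpr h₃
  · exact (residue_intCast_eq_zero_iff A q hA W.a₄).mpr h₄
  · exact (residue_intCast_eq_zero_iff A q hA W.a₆).mpr h₆
  · intro h0
    apply hb₂
    have hb : (W.map (Int.castRingHom A)).b₂ = ((W.b₂ : ℤ) : A) := by
      rw [WeierstrassCurve.map_b₂]; rfl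
    rw [hb] at h0
    exact (residue_intCast_eq_zero_iff A q hA W.b₂).mp h0

end Fermat.Agent.S58.NodeRes
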