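/-
S58 — FixMultC.lean (helper37): the leaf [FIXMULT], assembled (independent C-copy of the final
seam).

For an integral Weierstrass curve `W` with `Δ ≠ 0`, a prime `q ∣ Δ`, `q ∤ c₄` (multiplicative
reduction), a valuation subring `A` of `ℚ̄` over `q` and `m > 0` prime to `q`, there is a point of
exact order `m` of `W(ℚ̄)` fixed by the whole inertia group of `A`.

Assembly:
* `NodeEx.exists_variableChange_int` : an integral translation moves the node to the origin;
* `NodeRes.exists_addOrderOf_eq_int` : the reduced curve has a nonsingular point of exact order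
  `m` (nodal cubic `≅ kˣ`);
* `Red0B.exists_fixed_smul` : lift to an inertia-fixed point of exact order `m`, given that the
  kernel of reduction is `m`-divisible (`E1Div.inE1_divisible`) without `m`-torsion
  (`S05.F1_inE1`);
* `S41.VC.vcEquivBC` : transport back along the translation (Galois-equivariant).
-/
import Mathlib
import Fermat.Agent.S05.Inertia
import Fermat.Agent.S41.VCGal
import Fermat.Agent.S58.Plan
import Fermat.Agent.S58.NodeEx
import Fermat.Agent.S58.NodeRes
import Fermat.Agent.S58.Red0B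
import Fermat.Agent.S58.E1Div
import Fermat.Agent.S58.FixSS

set_option autoImplicit false

namespace Fermat.Agent.S58.FixMultC

open WeierstrassCurve IsLocalRing
open scoped WeierstrassCurve.Affine

/-- The generic fibre over `ℚ̄` of an integral Weierstrass curve with `Δ ≠ 0` is elliptic. -/
theorem isElliptic_pt (W : WeierstrassCurve ℤ) (hΔ : W.Δ ≠ 0) :
    ((W.map (Int.castRingHom ℚ))⁄Plan.Qb).IsElliptic := by
  refine ⟨isUnit_iff_ne_zero.mpr ?_⟩
  show ((W.map (Int.castRingHom ℚ)).map (algebraMap ℚ Plan.Qb)).Δ ≠ 0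
  rw [WeierstrassCurve.map_Δ, WeierstrassCurve.map_Δ]
  simpa using hΔ

/-- **(S-core)** node at the origin modulo `q`: a point of exact order `m` fixed by inertia. -/
theorem exists_fixed_of_node (W : WeierstrassCurve ℤ) (hΔ0 : W.Δ ≠ 0) {q : ℕ} (hq : q.Prime)
    (h₃ : (q : ℤ) ∣ W.a₃) (h₄ : (q : ℤ) ∣ W.a₄) (h₆ : (q : ℤ) ∣ W.a₆) (hb₂ : ¬ (q : ℤ) ∣ W.b₂)
    (A : ValuationSubring Plan.Qb) (hA : A.LiesOverPrime q) {m : ℕ} (hm : 0 < m)
    (hqm : ¬ q ∣ m) :
    ∃ P : Plan.Pt W, addOrderOf P = m ∧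
      ∀ σ : Plan.GQ, σ ∈ A.inertiaSubgroupIn ℚ → σ • P = P := by
  classical
  have hqF : Fact q.Prime := ⟨hq⟩
  have hnode := NodeRes.exists_addOrderOf_eq_int A q hA W h₃ h₄ h₆ hb₂ hqm
  have hW : (W.map (Int.castRingHom A)).map (algebraMap A Plan.Qb) =
      (W.map (Int.castRingHom ℚ)).map (algebraMap ℚ Plan.Qb) := by
    rw [WeierstrassCurve.map_map, WeierstrassCurve.map_map]
    congr 1
  have hmA : A.valuation ((m : ℕ) : Plan.Qb) = 1 := S05.valuation_natCast_eq_one A hq hA hqm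
  have hell : ((W.map (Int.castRingHom ℚ))⁄Plan.Qb).IsElliptic := isElliptic_pt W hΔ0
  have hdiv : ∀ R : ((W.map (Int.castRingHom ℚ))⁄Plan.Qb).Point, S05.InE1 A R →
      ∃ T : ((W.map (Int.castRingHom ℚ))⁄Plan.Qb).Point, S05.InE1 A T ∧ m • T = R :=
    fun R hR => E1Div.inE1_divisible A _ m hm hmA R hR
  have hcoe : ∀ z : ℤ, algebraMap ℚ Plan.Qb ((Int.castRingHom ℚ) z) ∈ A := by
    intro z
    simp
  have htf : ∀ R : ((W.map (Int.castRingHom ℚ))⁄Plan.Qb).Point, S05.InE1 A R → m • R = 0 →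
      R = 0 :=
    fun R hR hmR => S05.F1_inE1 A _ (hcoe _) (hcoe _) (hcoe _) (hcoe _) (hcoe _) hmA hR hmR
  obtain ⟨P, hP, hfix⟩ := Red0B.exists_fixed_smul A (W.map (Int.castRingHom A))
    (W.map (Int.castRingHom ℚ)) hW m hnode hdiv htf
  exact ⟨P, hP, fun σ hσ => hfix σ (S05.inertiaLike_of_mem A σ hσ)⟩

/-- **[FIXMULT]**, all orders prime to `q` (the shape `FixSS.FixMultAll`). -/
theorem fixMultAll : FixSS.FixMultAll := by
  intro W q hq hΔ0 hΔ hc₄ A hA m hm hqm
  obtain ⟨r, t, h3, h4, h6, hb, -, -⟩ := NodeEx.exists_variableChange_int W hq hΔ hc₄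
  set C : VariableChange ℤ := ⟨1, r, 0, t⟩ with hC
  have hΔ1 : (C • W).Δ ≠ 0 := by
    rw [WeierstrassCurve.variableChange_Δ]
    simpa [hC] using hΔ0
  obtain ⟨P, hP, hfix⟩ := exists_fixed_of_node (C • W) hΔ1 hq h3 h4 h6 hb A hA hm hqm
  -- transport along the translation
  have hmap : (C.map (Int.castRingHom ℚ)) • (W.map (Int.castRingHom ℚ)) =
      (C • W).map (Int.castRingHom ℚ) :=
    WeierstrassCurve.map_variableChange W C (Int.castRingHom ℚ)
  let e : Plan.Pt (C • W) ≃+ Plan.Pt W :=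
    S41.VC.vcEquivBC (K := Plan.Qb) (W.map (Int.castRingHom ℚ))
      ((C • W).map (Int.castRingHom ℚ)) (C.map (Int.castRingHom ℚ)) hmap
  refine ⟨e P, ?_, ?_⟩
  · rw [AddEquiv.addOrderOf_eq, hP]
  · intro σ hσ
    have h1 := S41.VC.vcEquivBC_smul (S := ℚ) (K := Plan.Qb) (W.map (Int.castRingHom ℚ))
      ((C • W).map (Int.castRingHom ℚ)) (C.map (Int.castRingHom ℚ)) hmap σ P
    rw [hfix σ hσ] at h1
    exact h1.symm

/-- **[FIXMULT]** in the Plan shape. -/
theorem fixMult : Plan.FixMultStatement := FixSS.fixMult_of_all fixMultAll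

end Fermat.Agent.S58.FixMultC
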