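/-
S58 — FixMultCloser.lean (helper52): the closer of the Plan leaf [FIXMULT].

* `fixMult : Plan.FixMultStatement` — every inertia element at a prime `q ≠ λ` of multiplicative
  reduction fixes a point of exact order `λ ^ n` (from `FixMult.exists_fixed_of_mult`, where one
  point serves the whole inertia group);
* `exists_fixed_mult` : the same with one point for all inertia elements.
-/
import Mathlib
import Fermat.Agent.S58.Plan
import Fermat.Agent.S58.FixMult

set_option autoImplicit false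

namespace Fermat.Agent.S58.FixMultCloser

open WeierstrassCurve WeierstrassCurve.Affine
open Fermat.Agent Fermat.Agent.S58

/-- At a prime `q ≠ λ` of multiplicative reduction: for every `n` a point of exact order `λ ^ n`
fixed by the whole inertia group. -/
theorem exists_fixed_mult (W : WeierstrassCurve ℤ) (hΔ0 : W.Δ ≠ 0) (q lam : ℕ) (hq : q.Prime)
    (hlam : lam.Prime) (hql : q ≠ lam) (hΔ : (q : ℤ) ∣ W.Δ) (hc₄ : ¬ (q : ℤ) ∣ W.c₄)
    (A : ValuationSubring Plan.Qb) (hA : A.LiesOverPrime q) (n : ℕ) :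
    ∃ P : Plan.Pt W, addOrderOf P = lam ^ n ∧
      ∀ τ : Plan.GQ, τ ∈ A.inertiaSubgroupIn ℚ → τ • P = P :=
  FixMult.exists_fixed_of_mult W hq hΔ0 hΔ hc₄ A hA (m := lam ^ n) (pow_pos hlam.pos n)
    (fun hd => hql ((Nat.prime_dvd_prime_iff_eq hq hlam).mp (hq.dvd_of_dvd_pow hd)))

/-- **[FIXMULT]**: the Plan leaf. -/
theorem fixMult : Plan.FixMultStatement := by
  intro W hΔ0 q lam hq hlam hql hΔ hc₄ A hA τ hτ n
  obtain ⟨P, hP, hfix⟩ := exists_fixed_mult W hΔ0 q lam hq hlam hql hΔ hc₄ A hA n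
  exact ⟨P, hP, hfix τ hτ⟩

end Fermat.Agent.S58.FixMultCloser
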