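/-
S58 campaign, leaf [FROBW] (owner: helper79): the Frobenius relation on torsion at EVERY good prime.

Let `W` be an integral Weierstrass curve, `ℓ` a prime of good reduction, `A` a valuation subring of
`ℚ̄` over `ℓ` and `σ` a Frobenius element at `A`.  Then `σ² − a_ℓ(W) σ + ℓ` kills every torsion point
of `W(ℚ̄)` of order prime to `ℓ`.

Proof: reduction modulo `A` (`S41.Red.redHomOf`) intertwines `σ` with the `ℓ`-power Frobenius of the
residue field; Theorem F (`S52.Frob.frob_relation`, for `ℓ ≠ 2`; a hypothesis for `ℓ = 2`) kills the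
reduction of `σ²P − a_ℓ σP + ℓP`, which therefore lies in the kernel of reduction and is torsion of
order prime to `ℓ`, hence zero (`S05.F1_inE1`).

Exports: `frob_core` (points of `W.map (Int.castRingHom ℚ̄)`, action `S41.Local.conjHom`),
`frobW_of` / `frobW_odd_of_not_dvd` / `frobW_odd` (points `Plan.Pt W`, the Galois action `σ • P`),
`frobW_of_thmF2 : Plan.ThmF2Statement → Plan.FrobWStatement`.
-/
import Mathlib
import Fermat.Agent.S41.LocalCore
import Fermat.Agent.S52.GlueD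
import Fermat.Agent.S58.Plan

set_option autoImplicit false

namespace Fermat.Agent.S58.FrobGood

open WeierstrassCurve WeierstrassCurve.Affine IsLocalRing
open Fermat.Agent Fermat.Agent.S05 Fermat.Agent.S41 Fermat.Agent.S41.Local
open scoped WeierstrassCurve.Affine

local notation "Qbar" => AlgebraicClosure ℚ
local notation "GQ" => (AlgebraicClosure ℚ ≃ₐ[ℚ] AlgebraicClosure ℚ)

/-- `a_q(W)`, unfolded. -/
theorem apOfModel_eq (W : WeierstrassCurve ℤ) (q : ℕ) :
    W.apOfModel q =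
      (Nat.card (ZMod q) : ℤ) + 1 - (Nat.card (W.reductionMod q).toAffine.Point : ℤ) := rfl

/-- Theorem F for the reduction of `W` modulo `q`, transported to the points of `W` over a field
`k` of characteristic `q`, the `q`-power Frobenius acting through `S41.Local.conjHom`. -/
theorem frob_residue {k : Type} [Field k] [DecidableEq k] (W : WeierstrassCurve ℤ) (q : ℕ)
    [Fact q.Prime] [CharP k q]
    (hF : ∀ (κ : Type) [Field κ] [DecidableEq κ] [Algebra (ZMod q) κ],
      S52.GlueD.FrobRel q (W.reductionMod q) κ)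
    (R : (W.map (Int.castRingHom k)).toAffine.Point) :
    conjHom W (frobenius k q) (conjHom W (frobenius k q) R)
      - W.apOfModel q • conjHom W (frobenius k q) R + (q : ℤ) • R = 0 := by
  set ι : ZMod q →+* k := ZMod.castHom (dvd_refl q) k with hι
  let _ : Algebra (ZMod q) k := ι.toAlgebra
  have hWι : ((W.reductionMod q).toAffine⁄k : WeierstrassCurve k) = W.map (Int.castRingHom k) :=
    map_int_comp W ι
  have key : ∀ Q : ((W.reductionMod q).toAffine⁄k).Point,
      S13.pointCongr hWι (Point.map (W' := (W.reductionMod q).toAffine)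
        (FiniteField.frobeniusAlgHom (ZMod q) k) Q) =
      conjHom W (frobenius k q) (S13.pointCongr hWι Q) := by
    intro Q
    rcases Q with _ | ⟨x, y, h⟩
    · have h0 : (Point.zero : ((W.reductionMod q).toAffine⁄k).Point) = 0 := rfl
      rw [h0]
      simp only [map_zero]
    · rw [Point.map_some, S13.pointCongr_some, S13.pointCongr_some]
      obtain ⟨h', eh'⟩ := conjHom_some W (frobenius k q) (hWι ▸ h)
      rw [eh']
      apply Red.some_eq_some
      · simp only [FiniteField.coe_frobeniusAlgHom, ZMod.card, frobenius_def]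
      · simp only [FiniteField.coe_frobeniusAlgHom, ZMod.card, frobenius_def]
  have hrel := hF k ((S13.pointCongr hWι).symm R)
  have h2 := congrArg (S13.pointCongr hWι) hrel
  rw [map_add, map_sub, map_zsmul, map_zsmul, map_zero, key, key,
    AddEquiv.apply_symm_apply] at h2
  exact h2

/-- **Core.**  At a prime `q` of good reduction, a Frobenius element `σ` at a place `A` over `q`
satisfies `σ² − a_q(W) σ + q = 0` on the torsion of `W(ℚ̄)` of order prime to `q`.  Theorem F for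
the reduction modulo `q` is the hypothesis `hF`. -/
theorem frob_core (W : WeierstrassCurve ℤ) (q : ℕ) [Fact q.Prime] (hgood : ¬ (q : ℤ) ∣ W.Δ)
    (hF : ∀ (κ : Type) [Field κ] [DecidableEq κ] [Algebra (ZMod q) κ],
      S52.GlueD.FrobRel q (W.reductionMod q) κ)
    (A : ValuationSubring Qbar) (hA : (q : Qbar) ∈ A.nonunits) (σ : GQ)
    (hσ : A.IsFrobeniusAt σ q) (n : ℕ) (hn : ¬ q ∣ n)
    (P : (W.map (Int.castRingHom Qbar)).toAffine.Point) (hP : n • P = 0) :
    conjHom W (σ : Qbar →+* Qbar) (conjHom W (σ : Qbar →+* Qbar) P)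
      - W.apOfModel q • conjHom W (σ : Qbar →+* Qbar) P + (q : ℤ) • P = 0 := by
  classical
  have hq : q.Prime := Fact.out
  set WA : WeierstrassCurve A := W.map (Int.castRingHom A) with hWA
  have hΔA : IsUnit WA.Δ := by
    rw [ValuationSubring.valuation_eq_one_iff, hWA, WeierstrassCurve.map_Δ]
    have := AA.valuation_intCast_eq_one A hq hA hgood
    simpa using this
  have hnA : A.valuation ((n : ℕ) : Qbar) = 1 := by
    have hnd : ¬ (q : ℤ) ∣ (n : ℤ) := fun h => hn (Int.natCast_dvd_natCast.mp h)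
    have := AA.valuation_intCast_eq_one A hq hA hnd
    simpa using this
  have hWK : WA.map (algebraMap A Qbar) = W.map (Int.castRingHom Qbar) := map_int_comp W _
  have hWk : WA.map (residue A) = W.map (Int.castRingHom (ResidueField A)) := map_int_comp W _
  -- residue characteristic
  have hqk : ((q : ℕ) : ResidueField A) = 0 := by
    have h0 : residue A (q : A) = 0 := by
      rw [Red.res_eq_zero_iff]
      simpa using hA
    simpa using h0
  have : CharP (ResidueField A) q := (CharP.charP_iff_prime_eq_zero hq).mpr hqk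
  obtain ⟨hσmem, hσ⟩ := hσ
  set g : A.decompositionSubgroup ℚ := ⟨σ, hσmem⟩ with hg
  -- `σ` preserves non-integrality
  have hσA : ∀ x : Qbar, x ∉ A → σ x ∉ A := by
    intro x hx hσx
    apply hx
    have h2 := (g⁻¹ • (⟨σ x, hσx⟩ : A)).2
    have h3 : ((g⁻¹ • (⟨σ x, hσx⟩ : A) : A) : Qbar) = x := by
      show (σ⁻¹ : GQ) (σ x) = x
      exact σ.symm_apply_apply x
    rwa [h3] at h2
  -- reduction intertwines `σ` and the Frobenius of the residue field
  have hcomm : ∀ R : (W.map (Int.castRingHom Qbar)).toAffine.Point,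
      Red.redHomOf A WA hWK hWk hΔA (conjHom W (σ : Qbar →+* Qbar) R) =
        conjHom W (frobenius (ResidueField A) q) (Red.redHomOf A WA hWK hWk hΔA R) := by
    intro R
    rcases R with _ | ⟨x, y, h⟩
    · have h0 : (Point.zero : (W.map (Int.castRingHom Qbar)).toAffine.Point) = 0 := rfl
      rw [h0, map_zero, map_zero, map_zero]
    · obtain ⟨hc, ec⟩ := conjHom_some W (σ : Qbar →+* Qbar) h
      by_cases hx : x ∈ A
      · have hy : y ∈ A := Red.y_mem_of A WA hWK h.1 hx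
        obtain ⟨r, er⟩ := Red.redHomOf_some A WA hWK hWk hΔA h ⟨x, hx⟩ ⟨y, hy⟩ rfl rfl
        obtain ⟨rc, erc⟩ := Red.redHomOf_some A WA hWK hWk hΔA hc (g • (⟨x, hx⟩ : A))
          (g • (⟨y, hy⟩ : A)) rfl rfl
        obtain ⟨r2, er2⟩ := conjHom_some W (frobenius (ResidueField A) q) r
        rw [ec, erc, er, er2]
        apply Red.some_eq_some
        · rw [IsLocalRing.ResidueField.residue_smul, hσ, frobenius_def]
        · rw [IsLocalRing.ResidueField.residue_smul, hσ, frobenius_def]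
      · have h1 : Red.redHomOf A WA hWK hWk hΔA (Point.some x y h) = 0 :=
          (Red.redHomOf_eq_zero_iff A WA hWK hWk hΔA _).mpr hx
        have h2 : Red.redHomOf A WA hWK hWk hΔA (Point.some _ _ hc) = 0 :=
          (Red.redHomOf_eq_zero_iff A WA hWK hWk hΔA _).mpr (hσA x hx)
        rw [ec, h2, h1, map_zero]
  have hσP : n • conjHom W (σ : Qbar →+* Qbar) P = 0 := by rw [← map_nsmul, hP, map_zero]
  have hσσP : n • conjHom W (σ : Qbar →+* Qbar) (conjHom W (σ : Qbar →+* Qbar) P) = 0 := by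
    rw [← map_nsmul, hσP, map_zero]
  have hD1 : InE1 A (conjHom W (σ : Qbar →+* Qbar) (conjHom W (σ : Qbar →+* Qbar) P)
      - W.apOfModel q • conjHom W (σ : Qbar →+* Qbar) P + (q : ℤ) • P) := by
    rw [← Red.redHomOf_eq_zero_iff A WA hWK hWk hΔA, map_add, map_sub, map_zsmul, map_zsmul,
      hcomm, hcomm]
    exact frob_residue W q hF _
  have hDn : n • (conjHom W (σ : Qbar →+* Qbar) (conjHom W (σ : Qbar →+* Qbar) P)
      - W.apOfModel q • conjHom W (σ : Qbar →+* Qbar) P + (q : ℤ) • P) = 0 := by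
    rw [smul_add, smul_sub, smul_comm n (W.apOfModel q), smul_comm n (q : ℤ), hσσP, hσP, hP,
      smul_zero, smul_zero, sub_zero, add_zero]
  exact F1_inE1 A (W.map (Int.castRingHom Qbar)) (intCast_mem' A _) (intCast_mem' A _)
    (intCast_mem' A _) (intCast_mem' A _) (intCast_mem' A _) hnA hD1 hDn

/-! ### The Prelude shape: points `Plan.Pt W`, Galois action `σ • P` -/

theorem baseChange_eq (W : WeierstrassCurve ℤ) :
    ((W.map (Int.castRingHom ℚ))⁄Qbar : WeierstrassCurve Qbar) = W.map (Int.castRingHom Qbar) :=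
  map_int_comp W (algebraMap ℚ Qbar)

/-- The identification of `Plan.Pt W` with the points of `W.map (Int.castRingHom ℚ̄)`. -/
noncomputable def eQ (W : WeierstrassCurve ℤ) :
    Plan.Pt W ≃+ (W.map (Int.castRingHom Qbar)).toAffine.Point :=
  S13.pointCongr (baseChange_eq W)

theorem eQ_smul (W : WeierstrassCurve ℤ) (σ : GQ) (P : Plan.Pt W) :
    eQ W (σ • P) = conjHom W (σ : Qbar →+* Qbar) (eQ W P) := by
  rcases P with _ | ⟨x, y, h⟩
  · have h1 : σ • (Point.zero : Plan.Pt W) = 0 := rfl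
    have h2 : (Point.zero : Plan.Pt W) = 0 := rfl
    rw [h1, h2]
    simp only [map_zero]
  · rw [Point.algEquiv_smul_def, Point.map_some]
    unfold eQ
    rw [S13.pointCongr_some, S13.pointCongr_some]
    obtain ⟨h', eh'⟩ := conjHom_some W (σ : Qbar →+* Qbar) (baseChange_eq W ▸ h)
    rw [eh']
    exact Red.some_eq_some _ _ rfl rfl

/-- **[FROBW], Theorem F as a hypothesis** (so that `ℓ = 2` plugs in): the Prelude shape. -/
theorem frobW_of (W : WeierstrassCurve ℤ) (ℓ : ℕ) [Fact ℓ.Prime] (hgood : ¬ (ℓ : ℤ) ∣ W.Δ)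
    (hF : ∀ (κ : Type) [Field κ] [DecidableEq κ] [Algebra (ZMod ℓ) κ],
      S52.GlueD.FrobRel ℓ (W.reductionMod ℓ) κ)
    (A : ValuationSubring Plan.Qb) (hA : A.LiesOverPrime ℓ) (σ : Plan.GQ)
    (hσ : A.IsFrobeniusAt σ ℓ) (N : ℕ) (hN : ¬ ℓ ∣ N) (P : Plan.Pt W) (hP : N • P = 0) :
    σ • (σ • P) - (W.apOfModel ℓ) • (σ • P) + (ℓ : ℤ) • P = 0 := by
  apply (eQ W).injective
  rw [map_zero, map_add, map_sub, map_zsmul, map_zsmul, eQ_smul, eQ_smul]
  exact frob_core W ℓ hgood hF A hA σ hσ N hN (eQ W P) (by rw [← map_nsmul, hP, map_zero])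

/-- The reduction at a good prime has nonzero discriminant. -/
theorem reductionMod_Δ_ne_zero (W : WeierstrassCurve ℤ) (ℓ : ℕ) (hgood : ¬ (ℓ : ℤ) ∣ W.Δ) :
    (W.reductionMod ℓ).Δ ≠ 0 := by
  intro h0
  apply hgood
  have h1 : ((W.Δ : ℤ) : ZMod ℓ) = 0 := by
    have h2 : (W.reductionMod ℓ).Δ = Int.castRingHom (ZMod ℓ) W.Δ := WeierstrassCurve.map_Δ _ _
    rw [h2] at h0
    exact h0
  exact (ZMod.intCast_zmod_eq_zero_iff_dvd _ _).mp h1

/-- **[FROBW] at an odd good prime**, torsion of any order prime to `ℓ`. -/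
theorem frobW_odd_of_not_dvd (W : WeierstrassCurve ℤ) (ℓ : ℕ) [Fact ℓ.Prime] (hℓ2 : ℓ ≠ 2)
    (hgood : ¬ (ℓ : ℤ) ∣ W.Δ) (A : ValuationSubring Plan.Qb) (hA : A.LiesOverPrime ℓ)
    (σ : Plan.GQ) (hσ : A.IsFrobeniusAt σ ℓ) (N : ℕ) (hN : ¬ ℓ ∣ N) (P : Plan.Pt W)
    (hP : N • P = 0) :
    σ • (σ • P) - (W.apOfModel ℓ) • (σ • P) + (ℓ : ℤ) • P = 0 :=
  frobW_of W ℓ hgood
    (fun κ _ _ _ => S52.GlueD.frobRel ℓ hℓ2 (W.reductionMod ℓ) (reductionMod_Δ_ne_zero W ℓ hgood) κ)
    A hA σ hσ N hN P hP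

theorem not_dvd_prime_pow {ℓ lam : ℕ} (hℓ : ℓ.Prime) (hlam : lam.Prime) (hne : ℓ ≠ lam) (n : ℕ) :
    ¬ ℓ ∣ lam ^ n := fun h =>
  hne ((Nat.prime_dvd_prime_iff_eq hℓ hlam).mp (hℓ.dvd_of_dvd_pow h))

/-- **[FROBW] at odd good primes** (`Plan.FrobWStatement` with the extra hypothesis `ℓ ≠ 2`);
no hypothesis. -/
theorem frobW_odd : ∀ (W : WeierstrassCurve ℤ) (ℓ lam : ℕ), ℓ.Prime → lam.Prime → ℓ ≠ lam →
    ℓ ≠ 2 → ¬ (ℓ : ℤ) ∣ W.Δ →
    ∀ A : ValuationSubring Plan.Qb, A.LiesOverPrime ℓ → ∀ σ : Plan.GQ, A.IsFrobeniusAt σ ℓ →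
      ∀ (n : ℕ) (P : Plan.Pt W), (lam ^ n) • P = 0 →
        σ • (σ • P) - (W.apOfModel ℓ) • (σ • P) + (ℓ : ℤ) • P = 0 := by
  intro W ℓ lam hℓ hlam hne hℓ2 hgood A hA σ hσ n P hP
  have : Fact ℓ.Prime := ⟨hℓ⟩
  exact frobW_odd_of_not_dvd W ℓ hℓ2 hgood A hA σ hσ (lam ^ n) (not_dvd_prime_pow hℓ hlam hne n)
    P hP

/-- **[FROBW]** (`Plan.FrobWStatement`, `ℓ = 2` included) from Theorem F at the prime `2`. -/
theorem frobW_of_thmF2 (h2 : Plan.ThmF2Statement) : Plan.FrobWStatement := by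
  intro W ℓ lam hℓ hlam hne hgood A hA σ hσ n P hP
  have : Fact ℓ.Prime := ⟨hℓ⟩
  by_cases hℓ2 : ℓ = 2
  · subst hℓ2
    exact frobW_of W 2 hgood
      (fun κ _ _ _ Q => h2 (W.reductionMod 2) (reductionMod_Δ_ne_zero W 2 hgood) κ Q)
      A hA σ hσ (lam ^ n) (not_dvd_prime_pow hℓ hlam hne n) P hP
  · exact frobW_odd W ℓ lam hℓ hlam hne hℓ2 hgood A hA σ hσ n P hP

end Fermat.Agent.S58.FrobGood
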