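/-
S58 campaign, leaf [FROBW] (B-copy; A = helper79 `S58/FrobGood.lean`; owner of this file: helper39).

The Frobenius relation on the torsion of `W(ℚ̄)` at EVERY prime `ℓ` of good reduction
(`ℓ = 2` included): for a valuation subring `A` of `ℚ̄` over `ℓ`, a Frobenius element `σ` at
`(A, ℓ)` and a point `P ∈ W(ℚ̄)` killed by an integer prime to `ℓ`,
`σ²P − a_ℓ(W)·σP + ℓ·P = 0`.

Route: the reduction homomorphism `S41.Red.redHomOf` (kernel `E₁`), its compatibility with
the Frobenius element, Theorem F on the reduced curve (`S52.Frob.frob_relation` for `ℓ ≠ 2`,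
the Plan leaf `ThmF2Statement` for `ℓ = 2`), and the torsion-freeness of `E₁`
(`S05.F1_inE1`).
-/
import Mathlib
import Fermat.Agent.S58.Plan
import Fermat.Agent.S05.Inertia
import Fermat.Agent.S05.FormalGroup
import Fermat.Agent.S41.Red
import Fermat.Agent.S52.Frob.Main

set_option autoImplicit false

namespace Fermat.Agent.S58.FrobQbar

open WeierstrassCurve WeierstrassCurve.Affine IsLocalRing
open scoped WeierstrassCurve.Affine
open Fermat.Agent.S58.Plan (Qb GQ Pt)

attribute [local instance] ZMod.algebra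

/-- The residue field of a valuation subring of `ℚ̄` over `ℓ` has characteristic `ℓ`. -/
theorem charP_residueField (A : ValuationSubring Qb) {ℓ : ℕ} (hℓ : ℓ.Prime)
    (hA : A.LiesOverPrime ℓ) : CharP (ResidueField A) ℓ := by
  refine (CharP.charP_iff_prime_eq_zero hℓ).mpr ?_
  have h0 : residue A (ℓ : A) = 0 := by
    rw [residue_eq_zero_iff]
    obtain ⟨ha, hm⟩ := ValuationSubring.mem_nonunits_iff_exists_mem_maximalIdeal.mp hA
    have : (⟨(ℓ : Qb), ha⟩ : A) = (ℓ : A) := Subtype.ext (by simp)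
    rwa [this] at hm
  simpa using h0

section Core

variable (W : WeierstrassCurve ℤ) {ℓ : ℕ} [Fact ℓ.Prime] (A : ValuationSubring Qb)
  [CharP (ResidueField A) ℓ]

/-- The integral model over `A`. -/
noncomputable abbrev WA : WeierstrassCurve A := W.map (Int.castRingHom A)

/-- The generic fibre of `WA` is `W` over `ℚ̄`. -/
theorem map_algebraMap_WA :
    (WA W A).map (algebraMap A Qb) = (W.map (Int.castRingHom ℚ)).baseChange Qb := by
  unfold WA WeierstrassCurve.baseChange
  rw [WeierstrassCurve.map_map, WeierstrassCurve.map_map]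
  congr 1

omit [Fact ℓ.Prime] in
/-- The special fibre of `WA` is the reduction of `W` modulo `ℓ`, over the residue field. -/
theorem map_residue_WA :
    (WA W A).map (residue A) = (W.reductionMod ℓ).baseChange (ResidueField A) := by
  unfold WA WeierstrassCurve.baseChange WeierstrassCurve.reductionMod
  rw [WeierstrassCurve.map_map, WeierstrassCurve.map_map]
  congr 1
  exact RingHom.ext_int _ _

omit [Fact ℓ.Prime] in
/-- Good reduction: the discriminant of the integral model is a unit. -/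
theorem isUnit_Δ_WA (hgood : ¬ (ℓ : ℤ) ∣ W.Δ) : IsUnit (WA W A).Δ := by
  rw [← Fermat.Agent.S41.Red.res_ne_zero_iff]
  unfold WA
  rw [WeierstrassCurve.map_Δ, eq_intCast, map_intCast]
  intro h
  exact hgood ((CharP.intCast_eq_zero_iff (ResidueField A) ℓ _).mp h)

open Classical in
/-- The reduction homomorphism `W(ℚ̄) → W̃(k_A)`, `W̃ = W mod ℓ`. -/
noncomputable def red (hΔ : IsUnit (WA W A).Δ) :
    Pt W →+ ((W.reductionMod ℓ).toAffine⁄(ResidueField A)).Point :=
  Fermat.Agent.S41.Red.redHomOf A (WA W A) (map_algebraMap_WA W A) (map_residue_WA W A) hΔ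

omit [Fact ℓ.Prime] in
open Classical in
theorem red_eq_zero_iff (hΔ : IsUnit (WA W A).Δ) (P : Pt W) :
    red W A hΔ P = 0 ↔ Fermat.Agent.S05.InE1 A P :=
  Fermat.Agent.S41.Red.redHomOf_eq_zero_iff A (WA W A) (map_algebraMap_WA W A)
    (map_residue_WA W A) hΔ P

open Classical in
/-- **Frobenius compatibility of the reduction**: `red (σ • P) = Frob (red P)`. -/
theorem red_smul (hΔ : IsUnit (WA W A).Δ) (σ : GQ) (hσ : A.IsFrobeniusAt σ ℓ) (P : Pt W) :
    red W A hΔ (σ • P) =
      Point.map (W' := (W.reductionMod ℓ).toAffine)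
        (FiniteField.frobeniusAlgHom (ZMod ℓ) (ResidueField A)) (red W A hΔ P) := by
  obtain ⟨hmem, hfrob⟩ := hσ
  rcases P with _ | ⟨x, y, h⟩
  · have h0 : (Point.zero : Pt W) = 0 := rfl
    have e0 : σ • (0 : Pt W) = 0 := rfl
    rw [h0, e0, map_zero, map_zero]
  · have hns : ((W.map (Int.castRingHom ℚ))⁄Qb).Nonsingular (σ.toAlgHom x) (σ.toAlgHom y) :=
      ((W.map (Int.castRingHom ℚ)).toAffine.baseChange_nonsingular σ.toAlgHom.injective x y).mpr h
    have e1 : σ • (Point.some x y h : Pt W) = Point.some (σ.toAlgHom x) (σ.toAlgHom y) hns := rfl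
    rw [e1]
    by_cases hx : x ∈ A
    · have hy : y ∈ A :=
        Fermat.Agent.S41.Red.y_mem_of A (WA W A) (map_algebraMap_WA W A) h.1 hx
      have hσx : σ x ∈ A :=
        (Fermat.Agent.S05.Inertia.mem_iff_of_mem_decomposition A hmem x).mpr hx
      have hσy : σ y ∈ A :=
        (Fermat.Agent.S05.Inertia.mem_iff_of_mem_decomposition A hmem y).mpr hy
      obtain ⟨h1, r1⟩ := Fermat.Agent.S41.Red.redHomOf_some A (WA W A) (map_algebraMap_WA W A)
        (map_residue_WA W A) hΔ h ⟨x, hx⟩ ⟨y, hy⟩ rfl rfl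
      obtain ⟨h2, r2⟩ := Fermat.Agent.S41.Red.redHomOf_some A (WA W A) (map_algebraMap_WA W A)
        (map_residue_WA W A) hΔ hns ⟨σ x, hσx⟩ ⟨σ y, hσy⟩ rfl rfl
      have key : ∀ (z : Qb) (hz : z ∈ A) (hσz : σ z ∈ A),
          residue A ⟨σ z, hσz⟩ =
            FiniteField.frobeniusAlgHom (ZMod ℓ) (ResidueField A) (residue A ⟨z, hz⟩) := by
        intro z hz hσz
        have hg : (⟨σ, hmem⟩ : A.decompositionSubgroup ℚ) • (⟨z, hz⟩ : A) = ⟨σ z, hσz⟩ :=
          Subtype.ext rfl
        rw [← hg, IsLocalRing.ResidueField.residue_smul, hfrob,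
          FiniteField.coe_frobeniusAlgHom, ZMod.card]
      unfold red
      rw [r2, r1, Point.map_some]
      exact Fermat.Agent.S41.Red.some_eq_some _ _ (key x hx hσx) (key y hy hσy)
    · have hσx : σ x ∉ A := fun hc =>
        hx ((Fermat.Agent.S05.Inertia.mem_iff_of_mem_decomposition A hmem x).mp hc)
      have r1 : red W A hΔ (Point.some x y h) = 0 := (red_eq_zero_iff W A hΔ _).mpr hx
      have r2 : red W A hΔ (Point.some (σ.toAlgHom x) (σ.toAlgHom y) hns) = 0 :=
        (red_eq_zero_iff W A hΔ _).mpr hσx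
      rw [r1, map_zero]
      exact r2

open Classical in
/-- **Core.**  The Frobenius relation on prime-to-`ℓ` torsion of `W(ℚ̄)`, given Theorem F for
the reduced curve over the residue field of `A`. -/
theorem frob_relation_of_fin (hA : A.LiesOverPrime ℓ) (hgood : ¬ (ℓ : ℤ) ∣ W.Δ)
    (hF : ∀ P : ((W.reductionMod ℓ).toAffine⁄(ResidueField A)).Point,
      Point.map (W' := (W.reductionMod ℓ).toAffine)
          (FiniteField.frobeniusAlgHom (ZMod ℓ) (ResidueField A))
          (Point.map (W' := (W.reductionMod ℓ).toAffine)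
            (FiniteField.frobeniusAlgHom (ZMod ℓ) (ResidueField A)) P)
        - ((Nat.card (ZMod ℓ) : ℤ) + 1 - (Nat.card (W.reductionMod ℓ).toAffine.Point : ℤ)) •
            Point.map (W' := (W.reductionMod ℓ).toAffine)
              (FiniteField.frobeniusAlgHom (ZMod ℓ) (ResidueField A)) P
        + (ℓ : ℤ) • P = 0)
    (σ : GQ) (hσ : A.IsFrobeniusAt σ ℓ) {m : ℕ} (hm : ¬ ℓ ∣ m) (P : Pt W) (hP : m • P = 0) :
    σ • (σ • P) - (W.apOfModel ℓ) • (σ • P) + (ℓ : ℤ) • P = 0 := by
  have hℓ : ℓ.Prime := Fact.out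
  have hΔ := isUnit_Δ_WA W A hgood
  have hredQ : red W A hΔ (σ • (σ • P) - (W.apOfModel ℓ) • (σ • P) + (ℓ : ℤ) • P) = 0 := by
    rw [map_add, map_sub, map_zsmul, map_zsmul, red_smul W A hΔ σ hσ, red_smul W A hΔ σ hσ]
    exact hF _
  have hE1 := (red_eq_zero_iff W A hΔ _).mp hredQ
  have hsm : ∀ R : Pt W, m • R = 0 → m • (σ • R) = 0 := by
    intro R hR
    have h1 := Point.algEquiv_smul_zsmul σ (m : ℤ) R
    rw [natCast_zsmul, natCast_zsmul, hR] at h1
    rw [← h1]
    rfl
  have hσP := hsm P hP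
  have hσσP := hsm _ hσP
  have hmQ : m • (σ • (σ • P) - (W.apOfModel ℓ) • (σ • P) + (ℓ : ℤ) • P) = 0 := by
    have h3 : (m : ℤ) • (σ • (σ • P) - (W.apOfModel ℓ) • (σ • P) + (ℓ : ℤ) • P) = 0 := by
      have e : (m : ℤ) • (σ • (σ • P) - (W.apOfModel ℓ) • (σ • P) + (ℓ : ℤ) • P) =
          m • (σ • (σ • P)) - (W.apOfModel ℓ) • (m • (σ • P)) + (ℓ : ℤ) • (m • P) := by
        rw [← natCast_zsmul (σ • (σ • P)) m, ← natCast_zsmul (σ • P) m, ← natCast_zsmul P m]
        generalize σ • (σ • P) = X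
        generalize σ • P = Y
        module
      rw [e, hP, hσP, hσσP, zsmul_zero, zsmul_zero, sub_zero, add_zero]
    rwa [natCast_zsmul] at h3
  have hmem : ∀ z : ℤ, algebraMap ℚ Qb (Int.castRingHom ℚ z) ∈ A := fun z => by
    rw [eq_intCast, map_intCast]
    exact Fermat.Agent.S05.Inertia.intCast_mem_valuationSubring A z
  have hn : A.valuation (m : Qb) = 1 :=
    Fermat.Agent.S05.Inertia.valuation_natCast_eq_one_of_not_dvd hA hℓ hm
  exact Fermat.Agent.S05.F1_inE1 A _ (hmem _) (hmem _) (hmem _) (hmem _) (hmem _) hn hE1 hmQ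

end Core

open Classical in
/-- **[FROBW]** (the Plan leaf), from Theorem F at `ℓ = 2` (the Plan leaf [F2]) and the landed
Theorem F at odd primes (`S52.Frob.frob_relation`). -/
theorem frobW (hF2 : Fermat.Agent.S58.Plan.ThmF2Statement) :
    Fermat.Agent.S58.Plan.FrobWStatement := by
  intro W ℓ lam hℓ hlam hne hgood A hA σ hσ n P hP
  have : Fact ℓ.Prime := ⟨hℓ⟩
  have : CharP (ResidueField A) ℓ := charP_residueField A hℓ hA
  have hΔ' : (W.reductionMod ℓ).Δ ≠ 0 := by
    unfold WeierstrassCurve.reductionMod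
    rw [WeierstrassCurve.map_Δ, eq_intCast]
    intro h
    exact hgood ((ZMod.intCast_zmod_eq_zero_iff_dvd _ _).mp h)
  have hm : ¬ ℓ ∣ lam ^ n := fun hd =>
    hne ((Nat.prime_dvd_prime_iff_eq hℓ hlam).mp (hℓ.dvd_of_dvd_pow hd))
  refine frob_relation_of_fin W A hA hgood ?_ σ hσ hm P hP
  intro P'
  by_cases h2 : ℓ = 2
  · subst h2
    exact hF2 _ hΔ' (ResidueField A) P'
  · exact Fermat.Agent.S52.Frob.frob_relation ℓ h2 _ hΔ' (ResidueField A) P'

end Fermat.Agent.S58.FrobQbar
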