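/-
S58 / leaf [F2], B-copy (helper98): THEOREM F AT THE PRIME 2.

For a Weierstrass curve `W` over `ZMod 2` with `Δ ≠ 0` and any field `κ ⊇ ZMod 2`, the coordinatewise
Frobenius `φ` on `W(κ)` satisfies `φ² - t φ + 2 = 0`, `t = 2 + 1 - #W(ZMod 2)`.

Route: the `ℓ`-independent part of S52/Frob is reused (`F = AlgebraicClosure K(X)`, the generic point
`Gpt`, `subst_point`, `Chain.chain_transfer`, `descent_kappa`), so the relation is only needed at the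
generic point `G = (X, y₀)`.  There the 16 nonsingular curves over `ZMod 2` are treated one by one:
the point count by `decide`, and the relation through Mathlib's chord and tangent formulas with
`linear_combination` certificates (cofactors of the curve equation and of `2 = 0`), produced by a
script.
-/
import Mathlib
import Fermat.Agent.S52.Frob.Main
import Fermat.Agent.S58.Plan

set_option autoImplicit false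

open scoped WeierstrassCurve.Affine

namespace Fermat.Agent.S58.FrobTwoB

open WeierstrassCurve WeierstrassCurve.Affine

/-! ### Algebraic lemmas on an arbitrary Weierstrass curve over a field -/

section alg

variable {F : Type*} [Field F] [DecidableEq F] (E : WeierstrassCurve.Affine F)

/-- Doubling data of an affine point which is not `2`-torsion. -/
lemma dbl_data {x y : F} (h : E.Nonsingular x y) (hd : 2 * y + E.a₁ * x + E.a₃ ≠ 0) :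
    ∃ (lam X2 N2 : F) (hD : E.Nonsingular X2 N2),
      Point.some x y h + Point.some x y h = - Point.some X2 N2 hD ∧
      lam * (2 * y + E.a₁ * x + E.a₃) = 3 * x ^ 2 + 2 * E.a₂ * x + E.a₄ - E.a₁ * y ∧
      X2 = lam ^ 2 + E.a₁ * lam - E.a₂ - 2 * x ∧ N2 = lam * (X2 - x) + y := by
  have hy : y ≠ E.negY x y := by
    intro h0
    apply hd
    rw [negY] at h0
    linear_combination h0
  refine ⟨E.slope x x y y, E.addX x x (E.slope x x y y), E.negAddY x x y (E.slope x x y y), _,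
    Point.add_self_of_Y_ne' hy, ?_, ?_, ?_⟩
  · rw [slope_of_Y_ne rfl hy, negY]
    have h1 : y - (-y - E.a₁ * x - E.a₃) = 2 * y + E.a₁ * x + E.a₃ := by ring
    rw [h1, div_mul_cancel₀ _ hd]
  · rw [addX]; ring
  · rw [negAddY]

/-- Addition criterion: the chord through two points with distinct `x`-coordinates. -/
lemma add_eq_neg {x1 y1 x2 y2 x3 y3 : F} (h1 : E.Nonsingular x1 y1) (h2 : E.Nonsingular x2 y2)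
    (h3 : E.Nonsingular x3 y3) (hx : x1 ≠ x2) (mu : F) (hmu : mu * (x1 - x2) = y1 - y2)
    (hX : x3 = mu ^ 2 + E.a₁ * mu - E.a₂ - x1 - x2) (hY : y3 = mu * (x3 - x1) + y1) :
    Point.some x1 y1 h1 + Point.some x2 y2 h2 = - Point.some x3 y3 h3 := by
  have hs : E.slope x1 x2 y1 y2 = mu := by
    rw [slope_of_X_ne hx, div_eq_iff (sub_ne_zero.mpr hx)]
    exact hmu.symm
  rw [Point.add_of_X_ne' hx, neg_inj, Point.some.injEq, hs]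
  refine ⟨?_, ?_⟩
  · rw [addX]; exact hX.symm
  · rw [negAddY, addX, hY, hX]

/-- Supersingular shape, trace `0`: `φ² = -2`. -/
lemma rel_ss0 {x y : F} (h : E.Nonsingular x y) (hA : E.Nonsingular (x ^ 4) (y ^ 4))
    (hd : 2 * y + E.a₁ * x + E.a₃ = 1)
    (cX : ∀ n : F, n = 3 * x ^ 2 + 2 * E.a₂ * x + E.a₄ - E.a₁ * y →
      x ^ 4 = n ^ 2 + E.a₁ * n - E.a₂ - 2 * x)
    (cY : ∀ n X2 : F, n = 3 * x ^ 2 + 2 * E.a₂ * x + E.a₄ - E.a₁ * y →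
      X2 = n ^ 2 + E.a₁ * n - E.a₂ - 2 * x → y ^ 4 = n * (X2 - x) + y) :
    Point.some _ _ hA + (Point.some _ _ h + Point.some _ _ h) = 0 := by
  obtain ⟨lam, X2, N2, hD, hGG, hlam, hX2, hN2⟩ := dbl_data E h (by rw [hd]; exact one_ne_zero)
  rw [hd, mul_one] at hlam
  have e1 : x ^ 4 = X2 := by rw [hX2]; exact cX lam hlam
  have e2 : y ^ 4 = N2 := by rw [hN2]; exact cY lam X2 hlam hX2
  have e3 : Point.some _ _ hA = Point.some _ _ hD := by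
    rw [Point.some.injEq]; exact ⟨e1, e2⟩
  rw [hGG, e3, add_neg_cancel]

/-- Supersingular shape, trace `±2`: the doubling data and the chord through `φ²G` and `2G`. -/
lemma ss2_core {x y : F} (h : E.Nonsingular x y) (hA : E.Nonsingular (x ^ 4) (y ^ 4))
    (hd : 2 * y + E.a₁ * x + E.a₃ = 1)
    (cNE : ∀ n X2 : F, n = 3 * x ^ 2 + 2 * E.a₂ * x + E.a₄ - E.a₁ * y →
      X2 = n ^ 2 + E.a₁ * n - E.a₂ - 2 * x → x ^ 4 - X2 = -1)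
    (cMU : ∀ n X2 N2 mu : F, n = 3 * x ^ 2 + 2 * E.a₂ * x + E.a₄ - E.a₁ * y →
      X2 = n ^ 2 + E.a₁ * n - E.a₂ - 2 * x → N2 = n * (X2 - x) + y →
      mu = y ^ 4 + N2 + E.a₁ * X2 + E.a₃ → mu * (x ^ 4 - X2) = y ^ 4 - (-N2 - E.a₁ * X2 - E.a₃))
    (cX : ∀ n X2 N2 mu : F, n = 3 * x ^ 2 + 2 * E.a₂ * x + E.a₄ - E.a₁ * y →
      X2 = n ^ 2 + E.a₁ * n - E.a₂ - 2 * x → N2 = n * (X2 - x) + y →
      mu = y ^ 4 + N2 + E.a₁ * X2 + E.a₃ → X2 ^ 2 = mu ^ 2 + E.a₁ * mu - E.a₂ - x ^ 4 - X2) :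
    ∃ (n X2 N2 : F) (hD : E.Nonsingular X2 N2),
      n = 3 * x ^ 2 + 2 * E.a₂ * x + E.a₄ - E.a₁ * y ∧ X2 = n ^ 2 + E.a₁ * n - E.a₂ - 2 * x ∧
      N2 = n * (X2 - x) + y ∧
      Point.some _ _ h + Point.some _ _ h = - Point.some _ _ hD ∧
      ∀ (yT : F) (hT : E.Nonsingular (X2 ^ 2) yT),
        yT = (y ^ 4 + N2 + E.a₁ * X2 + E.a₃) * (X2 ^ 2 - x ^ 4) + y ^ 4 →
        Point.some _ _ hA + (Point.some _ _ h + Point.some _ _ h) = - Point.some _ _ hT := by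
  obtain ⟨lam, X2, N2, hD, hGG, hlam, hX2, hN2⟩ := dbl_data E h (by rw [hd]; exact one_ne_zero)
  rw [hd, mul_one] at hlam
  refine ⟨lam, X2, N2, hD, hlam, hX2, hN2, hGG, ?_⟩
  intro yT hT hyT
  have hne : x ^ 4 ≠ X2 := by
    intro h0
    have h1 := cNE lam X2 hlam hX2
    rw [h0, sub_self] at h1
    exact neg_ne_zero.mpr one_ne_zero h1.symm
  rw [hGG, Point.neg_some]
  refine add_eq_neg E hA _ hT hne (y ^ 4 + N2 + E.a₁ * X2 + E.a₃) ?_ ?_ hyT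
  · rw [negY]; exact cMU lam X2 N2 _ hlam hX2 hN2 rfl
  · exact cX lam X2 N2 _ hlam hX2 hN2 rfl

/-- Ordinary shape: `φ²G + B + 2G = 0` for `B = (x², yB)` (`B = ± φG`). -/
lemma rel_ord {x y yB : F} (h : E.Nonsingular x y) (hA : E.Nonsingular (x ^ 4) (y ^ 4))
    (hB : E.Nonsingular (x ^ 2) yB) (hd : 2 * y + E.a₁ * x + E.a₃ ≠ 0) (he : x ^ 4 - x ^ 2 ≠ 0)
    (cX : ∀ L M d e : F, L = 3 * x ^ 2 + 2 * E.a₂ * x + E.a₄ - E.a₁ * y → M = y ^ 4 - yB →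
      d = 2 * y + E.a₁ * x + E.a₃ → e = x ^ 4 - x ^ 2 →
      (L ^ 2 + E.a₁ * L * d - (E.a₂ + 2 * x) * d ^ 2) * e ^ 2 =
        (M ^ 2 + E.a₁ * M * e - (E.a₂ + x ^ 4 + x ^ 2) * e ^ 2) * d ^ 2)
    (cY : ∀ L M d e : F, L = 3 * x ^ 2 + 2 * E.a₂ * x + E.a₄ - E.a₁ * y → M = y ^ 4 - yB →
      d = 2 * y + E.a₁ * x + E.a₃ → e = x ^ 4 - x ^ 2 →
      -(L * ((L ^ 2 + E.a₁ * L * d - (E.a₂ + 2 * x) * d ^ 2) - x * d ^ 2) + y * d ^ 3) * e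
          - E.a₁ * (L ^ 2 + E.a₁ * L * d - (E.a₂ + 2 * x) * d ^ 2) * d * e - E.a₃ * d ^ 3 * e =
        M * ((L ^ 2 + E.a₁ * L * d - (E.a₂ + 2 * x) * d ^ 2) * d - x ^ 4 * d ^ 3)
          + y ^ 4 * d ^ 3 * e) :
    Point.some _ _ hA + Point.some _ _ hB + (Point.some _ _ h + Point.some _ _ h) = 0 := by
  obtain ⟨lam, X2, N2, hD, hGG, hlam, hX2, hN2⟩ := dbl_data E h hd
  obtain ⟨d, hd_def⟩ : ∃ d : F, d = 2 * y + E.a₁ * x + E.a₃ := ⟨_, rfl⟩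
  obtain ⟨e, he_def⟩ : ∃ e : F, e = x ^ 4 - x ^ 2 := ⟨_, rfl⟩
  rw [← hd_def] at hd hlam
  rw [← he_def] at he
  obtain ⟨mu, hmu⟩ : ∃ mu : F, mu * e = y ^ 4 - yB := ⟨(y ^ 4 - yB) / e, div_mul_cancel₀ _ he⟩
  have hx : x ^ 4 ≠ x ^ 2 := by rw [he_def] at he; exact sub_ne_zero.mp he
  have kX := cX (lam * d) (mu * e) d e hlam hmu hd_def he_def
  have kY := cY (lam * d) (mu * e) d e hlam hmu hd_def he_def
  have eX : X2 = mu ^ 2 + E.a₁ * mu - E.a₂ - x ^ 4 - x ^ 2 := by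
    apply mul_right_cancel₀ (mul_ne_zero (pow_ne_zero 2 hd) (pow_ne_zero 2 he))
    rw [hX2]
    linear_combination kX
  have eY : -N2 - E.a₁ * X2 - E.a₃ = mu * (X2 - x ^ 4) + y ^ 4 := by
    apply mul_right_cancel₀ (mul_ne_zero (pow_ne_zero 3 hd) he)
    rw [hN2, hX2]
    linear_combination kY
  have hsum := add_eq_neg E hA hB ((nonsingular_neg ..).mpr hD) hx mu
    (by rw [← he_def]; exact hmu) eX (by rw [negY]; exact eY)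
  rw [hsum, hGG, ← Point.neg_some hD, neg_neg, add_neg_cancel]

end alg

/-- Characteristic `2`. -/
lemma two_eq_zero_of_algebra (A : Type*) [CommRing A] [Algebra (ZMod 2) A] : (2 : A) = 0 := by
  have h : (2 : ZMod 2) = 0 := by decide
  have h1 := congrArg (algebraMap (ZMod 2) A) h
  rw [map_ofNat, map_zero] at h1
  exact h1

/-- The number of points of a nonsingular Weierstrass curve over `ZMod 2`. -/
lemma card_eq (W : WeierstrassCurve (ZMod 2)) (hΔ : W.Δ ≠ 0) :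
    Nat.card W.toAffine.Point = 1 + (Finset.univ.filter (fun p : ZMod 2 × ZMod 2 =>
      p.2 ^ 2 + W.a₁ * p.1 * p.2 + W.a₃ * p.2 = p.1 ^ 3 + W.a₂ * p.1 ^ 2 + W.a₄ * p.1 + W.a₆)).card := by
  have e1 := Nat.card_congr (WeierstrassCurve.Affine.nonsingularPointEquiv W.toAffine)
  have e2 : Nat.card (WithZero {xy : ZMod 2 × ZMod 2 // W.toAffine.Nonsingular xy.1 xy.2}) =
      Nat.card {xy : ZMod 2 × ZMod 2 // W.toAffine.Nonsingular xy.1 xy.2} + 1 := Finite.card_option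
  have e3 : Nat.card {xy : ZMod 2 × ZMod 2 // W.toAffine.Nonsingular xy.1 xy.2} =
      Nat.card {p : ZMod 2 × ZMod 2 // p.2 ^ 2 + W.a₁ * p.1 * p.2 + W.a₃ * p.2 =
        p.1 ^ 3 + W.a₂ * p.1 ^ 2 + W.a₄ * p.1 + W.a₆} := by
    refine Nat.card_congr (Equiv.subtypeEquivRight fun p => ?_)
    rw [← W.toAffine.equation_iff_nonsingular_of_Δ_ne_zero hΔ, WeierstrassCurve.Affine.equation_iff]
  rw [e1, e2, e3, Nat.card_eq_fintype_card, Fintype.card_subtype, add_comm]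

/-! ### Certificates (machine generated) -/

section certs

lemma cSD_00100 {F : Type*} [Field F] (a1 a2 a3 a4 a6 x y  : F)
    (e1 : a1 = 0) (e2 : a2 = 0) (e3 : a3 = 1) (e4 : a4 = 0) (e6 : a6 = 0)
    (h2 : (2 : F) = 0) (hc : y ^ 2 + a1 * x * y + a3 * y = x ^ 3 + a2 * x ^ 2 + a4 * x + a6) :
    2*y + a1*x + a3 = 1 := by
  subst e1 e2 e3 e4 e6
  linear_combination (y) * h2

lemma cS0X_00100 {F : Type*} [Field F] (a1 a2 a3 a4 a6 x y n : F)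
    (e1 : a1 = 0) (e2 : a2 = 0) (e3 : a3 = 1) (e4 : a4 = 0) (e6 : a6 = 0)
    (hn : n = 3*x^2 + 2*a2*x + a4 - a1*y)
    (h2 : (2 : F) = 0) (hc : y ^ 2 + a1 * x * y + a3 * y = x ^ 3 + a2 * x ^ 2 + a4 * x + a6) :
    x^4 = n^2 + a1*n - a2 - 2*x := by
  subst hn e1 e2 e3 e4 e6
  linear_combination ((-4) * x^4 + x) * h2

lemma cS0Y_00100 {F : Type*} [Field F] (a1 a2 a3 a4 a6 x y n X2 : F)
    (e1 : a1 = 0) (e2 : a2 = 0) (e3 : a3 = 1) (e4 : a4 = 0) (e6 : a6 = 0)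
    (hn : n = 3*x^2 + 2*a2*x + a4 - a1*y) (hX2 : X2 = n^2 + a1*n - a2 - 2*x)
    (h2 : (2 : F) = 0) (hc : y ^ 2 + a1 * x * y + a3 * y = x ^ 3 + a2 * x ^ 2 + a4 * x + a6) :
    y^4 = n*(X2 - x) + y := by
  subst hX2 hn e1 e2 e3 e4 e6
  linear_combination (y^2 + y + x^3 + 1) * hc
    + ((-1) * y^3 + (-1) * y^2 + (-1) * y + (-13) * x^6 + 5 * x^3) * h2

lemma cSD_00101 {F : Type*} [Field F] (a1 a2 a3 a4 a6 x y  : F)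
    (e1 : a1 = 0) (e2 : a2 = 0) (e3 : a3 = 1) (e4 : a4 = 0) (e6 : a6 = 1)
    (h2 : (2 : F) = 0) (hc : y ^ 2 + a1 * x * y + a3 * y = x ^ 3 + a2 * x ^ 2 + a4 * x + a6) :
    2*y + a1*x + a3 = 1 := by
  subst e1 e2 e3 e4 e6
  linear_combination (y) * h2

lemma cS0X_00101 {F : Type*} [Field F] (a1 a2 a3 a4 a6 x y n : F)
    (e1 : a1 = 0) (e2 : a2 = 0) (e3 : a3 = 1) (e4 : a4 = 0) (e6 : a6 = 1)
    (hn : n = 3*x^2 + 2*a2*x + a4 - a1*y)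
    (h2 : (2 : F) = 0) (hc : y ^ 2 + a1 * x * y + a3 * y = x ^ 3 + a2 * x ^ 2 + a4 * x + a6) :
    x^4 = n^2 + a1*n - a2 - 2*x := by
  subst hn e1 e2 e3 e4 e6
  linear_combination ((-4) * x^4 + x) * h2

lemma cS0Y_00101 {F : Type*} [Field F] (a1 a2 a3 a4 a6 x y n X2 : F)
    (e1 : a1 = 0) (e2 : a2 = 0) (e3 : a3 = 1) (e4 : a4 = 0) (e6 : a6 = 1)
    (hn : n = 3*x^2 + 2*a2*x + a4 - a1*y) (hX2 : X2 = n^2 + a1*n - a2 - 2*x)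
    (h2 : (2 : F) = 0) (hc : y ^ 2 + a1 * x * y + a3 * y = x ^ 3 + a2 * x ^ 2 + a4 * x + a6) :
    y^4 = n*(X2 - x) + y := by
  subst hX2 hn e1 e2 e3 e4 e6
  linear_combination (y^2 + y + x^3) * hc
    + ((-1) * y^3 + (-13) * x^6 + 5 * x^3) * h2

lemma cSD_00110 {F : Type*} [Field F] (a1 a2 a3 a4 a6 x y  : F)
    (e1 : a1 = 0) (e2 : a2 = 0) (e3 : a3 = 1) (e4 : a4 = 1) (e6 : a6 = 0)
    (h2 : (2 : F) = 0) (hc : y ^ 2 + a1 * x * y + a3 * y = x ^ 3 + a2 * x ^ 2 + a4 * x + a6) :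
    2*y + a1*x + a3 = 1 := by
  subst e1 e2 e3 e4 e6
  linear_combination (y) * h2

lemma cSNE_00110 {F : Type*} [Field F] (a1 a2 a3 a4 a6 x y n X2 : F)
    (e1 : a1 = 0) (e2 : a2 = 0) (e3 : a3 = 1) (e4 : a4 = 1) (e6 : a6 = 0)
    (hn : n = 3*x^2 + 2*a2*x + a4 - a1*y) (hX2 : X2 = n^2 + a1*n - a2 - 2*x)
    (h2 : (2 : F) = 0) (hc : y ^ 2 + a1 * x * y + a3 * y = x ^ 3 + a2 * x ^ 2 + a4 * x + a6) :
    x^4 - X2 = -1 := by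
  subst hX2 hn e1 e2 e3 e4 e6
  linear_combination ((-4) * x^4 + (-3) * x^2 + x) * h2

lemma cSMU_00110 {F : Type*} [Field F] (a1 a2 a3 a4 a6 x y n X2 N2 mu : F)
    (e1 : a1 = 0) (e2 : a2 = 0) (e3 : a3 = 1) (e4 : a4 = 1) (e6 : a6 = 0)
    (hn : n = 3*x^2 + 2*a2*x + a4 - a1*y) (hX2 : X2 = n^2 + a1*n - a2 - 2*x) (hN2 : N2 = n*(X2 - x) + y) (hmu : mu = y^4 + N2 + a1*X2 + a3)
    (h2 : (2 : F) = 0) (hc : y ^ 2 + a1 * x * y + a3 * y = x ^ 3 + a2 * x ^ 2 + a4 * x + a6) :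
    mu * (x^4 - X2) = y^4 - (-N2 - a1*X2 - a3) := by
  subst hmu hN2 hX2 hn e1 e2 e3 e4 e6
  linear_combination ((-4) * x^4 * y^4 + (-3) * x^2 * y^4 + x * y^4 + (-1) * y^4 + (-4) * x^4 * y + (-3) * x^2 * y +
      x * y + (-1) * y + (-108) * x^10 + (-189) * x^8 + 63 * x^7 + (-144) * x^6 + 66 * x^5 +
      (-71) * x^4 + 27 * x^3 + (-18) * x^2 + 5 * x + (-2)) * h2

lemma cSX_00110 {F : Type*} [Field F] (a1 a2 a3 a4 a6 x y n X2 N2 mu : F)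
    (e1 : a1 = 0) (e2 : a2 = 0) (e3 : a3 = 1) (e4 : a4 = 1) (e6 : a6 = 0)
    (hn : n = 3*x^2 + 2*a2*x + a4 - a1*y) (hX2 : X2 = n^2 + a1*n - a2 - 2*x) (hN2 : N2 = n*(X2 - x) + y) (hmu : mu = y^4 + N2 + a1*X2 + a3)
    (h2 : (2 : F) = 0) (hc : y ^ 2 + a1 * x * y + a3 * y = x ^ 3 + a2 * x ^ 2 + a4 * x + a6) :
    X2^2 = mu^2 + a1*mu - a2 - x^4 - X2 := by
  subst hmu hN2 hX2 hn e1 e2 e3 e4 e6
  linear_combination (y^6 + y^5 + x^3 * y^4 + x * y^4 + y^4 + y^3 + x^6 * y^2 + x^3 * y^2 + x^2 * y^2 + x * y^2 + y^2 +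
      x^6 * y + x^2 * y + y + x^9 + x^7 + x^5 + x) * hc
    + ((-1) * y^8 + (-1) * y^7 + (-1) * y^6 + (-2) * y^5 + (-27) * x^6 * y^4 + (-26) * x^4 * y^4 +
      9 * x^3 * y^4 + (-9) * x^2 * y^4 + 3 * x * y^4 + (-3) * y^4 + (-1) * x^6 * y^3 +
      (-1) * x^2 * y^3 + (-1) * y^3 + x^4 * y^2 + x^3 * y^2 + (-1) * y^2 + (-27) * x^6 * y +
      (-27) * x^4 * y + 10 * x^3 * y + (-9) * x^2 * y + 3 * x * y + (-2) * y + (-364) * x^12 +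
      (-728) * x^10 + 243 * x^9 + (-566) * x^8 + 324 * x^7 + (-283) * x^6 + 144 * x^5 + (-89) * x^4 +
      33 * x^3 + (-11) * x^2 + 3 * x + (-1)) * h2

lemma cSY_00110 {F : Type*} [Field F] (a1 a2 a3 a4 a6 x y n X2 N2 mu yT : F)
    (e1 : a1 = 0) (e2 : a2 = 0) (e3 : a3 = 1) (e4 : a4 = 1) (e6 : a6 = 0)
    (hn : n = 3*x^2 + 2*a2*x + a4 - a1*y) (hX2 : X2 = n^2 + a1*n - a2 - 2*x) (hN2 : N2 = n*(X2 - x) + y) (hmu : mu = y^4 + N2 + a1*X2 + a3) (hyT : yT = -N2^2 - a1*X2^2 - a3)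
    (h2 : (2 : F) = 0) (hc : y ^ 2 + a1 * x * y + a3 * y = x ^ 3 + a2 * x ^ 2 + a4 * x + a6) :
    yT = mu * (X2^2 - x^4) + y^4 := by
  subst hyT hmu hN2 hX2 hn e1 e2 e3 e4 e6
  linear_combination (x^8 * y^2 + x^4 * y^2 + x^8 * y + x^4 * y + x^11 + x^9 + x^8 + x^7 + x^5 + x^4 + 1) * hc
    + ((-41) * x^8 * y^4 + (-54) * x^6 * y^4 + 18 * x^5 * y^4 + (-27) * x^4 * y^4 + 12 * x^3 * y^4 +
      (-8) * x^2 * y^4 + 2 * x * y^4 + (-1) * y^4 + (-1) * x^8 * y^3 + (-1) * x^4 * y^3 +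
      (-1) * x^8 * y^2 + (-1) * x^4 * y^2 + (-1) * y^2 + (-41) * x^8 * y + (-81) * x^6 * y +
      18 * x^5 * y + (-54) * x^4 * y + 21 * x^3 * y + (-17) * x^2 * y + 5 * x * y + (-2) * y +
      (-1093) * x^14 + (-2915) * x^12 + 851 * x^11 + (-3266) * x^10 + 1661 * x^9 + (-2267) * x^8 +
      1265 * x^7 + (-1048) * x^6 + 512 * x^5 + (-287) * x^4 + 107 * x^3 + (-40) * x^2 + 9 * x + (-2)) * h2

lemma cSD_00111 {F : Type*} [Field F] (a1 a2 a3 a4 a6 x y  : F)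
    (e1 : a1 = 0) (e2 : a2 = 0) (e3 : a3 = 1) (e4 : a4 = 1) (e6 : a6 = 1)
    (h2 : (2 : F) = 0) (hc : y ^ 2 + a1 * x * y + a3 * y = x ^ 3 + a2 * x ^ 2 + a4 * x + a6) :
    2*y + a1*x + a3 = 1 := by
  subst e1 e2 e3 e4 e6
  linear_combination (y) * h2

lemma cSNE_00111 {F : Type*} [Field F] (a1 a2 a3 a4 a6 x y n X2 : F)
    (e1 : a1 = 0) (e2 : a2 = 0) (e3 : a3 = 1) (e4 : a4 = 1) (e6 : a6 = 1)
    (hn : n = 3*x^2 + 2*a2*x + a4 - a1*y) (hX2 : X2 = n^2 + a1*n - a2 - 2*x)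
    (h2 : (2 : F) = 0) (hc : y ^ 2 + a1 * x * y + a3 * y = x ^ 3 + a2 * x ^ 2 + a4 * x + a6) :
    x^4 - X2 = -1 := by
  subst hX2 hn e1 e2 e3 e4 e6
  linear_combination ((-4) * x^4 + (-3) * x^2 + x) * h2

lemma cSMU_00111 {F : Type*} [Field F] (a1 a2 a3 a4 a6 x y n X2 N2 mu : F)
    (e1 : a1 = 0) (e2 : a2 = 0) (e3 : a3 = 1) (e4 : a4 = 1) (e6 : a6 = 1)
    (hn : n = 3*x^2 + 2*a2*x + a4 - a1*y) (hX2 : X2 = n^2 + a1*n - a2 - 2*x) (hN2 : N2 = n*(X2 - x) + y) (hmu : mu = y^4 + N2 + a1*X2 + a3)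
    (h2 : (2 : F) = 0) (hc : y ^ 2 + a1 * x * y + a3 * y = x ^ 3 + a2 * x ^ 2 + a4 * x + a6) :
    mu * (x^4 - X2) = y^4 - (-N2 - a1*X2 - a3) := by
  subst hmu hN2 hX2 hn e1 e2 e3 e4 e6
  linear_combination ((-4) * x^4 * y^4 + (-3) * x^2 * y^4 + x * y^4 + (-1) * y^4 + (-4) * x^4 * y + (-3) * x^2 * y +
      x * y + (-1) * y + (-108) * x^10 + (-189) * x^8 + 63 * x^7 + (-144) * x^6 + 66 * x^5 +
      (-71) * x^4 + 27 * x^3 + (-18) * x^2 + 5 * x + (-2)) * h2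

lemma cSX_00111 {F : Type*} [Field F] (a1 a2 a3 a4 a6 x y n X2 N2 mu : F)
    (e1 : a1 = 0) (e2 : a2 = 0) (e3 : a3 = 1) (e4 : a4 = 1) (e6 : a6 = 1)
    (hn : n = 3*x^2 + 2*a2*x + a4 - a1*y) (hX2 : X2 = n^2 + a1*n - a2 - 2*x) (hN2 : N2 = n*(X2 - x) + y) (hmu : mu = y^4 + N2 + a1*X2 + a3)
    (h2 : (2 : F) = 0) (hc : y ^ 2 + a1 * x * y + a3 * y = x ^ 3 + a2 * x ^ 2 + a4 * x + a6) :
    X2^2 = mu^2 + a1*mu - a2 - x^4 - X2 := by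
  subst hmu hN2 hX2 hn e1 e2 e3 e4 e6
  linear_combination (y^6 + y^5 + x^3 * y^4 + x * y^4 + y^3 + x^6 * y^2 + x^3 * y^2 + x^2 * y^2 + x * y^2 + y^2 +
      x^6 * y + x^2 * y + x^9 + x^7 + x^6 + x^5 + x^3 + x^2) * hc
    + ((-1) * y^8 + (-1) * y^7 + (-1) * y^5 + (-27) * x^6 * y^4 + (-26) * x^4 * y^4 + 9 * x^3 * y^4 +
      (-9) * x^2 * y^4 + 3 * x * y^4 + (-3) * y^4 + (-1) * x^6 * y^3 + (-1) * x^2 * y^3 + x^4 * y^2 +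
      x^3 * y^2 + x * y^2 + (-27) * x^6 * y + (-27) * x^4 * y + 9 * x^3 * y + (-9) * x^2 * y +
      3 * x * y + (-2) * y + (-364) * x^12 + (-728) * x^10 + 244 * x^9 + (-566) * x^8 + 325 * x^7 +
      (-282) * x^6 + 145 * x^5 + (-89) * x^4 + 34 * x^3 + (-11) * x^2 + 3 * x + (-1)) * h2

lemma cSY_00111 {F : Type*} [Field F] (a1 a2 a3 a4 a6 x y n X2 N2 mu yT : F)
    (e1 : a1 = 0) (e2 : a2 = 0) (e3 : a3 = 1) (e4 : a4 = 1) (e6 : a6 = 1)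
    (hn : n = 3*x^2 + 2*a2*x + a4 - a1*y) (hX2 : X2 = n^2 + a1*n - a2 - 2*x) (hN2 : N2 = n*(X2 - x) + y) (hmu : mu = y^4 + N2 + a1*X2 + a3) (hyT : yT = N2^2)
    (h2 : (2 : F) = 0) (hc : y ^ 2 + a1 * x * y + a3 * y = x ^ 3 + a2 * x ^ 2 + a4 * x + a6) :
    yT = mu * (X2^2 - x^4) + y^4 := by
  subst hyT hmu hN2 hX2 hn e1 e2 e3 e4 e6
  linear_combination (x^8 * y^2 + x^4 * y^2 + x^8 * y + x^4 * y + x^11 + x^9 + x^7 + x^5 + 1) * hc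
    + ((-41) * x^8 * y^4 + (-54) * x^6 * y^4 + 18 * x^5 * y^4 + (-27) * x^4 * y^4 + 12 * x^3 * y^4 +
      (-8) * x^2 * y^4 + 2 * x * y^4 + (-1) * y^4 + (-1) * x^8 * y^3 + (-1) * x^4 * y^3 +
      (-40) * x^8 * y + (-27) * x^6 * y + 18 * x^5 * y + x^4 * y + 3 * x^3 * y + x^2 * y +
      (-1) * x * y + (-1093) * x^14 + (-2186) * x^12 + 851 * x^11 + (-1808) * x^10 + 1175 * x^9 +
      (-1052) * x^8 + 617 * x^7 + (-427) * x^6 + 188 * x^5 + (-98) * x^4 + 35 * x^3 + (-13) * x^2 +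
      3 * x) * h2

lemma cSD_01100 {F : Type*} [Field F] (a1 a2 a3 a4 a6 x y  : F)
    (e1 : a1 = 0) (e2 : a2 = 1) (e3 : a3 = 1) (e4 : a4 = 0) (e6 : a6 = 0)
    (h2 : (2 : F) = 0) (hc : y ^ 2 + a1 * x * y + a3 * y = x ^ 3 + a2 * x ^ 2 + a4 * x + a6) :
    2*y + a1*x + a3 = 1 := by
  subst e1 e2 e3 e4 e6
  linear_combination (y) * h2

lemma cSNE_01100 {F : Type*} [Field F] (a1 a2 a3 a4 a6 x y n X2 : F)
    (e1 : a1 = 0) (e2 : a2 = 1) (e3 : a3 = 1) (e4 : a4 = 0) (e6 : a6 = 0)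
    (hn : n = 3*x^2 + 2*a2*x + a4 - a1*y) (hX2 : X2 = n^2 + a1*n - a2 - 2*x)
    (h2 : (2 : F) = 0) (hc : y ^ 2 + a1 * x * y + a3 * y = x ^ 3 + a2 * x ^ 2 + a4 * x + a6) :
    x^4 - X2 = -1 := by
  subst hX2 hn e1 e2 e3 e4 e6
  linear_combination ((-4) * x^4 + (-6) * x^3 + (-2) * x^2 + x + 1) * h2

lemma cSMU_01100 {F : Type*} [Field F] (a1 a2 a3 a4 a6 x y n X2 N2 mu : F)
    (e1 : a1 = 0) (e2 : a2 = 1) (e3 : a3 = 1) (e4 : a4 = 0) (e6 : a6 = 0)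
    (hn : n = 3*x^2 + 2*a2*x + a4 - a1*y) (hX2 : X2 = n^2 + a1*n - a2 - 2*x) (hN2 : N2 = n*(X2 - x) + y) (hmu : mu = y^4 + N2 + a1*X2 + a3)
    (h2 : (2 : F) = 0) (hc : y ^ 2 + a1 * x * y + a3 * y = x ^ 3 + a2 * x ^ 2 + a4 * x + a6) :
    mu * (x^4 - X2) = y^4 - (-N2 - a1*X2 - a3) := by
  subst hmu hN2 hX2 hn e1 e2 e3 e4 e6
  linear_combination ((-4) * x^4 * y^4 + (-6) * x^3 * y^4 + (-2) * x^2 * y^4 + x * y^4 + (-4) * x^4 * y +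
      (-6) * x^3 * y + (-2) * x^2 * y + x * y + (-108) * x^10 + (-378) * x^9 + (-522) * x^8 +
      (-293) * x^7 + 24 * x^6 + 100 * x^5 + 25 * x^4 + (-11) * x^3 + (-4) * x^2 + x) * h2

lemma cSX_01100 {F : Type*} [Field F] (a1 a2 a3 a4 a6 x y n X2 N2 mu : F)
    (e1 : a1 = 0) (e2 : a2 = 1) (e3 : a3 = 1) (e4 : a4 = 0) (e6 : a6 = 0)
    (hn : n = 3*x^2 + 2*a2*x + a4 - a1*y) (hX2 : X2 = n^2 + a1*n - a2 - 2*x) (hN2 : N2 = n*(X2 - x) + y) (hmu : mu = y^4 + N2 + a1*X2 + a3)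
    (h2 : (2 : F) = 0) (hc : y ^ 2 + a1 * x * y + a3 * y = x ^ 3 + a2 * x ^ 2 + a4 * x + a6) :
    X2^2 = mu^2 + a1*mu - a2 - x^4 - X2 := by
  subst hmu hN2 hX2 hn e1 e2 e3 e4 e6
  linear_combination (y^6 + y^5 + x^3 * y^4 + x^2 * y^4 + y^4 + y^3 + x^6 * y^2 + x^4 * y^2 + x^3 * y^2 + x^2 * y^2 +
      y^2 + x^6 * y + x^4 * y + y + x^9 + x^8 + x^7 + x^6 + x^3 + x^2) * hc
    + ((-1) * y^8 + (-1) * y^7 + (-1) * y^6 + (-2) * y^5 + (-27) * x^6 * y^4 + (-53) * x^5 * y^4 +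
      (-36) * x^4 * y^4 + x^3 * y^4 + 9 * x^2 * y^4 + 2 * x * y^4 + (-2) * y^4 + (-1) * x^6 * y^3 +
      (-1) * x^4 * y^3 + (-1) * y^3 + x^5 * y^2 + (-1) * y^2 + (-27) * x^6 * y + (-54) * x^5 * y +
      (-36) * x^4 * y + x^3 * y + 9 * x^2 * y + 2 * x * y + (-1) * y + (-364) * x^12 + (-1457) * x^11 +
      (-2429) * x^10 + (-1916) * x^9 + (-310) * x^8 + 684 * x^7 + 513 * x^6 + 40 * x^5 + (-98) * x^4 +
      (-31) * x^3 + 7 * x^2 + 3 * x) * h2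

lemma cSY_01100 {F : Type*} [Field F] (a1 a2 a3 a4 a6 x y n X2 N2 mu yT : F)
    (e1 : a1 = 0) (e2 : a2 = 1) (e3 : a3 = 1) (e4 : a4 = 0) (e6 : a6 = 0)
    (hn : n = 3*x^2 + 2*a2*x + a4 - a1*y) (hX2 : X2 = n^2 + a1*n - a2 - 2*x) (hN2 : N2 = n*(X2 - x) + y) (hmu : mu = y^4 + N2 + a1*X2 + a3) (hyT : yT = -N2^2 - a1*X2^2 - a3)
    (h2 : (2 : F) = 0) (hc : y ^ 2 + a1 * x * y + a3 * y = x ^ 3 + a2 * x ^ 2 + a4 * x + a6) :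
    yT = mu * (X2^2 - x^4) + y^4 := by
  subst hyT hmu hN2 hX2 hn e1 e2 e3 e4 e6
  linear_combination (x^8 * y^2 + x^4 * y^2 + x^8 * y + x^4 * y + x^11 + x^10 + x^8 + x^7 + x^6 + x^4 + 1) * hc
    + ((-41) * x^8 * y^4 + (-108) * x^7 * y^4 + (-108) * x^6 * y^4 + (-30) * x^5 * y^4 + 25 * x^4 * y^4 +
      20 * x^3 * y^4 + 2 * x^2 * y^4 + (-2) * x * y^4 + (-1) * y^4 + (-1) * x^8 * y^3 +
      (-1) * x^4 * y^3 + (-1) * x^8 * y^2 + (-1) * x^4 * y^2 + (-1) * y^2 + (-41) * x^8 * y +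
      (-108) * x^7 * y + (-135) * x^6 * y + (-84) * x^5 * y + (-11) * x^4 * y + 21 * x^3 * y +
      11 * x^2 * y + (-1) * y + (-1093) * x^14 + (-5102) * x^13 + (-10570) * x^12 + (-11947) * x^11 +
      (-6776) * x^10 + 82 * x^9 + 2879 * x^8 + 1703 * x^7 + 85 * x^6 + (-299) * x^5 + (-91) * x^4 +
      17 * x^3 + 9 * x^2 + (-1) * x + (-1)) * h2

lemma cSD_01101 {F : Type*} [Field F] (a1 a2 a3 a4 a6 x y  : F)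
    (e1 : a1 = 0) (e2 : a2 = 1) (e3 : a3 = 1) (e4 : a4 = 0) (e6 : a6 = 1)
    (h2 : (2 : F) = 0) (hc : y ^ 2 + a1 * x * y + a3 * y = x ^ 3 + a2 * x ^ 2 + a4 * x + a6) :
    2*y + a1*x + a3 = 1 := by
  subst e1 e2 e3 e4 e6
  linear_combination (y) * h2

lemma cSNE_01101 {F : Type*} [Field F] (a1 a2 a3 a4 a6 x y n X2 : F)
    (e1 : a1 = 0) (e2 : a2 = 1) (e3 : a3 = 1) (e4 : a4 = 0) (e6 : a6 = 1)
    (hn : n = 3*x^2 + 2*a2*x + a4 - a1*y) (hX2 : X2 = n^2 + a1*n - a2 - 2*x)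
    (h2 : (2 : F) = 0) (hc : y ^ 2 + a1 * x * y + a3 * y = x ^ 3 + a2 * x ^ 2 + a4 * x + a6) :
    x^4 - X2 = -1 := by
  subst hX2 hn e1 e2 e3 e4 e6
  linear_combination ((-4) * x^4 + (-6) * x^3 + (-2) * x^2 + x + 1) * h2

lemma cSMU_01101 {F : Type*} [Field F] (a1 a2 a3 a4 a6 x y n X2 N2 mu : F)
    (e1 : a1 = 0) (e2 : a2 = 1) (e3 : a3 = 1) (e4 : a4 = 0) (e6 : a6 = 1)
    (hn : n = 3*x^2 + 2*a2*x + a4 - a1*y) (hX2 : X2 = n^2 + a1*n - a2 - 2*x) (hN2 : N2 = n*(X2 - x) + y) (hmu : mu = y^4 + N2 + a1*X2 + a3)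
    (h2 : (2 : F) = 0) (hc : y ^ 2 + a1 * x * y + a3 * y = x ^ 3 + a2 * x ^ 2 + a4 * x + a6) :
    mu * (x^4 - X2) = y^4 - (-N2 - a1*X2 - a3) := by
  subst hmu hN2 hX2 hn e1 e2 e3 e4 e6
  linear_combination ((-4) * x^4 * y^4 + (-6) * x^3 * y^4 + (-2) * x^2 * y^4 + x * y^4 + (-4) * x^4 * y +
      (-6) * x^3 * y + (-2) * x^2 * y + x * y + (-108) * x^10 + (-378) * x^9 + (-522) * x^8 +
      (-293) * x^7 + 24 * x^6 + 100 * x^5 + 25 * x^4 + (-11) * x^3 + (-4) * x^2 + x) * h2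

lemma cSX_01101 {F : Type*} [Field F] (a1 a2 a3 a4 a6 x y n X2 N2 mu : F)
    (e1 : a1 = 0) (e2 : a2 = 1) (e3 : a3 = 1) (e4 : a4 = 0) (e6 : a6 = 1)
    (hn : n = 3*x^2 + 2*a2*x + a4 - a1*y) (hX2 : X2 = n^2 + a1*n - a2 - 2*x) (hN2 : N2 = n*(X2 - x) + y) (hmu : mu = y^4 + N2 + a1*X2 + a3)
    (h2 : (2 : F) = 0) (hc : y ^ 2 + a1 * x * y + a3 * y = x ^ 3 + a2 * x ^ 2 + a4 * x + a6) :
    X2^2 = mu^2 + a1*mu - a2 - x^4 - X2 := by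
  subst hmu hN2 hX2 hn e1 e2 e3 e4 e6
  linear_combination (y^6 + y^5 + x^3 * y^4 + x^2 * y^4 + y^3 + x^6 * y^2 + x^4 * y^2 + x^3 * y^2 + x^2 * y^2 + y^2 +
      x^6 * y + x^4 * y + x^9 + x^8 + x^7 + x^4) * hc
    + ((-1) * y^8 + (-1) * y^7 + (-1) * y^5 + (-27) * x^6 * y^4 + (-53) * x^5 * y^4 + (-36) * x^4 * y^4 +
      x^3 * y^4 + 9 * x^2 * y^4 + 2 * x * y^4 + (-2) * y^4 + (-1) * x^6 * y^3 + (-1) * x^4 * y^3 +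
      x^6 * y^2 + x^5 * y^2 + x^3 * y^2 + x^2 * y^2 + (-26) * x^6 * y + (-54) * x^5 * y +
      (-36) * x^4 * y + x^3 * y + 9 * x^2 * y + 2 * x * y + (-1) * y + (-364) * x^12 + (-1457) * x^11 +
      (-2429) * x^10 + (-1916) * x^9 + (-310) * x^8 + 685 * x^7 + 513 * x^6 + 39 * x^5 + (-98) * x^4 +
      (-31) * x^3 + 7 * x^2 + 3 * x) * h2

lemma cSY_01101 {F : Type*} [Field F] (a1 a2 a3 a4 a6 x y n X2 N2 mu yT : F)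
    (e1 : a1 = 0) (e2 : a2 = 1) (e3 : a3 = 1) (e4 : a4 = 0) (e6 : a6 = 1)
    (hn : n = 3*x^2 + 2*a2*x + a4 - a1*y) (hX2 : X2 = n^2 + a1*n - a2 - 2*x) (hN2 : N2 = n*(X2 - x) + y) (hmu : mu = y^4 + N2 + a1*X2 + a3) (hyT : yT = N2^2)
    (h2 : (2 : F) = 0) (hc : y ^ 2 + a1 * x * y + a3 * y = x ^ 3 + a2 * x ^ 2 + a4 * x + a6) :
    yT = mu * (X2^2 - x^4) + y^4 := by
  subst hyT hmu hN2 hX2 hn e1 e2 e3 e4 e6
  linear_combination (x^8 * y^2 + x^4 * y^2 + x^8 * y + x^4 * y + x^11 + x^10 + x^7 + x^6 + 1) * hc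
    + ((-41) * x^8 * y^4 + (-108) * x^7 * y^4 + (-108) * x^6 * y^4 + (-30) * x^5 * y^4 + 25 * x^4 * y^4 +
      20 * x^3 * y^4 + 2 * x^2 * y^4 + (-2) * x * y^4 + (-1) * y^4 + (-1) * x^8 * y^3 +
      (-1) * x^4 * y^3 + (-40) * x^8 * y + (-108) * x^7 * y + (-81) * x^6 * y + 24 * x^5 * y +
      62 * x^4 * y + 19 * x^3 * y + (-7) * x^2 * y + (-4) * x * y + (-1) * y + (-1093) * x^14 +
      (-5102) * x^13 + (-9841) * x^12 + (-9031) * x^11 + (-1916) * x^10 + 3916 * x^9 + 3581 * x^8 +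
      551 * x^7 + (-778) * x^6 + (-425) * x^5 + (-6) * x^4 + 53 * x^3 + 13 * x^2 + (-1) * x) * h2

lemma cSD_01110 {F : Type*} [Field F] (a1 a2 a3 a4 a6 x y  : F)
    (e1 : a1 = 0) (e2 : a2 = 1) (e3 : a3 = 1) (e4 : a4 = 1) (e6 : a6 = 0)
    (h2 : (2 : F) = 0) (hc : y ^ 2 + a1 * x * y + a3 * y = x ^ 3 + a2 * x ^ 2 + a4 * x + a6) :
    2*y + a1*x + a3 = 1 := by
  subst e1 e2 e3 e4 e6
  linear_combination (y) * h2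

lemma cS0X_01110 {F : Type*} [Field F] (a1 a2 a3 a4 a6 x y n : F)
    (e1 : a1 = 0) (e2 : a2 = 1) (e3 : a3 = 1) (e4 : a4 = 1) (e6 : a6 = 0)
    (hn : n = 3*x^2 + 2*a2*x + a4 - a1*y)
    (h2 : (2 : F) = 0) (hc : y ^ 2 + a1 * x * y + a3 * y = x ^ 3 + a2 * x ^ 2 + a4 * x + a6) :
    x^4 = n^2 + a1*n - a2 - 2*x := by
  subst hn e1 e2 e3 e4 e6
  linear_combination ((-4) * x^4 + (-6) * x^3 + (-5) * x^2 + (-1) * x) * h2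

lemma cS0Y_01110 {F : Type*} [Field F] (a1 a2 a3 a4 a6 x y n X2 : F)
    (e1 : a1 = 0) (e2 : a2 = 1) (e3 : a3 = 1) (e4 : a4 = 1) (e6 : a6 = 0)
    (hn : n = 3*x^2 + 2*a2*x + a4 - a1*y) (hX2 : X2 = n^2 + a1*n - a2 - 2*x)
    (h2 : (2 : F) = 0) (hc : y ^ 2 + a1 * x * y + a3 * y = x ^ 3 + a2 * x ^ 2 + a4 * x + a6) :
    y^4 = n*(X2 - x) + y := by
  subst hX2 hn e1 e2 e3 e4 e6
  linear_combination (y^2 + y + x^3 + x^2 + x + 1) * hc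
    + ((-1) * y^3 + (-1) * y^2 + (-1) * y + (-13) * x^6 + (-26) * x^5 + (-30) * x^4 + (-16) * x^3 +
      (-5) * x^2) * h2

lemma cSD_01111 {F : Type*} [Field F] (a1 a2 a3 a4 a6 x y  : F)
    (e1 : a1 = 0) (e2 : a2 = 1) (e3 : a3 = 1) (e4 : a4 = 1) (e6 : a6 = 1)
    (h2 : (2 : F) = 0) (hc : y ^ 2 + a1 * x * y + a3 * y = x ^ 3 + a2 * x ^ 2 + a4 * x + a6) :
    2*y + a1*x + a3 = 1 := by
  subst e1 e2 e3 e4 e6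
  linear_combination (y) * h2

lemma cS0X_01111 {F : Type*} [Field F] (a1 a2 a3 a4 a6 x y n : F)
    (e1 : a1 = 0) (e2 : a2 = 1) (e3 : a3 = 1) (e4 : a4 = 1) (e6 : a6 = 1)
    (hn : n = 3*x^2 + 2*a2*x + a4 - a1*y)
    (h2 : (2 : F) = 0) (hc : y ^ 2 + a1 * x * y + a3 * y = x ^ 3 + a2 * x ^ 2 + a4 * x + a6) :
    x^4 = n^2 + a1*n - a2 - 2*x := by
  subst hn e1 e2 e3 e4 e6
  linear_combination ((-4) * x^4 + (-6) * x^3 + (-5) * x^2 + (-1) * x) * h2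

lemma cS0Y_01111 {F : Type*} [Field F] (a1 a2 a3 a4 a6 x y n X2 : F)
    (e1 : a1 = 0) (e2 : a2 = 1) (e3 : a3 = 1) (e4 : a4 = 1) (e6 : a6 = 1)
    (hn : n = 3*x^2 + 2*a2*x + a4 - a1*y) (hX2 : X2 = n^2 + a1*n - a2 - 2*x)
    (h2 : (2 : F) = 0) (hc : y ^ 2 + a1 * x * y + a3 * y = x ^ 3 + a2 * x ^ 2 + a4 * x + a6) :
    y^4 = n*(X2 - x) + y := by
  subst hX2 hn e1 e2 e3 e4 e6
  linear_combination (y^2 + y + x^3 + x^2 + x) * hc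
    + ((-1) * y^3 + (-13) * x^6 + (-26) * x^5 + (-30) * x^4 + (-16) * x^3 + (-5) * x^2) * h2

lemma cOX_10001 {F : Type*} [Field F] (a1 a2 a3 a4 a6 x y L M d e : F)
    (e1 : a1 = 1) (e2 : a2 = 0) (e3 : a3 = 0) (e4 : a4 = 0) (e6 : a6 = 1)
    (hL : L = 3*x^2 + 2*a2*x + a4 - a1*y) (hM : M = y^4 - y^2) (hd : d = 2*y + a1*x + a3) (he : e = x^4 - x^2)
    (h2 : (2 : F) = 0) (hc : y ^ 2 + a1 * x * y + a3 * y = x ^ 3 + a2 * x ^ 2 + a4 * x + a6) :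
    (L^2 + a1*L*d - (a2 + 2*x)*d^2) * e^2 = (M^2 + a1*M*e - (a2 + x^4 + x^2)*e^2) * d^2 := by
  subst he hd hM hL e1 e2 e3 e4 e6
  linear_combination (x^2 * y^6 + x^3 * y^5 + x^5 * y^4 + x^4 * y^4 + x^2 * y^4 + x^5 * y^3 + x^8 * y^2 + x^7 * y^2 +
      x^9 * y + x^5 * y + x^11 + x^7) * hc
    + ((-2) * y^10 + (-2) * x * y^9 + (-1) * x^2 * y^8 + 4 * y^8 + (-1) * x^3 * y^7 + 4 * x * y^7 +
      (-3) * x^4 * y^6 + 3 * x^2 * y^6 + (-2) * y^6 + (-3) * x^5 * y^5 + 2 * x^3 * y^5 +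
      (-2) * x * y^5 + (-1) * x^6 * y^4 + x^5 * y^4 + 3 * x^4 * y^4 + (-2) * x^2 * y^4 +
      (-1) * x^9 * y^3 + 2 * x^5 * y^3 + (-2) * x^3 * y^3 + 2 * x^12 * y^2 + (-2) * x^10 * y^2 +
      (-4) * x^9 * y^2 + (-2) * x^8 * y^2 + 8 * x^7 * y^2 + 3 * x^6 * y^2 + (-4) * x^5 * y^2 +
      (-1) * x^4 * y^2 + 2 * x^13 * y + (-2) * x^11 * y + (-4) * x^10 * y + (-2) * x^9 * y +
      8 * x^8 * y + 3 * x^7 * y + (-4) * x^6 * y + x^14 + 4 * x^12 + x^11 + (-9) * x^10 + (-1) * x^9 +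
      5 * x^8 + x^7) * h2

lemma cOY_10001 {F : Type*} [Field F] (a1 a2 a3 a4 a6 x y L M d e : F)
    (e1 : a1 = 1) (e2 : a2 = 0) (e3 : a3 = 0) (e4 : a4 = 0) (e6 : a6 = 1)
    (hL : L = 3*x^2 + 2*a2*x + a4 - a1*y) (hM : M = y^4 - y^2) (hd : d = 2*y + a1*x + a3) (he : e = x^4 - x^2)
    (h2 : (2 : F) = 0) (hc : y ^ 2 + a1 * x * y + a3 * y = x ^ 3 + a2 * x ^ 2 + a4 * x + a6) :
    -(L*((L^2 + a1*L*d - (a2 + 2*x)*d^2) - x*d^2) + y*d^3)*e - a1*(L^2 + a1*L*d - (a2 + 2*x)*d^2)*d*e - a3*d^3*e = M*((L^2 + a1*L*d - (a2 + 2*x)*d^2)*d - x^4*d^3) + y^4*d^3*e := by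
  subst he hd hM hL e1 e2 e3 e4 e6
  linear_combination (x * y^4 + x^4 * y + x^7 + x^6) * hc
    + (4 * x^2 * y^7 + 8 * x * y^7 + y^7 + 6 * x^3 * y^6 + 12 * x^2 * y^6 + x * y^6 + (-10) * x^4 * y^5 +
      3 * x^3 * y^5 + (-8) * x * y^5 + (-1) * y^5 + (-10) * x^5 * y^4 + (-4) * x^4 * y^4 +
      (-8) * x^2 * y^4 + (-1) * x * y^4 + (-3) * x^6 * y^3 + (-4) * x^5 * y^3 + 9 * x^4 * y^3 +
      x^3 * y^3 + (-1) * x^2 * y^3 + 17 * x^7 * y^2 + 4 * x^6 * y^2 + (-13) * x^5 * y^2 +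
      (-4) * x^4 * y^2 + (-1) * x^3 * y^2 + 13 * x^8 * y + 4 * x^7 * y + (-13) * x^6 * y +
      (-4) * x^5 * y + (-13) * x^10 + (-4) * x^9 + 13 * x^8 + 5 * x^7 + x^6) * h2

lemma cOX_10010 {F : Type*} [Field F] (a1 a2 a3 a4 a6 x y L M d e : F)
    (e1 : a1 = 1) (e2 : a2 = 0) (e3 : a3 = 0) (e4 : a4 = 1) (e6 : a6 = 0)
    (hL : L = 3*x^2 + 2*a2*x + a4 - a1*y) (hM : M = y^4 - y^2) (hd : d = 2*y + a1*x + a3) (he : e = x^4 - x^2)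
    (h2 : (2 : F) = 0) (hc : y ^ 2 + a1 * x * y + a3 * y = x ^ 3 + a2 * x ^ 2 + a4 * x + a6) :
    (L^2 + a1*L*d - (a2 + 2*x)*d^2) * e^2 = (M^2 + a1*M*e - (a2 + x^4 + x^2)*e^2) * d^2 := by
  subst he hd hM hL e1 e2 e3 e4 e6
  linear_combination (x^2 * y^6 + x^3 * y^5 + x^5 * y^4 + x^4 * y^4 + x^3 * y^4 + x^5 * y^3 + x^8 * y^2 + x^7 * y^2 +
      x^5 * y^2 + x^2 * y^2 + x^9 * y + x^3 * y + x^11 + x^9 + x^8 + x^5 + x^4 + x^3) * hc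
    + ((-2) * y^10 + (-2) * x * y^9 + (-1) * x^2 * y^8 + 4 * y^8 + (-1) * x^3 * y^7 + 4 * x * y^7 +
      (-3) * x^4 * y^6 + 3 * x^2 * y^6 + (-2) * y^6 + (-3) * x^5 * y^5 + 2 * x^3 * y^5 +
      (-2) * x * y^5 + 3 * x^4 * y^4 + (-3) * x^2 * y^4 + (-1) * x^9 * y^3 + 2 * x^5 * y^3 +
      (-3) * x^3 * y^3 + 2 * x^12 * y^2 + (-2) * x^10 * y^2 + (-4) * x^9 * y^2 + (-2) * x^8 * y^2 +
      8 * x^7 * y^2 + 4 * x^6 * y^2 + (-4) * x^5 * y^2 + (-2) * x^4 * y^2 + 2 * x^13 * y +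
      (-2) * x^11 * y + (-4) * x^10 * y + (-3) * x^9 * y + 8 * x^8 * y + 3 * x^7 * y + (-4) * x^6 * y +
      (-1) * x^5 * y + x^14 + 5 * x^12 + x^11 + (-6) * x^10 + 3 * x^6 + x^5 + x^4) * h2

lemma cOY_10010 {F : Type*} [Field F] (a1 a2 a3 a4 a6 x y L M d e : F)
    (e1 : a1 = 1) (e2 : a2 = 0) (e3 : a3 = 0) (e4 : a4 = 1) (e6 : a6 = 0)
    (hL : L = 3*x^2 + 2*a2*x + a4 - a1*y) (hM : M = y^4 - y^2) (hd : d = 2*y + a1*x + a3) (he : e = x^4 - x^2)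
    (h2 : (2 : F) = 0) (hc : y ^ 2 + a1 * x * y + a3 * y = x ^ 3 + a2 * x ^ 2 + a4 * x + a6) :
    -(L*((L^2 + a1*L*d - (a2 + 2*x)*d^2) - x*d^2) + y*d^3)*e - a1*(L^2 + a1*L*d - (a2 + 2*x)*d^2)*d*e - a3*d^3*e = M*((L^2 + a1*L*d - (a2 + 2*x)*d^2)*d - x^4*d^3) + y^4*d^3*e := by
  subst he hd hM hL e1 e2 e3 e4 e6
  linear_combination (x * y^4 + x^4 * y + x^7 + x^6 + x^4 + x) * hc
    + (4 * x^2 * y^7 + 8 * x * y^7 + y^7 + 6 * x^3 * y^6 + 12 * x^2 * y^6 + x * y^6 + (-10) * x^4 * y^5 +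
      3 * x^3 * y^5 + (-6) * x^2 * y^5 + (-9) * x * y^5 + (-2) * y^5 + (-10) * x^5 * y^4 +
      (-4) * x^4 * y^4 + (-3) * x^3 * y^4 + (-8) * x^2 * y^4 + (-2) * x * y^4 + (-3) * x^6 * y^3 +
      (-4) * x^5 * y^3 + 9 * x^4 * y^3 + x^3 * y^3 + 5 * x^2 * y^3 + x * y^3 + y^3 + 17 * x^7 * y^2 +
      4 * x^6 * y^2 + (-7) * x^5 * y^2 + (-4) * x^4 * y^2 + (-4) * x^3 * y^2 + 13 * x^8 * y +
      4 * x^7 * y + (-10) * x^6 * y + (-4) * x^5 * y + (-4) * x^4 * y + (-13) * x^10 + (-4) * x^9 +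
      x^7 + 9 * x^6 + 4 * x^5 + 5 * x^4 + x^3 + x^2) * h2

lemma cOX_10101 {F : Type*} [Field F] (a1 a2 a3 a4 a6 x y L M d e : F)
    (e1 : a1 = 1) (e2 : a2 = 0) (e3 : a3 = 1) (e4 : a4 = 0) (e6 : a6 = 1)
    (hL : L = 3*x^2 + 2*a2*x + a4 - a1*y) (hM : M = y^4 - (-y^2 - a1*x^2 - a3)) (hd : d = 2*y + a1*x + a3) (he : e = x^4 - x^2)
    (h2 : (2 : F) = 0) (hc : y ^ 2 + a1 * x * y + a3 * y = x ^ 3 + a2 * x ^ 2 + a4 * x + a6) :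
    (L^2 + a1*L*d - (a2 + 2*x)*d^2) * e^2 = (M^2 + a1*M*e - (a2 + x^4 + x^2)*e^2) * d^2 := by
  subst he hd hM hL e1 e2 e3 e4 e6
  linear_combination (x^2 * y^6 + y^6 + x^3 * y^5 + x^2 * y^5 + x * y^5 + y^5 + x^5 * y^4 + x^4 * y^4 + x^3 * y^4 +
      x^2 * y^4 + x^5 * y^3 + x^4 * y^3 + x * y^3 + y^3 + x^8 * y^2 + x^7 * y^2 + x^6 * y^2 +
      x^3 * y^2 + x^9 * y + x^8 * y + x^7 * y + x^6 * y + x^5 * y + x^4 * y + x * y + y + x^11 + x^9 +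
      x^7 + x^6 + x^3 + 1) * hc
    + ((-2) * y^10 + (-2) * x * y^9 + (-2) * y^9 + (-1) * x^2 * y^8 + (-1) * x * y^8 + (-5) * y^8 +
      (-1) * x^3 * y^7 + (-1) * x^2 * y^7 + (-5) * x * y^7 + (-5) * y^7 + (-3) * x^4 * y^6 +
      (-1) * x^3 * y^6 + (-4) * x^2 * y^6 + (-3) * x * y^6 + (-7) * y^6 + (-3) * x^5 * y^5 +
      (-3) * x^4 * y^5 + (-2) * x^3 * y^5 + (-2) * x^2 * y^5 + (-6) * x * y^5 + (-6) * y^5 +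
      (-1) * x^6 * y^4 + (-1) * x^5 * y^4 + (-3) * x^4 * y^4 + (-1) * x^3 * y^4 + (-4) * x^2 * y^4 +
      (-4) * x * y^4 + (-6) * y^4 + (-1) * x^9 * y^3 + (-1) * x^8 * y^3 + (-1) * x^7 * y^3 +
      (-1) * x^6 * y^3 + (-2) * x^5 * y^3 + (-2) * x^4 * y^3 + (-2) * x^3 * y^3 + (-2) * x^2 * y^3 +
      (-4) * x * y^3 + (-4) * y^3 + 2 * x^12 * y^2 + (-2) * x^10 * y^2 + (-5) * x^9 * y^2 +
      (-3) * x^8 * y^2 + 7 * x^7 * y^2 + (-6) * x^5 * y^2 + (-4) * x^4 * y^2 + (-1) * x^3 * y^2 +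
      (-4) * x^2 * y^2 + (-3) * x * y^2 + (-4) * y^2 + 2 * x^13 * y + 2 * x^12 * y + (-2) * x^11 * y +
      (-6) * x^10 * y + (-6) * x^9 * y + 6 * x^8 * y + 9 * x^7 * y + (-3) * x^6 * y + (-6) * x^5 * y +
      (-2) * x^4 * y + (-2) * x^3 * y + (-2) * x^2 * y + (-2) * x * y + (-2) * y + x^14 + x^13 +
      5 * x^12 + (-10) * x^10 + (-2) * x^9 + 5 * x^8 + 3 * x^7 + (-2) * x^5 + (-1) * x^4 + (-1) * x^2 +
      (-1) * x) * h2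

lemma cOY_10101 {F : Type*} [Field F] (a1 a2 a3 a4 a6 x y L M d e : F)
    (e1 : a1 = 1) (e2 : a2 = 0) (e3 : a3 = 1) (e4 : a4 = 0) (e6 : a6 = 1)
    (hL : L = 3*x^2 + 2*a2*x + a4 - a1*y) (hM : M = y^4 - (-y^2 - a1*x^2 - a3)) (hd : d = 2*y + a1*x + a3) (he : e = x^4 - x^2)
    (h2 : (2 : F) = 0) (hc : y ^ 2 + a1 * x * y + a3 * y = x ^ 3 + a2 * x ^ 2 + a4 * x + a6) :
    -(L*((L^2 + a1*L*d - (a2 + 2*x)*d^2) - x*d^2) + y*d^3)*e - a1*(L^2 + a1*L*d - (a2 + 2*x)*d^2)*d*e - a3*d^3*e = M*((L^2 + a1*L*d - (a2 + 2*x)*d^2)*d - x^4*d^3) + y^4*d^3*e := by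
  subst he hd hM hL e1 e2 e3 e4 e6
  linear_combination (x * y^4 + y^4 + x^4 * y + y + x^7 + x^5 + x^4 + x^3) * hc
    + (4 * x^2 * y^7 + 8 * x * y^7 + y^7 + 6 * x^3 * y^6 + 18 * x^2 * y^6 + 13 * x * y^6 + y^6 +
      (-2) * x^4 * y^5 + 9 * x^3 * y^5 + 12 * x^2 * y^5 + 14 * x * y^5 + y^5 + 2 * x^5 * y^4 +
      (-1) * x^4 * y^4 + 2 * x^3 * y^4 + 18 * x^2 * y^4 + 15 * x * y^4 + 2 * y^4 + 7 * x^6 * y^3 +
      2 * x^5 * y^3 + (-12) * x^4 * y^3 + 15 * x^3 * y^3 + 20 * x^2 * y^3 + 15 * x * y^3 + y^3 +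
      24 * x^7 * y^2 + 12 * x^6 * y^2 + (-21) * x^5 * y^2 + 18 * x^3 * y^2 + 23 * x^2 * y^2 +
      14 * x * y^2 + y^2 + 16 * x^8 * y + 28 * x^7 * y + (-12) * x^6 * y + (-16) * x^5 * y +
      (-5) * x^4 * y + 12 * x^3 * y + 13 * x^2 * y + 7 * x * y + y + (-13) * x^10 + (-4) * x^9 +
      15 * x^8 + 7 * x^7 + (-2) * x^6 + (-7) * x^5 + (-3) * x^4 + 2 * x^3 + 2 * x^2 + x) * h2

lemma cOX_10111 {F : Type*} [Field F] (a1 a2 a3 a4 a6 x y L M d e : F)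
    (e1 : a1 = 1) (e2 : a2 = 0) (e3 : a3 = 1) (e4 : a4 = 1) (e6 : a6 = 1)
    (hL : L = 3*x^2 + 2*a2*x + a4 - a1*y) (hM : M = y^4 - (-y^2 - a1*x^2 - a3)) (hd : d = 2*y + a1*x + a3) (he : e = x^4 - x^2)
    (h2 : (2 : F) = 0) (hc : y ^ 2 + a1 * x * y + a3 * y = x ^ 3 + a2 * x ^ 2 + a4 * x + a6) :
    (L^2 + a1*L*d - (a2 + 2*x)*d^2) * e^2 = (M^2 + a1*M*e - (a2 + x^4 + x^2)*e^2) * d^2 := by
  subst he hd hM hL e1 e2 e3 e4 e6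
  linear_combination (x^2 * y^6 + y^6 + x^3 * y^5 + x^2 * y^5 + x * y^5 + y^5 + x^5 * y^4 + x^4 * y^4 + x^2 * y^4 +
      x * y^4 + x^5 * y^3 + x^4 * y^3 + x * y^3 + y^3 + x^8 * y^2 + x^7 * y^2 + x^6 * y^2 + x^5 * y^2 +
      x^4 * y^2 + x^3 * y^2 + x^2 * y^2 + x * y^2 + x^9 * y + x^8 * y + x^7 * y + x^6 * y + x^3 * y +
      x^2 * y + x * y + y + x^11 + x^7 + x^6 + x^5 + x^4 + x^2 + x + 1) * hc
    + ((-2) * y^10 + (-2) * x * y^9 + (-2) * y^9 + (-1) * x^2 * y^8 + (-1) * x * y^8 + (-5) * y^8 +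
      (-1) * x^3 * y^7 + (-1) * x^2 * y^7 + (-5) * x * y^7 + (-5) * y^7 + (-3) * x^4 * y^6 +
      (-4) * x^2 * y^6 + (-3) * x * y^6 + (-7) * y^6 + (-3) * x^5 * y^5 + (-2) * x^4 * y^5 +
      (-1) * x^3 * y^5 + (-2) * x^2 * y^5 + (-6) * x * y^5 + (-6) * y^5 + (-1) * x^6 * y^4 +
      (-1) * x^5 * y^4 + (-3) * x^4 * y^4 + (-1) * x^3 * y^4 + (-4) * x^2 * y^4 + (-4) * x * y^4 +
      (-6) * y^4 + (-1) * x^9 * y^3 + (-1) * x^8 * y^3 + (-1) * x^7 * y^3 + (-1) * x^6 * y^3 +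
      (-2) * x^5 * y^3 + (-2) * x^4 * y^3 + (-3) * x^3 * y^3 + (-3) * x^2 * y^3 + (-4) * x * y^3 +
      (-4) * y^3 + 2 * x^12 * y^2 + (-2) * x^10 * y^2 + (-4) * x^9 * y^2 + (-2) * x^8 * y^2 +
      8 * x^7 * y^2 + x^6 * y^2 + (-4) * x^5 * y^2 + (-3) * x^4 * y^2 + (-1) * x^3 * y^2 +
      (-4) * x^2 * y^2 + (-3) * x * y^2 + (-4) * y^2 + 2 * x^13 * y + 2 * x^12 * y + (-2) * x^11 * y +
      (-5) * x^10 * y + (-5) * x^9 * y + 6 * x^8 * y + 9 * x^7 * y + (-3) * x^6 * y + (-7) * x^5 * y +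
      (-2) * x^4 * y + (-1) * x^3 * y + (-2) * x^2 * y + (-2) * x * y + (-2) * y + x^14 + x^13 +
      5 * x^12 + (-7) * x^10 + (-2) * x^9 + x^8 + 3 * x^7 + x^6 + x^4) * h2

lemma cOY_10111 {F : Type*} [Field F] (a1 a2 a3 a4 a6 x y L M d e : F)
    (e1 : a1 = 1) (e2 : a2 = 0) (e3 : a3 = 1) (e4 : a4 = 1) (e6 : a6 = 1)
    (hL : L = 3*x^2 + 2*a2*x + a4 - a1*y) (hM : M = y^4 - (-y^2 - a1*x^2 - a3)) (hd : d = 2*y + a1*x + a3) (he : e = x^4 - x^2)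
    (h2 : (2 : F) = 0) (hc : y ^ 2 + a1 * x * y + a3 * y = x ^ 3 + a2 * x ^ 2 + a4 * x + a6) :
    -(L*((L^2 + a1*L*d - (a2 + 2*x)*d^2) - x*d^2) + y*d^3)*e - a1*(L^2 + a1*L*d - (a2 + 2*x)*d^2)*d*e - a3*d^3*e = M*((L^2 + a1*L*d - (a2 + 2*x)*d^2)*d - x^4*d^3) + y^4*d^3*e := by
  subst he hd hM hL e1 e2 e3 e4 e6
  linear_combination (x * y^4 + y^4 + x^4 * y + y + x^7 + x^5 + x^3 + x) * hc
    + (4 * x^2 * y^7 + 8 * x * y^7 + y^7 + 6 * x^3 * y^6 + 18 * x^2 * y^6 + 13 * x * y^6 + y^6 +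
      (-2) * x^4 * y^5 + 9 * x^3 * y^5 + 6 * x^2 * y^5 + 13 * x * y^5 + (-1) * y^5 + 2 * x^5 * y^4 +
      (-1) * x^4 * y^4 + (-1) * x^3 * y^4 + 15 * x^2 * y^4 + 14 * x * y^4 + y^4 + 7 * x^6 * y^3 +
      2 * x^5 * y^3 + (-12) * x^4 * y^3 + 15 * x^3 * y^3 + 14 * x^2 * y^3 + 14 * x * y^3 + (-1) * y^3 +
      24 * x^7 * y^2 + 12 * x^6 * y^2 + (-15) * x^5 * y^2 + x^4 * y^2 + 9 * x^3 * y^2 + 19 * x^2 * y^2 +
      12 * x * y^2 + 16 * x^8 * y + 28 * x^7 * y + (-9) * x^6 * y + (-9) * x^5 * y + (-14) * x^4 * y +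
      5 * x^3 * y + 5 * x^2 * y + 6 * x * y + (-1) * y + (-13) * x^10 + (-4) * x^9 + 2 * x^8 + 2 * x^7 +
      4 * x^6 + (-6) * x^5 + (-2) * x^3 + (-1)) * h2

lemma cOX_11001 {F : Type*} [Field F] (a1 a2 a3 a4 a6 x y L M d e : F)
    (e1 : a1 = 1) (e2 : a2 = 1) (e3 : a3 = 0) (e4 : a4 = 0) (e6 : a6 = 1)
    (hL : L = 3*x^2 + 2*a2*x + a4 - a1*y) (hM : M = y^4 - (-y^2 - a1*x^2 - a3)) (hd : d = 2*y + a1*x + a3) (he : e = x^4 - x^2)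
    (h2 : (2 : F) = 0) (hc : y ^ 2 + a1 * x * y + a3 * y = x ^ 3 + a2 * x ^ 2 + a4 * x + a6) :
    (L^2 + a1*L*d - (a2 + 2*x)*d^2) * e^2 = (M^2 + a1*M*e - (a2 + x^4 + x^2)*e^2) * d^2 := by
  subst he hd hM hL e1 e2 e3 e4 e6
  linear_combination (x^2 * y^6 + x^3 * y^5 + x^5 * y^4 + x^2 * y^4 + x^5 * y^3 + x^8 * y^2 + x^7 * y^2 + x^9 * y +
      x^7 * y + x^5 * y + x^11 + x^10 + x^9 + x^8 + x^7) * hc
    + ((-2) * y^10 + (-2) * x * y^9 + (-1) * x^2 * y^8 + (-4) * y^8 + (-1) * x^3 * y^7 + (-4) * x * y^7 +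
      (-2) * x^4 * y^6 + (-3) * x^2 * y^6 + (-2) * y^6 + (-2) * x^5 * y^5 + (-2) * x^3 * y^5 +
      (-2) * x * y^5 + (-1) * x^6 * y^4 + x^5 * y^4 + (-2) * x^4 * y^4 + (-2) * x^2 * y^4 +
      (-1) * x^9 * y^3 + (-2) * x^5 * y^3 + (-2) * x^3 * y^3 + 2 * x^12 * y^2 + (-2) * x^10 * y^2 +
      (-4) * x^9 * y^2 + (-3) * x^8 * y^2 + 8 * x^7 * y^2 + (-4) * x^5 * y^2 + (-1) * x^4 * y^2 +
      2 * x^13 * y + (-2) * x^11 * y + (-4) * x^10 * y + (-2) * x^9 * y + 8 * x^8 * y + 2 * x^7 * y +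
      (-4) * x^6 * y + x^14 + x^13 + 5 * x^12 + 8 * x^11 + (-5) * x^10 + (-12) * x^9 + (-1) * x^8 +
      7 * x^7 + 3 * x^6) * h2

lemma cOY_11001 {F : Type*} [Field F] (a1 a2 a3 a4 a6 x y L M d e : F)
    (e1 : a1 = 1) (e2 : a2 = 1) (e3 : a3 = 0) (e4 : a4 = 0) (e6 : a6 = 1)
    (hL : L = 3*x^2 + 2*a2*x + a4 - a1*y) (hM : M = y^4 - (-y^2 - a1*x^2 - a3)) (hd : d = 2*y + a1*x + a3) (he : e = x^4 - x^2)
    (h2 : (2 : F) = 0) (hc : y ^ 2 + a1 * x * y + a3 * y = x ^ 3 + a2 * x ^ 2 + a4 * x + a6) :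
    -(L*((L^2 + a1*L*d - (a2 + 2*x)*d^2) - x*d^2) + y*d^3)*e - a1*(L^2 + a1*L*d - (a2 + 2*x)*d^2)*d*e - a3*d^3*e = M*((L^2 + a1*L*d - (a2 + 2*x)*d^2)*d - x^4*d^3) + y^4*d^3*e := by
  subst he hd hM hL e1 e2 e3 e4 e6
  linear_combination (x * y^4 + x^4 * y + x^7 + x^6) * hc
    + (4 * x^2 * y^7 + 8 * x * y^7 + 5 * y^7 + 6 * x^3 * y^6 + 12 * x^2 * y^6 + 7 * x * y^6 +
      (-2) * x^4 * y^5 + (-9) * x^3 * y^5 + (-3) * x^2 * y^5 + 8 * x * y^5 + 5 * y^5 + 2 * x^5 * y^4 +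
      (-10) * x^4 * y^4 + (-2) * x^3 * y^4 + 16 * x^2 * y^4 + 8 * x * y^4 + 7 * x^6 * y^3 +
      (-4) * x^5 * y^3 + (-7) * x^4 * y^3 + 3 * x^3 * y^3 + 24 * x^7 * y^2 + 22 * x^6 * y^2 +
      (-13) * x^5 * y^2 + (-17) * x^4 * y^2 + (-5) * x^3 * y^2 + 16 * x^8 * y + 16 * x^7 * y +
      (-17) * x^6 * y + (-25) * x^5 * y + (-7) * x^4 * y + (-13) * x^10 + (-30) * x^9 + (-12) * x^8 +
      20 * x^7 + 20 * x^6 + 5 * x^5) * h2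

lemma cOX_11010 {F : Type*} [Field F] (a1 a2 a3 a4 a6 x y L M d e : F)
    (e1 : a1 = 1) (e2 : a2 = 1) (e3 : a3 = 0) (e4 : a4 = 1) (e6 : a6 = 0)
    (hL : L = 3*x^2 + 2*a2*x + a4 - a1*y) (hM : M = y^4 - (-y^2 - a1*x^2 - a3)) (hd : d = 2*y + a1*x + a3) (he : e = x^4 - x^2)
    (h2 : (2 : F) = 0) (hc : y ^ 2 + a1 * x * y + a3 * y = x ^ 3 + a2 * x ^ 2 + a4 * x + a6) :
    (L^2 + a1*L*d - (a2 + 2*x)*d^2) * e^2 = (M^2 + a1*M*e - (a2 + x^4 + x^2)*e^2) * d^2 := by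
  subst he hd hM hL e1 e2 e3 e4 e6
  linear_combination (x^2 * y^6 + x^3 * y^5 + x^5 * y^4 + x^3 * y^4 + x^5 * y^3 + x^8 * y^2 + x^7 * y^2 + x^5 * y^2 +
      x^2 * y^2 + x^9 * y + x^7 * y + x^3 * y + x^11 + x^10 + x^7 + x^5 + x^3) * hc
    + ((-2) * y^10 + (-2) * x * y^9 + (-1) * x^2 * y^8 + (-4) * y^8 + (-1) * x^3 * y^7 + (-4) * x * y^7 +
      (-2) * x^4 * y^6 + (-3) * x^2 * y^6 + (-2) * y^6 + (-2) * x^5 * y^5 + (-2) * x^3 * y^5 +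
      (-2) * x * y^5 + (-2) * x^4 * y^4 + (-3) * x^2 * y^4 + (-1) * x^9 * y^3 + (-2) * x^5 * y^3 +
      (-3) * x^3 * y^3 + 2 * x^12 * y^2 + (-2) * x^10 * y^2 + (-3) * x^9 * y^2 + (-2) * x^8 * y^2 +
      8 * x^7 * y^2 + x^6 * y^2 + (-4) * x^5 * y^2 + (-1) * x^4 * y^2 + 2 * x^13 * y + (-2) * x^11 * y +
      (-3) * x^10 * y + (-2) * x^9 * y + 8 * x^8 * y + x^7 * y + (-4) * x^6 * y + x^14 + x^13 +
      5 * x^12 + 7 * x^11 + (-3) * x^10 + (-10) * x^9 + (-6) * x^8 + 2 * x^7 + 6 * x^6 + 3 * x^5 + x^4) * h2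

lemma cOY_11010 {F : Type*} [Field F] (a1 a2 a3 a4 a6 x y L M d e : F)
    (e1 : a1 = 1) (e2 : a2 = 1) (e3 : a3 = 0) (e4 : a4 = 1) (e6 : a6 = 0)
    (hL : L = 3*x^2 + 2*a2*x + a4 - a1*y) (hM : M = y^4 - (-y^2 - a1*x^2 - a3)) (hd : d = 2*y + a1*x + a3) (he : e = x^4 - x^2)
    (h2 : (2 : F) = 0) (hc : y ^ 2 + a1 * x * y + a3 * y = x ^ 3 + a2 * x ^ 2 + a4 * x + a6) :
    -(L*((L^2 + a1*L*d - (a2 + 2*x)*d^2) - x*d^2) + y*d^3)*e - a1*(L^2 + a1*L*d - (a2 + 2*x)*d^2)*d*e - a3*d^3*e = M*((L^2 + a1*L*d - (a2 + 2*x)*d^2)*d - x^4*d^3) + y^4*d^3*e := by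
  subst he hd hM hL e1 e2 e3 e4 e6
  linear_combination (x * y^4 + x^4 * y + x^7 + x^6 + x^4 + x) * hc
    + (4 * x^2 * y^7 + 8 * x * y^7 + 5 * y^7 + 6 * x^3 * y^6 + 12 * x^2 * y^6 + 7 * x * y^6 +
      (-2) * x^4 * y^5 + (-9) * x^3 * y^5 + (-9) * x^2 * y^5 + 3 * x * y^5 + 4 * y^5 + 2 * x^5 * y^4 +
      (-10) * x^4 * y^4 + (-5) * x^3 * y^4 + 14 * x^2 * y^4 + 7 * x * y^4 + 7 * x^6 * y^3 +
      (-4) * x^5 * y^3 + (-7) * x^4 * y^3 + 3 * x^3 * y^3 + (-6) * x^2 * y^3 + (-5) * x * y^3 +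
      (-1) * y^3 + 24 * x^7 * y^2 + 22 * x^6 * y^2 + (-7) * x^5 * y^2 + (-15) * x^4 * y^2 +
      (-14) * x^3 * y^2 + (-5) * x^2 * y^2 + (-1) * x * y^2 + 16 * x^8 * y + 16 * x^7 * y +
      (-14) * x^6 * y + (-25) * x^5 * y + (-17) * x^4 * y + (-5) * x^3 * y + (-1) * x^2 * y +
      (-13) * x^10 + (-30) * x^9 + (-25) * x^8 + (-2) * x^7 + 19 * x^6 + 21 * x^5 + 12 * x^4 + 4 * x^3 +
      x^2) * h2

lemma cOX_11100 {F : Type*} [Field F] (a1 a2 a3 a4 a6 x y L M d e : F)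
    (e1 : a1 = 1) (e2 : a2 = 1) (e3 : a3 = 1) (e4 : a4 = 0) (e6 : a6 = 0)
    (hL : L = 3*x^2 + 2*a2*x + a4 - a1*y) (hM : M = y^4 - y^2) (hd : d = 2*y + a1*x + a3) (he : e = x^4 - x^2)
    (h2 : (2 : F) = 0) (hc : y ^ 2 + a1 * x * y + a3 * y = x ^ 3 + a2 * x ^ 2 + a4 * x + a6) :
    (L^2 + a1*L*d - (a2 + 2*x)*d^2) * e^2 = (M^2 + a1*M*e - (a2 + x^4 + x^2)*e^2) * d^2 := by
  subst he hd hM hL e1 e2 e3 e4 e6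
  linear_combination (x^2 * y^6 + y^6 + x^3 * y^5 + x^2 * y^5 + x * y^5 + y^5 + x^5 * y^4 + x^3 * y^4 + x^2 * y^4 +
      y^4 + x^5 * y^3 + x^4 * y^3 + x * y^3 + y^3 + x^8 * y^2 + x^7 * y^2 + x^6 * y^2 + x^3 * y^2 +
      x^9 * y + x^8 * y + x^3 * y + x^2 * y + x^11 + x^10 + x^8 + x^5) * hc
    + ((-2) * y^10 + (-2) * x * y^9 + (-2) * y^9 + (-1) * x^2 * y^8 + (-1) * x * y^8 + 3 * y^8 +
      (-1) * x^3 * y^7 + (-1) * x^2 * y^7 + 3 * x * y^7 + 3 * y^7 + (-2) * x^4 * y^6 +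
      (-1) * x^3 * y^6 + 2 * x^2 * y^6 + x * y^6 + (-2) * y^6 + (-2) * x^5 * y^5 + (-2) * x^4 * y^5 +
      2 * x^3 * y^5 + 2 * x^2 * y^5 + (-3) * x * y^5 + (-3) * y^5 + (-1) * x^6 * y^4 +
      (-1) * x^5 * y^4 + 2 * x^4 * y^4 + x^3 * y^4 + (-2) * x^2 * y^4 + (-2) * x * y^4 + (-1) * y^4 +
      (-1) * x^9 * y^3 + (-1) * x^8 * y^3 + 2 * x^5 * y^3 + 2 * x^4 * y^3 + (-2) * x^3 * y^3 +
      (-2) * x^2 * y^3 + 2 * x^12 * y^2 + (-2) * x^10 * y^2 + (-4) * x^9 * y^2 + (-3) * x^8 * y^2 +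
      8 * x^7 * y^2 + 4 * x^6 * y^2 + (-3) * x^5 * y^2 + (-1) * x^4 * y^2 + (-2) * x^3 * y^2 +
      (-1) * x^2 * y^2 + 2 * x^13 * y + 2 * x^12 * y + (-2) * x^11 * y + (-6) * x^10 * y +
      (-7) * x^9 * y + 5 * x^8 * y + 11 * x^7 * y + (-1) * x^6 * y + (-4) * x^5 * y + x^14 + 2 * x^13 +
      5 * x^12 + 6 * x^11 + (-7) * x^10 + (-14) * x^9 + 8 * x^7 + 3 * x^6) * h2

lemma cOY_11100 {F : Type*} [Field F] (a1 a2 a3 a4 a6 x y L M d e : F)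
    (e1 : a1 = 1) (e2 : a2 = 1) (e3 : a3 = 1) (e4 : a4 = 0) (e6 : a6 = 0)
    (hL : L = 3*x^2 + 2*a2*x + a4 - a1*y) (hM : M = y^4 - y^2) (hd : d = 2*y + a1*x + a3) (he : e = x^4 - x^2)
    (h2 : (2 : F) = 0) (hc : y ^ 2 + a1 * x * y + a3 * y = x ^ 3 + a2 * x ^ 2 + a4 * x + a6) :
    -(L*((L^2 + a1*L*d - (a2 + 2*x)*d^2) - x*d^2) + y*d^3)*e - a1*(L^2 + a1*L*d - (a2 + 2*x)*d^2)*d*e - a3*d^3*e = M*((L^2 + a1*L*d - (a2 + 2*x)*d^2)*d - x^4*d^3) + y^4*d^3*e := by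
  subst he hd hM hL e1 e2 e3 e4 e6
  linear_combination (x * y^4 + y^4 + x^4 * y + y + x^7 + x^5 + x^4 + x^3) * hc
    + (4 * x^2 * y^7 + 8 * x * y^7 + 5 * y^7 + 6 * x^3 * y^6 + 18 * x^2 * y^6 + 19 * x * y^6 + 7 * y^6 +
      (-10) * x^4 * y^5 + (-3) * x^3 * y^5 + 9 * x^2 * y^5 + 2 * x * y^5 + (-2) * y^5 +
      (-10) * x^5 * y^4 + (-19) * x^4 * y^4 + (-6) * x^3 * y^4 + (-8) * x^2 * y^4 + (-18) * x * y^4 +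
      (-7) * y^4 + (-3) * x^6 * y^3 + (-10) * x^5 * y^3 + (-2) * x^4 * y^3 + 13 * x^3 * y^3 +
      x^2 * y^3 + (-11) * x * y^3 + (-4) * y^3 + 17 * x^7 * y^2 + 21 * x^6 * y^2 + (-12) * x^5 * y^2 +
      (-17) * x^4 * y^2 + 4 * x^3 * y^2 + 5 * x^2 * y^2 + (-2) * x * y^2 + (-1) * y^2 + 13 * x^8 * y +
      34 * x^7 * y + 14 * x^6 * y + (-28) * x^5 * y + (-29) * x^4 * y + (-7) * x^3 * y + x^2 * y +
      (-13) * x^10 + (-31) * x^9 + (-12) * x^8 + 26 * x^7 + 29 * x^6 + 8 * x^5 + (-2) * x^4 +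
      (-1) * x^3) * h2

lemma cOX_11110 {F : Type*} [Field F] (a1 a2 a3 a4 a6 x y L M d e : F)
    (e1 : a1 = 1) (e2 : a2 = 1) (e3 : a3 = 1) (e4 : a4 = 1) (e6 : a6 = 0)
    (hL : L = 3*x^2 + 2*a2*x + a4 - a1*y) (hM : M = y^4 - y^2) (hd : d = 2*y + a1*x + a3) (he : e = x^4 - x^2)
    (h2 : (2 : F) = 0) (hc : y ^ 2 + a1 * x * y + a3 * y = x ^ 3 + a2 * x ^ 2 + a4 * x + a6) :
    (L^2 + a1*L*d - (a2 + 2*x)*d^2) * e^2 = (M^2 + a1*M*e - (a2 + x^4 + x^2)*e^2) * d^2 := by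
  subst he hd hM hL e1 e2 e3 e4 e6
  linear_combination (x^2 * y^6 + y^6 + x^3 * y^5 + x^2 * y^5 + x * y^5 + y^5 + x^5 * y^4 + x^2 * y^4 + x * y^4 + y^4 +
      x^5 * y^3 + x^4 * y^3 + x * y^3 + y^3 + x^8 * y^2 + x^7 * y^2 + x^6 * y^2 + x^5 * y^2 +
      x^4 * y^2 + x^3 * y^2 + x^2 * y^2 + x * y^2 + x^9 * y + x^8 * y + x^5 * y + x^4 * y + x^11 +
      x^10 + x^9 + x^8 + x^7 + x^6 + x^5 + x^4) * hc
    + ((-2) * y^10 + (-2) * x * y^9 + (-2) * y^9 + (-1) * x^2 * y^8 + (-1) * x * y^8 + 3 * y^8 +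
      (-1) * x^3 * y^7 + (-1) * x^2 * y^7 + 3 * x * y^7 + 3 * y^7 + (-2) * x^4 * y^6 + 2 * x^2 * y^6 +
      x * y^6 + (-2) * y^6 + (-2) * x^5 * y^5 + (-1) * x^4 * y^5 + 3 * x^3 * y^5 + 2 * x^2 * y^5 +
      (-3) * x * y^5 + (-3) * y^5 + (-1) * x^6 * y^4 + (-2) * x^5 * y^4 + 2 * x^4 * y^4 +
      2 * x^3 * y^4 + (-2) * x^2 * y^4 + (-2) * x * y^4 + (-1) * y^4 + (-1) * x^9 * y^3 +
      (-1) * x^8 * y^3 + x^5 * y^3 + x^4 * y^3 + (-2) * x^3 * y^3 + (-2) * x^2 * y^3 + 2 * x^12 * y^2 +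
      (-2) * x^10 * y^2 + (-4) * x^9 * y^2 + (-2) * x^8 * y^2 + 9 * x^7 * y^2 + 4 * x^6 * y^2 +
      (-3) * x^5 * y^2 + 2 * x^13 * y + 2 * x^12 * y + (-2) * x^11 * y + (-6) * x^10 * y +
      (-7) * x^9 * y + 5 * x^8 * y + 11 * x^7 * y + (-1) * x^6 * y + (-5) * x^5 * y + (-1) * x^4 * y +
      x^14 + 2 * x^13 + 6 * x^12 + 7 * x^11 + (-3) * x^10 + (-10) * x^9 + (-4) * x^8 + 4 * x^7 +
      5 * x^6 + 3 * x^5 + x^4) * h2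

lemma cOY_11110 {F : Type*} [Field F] (a1 a2 a3 a4 a6 x y L M d e : F)
    (e1 : a1 = 1) (e2 : a2 = 1) (e3 : a3 = 1) (e4 : a4 = 1) (e6 : a6 = 0)
    (hL : L = 3*x^2 + 2*a2*x + a4 - a1*y) (hM : M = y^4 - y^2) (hd : d = 2*y + a1*x + a3) (he : e = x^4 - x^2)
    (h2 : (2 : F) = 0) (hc : y ^ 2 + a1 * x * y + a3 * y = x ^ 3 + a2 * x ^ 2 + a4 * x + a6) :
    -(L*((L^2 + a1*L*d - (a2 + 2*x)*d^2) - x*d^2) + y*d^3)*e - a1*(L^2 + a1*L*d - (a2 + 2*x)*d^2)*d*e - a3*d^3*e = M*((L^2 + a1*L*d - (a2 + 2*x)*d^2)*d - x^4*d^3) + y^4*d^3*e := by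
  subst he hd hM hL e1 e2 e3 e4 e6
  linear_combination (x * y^4 + y^4 + x^4 * y + y + x^7 + x^5 + x^3 + x) * hc
    + (4 * x^2 * y^7 + 8 * x * y^7 + 5 * y^7 + 6 * x^3 * y^6 + 18 * x^2 * y^6 + 19 * x * y^6 + 7 * y^6 +
      (-10) * x^4 * y^5 + (-3) * x^3 * y^5 + 3 * x^2 * y^5 + (-3) * x * y^5 + (-4) * y^5 +
      (-10) * x^5 * y^4 + (-19) * x^4 * y^4 + (-9) * x^3 * y^4 + (-13) * x^2 * y^4 + (-21) * x * y^4 +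
      (-8) * y^4 + (-3) * x^6 * y^3 + (-10) * x^5 * y^3 + (-2) * x^4 * y^3 + 13 * x^3 * y^3 +
      7 * x^2 * y^3 + (-6) * x * y^3 + (-2) * y^3 + 17 * x^7 * y^2 + 21 * x^6 * y^2 + (-6) * x^5 * y^2 +
      (-14) * x^4 * y^2 + x^3 * y^2 + 8 * x^2 * y^2 + x * y^2 + 13 * x^8 * y + 34 * x^7 * y +
      17 * x^6 * y + (-21) * x^5 * y + (-30) * x^4 * y + (-13) * x^3 * y + (-1) * x^2 * y +
      (-13) * x^10 + (-31) * x^9 + (-25) * x^8 + 3 * x^7 + 25 * x^6 + 24 * x^5 + 15 * x^4 + 6 * x^3 +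
      2 * x^2) * h2

end certs

/-! ### The generic point of `S52/Frob` at `ℓ = 2` -/

section generic

universe u

attribute [local instance] Classical.propDecidable

open Fermat.Agent.S52.Frob

variable (W : WeierstrassCurve (ZMod 2)) (K : Type u) [Field K]
  [Algebra (ZMod 2) K]

lemma two_FF : (2 : FF K) = 0 := two_eq_zero_of_algebra _

/-- Genericity: `x⁴ ≠ x²` for a nonconstant `x`. -/
lemma gen_he {x : FF K} (hx : x ∉ Set.range (algebraMap K (FF K))) : x ^ 4 - x ^ 2 ≠ 0 := by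
  intro h0
  have h1 : x ^ 2 * ((x - 1) * (x + 1)) = 0 := by linear_combination h0
  rcases mul_eq_zero.mp h1 with h2 | h2
  · have h3 : x = 0 := by simpa using h2
    exact hx ⟨0, by rw [map_zero, h3]⟩
  · rcases mul_eq_zero.mp h2 with h3 | h3
    · exact hx ⟨1, by rw [map_one]; exact (sub_eq_zero.mp h3).symm⟩
    · exact hx ⟨-1, by rw [map_neg, map_one]; exact (eq_neg_of_add_eq_zero_left h3).symm⟩

/-- Genericity: a nonconstant point is not `2`-torsion on an ordinary shape. -/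
lemma gen_hd (h1 : (WF 2 W K).a₁ = 1) {x : FF K} (hx : x ∉ Set.range (algebraMap K (FF K)))
    (y : FF K) : 2 * y + (WF 2 W K).a₁ * x + (WF 2 W K).a₃ ≠ 0 := by
  intro h0
  apply hx
  refine ⟨-(WK 2 W K).a₃, ?_⟩
  rw [map_neg, ← iota_C, ← WF_a₃]
  rw [h1, two_FF K] at h0
  linear_combination -h0


lemma phi_phi_some {x y : FF K} (h : (WF 2 W K).toAffine.Nonsingular x y) :
    ∃ h4 : (WF 2 W K).toAffine.Nonsingular (x ^ 4) (y ^ 4),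
      phi 2 W K (phi 2 W K (Point.some x y h)) = Point.some (x ^ 4) (y ^ 4) h4 := by
  obtain ⟨h1, e1⟩ := phi_some 2 W K h
  obtain ⟨h2, e2⟩ := phi_some 2 W K h1
  have hx : (x ^ 2) ^ 2 = x ^ 4 := by ring
  have hy : (y ^ 2) ^ 2 = y ^ 4 := by ring
  have h4 : (WF 2 W K).toAffine.Nonsingular (x ^ 4) (y ^ 4) := by rw [← hx, ← hy]; exact h2
  refine ⟨h4, ?_⟩
  rw [e1, e2, Point.some.injEq]
  exact ⟨hx, hy⟩

lemma two_nsmul_cast (P : (WF 2 W K).toAffine.Point) : ((2 : ℕ) : ℤ) • P = P + P := by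
  rw [Nat.cast_ofNat, two_zsmul]

/-- Supersingular shape, trace `0`. -/
theorem theta_ss0 (a1 a2 a3 a4 a6 : FF K) (ha1 : (WF 2 W K).a₁ = a1) (ha2 : (WF 2 W K).a₂ = a2)
    (ha3 : (WF 2 W K).a₃ = a3) (ha4 : (WF 2 W K).a₄ = a4) (ha6 : (WF 2 W K).a₆ = a6)
    {x y : FF K} (h : (WF 2 W K).toAffine.Nonsingular x y)
    (cD : y ^ 2 + a1 * x * y + a3 * y = x ^ 3 + a2 * x ^ 2 + a4 * x + a6 →
      2 * y + a1 * x + a3 = 1)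
    (cX : y ^ 2 + a1 * x * y + a3 * y = x ^ 3 + a2 * x ^ 2 + a4 * x + a6 →
      ∀ n : FF K, n = 3 * x ^ 2 + 2 * a2 * x + a4 - a1 * y →
      x ^ 4 = n ^ 2 + a1 * n - a2 - 2 * x)
    (cY : y ^ 2 + a1 * x * y + a3 * y = x ^ 3 + a2 * x ^ 2 + a4 * x + a6 →
      ∀ n X2 : FF K, n = 3 * x ^ 2 + 2 * a2 * x + a4 - a1 * y →
      X2 = n ^ 2 + a1 * n - a2 - 2 * x → y ^ 4 = n * (X2 - x) + y) :
    phi 2 W K (phi 2 W K (Point.some x y h)) - (0 : ℤ) • phi 2 W K (Point.some x y h)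
      + ((2 : ℕ) : ℤ) • Point.some x y h = 0 := by
  subst ha1 ha2 ha3 ha4 ha6
  have hc := ((WF 2 W K).toAffine.equation_iff x y).mp h.1
  obtain ⟨hA, eA⟩ := phi_phi_some W K h
  have key := rel_ss0 (WF 2 W K).toAffine h hA (cD hc) (cX hc) (cY hc)
  rw [eA, zero_zsmul, sub_zero, two_nsmul_cast]
  exact key

/-- Supersingular shape, trace `2`. -/
theorem theta_ss2_pos (a1 a2 a3 a4 a6 : FF K) (ha1 : (WF 2 W K).a₁ = a1)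
    (ha2 : (WF 2 W K).a₂ = a2) (ha3 : (WF 2 W K).a₃ = a3) (ha4 : (WF 2 W K).a₄ = a4)
    (ha6 : (WF 2 W K).a₆ = a6) {x y : FF K} (h : (WF 2 W K).toAffine.Nonsingular x y)
    (cD : y ^ 2 + a1 * x * y + a3 * y = x ^ 3 + a2 * x ^ 2 + a4 * x + a6 →
      2 * y + a1 * x + a3 = 1)
    (cNE : y ^ 2 + a1 * x * y + a3 * y = x ^ 3 + a2 * x ^ 2 + a4 * x + a6 →
      ∀ n X2 : FF K, n = 3 * x ^ 2 + 2 * a2 * x + a4 - a1 * y →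
      X2 = n ^ 2 + a1 * n - a2 - 2 * x → x ^ 4 - X2 = -1)
    (cMU : y ^ 2 + a1 * x * y + a3 * y = x ^ 3 + a2 * x ^ 2 + a4 * x + a6 →
      ∀ n X2 N2 mu : FF K, n = 3 * x ^ 2 + 2 * a2 * x + a4 - a1 * y →
      X2 = n ^ 2 + a1 * n - a2 - 2 * x → N2 = n * (X2 - x) + y →
      mu = y ^ 4 + N2 + a1 * X2 + a3 → mu * (x ^ 4 - X2) = y ^ 4 - (-N2 - a1 * X2 - a3))
    (cX : y ^ 2 + a1 * x * y + a3 * y = x ^ 3 + a2 * x ^ 2 + a4 * x + a6 →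
      ∀ n X2 N2 mu : FF K, n = 3 * x ^ 2 + 2 * a2 * x + a4 - a1 * y →
      X2 = n ^ 2 + a1 * n - a2 - 2 * x → N2 = n * (X2 - x) + y →
      mu = y ^ 4 + N2 + a1 * X2 + a3 → X2 ^ 2 = mu ^ 2 + a1 * mu - a2 - x ^ 4 - X2)
    (cY : y ^ 2 + a1 * x * y + a3 * y = x ^ 3 + a2 * x ^ 2 + a4 * x + a6 →
      ∀ n X2 N2 mu yT : FF K, n = 3 * x ^ 2 + 2 * a2 * x + a4 - a1 * y →
      X2 = n ^ 2 + a1 * n - a2 - 2 * x → N2 = n * (X2 - x) + y →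
      mu = y ^ 4 + N2 + a1 * X2 + a3 → yT = N2 ^ 2 → yT = mu * (X2 ^ 2 - x ^ 4) + y ^ 4) :
    phi 2 W K (phi 2 W K (Point.some x y h)) - (2 : ℤ) • phi 2 W K (Point.some x y h)
      + ((2 : ℕ) : ℤ) • Point.some x y h = 0 := by
  subst ha1 ha2 ha3 ha4 ha6
  have hc := ((WF 2 W K).toAffine.equation_iff x y).mp h.1
  obtain ⟨hA, eA⟩ := phi_phi_some W K h
  obtain ⟨n, X2, N2, hD, hn, hX2, hN2, hGG, hT⟩ :=
    ss2_core (WF 2 W K).toAffine h hA (cD hc) (cNE hc) (cMU hc) (cX hc)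
  obtain ⟨hΦ, eΦ⟩ := phi_some 2 W K hD
  have key := hT (N2 ^ 2) hΦ (cY hc n X2 N2 _ _ hn hX2 hN2 rfl rfl)
  have h1 : phi 2 W K (Point.some x y h) + phi 2 W K (Point.some x y h) =
      - Point.some _ _ hΦ := by
    rw [← map_add, hGG, map_neg, eΦ]
  rw [eA, two_nsmul_cast, two_zsmul, h1]
  rw [sub_neg_eq_add, add_right_comm, key, neg_add_cancel]

/-- Supersingular shape, trace `-2`. -/
theorem theta_ss2_neg (a1 a2 a3 a4 a6 : FF K) (ha1 : (WF 2 W K).a₁ = a1)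
    (ha2 : (WF 2 W K).a₂ = a2) (ha3 : (WF 2 W K).a₃ = a3) (ha4 : (WF 2 W K).a₄ = a4)
    (ha6 : (WF 2 W K).a₆ = a6) {x y : FF K} (h : (WF 2 W K).toAffine.Nonsingular x y)
    (cD : y ^ 2 + a1 * x * y + a3 * y = x ^ 3 + a2 * x ^ 2 + a4 * x + a6 →
      2 * y + a1 * x + a3 = 1)
    (cNE : y ^ 2 + a1 * x * y + a3 * y = x ^ 3 + a2 * x ^ 2 + a4 * x + a6 →
      ∀ n X2 : FF K, n = 3 * x ^ 2 + 2 * a2 * x + a4 - a1 * y →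
      X2 = n ^ 2 + a1 * n - a2 - 2 * x → x ^ 4 - X2 = -1)
    (cMU : y ^ 2 + a1 * x * y + a3 * y = x ^ 3 + a2 * x ^ 2 + a4 * x + a6 →
      ∀ n X2 N2 mu : FF K, n = 3 * x ^ 2 + 2 * a2 * x + a4 - a1 * y →
      X2 = n ^ 2 + a1 * n - a2 - 2 * x → N2 = n * (X2 - x) + y →
      mu = y ^ 4 + N2 + a1 * X2 + a3 → mu * (x ^ 4 - X2) = y ^ 4 - (-N2 - a1 * X2 - a3))
    (cX : y ^ 2 + a1 * x * y + a3 * y = x ^ 3 + a2 * x ^ 2 + a4 * x + a6 →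
      ∀ n X2 N2 mu : FF K, n = 3 * x ^ 2 + 2 * a2 * x + a4 - a1 * y →
      X2 = n ^ 2 + a1 * n - a2 - 2 * x → N2 = n * (X2 - x) + y →
      mu = y ^ 4 + N2 + a1 * X2 + a3 → X2 ^ 2 = mu ^ 2 + a1 * mu - a2 - x ^ 4 - X2)
    (cY : y ^ 2 + a1 * x * y + a3 * y = x ^ 3 + a2 * x ^ 2 + a4 * x + a6 →
      ∀ n X2 N2 mu yT : FF K, n = 3 * x ^ 2 + 2 * a2 * x + a4 - a1 * y →
      X2 = n ^ 2 + a1 * n - a2 - 2 * x → N2 = n * (X2 - x) + y →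
      mu = y ^ 4 + N2 + a1 * X2 + a3 → yT = -N2 ^ 2 - a1 * X2 ^ 2 - a3 →
      yT = mu * (X2 ^ 2 - x ^ 4) + y ^ 4) :
    phi 2 W K (phi 2 W K (Point.some x y h)) - (-2 : ℤ) • phi 2 W K (Point.some x y h)
      + ((2 : ℕ) : ℤ) • Point.some x y h = 0 := by
  subst ha1 ha2 ha3 ha4 ha6
  have hc := ((WF 2 W K).toAffine.equation_iff x y).mp h.1
  obtain ⟨hA, eA⟩ := phi_phi_some W K h
  obtain ⟨n, X2, N2, hD, hn, hX2, hN2, hGG, hT⟩ :=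
    ss2_core (WF 2 W K).toAffine h hA (cD hc) (cNE hc) (cMU hc) (cX hc)
  obtain ⟨hΦ, eΦ⟩ := phi_some 2 W K hD
  have key := hT ((WF 2 W K).toAffine.negY (X2 ^ 2) (N2 ^ 2)) ((nonsingular_neg ..).mpr hΦ)
    (cY hc n X2 N2 _ _ hn hX2 hN2 rfl rfl)
  rw [← Point.neg_some hΦ, neg_neg] at key
  have h1 : phi 2 W K (Point.some x y h) + phi 2 W K (Point.some x y h) =
      - Point.some _ _ hΦ := by
    rw [← map_add, hGG, map_neg, eΦ]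
  rw [eA, two_nsmul_cast, neg_zsmul, two_zsmul, h1, neg_neg]
  rw [sub_add_eq_add_sub, key, sub_self]

/-- Ordinary shape, trace `-1`. -/
theorem theta_ord_neg (a1 a2 a3 a4 a6 : FF K) (ha1 : (WF 2 W K).a₁ = a1)
    (ha2 : (WF 2 W K).a₂ = a2) (ha3 : (WF 2 W K).a₃ = a3) (ha4 : (WF 2 W K).a₄ = a4)
    (ha6 : (WF 2 W K).a₆ = a6) (h1 : a1 = 1) {x y : FF K}
    (h : (WF 2 W K).toAffine.Nonsingular x y) (hx : x ∉ Set.range (algebraMap K (FF K)))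
    (cX : y ^ 2 + a1 * x * y + a3 * y = x ^ 3 + a2 * x ^ 2 + a4 * x + a6 →
      ∀ L M d e : FF K, L = 3 * x ^ 2 + 2 * a2 * x + a4 - a1 * y → M = y ^ 4 - y ^ 2 →
      d = 2 * y + a1 * x + a3 → e = x ^ 4 - x ^ 2 →
      (L ^ 2 + a1 * L * d - (a2 + 2 * x) * d ^ 2) * e ^ 2 =
        (M ^ 2 + a1 * M * e - (a2 + x ^ 4 + x ^ 2) * e ^ 2) * d ^ 2)
    (cY : y ^ 2 + a1 * x * y + a3 * y = x ^ 3 + a2 * x ^ 2 + a4 * x + a6 →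
      ∀ L M d e : FF K, L = 3 * x ^ 2 + 2 * a2 * x + a4 - a1 * y → M = y ^ 4 - y ^ 2 →
      d = 2 * y + a1 * x + a3 → e = x ^ 4 - x ^ 2 →
      -(L * ((L ^ 2 + a1 * L * d - (a2 + 2 * x) * d ^ 2) - x * d ^ 2) + y * d ^ 3) * e
          - a1 * (L ^ 2 + a1 * L * d - (a2 + 2 * x) * d ^ 2) * d * e - a3 * d ^ 3 * e =
        M * ((L ^ 2 + a1 * L * d - (a2 + 2 * x) * d ^ 2) * d - x ^ 4 * d ^ 3)
          + y ^ 4 * d ^ 3 * e) :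
    phi 2 W K (phi 2 W K (Point.some x y h)) - (-1 : ℤ) • phi 2 W K (Point.some x y h)
      + ((2 : ℕ) : ℤ) • Point.some x y h = 0 := by
  subst ha1 ha2 ha3 ha4 ha6
  have hc := ((WF 2 W K).toAffine.equation_iff x y).mp h.1
  obtain ⟨hA, eA⟩ := phi_phi_some W K h
  obtain ⟨hB, eB⟩ := phi_some 2 W K h
  have key := rel_ord (WF 2 W K).toAffine h hA hB (gen_hd W K h1 hx y) (gen_he K hx)
    (cX hc) (cY hc)
  rw [eA, eB, neg_zsmul, one_zsmul, sub_neg_eq_add, two_nsmul_cast]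
  exact key

/-- Ordinary shape, trace `1`. -/
theorem theta_ord_pos (a1 a2 a3 a4 a6 : FF K) (ha1 : (WF 2 W K).a₁ = a1)
    (ha2 : (WF 2 W K).a₂ = a2) (ha3 : (WF 2 W K).a₃ = a3) (ha4 : (WF 2 W K).a₄ = a4)
    (ha6 : (WF 2 W K).a₆ = a6) (h1 : a1 = 1) {x y : FF K}
    (h : (WF 2 W K).toAffine.Nonsingular x y) (hx : x ∉ Set.range (algebraMap K (FF K)))
    (cX : y ^ 2 + a1 * x * y + a3 * y = x ^ 3 + a2 * x ^ 2 + a4 * x + a6 →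
      ∀ L M d e : FF K, L = 3 * x ^ 2 + 2 * a2 * x + a4 - a1 * y →
      M = y ^ 4 - (-y ^ 2 - a1 * x ^ 2 - a3) →
      d = 2 * y + a1 * x + a3 → e = x ^ 4 - x ^ 2 →
      (L ^ 2 + a1 * L * d - (a2 + 2 * x) * d ^ 2) * e ^ 2 =
        (M ^ 2 + a1 * M * e - (a2 + x ^ 4 + x ^ 2) * e ^ 2) * d ^ 2)
    (cY : y ^ 2 + a1 * x * y + a3 * y = x ^ 3 + a2 * x ^ 2 + a4 * x + a6 →
      ∀ L M d e : FF K, L = 3 * x ^ 2 + 2 * a2 * x + a4 - a1 * y →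
      M = y ^ 4 - (-y ^ 2 - a1 * x ^ 2 - a3) →
      d = 2 * y + a1 * x + a3 → e = x ^ 4 - x ^ 2 →
      -(L * ((L ^ 2 + a1 * L * d - (a2 + 2 * x) * d ^ 2) - x * d ^ 2) + y * d ^ 3) * e
          - a1 * (L ^ 2 + a1 * L * d - (a2 + 2 * x) * d ^ 2) * d * e - a3 * d ^ 3 * e =
        M * ((L ^ 2 + a1 * L * d - (a2 + 2 * x) * d ^ 2) * d - x ^ 4 * d ^ 3)
          + y ^ 4 * d ^ 3 * e) :
    phi 2 W K (phi 2 W K (Point.some x y h)) - (1 : ℤ) • phi 2 W K (Point.some x y h)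
      + ((2 : ℕ) : ℤ) • Point.some x y h = 0 := by
  subst ha1 ha2 ha3 ha4 ha6
  have hc := ((WF 2 W K).toAffine.equation_iff x y).mp h.1
  obtain ⟨hA, eA⟩ := phi_phi_some W K h
  obtain ⟨hB, eB⟩ := phi_some 2 W K h
  have key := rel_ord (WF 2 W K).toAffine h hA ((nonsingular_neg ..).mpr hB)
    (gen_hd W K h1 hx y) (gen_he K hx) (cX hc) (cY hc)
  rw [eA, eB, one_zsmul, sub_eq_add_neg, Point.neg_some, two_nsmul_cast]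
  exact key

/-! ### The sixteen curves -/

theorem theta_00100 (hΔ : (⟨0, 0, 1, 0, 0⟩ : WeierstrassCurve (ZMod 2)).Δ ≠ 0) :
    phi 2 ⟨0, 0, 1, 0, 0⟩ K (phi 2 ⟨0, 0, 1, 0, 0⟩ K (Gpt 2 ⟨0, 0, 1, 0, 0⟩ K hΔ))
      - ((2 : ℤ) + 1 - (Nat.card (⟨0, 0, 1, 0, 0⟩ : WeierstrassCurve (ZMod 2)).toAffine.Point : ℤ)) •
        phi 2 ⟨0, 0, 1, 0, 0⟩ K (Gpt 2 ⟨0, 0, 1, 0, 0⟩ K hΔ) + ((2 : ℕ) : ℤ) • Gpt 2 ⟨0, 0, 1, 0, 0⟩ K hΔ = 0 := by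
  have hcard : Nat.card (⟨0, 0, 1, 0, 0⟩ : WeierstrassCurve (ZMod 2)).toAffine.Point = 3 := by
    rw [card_eq _ hΔ]; decide
  have ht : ((2 : ℤ) + 1 - ((3 : ℕ) : ℤ)) = 0 := by norm_num
  rw [hcard, ht]
  exact theta_ss0 ⟨0, 0, 1, 0, 0⟩ K 0 0 1 0 0 (map_zero _) (map_zero _) (map_one _) (map_zero _) (map_zero _)
    (y0_nonsingular 2 ⟨0, 0, 1, 0, 0⟩ K hΔ)
    (fun hc => cSD_00100 0 0 1 0 0 _ _ rfl rfl rfl rfl rfl (two_FF K) hc)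
    (fun hc n hn => cS0X_00100 0 0 1 0 0 _ _ n rfl rfl rfl rfl rfl hn (two_FF K) hc)
    (fun hc n X2 hn hX2 => cS0Y_00100 0 0 1 0 0 _ _ n X2 rfl rfl rfl rfl rfl hn hX2 (two_FF K) hc)

theorem theta_00101 (hΔ : (⟨0, 0, 1, 0, 1⟩ : WeierstrassCurve (ZMod 2)).Δ ≠ 0) :
    phi 2 ⟨0, 0, 1, 0, 1⟩ K (phi 2 ⟨0, 0, 1, 0, 1⟩ K (Gpt 2 ⟨0, 0, 1, 0, 1⟩ K hΔ))
      - ((2 : ℤ) + 1 - (Nat.card (⟨0, 0, 1, 0, 1⟩ : WeierstrassCurve (ZMod 2)).toAffine.Point : ℤ)) •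
        phi 2 ⟨0, 0, 1, 0, 1⟩ K (Gpt 2 ⟨0, 0, 1, 0, 1⟩ K hΔ) + ((2 : ℕ) : ℤ) • Gpt 2 ⟨0, 0, 1, 0, 1⟩ K hΔ = 0 := by
  have hcard : Nat.card (⟨0, 0, 1, 0, 1⟩ : WeierstrassCurve (ZMod 2)).toAffine.Point = 3 := by
    rw [card_eq _ hΔ]; decide
  have ht : ((2 : ℤ) + 1 - ((3 : ℕ) : ℤ)) = 0 := by norm_num
  rw [hcard, ht]
  exact theta_ss0 ⟨0, 0, 1, 0, 1⟩ K 0 0 1 0 1 (map_zero _) (map_zero _) (map_one _) (map_zero _) (map_one _)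
    (y0_nonsingular 2 ⟨0, 0, 1, 0, 1⟩ K hΔ)
    (fun hc => cSD_00101 0 0 1 0 1 _ _ rfl rfl rfl rfl rfl (two_FF K) hc)
    (fun hc n hn => cS0X_00101 0 0 1 0 1 _ _ n rfl rfl rfl rfl rfl hn (two_FF K) hc)
    (fun hc n X2 hn hX2 => cS0Y_00101 0 0 1 0 1 _ _ n X2 rfl rfl rfl rfl rfl hn hX2 (two_FF K) hc)

theorem theta_00110 (hΔ : (⟨0, 0, 1, 1, 0⟩ : WeierstrassCurve (ZMod 2)).Δ ≠ 0) :
    phi 2 ⟨0, 0, 1, 1, 0⟩ K (phi 2 ⟨0, 0, 1, 1, 0⟩ K (Gpt 2 ⟨0, 0, 1, 1, 0⟩ K hΔ))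
      - ((2 : ℤ) + 1 - (Nat.card (⟨0, 0, 1, 1, 0⟩ : WeierstrassCurve (ZMod 2)).toAffine.Point : ℤ)) •
        phi 2 ⟨0, 0, 1, 1, 0⟩ K (Gpt 2 ⟨0, 0, 1, 1, 0⟩ K hΔ) + ((2 : ℕ) : ℤ) • Gpt 2 ⟨0, 0, 1, 1, 0⟩ K hΔ = 0 := by
  have hcard : Nat.card (⟨0, 0, 1, 1, 0⟩ : WeierstrassCurve (ZMod 2)).toAffine.Point = 5 := by
    rw [card_eq _ hΔ]; decide
  have ht : ((2 : ℤ) + 1 - ((5 : ℕ) : ℤ)) = -2 := by norm_num
  rw [hcard, ht]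
  exact theta_ss2_neg ⟨0, 0, 1, 1, 0⟩ K 0 0 1 1 0 (map_zero _) (map_zero _) (map_one _) (map_one _) (map_zero _)
    (y0_nonsingular 2 ⟨0, 0, 1, 1, 0⟩ K hΔ)
    (fun hc => cSD_00110 0 0 1 1 0 _ _ rfl rfl rfl rfl rfl (two_FF K) hc)
    (fun hc n X2 hn hX2 => cSNE_00110 0 0 1 1 0 _ _ n X2 rfl rfl rfl rfl rfl hn hX2 (two_FF K) hc)
    (fun hc n X2 N2 mu hn hX2 hN2 hmu => cSMU_00110 0 0 1 1 0 _ _ n X2 N2 mu rfl rfl rfl rfl rfl hn hX2 hN2 hmu (two_FF K) hc)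
    (fun hc n X2 N2 mu hn hX2 hN2 hmu => cSX_00110 0 0 1 1 0 _ _ n X2 N2 mu rfl rfl rfl rfl rfl hn hX2 hN2 hmu (two_FF K) hc)
    (fun hc n X2 N2 mu yT hn hX2 hN2 hmu hyT => cSY_00110 0 0 1 1 0 _ _ n X2 N2 mu yT rfl rfl rfl rfl rfl hn hX2 hN2 hmu hyT (two_FF K) hc)

theorem theta_00111 (hΔ : (⟨0, 0, 1, 1, 1⟩ : WeierstrassCurve (ZMod 2)).Δ ≠ 0) :
    phi 2 ⟨0, 0, 1, 1, 1⟩ K (phi 2 ⟨0, 0, 1, 1, 1⟩ K (Gpt 2 ⟨0, 0, 1, 1, 1⟩ K hΔ))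
      - ((2 : ℤ) + 1 - (Nat.card (⟨0, 0, 1, 1, 1⟩ : WeierstrassCurve (ZMod 2)).toAffine.Point : ℤ)) •
        phi 2 ⟨0, 0, 1, 1, 1⟩ K (Gpt 2 ⟨0, 0, 1, 1, 1⟩ K hΔ) + ((2 : ℕ) : ℤ) • Gpt 2 ⟨0, 0, 1, 1, 1⟩ K hΔ = 0 := by
  have hcard : Nat.card (⟨0, 0, 1, 1, 1⟩ : WeierstrassCurve (ZMod 2)).toAffine.Point = 1 := by
    rw [card_eq _ hΔ]; decide
  have ht : ((2 : ℤ) + 1 - ((1 : ℕ) : ℤ)) = 2 := by norm_num
  rw [hcard, ht]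
  exact theta_ss2_pos ⟨0, 0, 1, 1, 1⟩ K 0 0 1 1 1 (map_zero _) (map_zero _) (map_one _) (map_one _) (map_one _)
    (y0_nonsingular 2 ⟨0, 0, 1, 1, 1⟩ K hΔ)
    (fun hc => cSD_00111 0 0 1 1 1 _ _ rfl rfl rfl rfl rfl (two_FF K) hc)
    (fun hc n X2 hn hX2 => cSNE_00111 0 0 1 1 1 _ _ n X2 rfl rfl rfl rfl rfl hn hX2 (two_FF K) hc)
    (fun hc n X2 N2 mu hn hX2 hN2 hmu => cSMU_00111 0 0 1 1 1 _ _ n X2 N2 mu rfl rfl rfl rfl rfl hn hX2 hN2 hmu (two_FF K) hc)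
    (fun hc n X2 N2 mu hn hX2 hN2 hmu => cSX_00111 0 0 1 1 1 _ _ n X2 N2 mu rfl rfl rfl rfl rfl hn hX2 hN2 hmu (two_FF K) hc)
    (fun hc n X2 N2 mu yT hn hX2 hN2 hmu hyT => cSY_00111 0 0 1 1 1 _ _ n X2 N2 mu yT rfl rfl rfl rfl rfl hn hX2 hN2 hmu hyT (two_FF K) hc)

theorem theta_01100 (hΔ : (⟨0, 1, 1, 0, 0⟩ : WeierstrassCurve (ZMod 2)).Δ ≠ 0) :
    phi 2 ⟨0, 1, 1, 0, 0⟩ K (phi 2 ⟨0, 1, 1, 0, 0⟩ K (Gpt 2 ⟨0, 1, 1, 0, 0⟩ K hΔ))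
      - ((2 : ℤ) + 1 - (Nat.card (⟨0, 1, 1, 0, 0⟩ : WeierstrassCurve (ZMod 2)).toAffine.Point : ℤ)) •
        phi 2 ⟨0, 1, 1, 0, 0⟩ K (Gpt 2 ⟨0, 1, 1, 0, 0⟩ K hΔ) + ((2 : ℕ) : ℤ) • Gpt 2 ⟨0, 1, 1, 0, 0⟩ K hΔ = 0 := by
  have hcard : Nat.card (⟨0, 1, 1, 0, 0⟩ : WeierstrassCurve (ZMod 2)).toAffine.Point = 5 := by
    rw [card_eq _ hΔ]; decide
  have ht : ((2 : ℤ) + 1 - ((5 : ℕ) : ℤ)) = -2 := by norm_num
  rw [hcard, ht]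
  exact theta_ss2_neg ⟨0, 1, 1, 0, 0⟩ K 0 1 1 0 0 (map_zero _) (map_one _) (map_one _) (map_zero _) (map_zero _)
    (y0_nonsingular 2 ⟨0, 1, 1, 0, 0⟩ K hΔ)
    (fun hc => cSD_01100 0 1 1 0 0 _ _ rfl rfl rfl rfl rfl (two_FF K) hc)
    (fun hc n X2 hn hX2 => cSNE_01100 0 1 1 0 0 _ _ n X2 rfl rfl rfl rfl rfl hn hX2 (two_FF K) hc)
    (fun hc n X2 N2 mu hn hX2 hN2 hmu => cSMU_01100 0 1 1 0 0 _ _ n X2 N2 mu rfl rfl rfl rfl rfl hn hX2 hN2 hmu (two_FF K) hc)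
    (fun hc n X2 N2 mu hn hX2 hN2 hmu => cSX_01100 0 1 1 0 0 _ _ n X2 N2 mu rfl rfl rfl rfl rfl hn hX2 hN2 hmu (two_FF K) hc)
    (fun hc n X2 N2 mu yT hn hX2 hN2 hmu hyT => cSY_01100 0 1 1 0 0 _ _ n X2 N2 mu yT rfl rfl rfl rfl rfl hn hX2 hN2 hmu hyT (two_FF K) hc)

theorem theta_01101 (hΔ : (⟨0, 1, 1, 0, 1⟩ : WeierstrassCurve (ZMod 2)).Δ ≠ 0) :
    phi 2 ⟨0, 1, 1, 0, 1⟩ K (phi 2 ⟨0, 1, 1, 0, 1⟩ K (Gpt 2 ⟨0, 1, 1, 0, 1⟩ K hΔ))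
      - ((2 : ℤ) + 1 - (Nat.card (⟨0, 1, 1, 0, 1⟩ : WeierstrassCurve (ZMod 2)).toAffine.Point : ℤ)) •
        phi 2 ⟨0, 1, 1, 0, 1⟩ K (Gpt 2 ⟨0, 1, 1, 0, 1⟩ K hΔ) + ((2 : ℕ) : ℤ) • Gpt 2 ⟨0, 1, 1, 0, 1⟩ K hΔ = 0 := by
  have hcard : Nat.card (⟨0, 1, 1, 0, 1⟩ : WeierstrassCurve (ZMod 2)).toAffine.Point = 1 := by
    rw [card_eq _ hΔ]; decide
  have ht : ((2 : ℤ) + 1 - ((1 : ℕ) : ℤ)) = 2 := by norm_num
  rw [hcard, ht]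
  exact theta_ss2_pos ⟨0, 1, 1, 0, 1⟩ K 0 1 1 0 1 (map_zero _) (map_one _) (map_one _) (map_zero _) (map_one _)
    (y0_nonsingular 2 ⟨0, 1, 1, 0, 1⟩ K hΔ)
    (fun hc => cSD_01101 0 1 1 0 1 _ _ rfl rfl rfl rfl rfl (two_FF K) hc)
    (fun hc n X2 hn hX2 => cSNE_01101 0 1 1 0 1 _ _ n X2 rfl rfl rfl rfl rfl hn hX2 (two_FF K) hc)
    (fun hc n X2 N2 mu hn hX2 hN2 hmu => cSMU_01101 0 1 1 0 1 _ _ n X2 N2 mu rfl rfl rfl rfl rfl hn hX2 hN2 hmu (two_FF K) hc)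
    (fun hc n X2 N2 mu hn hX2 hN2 hmu => cSX_01101 0 1 1 0 1 _ _ n X2 N2 mu rfl rfl rfl rfl rfl hn hX2 hN2 hmu (two_FF K) hc)
    (fun hc n X2 N2 mu yT hn hX2 hN2 hmu hyT => cSY_01101 0 1 1 0 1 _ _ n X2 N2 mu yT rfl rfl rfl rfl rfl hn hX2 hN2 hmu hyT (two_FF K) hc)

theorem theta_01110 (hΔ : (⟨0, 1, 1, 1, 0⟩ : WeierstrassCurve (ZMod 2)).Δ ≠ 0) :
    phi 2 ⟨0, 1, 1, 1, 0⟩ K (phi 2 ⟨0, 1, 1, 1, 0⟩ K (Gpt 2 ⟨0, 1, 1, 1, 0⟩ K hΔ))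
      - ((2 : ℤ) + 1 - (Nat.card (⟨0, 1, 1, 1, 0⟩ : WeierstrassCurve (ZMod 2)).toAffine.Point : ℤ)) •
        phi 2 ⟨0, 1, 1, 1, 0⟩ K (Gpt 2 ⟨0, 1, 1, 1, 0⟩ K hΔ) + ((2 : ℕ) : ℤ) • Gpt 2 ⟨0, 1, 1, 1, 0⟩ K hΔ = 0 := by
  have hcard : Nat.card (⟨0, 1, 1, 1, 0⟩ : WeierstrassCurve (ZMod 2)).toAffine.Point = 3 := by
    rw [card_eq _ hΔ]; decide
  have ht : ((2 : ℤ) + 1 - ((3 : ℕ) : ℤ)) = 0 := by norm_num
  rw [hcard, ht]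
  exact theta_ss0 ⟨0, 1, 1, 1, 0⟩ K 0 1 1 1 0 (map_zero _) (map_one _) (map_one _) (map_one _) (map_zero _)
    (y0_nonsingular 2 ⟨0, 1, 1, 1, 0⟩ K hΔ)
    (fun hc => cSD_01110 0 1 1 1 0 _ _ rfl rfl rfl rfl rfl (two_FF K) hc)
    (fun hc n hn => cS0X_01110 0 1 1 1 0 _ _ n rfl rfl rfl rfl rfl hn (two_FF K) hc)
    (fun hc n X2 hn hX2 => cS0Y_01110 0 1 1 1 0 _ _ n X2 rfl rfl rfl rfl rfl hn hX2 (two_FF K) hc)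

theorem theta_01111 (hΔ : (⟨0, 1, 1, 1, 1⟩ : WeierstrassCurve (ZMod 2)).Δ ≠ 0) :
    phi 2 ⟨0, 1, 1, 1, 1⟩ K (phi 2 ⟨0, 1, 1, 1, 1⟩ K (Gpt 2 ⟨0, 1, 1, 1, 1⟩ K hΔ))
      - ((2 : ℤ) + 1 - (Nat.card (⟨0, 1, 1, 1, 1⟩ : WeierstrassCurve (ZMod 2)).toAffine.Point : ℤ)) •
        phi 2 ⟨0, 1, 1, 1, 1⟩ K (Gpt 2 ⟨0, 1, 1, 1, 1⟩ K hΔ) + ((2 : ℕ) : ℤ) • Gpt 2 ⟨0, 1, 1, 1, 1⟩ K hΔ = 0 := by
  have hcard : Nat.card (⟨0, 1, 1, 1, 1⟩ : WeierstrassCurve (ZMod 2)).toAffine.Point = 3 := by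
    rw [card_eq _ hΔ]; decide
  have ht : ((2 : ℤ) + 1 - ((3 : ℕ) : ℤ)) = 0 := by norm_num
  rw [hcard, ht]
  exact theta_ss0 ⟨0, 1, 1, 1, 1⟩ K 0 1 1 1 1 (map_zero _) (map_one _) (map_one _) (map_one _) (map_one _)
    (y0_nonsingular 2 ⟨0, 1, 1, 1, 1⟩ K hΔ)
    (fun hc => cSD_01111 0 1 1 1 1 _ _ rfl rfl rfl rfl rfl (two_FF K) hc)
    (fun hc n hn => cS0X_01111 0 1 1 1 1 _ _ n rfl rfl rfl rfl rfl hn (two_FF K) hc)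
    (fun hc n X2 hn hX2 => cS0Y_01111 0 1 1 1 1 _ _ n X2 rfl rfl rfl rfl rfl hn hX2 (two_FF K) hc)

theorem theta_10001 (hΔ : (⟨1, 0, 0, 0, 1⟩ : WeierstrassCurve (ZMod 2)).Δ ≠ 0) :
    phi 2 ⟨1, 0, 0, 0, 1⟩ K (phi 2 ⟨1, 0, 0, 0, 1⟩ K (Gpt 2 ⟨1, 0, 0, 0, 1⟩ K hΔ))
      - ((2 : ℤ) + 1 - (Nat.card (⟨1, 0, 0, 0, 1⟩ : WeierstrassCurve (ZMod 2)).toAffine.Point : ℤ)) •
        phi 2 ⟨1, 0, 0, 0, 1⟩ K (Gpt 2 ⟨1, 0, 0, 0, 1⟩ K hΔ) + ((2 : ℕ) : ℤ) • Gpt 2 ⟨1, 0, 0, 0, 1⟩ K hΔ = 0 := by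
  have hcard : Nat.card (⟨1, 0, 0, 0, 1⟩ : WeierstrassCurve (ZMod 2)).toAffine.Point = 4 := by
    rw [card_eq _ hΔ]; decide
  have ht : ((2 : ℤ) + 1 - ((4 : ℕ) : ℤ)) = -1 := by norm_num
  rw [hcard, ht]
  exact theta_ord_neg ⟨1, 0, 0, 0, 1⟩ K 1 0 0 0 1 (map_one _) (map_zero _) (map_zero _) (map_zero _) (map_one _) rfl
    (y0_nonsingular 2 ⟨1, 0, 0, 0, 1⟩ K hΔ) (GlueT.Xf_not_mem_range K)
    (fun hc L M d e hL hM hd he => cOX_10001 1 0 0 0 1 _ _ L M d e rfl rfl rfl rfl rfl hL hM hd he (two_FF K) hc)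
    (fun hc L M d e hL hM hd he => cOY_10001 1 0 0 0 1 _ _ L M d e rfl rfl rfl rfl rfl hL hM hd he (two_FF K) hc)

theorem theta_10010 (hΔ : (⟨1, 0, 0, 1, 0⟩ : WeierstrassCurve (ZMod 2)).Δ ≠ 0) :
    phi 2 ⟨1, 0, 0, 1, 0⟩ K (phi 2 ⟨1, 0, 0, 1, 0⟩ K (Gpt 2 ⟨1, 0, 0, 1, 0⟩ K hΔ))
      - ((2 : ℤ) + 1 - (Nat.card (⟨1, 0, 0, 1, 0⟩ : WeierstrassCurve (ZMod 2)).toAffine.Point : ℤ)) •
        phi 2 ⟨1, 0, 0, 1, 0⟩ K (Gpt 2 ⟨1, 0, 0, 1, 0⟩ K hΔ) + ((2 : ℕ) : ℤ) • Gpt 2 ⟨1, 0, 0, 1, 0⟩ K hΔ = 0 := by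
  have hcard : Nat.card (⟨1, 0, 0, 1, 0⟩ : WeierstrassCurve (ZMod 2)).toAffine.Point = 4 := by
    rw [card_eq _ hΔ]; decide
  have ht : ((2 : ℤ) + 1 - ((4 : ℕ) : ℤ)) = -1 := by norm_num
  rw [hcard, ht]
  exact theta_ord_neg ⟨1, 0, 0, 1, 0⟩ K 1 0 0 1 0 (map_one _) (map_zero _) (map_zero _) (map_one _) (map_zero _) rfl
    (y0_nonsingular 2 ⟨1, 0, 0, 1, 0⟩ K hΔ) (GlueT.Xf_not_mem_range K)
    (fun hc L M d e hL hM hd he => cOX_10010 1 0 0 1 0 _ _ L M d e rfl rfl rfl rfl rfl hL hM hd he (two_FF K) hc)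
    (fun hc L M d e hL hM hd he => cOY_10010 1 0 0 1 0 _ _ L M d e rfl rfl rfl rfl rfl hL hM hd he (two_FF K) hc)

theorem theta_10101 (hΔ : (⟨1, 0, 1, 0, 1⟩ : WeierstrassCurve (ZMod 2)).Δ ≠ 0) :
    phi 2 ⟨1, 0, 1, 0, 1⟩ K (phi 2 ⟨1, 0, 1, 0, 1⟩ K (Gpt 2 ⟨1, 0, 1, 0, 1⟩ K hΔ))
      - ((2 : ℤ) + 1 - (Nat.card (⟨1, 0, 1, 0, 1⟩ : WeierstrassCurve (ZMod 2)).toAffine.Point : ℤ)) •
        phi 2 ⟨1, 0, 1, 0, 1⟩ K (Gpt 2 ⟨1, 0, 1, 0, 1⟩ K hΔ) + ((2 : ℕ) : ℤ) • Gpt 2 ⟨1, 0, 1, 0, 1⟩ K hΔ = 0 := by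
  have hcard : Nat.card (⟨1, 0, 1, 0, 1⟩ : WeierstrassCurve (ZMod 2)).toAffine.Point = 2 := by
    rw [card_eq _ hΔ]; decide
  have ht : ((2 : ℤ) + 1 - ((2 : ℕ) : ℤ)) = 1 := by norm_num
  rw [hcard, ht]
  exact theta_ord_pos ⟨1, 0, 1, 0, 1⟩ K 1 0 1 0 1 (map_one _) (map_zero _) (map_one _) (map_zero _) (map_one _) rfl
    (y0_nonsingular 2 ⟨1, 0, 1, 0, 1⟩ K hΔ) (GlueT.Xf_not_mem_range K)
    (fun hc L M d e hL hM hd he => cOX_10101 1 0 1 0 1 _ _ L M d e rfl rfl rfl rfl rfl hL hM hd he (two_FF K) hc)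
    (fun hc L M d e hL hM hd he => cOY_10101 1 0 1 0 1 _ _ L M d e rfl rfl rfl rfl rfl hL hM hd he (two_FF K) hc)

theorem theta_10111 (hΔ : (⟨1, 0, 1, 1, 1⟩ : WeierstrassCurve (ZMod 2)).Δ ≠ 0) :
    phi 2 ⟨1, 0, 1, 1, 1⟩ K (phi 2 ⟨1, 0, 1, 1, 1⟩ K (Gpt 2 ⟨1, 0, 1, 1, 1⟩ K hΔ))
      - ((2 : ℤ) + 1 - (Nat.card (⟨1, 0, 1, 1, 1⟩ : WeierstrassCurve (ZMod 2)).toAffine.Point : ℤ)) •
        phi 2 ⟨1, 0, 1, 1, 1⟩ K (Gpt 2 ⟨1, 0, 1, 1, 1⟩ K hΔ) + ((2 : ℕ) : ℤ) • Gpt 2 ⟨1, 0, 1, 1, 1⟩ K hΔ = 0 := by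
  have hcard : Nat.card (⟨1, 0, 1, 1, 1⟩ : WeierstrassCurve (ZMod 2)).toAffine.Point = 2 := by
    rw [card_eq _ hΔ]; decide
  have ht : ((2 : ℤ) + 1 - ((2 : ℕ) : ℤ)) = 1 := by norm_num
  rw [hcard, ht]
  exact theta_ord_pos ⟨1, 0, 1, 1, 1⟩ K 1 0 1 1 1 (map_one _) (map_zero _) (map_one _) (map_one _) (map_one _) rfl
    (y0_nonsingular 2 ⟨1, 0, 1, 1, 1⟩ K hΔ) (GlueT.Xf_not_mem_range K)
    (fun hc L M d e hL hM hd he => cOX_10111 1 0 1 1 1 _ _ L M d e rfl rfl rfl rfl rfl hL hM hd he (two_FF K) hc)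
    (fun hc L M d e hL hM hd he => cOY_10111 1 0 1 1 1 _ _ L M d e rfl rfl rfl rfl rfl hL hM hd he (two_FF K) hc)

theorem theta_11001 (hΔ : (⟨1, 1, 0, 0, 1⟩ : WeierstrassCurve (ZMod 2)).Δ ≠ 0) :
    phi 2 ⟨1, 1, 0, 0, 1⟩ K (phi 2 ⟨1, 1, 0, 0, 1⟩ K (Gpt 2 ⟨1, 1, 0, 0, 1⟩ K hΔ))
      - ((2 : ℤ) + 1 - (Nat.card (⟨1, 1, 0, 0, 1⟩ : WeierstrassCurve (ZMod 2)).toAffine.Point : ℤ)) •
        phi 2 ⟨1, 1, 0, 0, 1⟩ K (Gpt 2 ⟨1, 1, 0, 0, 1⟩ K hΔ) + ((2 : ℕ) : ℤ) • Gpt 2 ⟨1, 1, 0, 0, 1⟩ K hΔ = 0 := by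
  have hcard : Nat.card (⟨1, 1, 0, 0, 1⟩ : WeierstrassCurve (ZMod 2)).toAffine.Point = 2 := by
    rw [card_eq _ hΔ]; decide
  have ht : ((2 : ℤ) + 1 - ((2 : ℕ) : ℤ)) = 1 := by norm_num
  rw [hcard, ht]
  exact theta_ord_pos ⟨1, 1, 0, 0, 1⟩ K 1 1 0 0 1 (map_one _) (map_one _) (map_zero _) (map_zero _) (map_one _) rfl
    (y0_nonsingular 2 ⟨1, 1, 0, 0, 1⟩ K hΔ) (GlueT.Xf_not_mem_range K)
    (fun hc L M d e hL hM hd he => cOX_11001 1 1 0 0 1 _ _ L M d e rfl rfl rfl rfl rfl hL hM hd he (two_FF K) hc)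
    (fun hc L M d e hL hM hd he => cOY_11001 1 1 0 0 1 _ _ L M d e rfl rfl rfl rfl rfl hL hM hd he (two_FF K) hc)

theorem theta_11010 (hΔ : (⟨1, 1, 0, 1, 0⟩ : WeierstrassCurve (ZMod 2)).Δ ≠ 0) :
    phi 2 ⟨1, 1, 0, 1, 0⟩ K (phi 2 ⟨1, 1, 0, 1, 0⟩ K (Gpt 2 ⟨1, 1, 0, 1, 0⟩ K hΔ))
      - ((2 : ℤ) + 1 - (Nat.card (⟨1, 1, 0, 1, 0⟩ : WeierstrassCurve (ZMod 2)).toAffine.Point : ℤ)) •
        phi 2 ⟨1, 1, 0, 1, 0⟩ K (Gpt 2 ⟨1, 1, 0, 1, 0⟩ K hΔ) + ((2 : ℕ) : ℤ) • Gpt 2 ⟨1, 1, 0, 1, 0⟩ K hΔ = 0 := by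
  have hcard : Nat.card (⟨1, 1, 0, 1, 0⟩ : WeierstrassCurve (ZMod 2)).toAffine.Point = 2 := by
    rw [card_eq _ hΔ]; decide
  have ht : ((2 : ℤ) + 1 - ((2 : ℕ) : ℤ)) = 1 := by norm_num
  rw [hcard, ht]
  exact theta_ord_pos ⟨1, 1, 0, 1, 0⟩ K 1 1 0 1 0 (map_one _) (map_one _) (map_zero _) (map_one _) (map_zero _) rfl
    (y0_nonsingular 2 ⟨1, 1, 0, 1, 0⟩ K hΔ) (GlueT.Xf_not_mem_range K)
    (fun hc L M d e hL hM hd he => cOX_11010 1 1 0 1 0 _ _ L M d e rfl rfl rfl rfl rfl hL hM hd he (two_FF K) hc)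
    (fun hc L M d e hL hM hd he => cOY_11010 1 1 0 1 0 _ _ L M d e rfl rfl rfl rfl rfl hL hM hd he (two_FF K) hc)

theorem theta_11100 (hΔ : (⟨1, 1, 1, 0, 0⟩ : WeierstrassCurve (ZMod 2)).Δ ≠ 0) :
    phi 2 ⟨1, 1, 1, 0, 0⟩ K (phi 2 ⟨1, 1, 1, 0, 0⟩ K (Gpt 2 ⟨1, 1, 1, 0, 0⟩ K hΔ))
      - ((2 : ℤ) + 1 - (Nat.card (⟨1, 1, 1, 0, 0⟩ : WeierstrassCurve (ZMod 2)).toAffine.Point : ℤ)) •
        phi 2 ⟨1, 1, 1, 0, 0⟩ K (Gpt 2 ⟨1, 1, 1, 0, 0⟩ K hΔ) + ((2 : ℕ) : ℤ) • Gpt 2 ⟨1, 1, 1, 0, 0⟩ K hΔ = 0 := by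
  have hcard : Nat.card (⟨1, 1, 1, 0, 0⟩ : WeierstrassCurve (ZMod 2)).toAffine.Point = 4 := by
    rw [card_eq _ hΔ]; decide
  have ht : ((2 : ℤ) + 1 - ((4 : ℕ) : ℤ)) = -1 := by norm_num
  rw [hcard, ht]
  exact theta_ord_neg ⟨1, 1, 1, 0, 0⟩ K 1 1 1 0 0 (map_one _) (map_one _) (map_one _) (map_zero _) (map_zero _) rfl
    (y0_nonsingular 2 ⟨1, 1, 1, 0, 0⟩ K hΔ) (GlueT.Xf_not_mem_range K)
    (fun hc L M d e hL hM hd he => cOX_11100 1 1 1 0 0 _ _ L M d e rfl rfl rfl rfl rfl hL hM hd he (two_FF K) hc)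
    (fun hc L M d e hL hM hd he => cOY_11100 1 1 1 0 0 _ _ L M d e rfl rfl rfl rfl rfl hL hM hd he (two_FF K) hc)

theorem theta_11110 (hΔ : (⟨1, 1, 1, 1, 0⟩ : WeierstrassCurve (ZMod 2)).Δ ≠ 0) :
    phi 2 ⟨1, 1, 1, 1, 0⟩ K (phi 2 ⟨1, 1, 1, 1, 0⟩ K (Gpt 2 ⟨1, 1, 1, 1, 0⟩ K hΔ))
      - ((2 : ℤ) + 1 - (Nat.card (⟨1, 1, 1, 1, 0⟩ : WeierstrassCurve (ZMod 2)).toAffine.Point : ℤ)) •
        phi 2 ⟨1, 1, 1, 1, 0⟩ K (Gpt 2 ⟨1, 1, 1, 1, 0⟩ K hΔ) + ((2 : ℕ) : ℤ) • Gpt 2 ⟨1, 1, 1, 1, 0⟩ K hΔ = 0 := by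
  have hcard : Nat.card (⟨1, 1, 1, 1, 0⟩ : WeierstrassCurve (ZMod 2)).toAffine.Point = 4 := by
    rw [card_eq _ hΔ]; decide
  have ht : ((2 : ℤ) + 1 - ((4 : ℕ) : ℤ)) = -1 := by norm_num
  rw [hcard, ht]
  exact theta_ord_neg ⟨1, 1, 1, 1, 0⟩ K 1 1 1 1 0 (map_one _) (map_one _) (map_one _) (map_one _) (map_zero _) rfl
    (y0_nonsingular 2 ⟨1, 1, 1, 1, 0⟩ K hΔ) (GlueT.Xf_not_mem_range K)
    (fun hc L M d e hL hM hd he => cOX_11110 1 1 1 1 0 _ _ L M d e rfl rfl rfl rfl rfl hL hM hd he (two_FF K) hc)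
    (fun hc L M d e hL hM hd he => cOY_11110 1 1 1 1 0 _ _ L M d e rfl rfl rfl rfl rfl hL hM hd he (two_FF K) hc)

/-- **The relation at the generic point**, for every nonsingular curve over `ZMod 2`. -/
theorem theta_G (hΔ : W.Δ ≠ 0) :
    phi 2 W K (phi 2 W K (Gpt 2 W K hΔ))
      - ((2 : ℤ) + 1 - (Nat.card W.toAffine.Point : ℤ)) • phi 2 W K (Gpt 2 W K hΔ)
      + ((2 : ℕ) : ℤ) • Gpt 2 W K hΔ = 0 := by
  obtain ⟨a1, a2, a3, a4, a6⟩ := W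
  have h01 : ∀ a : ZMod 2, a = 0 ∨ a = 1 := by decide
  rcases h01 a1 with rfl | rfl <;> rcases h01 a2 with rfl | rfl <;>
    rcases h01 a3 with rfl | rfl <;> rcases h01 a4 with rfl | rfl <;>
    rcases h01 a6 with rfl | rfl
  · exact absurd (by decide) hΔ
  · exact absurd (by decide) hΔ
  · exact absurd (by decide) hΔ
  · exact absurd (by decide) hΔ
  · exact theta_00100 K hΔ
  · exact theta_00101 K hΔ
  · exact theta_00110 K hΔ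
  · exact theta_00111 K hΔ
  · exact absurd (by decide) hΔ
  · exact absurd (by decide) hΔ
  · exact absurd (by decide) hΔ
  · exact absurd (by decide) hΔ
  · exact theta_01100 K hΔ
  · exact theta_01101 K hΔ
  · exact theta_01110 K hΔ
  · exact theta_01111 K hΔ
  · exact absurd (by decide) hΔ
  · exact theta_10001 K hΔ
  · exact theta_10010 K hΔ
  · exact absurd (by decide) hΔ
  · exact absurd (by decide) hΔ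
  · exact theta_10101 K hΔ
  · exact absurd (by decide) hΔ
  · exact theta_10111 K hΔ
  · exact absurd (by decide) hΔ
  · exact theta_11001 K hΔ
  · exact theta_11010 K hΔ
  · exact absurd (by decide) hΔ
  · exact theta_11100 K hΔ
  · exact absurd (by decide) hΔ
  · exact theta_11110 K hΔ
  · exact absurd (by decide) hΔ

/-- The transfer substitution for a constant point (the proof of `S52.Frob.glueT`, which does not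
use `ℓ ≠ 2`). -/
theorem glueT_two [IsAlgClosed K] (hΔ : W.Δ ≠ 0) (P : (W.toAffine⁄K).Point) :
    ∃ s : (WF 2 W K).toAffine.Point →+ (WF 2 W K).toAffine.Point,
      (∀ x, s (phi 2 W K x) = phi 2 W K (s x)) ∧
      (s (Gpt 2 W K hΔ) = Gpt 2 W K hΔ +
          WeierstrassCurve.Affine.Point.baseChange (W' := W.toAffine) K (FF K) P ∨
        s (Gpt 2 W K hΔ) = -(Gpt 2 W K hΔ +
          WeierstrassCurve.Affine.Point.baseChange (W' := W.toAffine) K (FF K) P)) := by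
  obtain ⟨Q, hQ⟩ : ∃ Q : (WF 2 W K).toAffine.Point, Q = Gpt 2 W K hΔ +
      WeierstrassCurve.Affine.Point.baseChange (W' := W.toAffine) K (FF K) P := ⟨_, rfl⟩
  rw [← hQ]
  rcases Q with _ | ⟨xq, yq, hq⟩
  · exfalso
    apply GlueT.baseChange_ne_Gpt 2 W K hΔ (-P)
    rw [map_neg]
    exact (eq_neg_of_add_eq_zero_left hQ.symm).symm
  · have hxq : xq ∉ Set.range (algebraMap K (FF K)) := by
      intro hx
      obtain ⟨Q', hQ'⟩ := GlueT.exists_baseChange_eq 2 W K hq hx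
      apply GlueT.baseChange_ne_Gpt 2 W K hΔ (Q' - P)
      rw [map_sub, hQ', hQ]
      abel
    obtain ⟨s₀, hs₀⟩ := exists_subst xq hxq
    obtain ⟨h1, h2⟩ := subst_point 2 W K hΔ s₀ hq hs₀
    exact ⟨Point.map (W' := W.toAffine) (s₀.restrictScalars (ZMod 2)), h1, h2⟩

/-- The relation over an algebraically closed field. -/
theorem relation_closed_two [IsAlgClosed K] (hΔ : W.Δ ≠ 0) (P : (W.toAffine⁄K).Point) :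
    WeierstrassCurve.Affine.Point.map (W' := W.toAffine) (FiniteField.frobeniusAlgHom (ZMod 2) K)
        (WeierstrassCurve.Affine.Point.map (W' := W.toAffine)
          (FiniteField.frobeniusAlgHom (ZMod 2) K) P)
      - ((2 : ℤ) + 1 - (Nat.card W.toAffine.Point : ℤ)) •
          WeierstrassCurve.Affine.Point.map (W' := W.toAffine)
            (FiniteField.frobeniusAlgHom (ZMod 2) K) P
      + ((2 : ℕ) : ℤ) • P = 0 := by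
  obtain ⟨s, hs, hsG⟩ := glueT_two W K hΔ P
  have h1 := Chain.chain_transfer (phi 2 W K) (Gpt 2 W K hΔ)
    ((2 : ℤ) + 1 - (Nat.card W.toAffine.Point : ℤ)) 2 (theta_G W K hΔ)
    (WeierstrassCurve.Affine.Point.baseChange (W' := W.toAffine) K (FF K) P) s hs hsG
  apply WeierstrassCurve.Affine.Point.map_injective (W' := W.toAffine) (Algebra.ofId K (FF K))
  change WeierstrassCurve.Affine.Point.baseChange (W' := W.toAffine) K (FF K) _ =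
    WeierstrassCurve.Affine.Point.baseChange (W' := W.toAffine) K (FF K) 0
  rw [map_zero, map_add, map_sub, map_zsmul, map_zsmul, ← phi_baseChange, ← phi_baseChange]
  exact h1

end generic

universe u

/-- **THEOREM F at `ℓ = 2`.**  For a Weierstrass curve `W` over `ZMod 2` with `Δ ≠ 0` and any field
`κ ⊇ ZMod 2`, the coordinatewise Frobenius `φ` on `W(κ)` satisfies `φ² - t φ + 2 = 0` with
`t = 2 + 1 - #W(ZMod 2)`. -/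
theorem frob_relation_two (W : WeierstrassCurve (ZMod 2)) (hΔ : W.Δ ≠ 0)
    (κ : Type u) [Field κ] [DecidableEq κ] [Algebra (ZMod 2) κ] (P : (W.toAffine⁄κ).Point) :
    WeierstrassCurve.Affine.Point.map (W' := W.toAffine) (FiniteField.frobeniusAlgHom (ZMod 2) κ)
        (WeierstrassCurve.Affine.Point.map (W' := W.toAffine)
          (FiniteField.frobeniusAlgHom (ZMod 2) κ) P)
      - ((Nat.card (ZMod 2) : ℤ) + 1 - (Nat.card W.toAffine.Point : ℤ)) •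
          WeierstrassCurve.Affine.Point.map (W' := W.toAffine)
            (FiniteField.frobeniusAlgHom (ZMod 2) κ) P
      + (2 : ℤ) • P = 0 := by
  have hcard : (Nat.card (ZMod 2) : ℤ) = 2 := by simp
  rw [hcard]
  have key := Fermat.Agent.S52.Frob.descent_kappa 2 W
    ((2 : ℤ) + 1 - (Nat.card W.toAffine.Point : ℤ)) ?_ κ P
  · rw [Nat.cast_ofNat] at key
    exact key
  · intro K _ _ _ inst Q
    cases Subsingleton.elim inst (Classical.decEq K)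
    exact relation_closed_two W K hΔ Q

/-- **THEOREM F for every prime `ℓ`** (`S52.Frob.frob_relation` without the hypothesis `ℓ ≠ 2`). -/
theorem frob_relation_all (ℓ : ℕ) [Fact ℓ.Prime] (W : WeierstrassCurve (ZMod ℓ)) (hΔ : W.Δ ≠ 0)
    (κ : Type u) [Field κ] [DecidableEq κ] [Algebra (ZMod ℓ) κ] (P : (W.toAffine⁄κ).Point) :
    WeierstrassCurve.Affine.Point.map (W' := W.toAffine) (FiniteField.frobeniusAlgHom (ZMod ℓ) κ)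
        (WeierstrassCurve.Affine.Point.map (W' := W.toAffine)
          (FiniteField.frobeniusAlgHom (ZMod ℓ) κ) P)
      - ((Nat.card (ZMod ℓ) : ℤ) + 1 - (Nat.card W.toAffine.Point : ℤ)) •
          WeierstrassCurve.Affine.Point.map (W' := W.toAffine)
            (FiniteField.frobeniusAlgHom (ZMod ℓ) κ) P
      + (ℓ : ℤ) • P = 0 := by
  by_cases hℓ : ℓ = 2
  · subst hℓ
    rw [Nat.cast_ofNat]
    exact frob_relation_two W hΔ κ P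
  · exact Fermat.Agent.S52.Frob.frob_relation ℓ hℓ W hΔ κ P

/-- **[F2]** of the S58 plan. -/
theorem thmF2 : Fermat.Agent.S58.Plan.ThmF2Statement := by
  intro W hΔ κ _ _ _ P
  exact frob_relation_two W hΔ κ P

end Fermat.Agent.S58.FrobTwoB
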