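/-
S58 — FrobTwoCloser.lean (helper68): the Plan leaf [F2] and, with it, the Plan leaf [FROBW],
closed.

* `thmF2` : `Plan.ThmF2Statement`  (= `FrobTwo.frob_relation_two`, residue fields in `Type`);
* `frobW` : `Plan.FrobWStatement`  (= `FrobLift.frobW_of_F2 thmF2`).
-/
import Mathlib
import Fermat.Agent.S58.Plan
import Fermat.Agent.S58.FrobTwo
import Fermat.Agent.S58.FrobLift

set_option autoImplicit false

namespace Fermat.Agent.S58.FrobTwoCloser

/-- **[F2]** Theorem F at the prime `2`, in the shape of the plan. -/
theorem thmF2 : Plan.ThmF2Statement := by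
  intro W hΔ κ _ _ _ P
  have h := FrobTwo.frob_relation_two W hΔ κ P
  rw [Nat.cast_ofNat] at h
  exact h

/-- **[FROBW]** the Frobenius relation on the torsion of `W`, at every good prime. -/
theorem frobW : Plan.FrobWStatement :=
  FrobLift.frobW_of_F2 thmF2

end Fermat.Agent.S58.FrobTwoCloser
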