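/-
S58, leaf [FIX-good], closer (owner: helper78; A-leaf = helper93 `S58/GoodFix.lean`).

`fixGood : Plan.FixGoodStatement` — inertia at a prime `q ≠ λ` of good reduction fixes all
`λ`-power torsion of `W(ℚ̄)` — as a closed term of the exact Plan type, from
`GoodFix.smul_eq_rat` (reduction is injective on prime-to-`q` torsion and commutes with inertia).
-/
import Mathlib
import Fermat.Agent.S58.Plan
import Fermat.Agent.S58.GoodFix

set_option autoImplicit false

namespace Fermat.Agent.S58.GoodFixB

/-- A prime `q` does not divide a power of a different prime `lam`. -/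
theorem not_dvd_prime_pow {q lam : ℕ} (hq : q.Prime) (hlam : lam.Prime) (hne : q ≠ lam) (n : ℕ) :
    ¬ q ∣ lam ^ n := fun h =>
  hne ((Nat.prime_dvd_prime_iff_eq hq hlam).mp (hq.dvd_of_dvd_pow h))

/-- **[FIXGOOD]**, the Plan Prop. -/
theorem fixGood : Plan.FixGoodStatement := by
  intro W q lam hq hlam hqlam hΔ A hA τ hτ n P hP
  exact GoodFix.smul_eq_rat W hq hΔ A hA τ hτ (not_dvd_prime_pow hq hlam hqlam n) P hP

end Fermat.Agent.S58.GoodFixB
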