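/-
S58, seam [NOGOOD], B-copy (helper9): step (2) of the route.

`noGood : Plan.TraceStatement → Plan.NoGoodStatement` — a prime `q` exactly dividing the level
`M` of the minimal newform `g` is a bad prime of `W`.

Proof.  Otherwise `q ∤ Δ(W)`.  Pick a prime `lam ≠ q` and
`S := N.primeFactors ∪ Δ(W).natAbs.primeFactors ∪ {lam}`.  Outside `S` the eigenvalues of `g` are
the integers `a_ℓ(W)`, so the eigencharacter of `g` (`EigChar.exists_eigenchar`) has integral
range, and the proof term of S35 specialised to `W` (`CarayolSeam.exists_rho_s35`) gives a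
`lam`-adic representation `ρ` with `Plan.FrobHyp W S O ρ` for which every Frobenius element `σ` at
`q` has characteristic polynomial `X² ∓ (q + 1) X + q` (since `q ∥ M`).  The trace seam (T) says
`tr ρ(σ) = a_q(W)`, and `|a_q(W)| ≤ q` (`PtSeam.false_of_trace_apOfModel`): contradiction.
-/
import Fermat.Agent.S58.Plan
import Fermat.Agent.S58.CarayolSeam
import Fermat.Agent.S58.EigChar
import Fermat.Agent.S58.PtSeam
import Fermat.Agent.S36.FJ36Top
import Fermat.Agent.S37.FrobEx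

set_option autoImplicit false

open Polynomial

namespace Fermat.Agent.S58.GoodQB

open Fermat.Agent.S58

/-- A prime different from a given prime. -/
theorem exists_prime_ne (q : ℕ) : ∃ lam : ℕ, lam.Prime ∧ q ≠ lam := by
  by_cases h2 : q = 2
  · exact ⟨3, Nat.prime_three, by omega⟩
  · exact ⟨2, Nat.prime_two, h2⟩

/-- The finite set of primes used in steps (1)–(3): the primes of `N`, the bad primes of `W` and
the auxiliary prime `lam`. -/
def badSet (W : WeierstrassCurve ℤ) (N lam : ℕ) : Finset ℕ :=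
  N.primeFactors ∪ W.Δ.natAbs.primeFactors ∪ {lam}

theorem lam_mem_badSet (W : WeierstrassCurve ℤ) (N lam : ℕ) : lam ∈ badSet W N lam := by
  simp [badSet]

theorem mem_badSet_of_dvd (W : WeierstrassCurve ℤ) {N : ℕ} (hN : N ≠ 0) (lam : ℕ) {r : ℕ}
    (hr : r.Prime) (hrN : r ∣ N) : r ∈ badSet W N lam := by
  have : r ∈ N.primeFactors := Nat.mem_primeFactors.mpr ⟨hr, hrN, hN⟩
  simp [badSet, this]

/-- The setup gives the data of `CarayolSeam.exists_rho_s35` for the set `badSet W N lam`. -/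
theorem setup_data {W : WeierstrassCurve ℤ} {N M : ℕ} [NeZero M]
    {g : CuspForm (CongruenceSubgroup.Gamma0 M) 2} (hS : Plan.Setup W N M g) (lam : ℕ) :
    (∀ r : ℕ, r.Prime → r ∣ M → r ∈ badSet W N lam) ∧
    (∀ ℓ : ℕ, ℓ.Prime → ℓ ∉ badSet W N lam →
      ModularFormClass.qCoeff g ℓ = ((W.apOfModel ℓ : ℤ) : ℂ)) ∧
    CarayolSeam.EigStatement g (badSet W N lam) := by
  have hMS : ∀ r : ℕ, r.Prime → r ∣ M → r ∈ badSet W N lam := fun r hr hrM =>
    mem_badSet_of_dvd W hS.hN lam hr (hrM.trans hS.hMN)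
  refine ⟨hMS, ?_, ?_⟩
  · intro ℓ hℓ hℓS
    exact hS.hap ℓ hℓ (fun hℓN => hℓS (mem_badSet_of_dvd W hS.hN lam hℓ hℓN))
  · obtain ⟨chig, h1, h2⟩ := EigChar.exists_eigenchar g hS.hg.1 (↑(badSet W N lam) : Set ℕ)
      (fun r hr hrM => Finset.mem_coe.mpr (hMS r hr hrM))
    exact ⟨chig, h1, h2⟩

/-- **[NOGOOD]** step (2): a prime exactly dividing the minimal level is a bad prime of `W`,
from the trace seam (T). -/
theorem noGood (hT : Plan.TraceStatement) : Plan.NoGoodStatement := by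
  intro W N M _ g hS q hq hqM hq2
  by_contra hgood
  obtain ⟨lam, hlam, hlq⟩ := exists_prime_ne q
  have : Fact lam.Prime := ⟨hlam⟩
  have : Fact q.Prime := ⟨hq⟩
  obtain ⟨hMS, hgW, hE⟩ := setup_data hS lam
  obtain ⟨O, i1, i2, i3, i4, i5, i6, hlamO, ρ, hF, hcl⟩ :=
    CarayolSeam.exists_rho_s35 W hS.hg lam (badSet W N lam) (lam_mem_badSet W N lam) hMS hgW hE
  obtain ⟨A, hA⟩ := Fermat.Agent.S36.FJ36Top.exists_liesOver hq
  obtain ⟨σ, hσ⟩ := Fermat.Agent.S37.FrobEx.exists_isFrobeniusAt_of_liesOver q hq A hA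
  have hFH : Plan.FrobHyp W (badSet W N lam) O ρ := hF
  have htr : LinearMap.trace O ρ.V (ρ.ρ σ) = ((W.apOfModel q : ℤ) : O) :=
    hT W hS.hΔ q lam hq hlam hlq hgood (badSet W N lam) O hlamO ρ hFH A hA σ hσ
  exact PtSeam.false_of_trace_apOfModel W q ρ.finrank_eq (ρ.ρ σ) htr
    (hcl q hq hlq hqM hq2 A hA σ hσ)

end Fermat.Agent.S58.GoodQB
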