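/-
S58 campaign, slice [INV] of [HRES] (helper122).  Mathlib only.

The Prelude notion `ResidualGaloisRep.IsOdd` quantifies over ALL `c : Gal(ℚ̄/ℚ)` with `c * c = 1`,
`c ≠ 1`.  To get `det ρ̄(c) = -1` from the transfer lemma (`c ζ = ζ ^ d`, `d ≡ det ρ(c)`) one needs:

  every nontrivial involution of an algebraically closed field of characteristic `≠ 2`
  inverts every root of unity of odd order.

Proof (Artin–Schreier type, elementary).  Let `F` be the fixed field of `c`.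
* `i ∉ F` for `i ^ 2 = -1`: pick `δ ≠ 0` with `c δ = -δ` and `β ^ 2 = δ`; `n := β * c β ∈ F` has
  `n ^ 2 = -δ ^ 2`, so `δ = ± i n` would be fixed if `i` were.
* a sum of two squares in `F` is a square in `F`: `a ^ 2 + b ^ 2 = (γ * c γ) ^ 2` for
  `γ ^ 2 = a + b i`; hence every finite sum of squares in `F` is a square in `F`.
* if `ζ ∈ F` has odd order `2 m + 1 > 1`, then with `η := ζ ^ (m + 1)` (`η ^ 2 = ζ`)
  `-1 = ∑_{0 < k ≤ 2 m} (η ^ k) ^ 2` is a square in `F`: contradiction.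
* general `ζ`: `ζ * c ζ` is fixed, of odd order, hence `1`.
-/
import Mathlib

set_option autoImplicit false

namespace Fermat.Agent.S58.Invol

section general

variable {K : Type*} [Field K]

/-- The "norm" `x * c x` is fixed by an involution `c`. -/
theorem fixed_mul (c : K ≃+* K) (hc : ∀ x, c (c x) = x) (x : K) : c (x * c x) = x * c x := by
  rw [map_mul, hc, mul_comm]

variable [IsAlgClosed K]

/-- A square root of `-1` is not fixed by a nontrivial involution. -/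
theorem not_fixed_of_sq_eq_neg_one (h2 : (2 : K) ≠ 0) (c : K ≃+* K) (hc : ∀ x, c (c x) = x)
    (hne : ∃ a, c a ≠ a) {i : K} (hi : i ^ 2 = -1) : c i ≠ i := by
  intro hci
  obtain ⟨a, ha⟩ := hne
  have hδ0 : a - c a ≠ 0 := sub_ne_zero.mpr (Ne.symm ha)
  have hcδ : c (a - c a) = -(a - c a) := by rw [map_sub, hc]; ring
  generalize a - c a = δ at hδ0 hcδ
  obtain ⟨β, hβ⟩ := IsAlgClosed.exists_pow_nat_eq δ (n := 2) (by norm_num)
  have hcn : c (β * c β) = β * c β := fixed_mul c hc β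
  have hn2 : (β * c β) ^ 2 = -δ ^ 2 := by
    have h1 : c β ^ 2 = c δ := by rw [← map_pow, hβ]
    calc (β * c β) ^ 2 = β ^ 2 * (c β) ^ 2 := by ring
      _ = δ * c δ := by rw [hβ, h1]
      _ = -δ ^ 2 := by rw [hcδ]; ring
  generalize β * c β = n at hcn hn2
  have h3 : δ ^ 2 = (i * n) ^ 2 := by rw [mul_pow, hi, hn2]; ring
  have hcin : c (i * n) = i * n := by rw [map_mul, hci, hcn]
  have hcδ' : c δ = δ := by
    rcases sq_eq_sq_iff_eq_or_eq_neg.mp h3 with h | h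
    · rw [h, hcin]
    · rw [h, map_neg, hcin]
  have h4 : (2 : K) * δ = 0 := by
    have h5 : δ = -δ := hcδ'.symm.trans hcδ
    linear_combination h5
  rcases mul_eq_zero.mp h4 with h | h
  · exact h2 h
  · exact hδ0 h

/-- A sum of two squares of fixed elements is the square of a fixed element. -/
theorem exists_fixed_sq_eq_add_sq (h2 : (2 : K) ≠ 0) (c : K ≃+* K) (hc : ∀ x, c (c x) = x)
    (hne : ∃ a, c a ≠ a) {a b : K} (ha : c a = a) (hb : c b = b) :
    ∃ s, c s = s ∧ s ^ 2 = a ^ 2 + b ^ 2 := by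
  obtain ⟨i, hi⟩ := IsAlgClosed.exists_pow_nat_eq (-1 : K) (n := 2) (by norm_num)
  have hci : c i = -i := by
    have h1 := not_fixed_of_sq_eq_neg_one h2 c hc hne hi
    have h2' : (c i) ^ 2 = i ^ 2 := by rw [← map_pow, hi, map_neg, map_one]
    rcases sq_eq_sq_iff_eq_or_eq_neg.mp h2' with h | h
    · exact absurd h h1
    · exact h
  obtain ⟨γ, hγ⟩ := IsAlgClosed.exists_pow_nat_eq (a + b * i) (n := 2) (by norm_num)
  refine ⟨γ * c γ, fixed_mul c hc γ, ?_⟩
  have h3 : c γ ^ 2 = a - b * i := by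
    rw [← map_pow, hγ, map_add, map_mul, ha, hb, hci]; ring
  calc (γ * c γ) ^ 2 = γ ^ 2 * (c γ) ^ 2 := by ring
    _ = (a + b * i) * (a - b * i) := by rw [hγ, h3]
    _ = a ^ 2 + b ^ 2 := by linear_combination (-(b ^ 2)) * hi

/-- A finite sum of squares of fixed elements is the square of a fixed element. -/
theorem exists_fixed_sq_eq_sum (h2 : (2 : K) ≠ 0) (c : K ≃+* K) (hc : ∀ x, c (c x) = x)
    (hne : ∃ a, c a ≠ a) {ι : Type*} (s : Finset ι) (f : ι → K)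
    (hf : ∀ j ∈ s, c (f j) = f j) : ∃ t, c t = t ∧ t ^ 2 = ∑ j ∈ s, f j ^ 2 := by
  classical
  induction s using Finset.induction_on with
  | empty => exact ⟨0, map_zero c, by simp⟩
  | insert j s hj ih =>
    obtain ⟨t, ht, ht2⟩ := ih (fun k hk => hf k (Finset.mem_insert_of_mem hk))
    obtain ⟨u, hu, hu2⟩ :=
      exists_fixed_sq_eq_add_sq h2 c hc hne (hf j (Finset.mem_insert_self j s)) ht
    exact ⟨u, hu, by rw [Finset.sum_insert hj, hu2, ht2]⟩

/-- A root of unity of odd order fixed by a nontrivial involution is `1`. -/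
theorem eq_one_of_fixed (h2 : (2 : K) ≠ 0) (c : K ≃+* K) (hc : ∀ x, c (c x) = x)
    (hne : ∃ a, c a ≠ a) {n : ℕ} (hn : Odd n) {ζ : K} (hζ : ζ ^ n = 1) (hfix : c ζ = ζ) :
    ζ = 1 := by
  by_contra hζ1
  obtain ⟨m, rfl⟩ := hn
  have hη2 : (ζ ^ (m + 1)) ^ 2 = ζ := by
    rw [← pow_mul]
    have h1 : (m + 1) * 2 = (2 * m + 1) + 1 := by ring
    rw [h1, pow_succ, hζ, one_mul]
  have hcη : c (ζ ^ (m + 1)) = ζ ^ (m + 1) := by rw [map_pow, hfix]
  generalize ζ ^ (m + 1) = η at hη2 hcη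
  have hgeom : ∑ k ∈ Finset.range (2 * m + 1), ζ ^ k = 0 := by
    have h := geom_sum_mul ζ (2 * m + 1)
    rw [hζ, sub_self] at h
    rcases mul_eq_zero.mp h with h | h
    · exact h
    · exact absurd (sub_eq_zero.mp h) hζ1
  have hsum : ∑ k ∈ Finset.range (2 * m + 1), (η ^ k) ^ 2 = 0 := by
    rw [← hgeom]
    refine Finset.sum_congr rfl (fun k _ => ?_)
    rw [← pow_mul, mul_comm, pow_mul, hη2]
  rw [Finset.sum_range_succ'] at hsum
  simp only [pow_zero, one_pow] at hsum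
  obtain ⟨t, ht, ht2⟩ := exists_fixed_sq_eq_sum h2 c hc hne (Finset.range (2 * m))
    (fun k => η ^ (k + 1)) (fun k _ => by rw [map_pow, hcη])
  have ht3 : t ^ 2 = -1 := by rw [ht2]; linear_combination hsum
  exact not_fixed_of_sq_eq_neg_one h2 c hc hne ht3 ht

/-- **[INV], general form.**  A nontrivial involution of an algebraically closed field of
characteristic `≠ 2` inverts every root of unity of odd order. -/
theorem inv_of_pow_eq_one (h2 : (2 : K) ≠ 0) (c : K ≃+* K) (hc : ∀ x, c (c x) = x)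
    (hne : ∃ a, c a ≠ a) {n : ℕ} (hn : Odd n) {ζ : K} (hζ : ζ ^ n = 1) : c ζ = ζ⁻¹ := by
  have h1 : ζ * c ζ = 1 := by
    apply eq_one_of_fixed h2 c hc hne hn (ζ := ζ * c ζ)
    · rw [mul_pow, ← map_pow, hζ, map_one, mul_one]
    · exact fixed_mul c hc ζ
  exact eq_inv_of_mul_eq_one_right h1

end general

/-! ### The `Gal(ℚ̄/ℚ)` forms -/

section galois

/-- An involution of `Gal(ℚ̄/ℚ)` is pointwise involutive. -/
theorem apply_apply_of_mul_self (c : AlgebraicClosure ℚ ≃ₐ[ℚ] AlgebraicClosure ℚ)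
    (hc : c * c = 1) (x : AlgebraicClosure ℚ) : c (c x) = x := by
  have h := congrArg (fun f : AlgebraicClosure ℚ ≃ₐ[ℚ] AlgebraicClosure ℚ => f x) hc
  simpa [AlgEquiv.mul_apply] using h

/-- A nontrivial element of `Gal(ℚ̄/ℚ)` moves something. -/
theorem exists_ne_of_ne_one (c : AlgebraicClosure ℚ ≃ₐ[ℚ] AlgebraicClosure ℚ) (hc1 : c ≠ 1) :
    ∃ a, c a ≠ a := by
  by_contra h
  exact hc1 (AlgEquiv.ext fun a => by_contra fun ha => h ⟨a, ha⟩)

/-- **[INV], `ℚ̄` form.**  Every nontrivial involution `c` of `Gal(ℚ̄/ℚ)` (the shape of the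
binder of Prelude's `ResidualGaloisRep.IsOdd`) inverts every root of unity of odd order. -/
theorem galois_inv_of_pow_eq_one (c : AlgebraicClosure ℚ ≃ₐ[ℚ] AlgebraicClosure ℚ)
    (hc : c * c = 1) (hc1 : c ≠ 1) {n : ℕ} (hn : Odd n) {ζ : AlgebraicClosure ℚ}
    (hζ : ζ ^ n = 1) : c ζ = ζ⁻¹ :=
  inv_of_pow_eq_one two_ne_zero (c : AlgebraicClosure ℚ ≃+* AlgebraicClosure ℚ)
    (apply_apply_of_mul_self c hc) (exists_ne_of_ne_one c hc1) hn hζ

/-- Exponent form (integer exponent): if `c ζ = ζ ^ d` for a nontrivial `p`-th root of unity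
`ζ`, `p` odd, then `d ≡ -1 mod p`. -/
theorem zmod_eq_neg_one_of_zpow (c : AlgebraicClosure ℚ ≃ₐ[ℚ] AlgebraicClosure ℚ)
    (hc : c * c = 1) (hc1 : c ≠ 1) {p : ℕ} [Fact p.Prime] (hp2 : p ≠ 2)
    {ζ : AlgebraicClosure ℚ} (hζ : ζ ^ p = 1) (hζ1 : ζ ≠ 1) {d : ℤ} (hd : c ζ = ζ ^ d) :
    (d : ZMod p) = -1 := by
  have hp : p.Prime := Fact.out
  have hodd : Odd p := hp.odd_of_ne_two hp2
  have h1 := galois_inv_of_pow_eq_one c hc hc1 hodd hζ
  have hζ0 : ζ ≠ 0 := by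
    rintro rfl
    rw [zero_pow hp.ne_zero] at hζ
    exact zero_ne_one hζ
  have h2 : ζ ^ (d + 1) = 1 := by
    rw [zpow_add₀ hζ0, zpow_one, ← hd, h1, inv_mul_cancel₀ hζ0]
  have hord : orderOf ζ = p := orderOf_eq_prime hζ hζ1
  have hu2 : (Units.mk0 ζ hζ0) ^ (d + 1) = 1 := by
    apply Units.ext
    rw [Units.val_zpow_eq_zpow_val, Units.val_one]
    exact h2
  have hordu : orderOf (Units.mk0 ζ hζ0) = p := by
    rw [← orderOf_units]
    exact hord
  have h3 : (p : ℤ) ∣ d + 1 := by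
    rw [← hordu]
    exact orderOf_dvd_iff_zpow_eq_one.mpr hu2
  have h4 : ((d + 1 : ℤ) : ZMod p) = 0 := (ZMod.intCast_zmod_eq_zero_iff_dvd _ _).mpr h3
  push_cast at h4
  exact eq_neg_of_add_eq_zero_left h4

/-- Exponent form (natural exponent). -/
theorem zmod_eq_neg_one_of_pow (c : AlgebraicClosure ℚ ≃ₐ[ℚ] AlgebraicClosure ℚ)
    (hc : c * c = 1) (hc1 : c ≠ 1) {p : ℕ} [Fact p.Prime] (hp2 : p ≠ 2)
    {ζ : AlgebraicClosure ℚ} (hζ : ζ ^ p = 1) (hζ1 : ζ ≠ 1) {d : ℕ} (hd : c ζ = ζ ^ d) :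
    (d : ZMod p) = -1 := by
  have h := zmod_eq_neg_one_of_zpow c hc hc1 hp2 hζ hζ1 (d := (d : ℤ))
    (by rw [zpow_natCast]; exact hd)
  simpa using h

/-- Field form: in any ring `k` of characteristic `p` the exponent is `-1`. -/
theorem cast_eq_neg_one_of_zpow (c : AlgebraicClosure ℚ ≃ₐ[ℚ] AlgebraicClosure ℚ)
    (hc : c * c = 1) (hc1 : c ≠ 1) {p : ℕ} [Fact p.Prime] (hp2 : p ≠ 2)
    {ζ : AlgebraicClosure ℚ} (hζ : ζ ^ p = 1) (hζ1 : ζ ≠ 1) {d : ℤ} (hd : c ζ = ζ ^ d)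
    (k : Type*) [Ring k] [CharP k p] : (d : k) = -1 := by
  have h := zmod_eq_neg_one_of_zpow c hc hc1 hp2 hζ hζ1 hd
  have h2 : ((d + 1 : ℤ) : ZMod p) = 0 := by push_cast; rw [h]; ring
  have h3 : (p : ℤ) ∣ d + 1 := (ZMod.intCast_zmod_eq_zero_iff_dvd _ _).mp h2
  have h4 : ((d + 1 : ℤ) : k) = 0 := (CharP.intCast_eq_zero_iff k p _).mpr h3
  push_cast at h4
  exact eq_neg_of_add_eq_zero_left h4

end galois

end Fermat.Agent.S58.Invol
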