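import Mathlib

/-!
# S58, leaf [HRES-odd] : every involution `≠ 1` inverts the roots of unity of odd order

The Prelude notion `ResidualGaloisRep.IsOdd` quantifies over EVERY involution `c ≠ 1` of
`Gal(ℚ̄/ℚ)`.  To prove it for a representation whose determinant is the cyclotomic character we
need: such a `c` acts on the roots of unity of odd order by inversion.  Elementary
Artin–Schreier argument (Mathlib only), for a ring automorphism `c` with `c ∘ c = id`, `c ≠ id` of
an algebraically closed field `K` with `2 ≠ 0`: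

* `exists_sq_neg_one_anti` : there is `ε` with `ε ^ 2 = -1` and `c ε = -ε`;
* `exists_fixed_sq_add_sq`, `exists_fixed_sum_sq` : a sum of squares of `c`-fixed elements is
  the square of a `c`-fixed element (norm of a square root of `u + ε v`);
* `not_fixed_sq_neg_one`   : `-1` is not the square of a `c`-fixed element;
* `eq_one_of_fixed`        : a `c`-fixed root of unity of odd order is `1`
  (`-1 = η + η ^ 2 + ⋯ + η ^ (n - 1)` would be a sum of squares of fixed elements);
* `inv_of_involution`      : `c ζ = ζ⁻¹` for every `ζ` with `ζ ^ n = 1`, `n` odd;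
* `galois_inv_of_involution`, `galois_inv_of_involution_prime` : the same for
  `c ∈ Gal(ℚ̄/ℚ)` with `c * c = 1`, `c ≠ 1`.
-/

set_option autoImplicit false

namespace Fermat.Agent.S58.InvolRoot

section Field

variable {K : Type*} [Field K]

/-- An involution `c ≠ id` of an algebraically closed field has an anti-invariant square root of
`-1`. -/
theorem exists_sq_neg_one_anti [IsAlgClosed K] (c : K ≃+* K) (hcc : ∀ x, c (c x) = x)
    (hc1 : ∃ x, c x ≠ x) : ∃ ε : K, ε ^ 2 = -1 ∧ c ε = -ε := by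
  obtain ⟨x, hx⟩ := hc1
  have ha0 : x - c x ≠ 0 := sub_ne_zero.mpr (Ne.symm hx)
  have hca : c (x - c x) = -(x - c x) := by rw [map_sub, hcc]; ring
  obtain ⟨b, hb⟩ := IsAlgClosed.exists_pow_nat_eq (x - c x) (n := 2) (by norm_num)
  have hb0 : b ≠ 0 := by
    rintro rfl
    apply ha0
    rw [← hb]
    ring
  have hcb0 : c b ≠ 0 := fun h => hb0 (by
    have h1 := congrArg c h
    rw [hcc, map_zero] at h1
    exact h1)
  have h1 : (c b) ^ 2 = -(b ^ 2) := by rw [← map_pow, hb, hca]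
  refine ⟨c b / b, ?_, ?_⟩
  · rw [div_pow, h1]
    field_simp
  · rw [map_div₀, hcc]
    field_simp
    linear_combination h1

/-- The sum of two squares of `c`-fixed elements is the square of a `c`-fixed element. -/
theorem exists_fixed_sq_add_sq [IsAlgClosed K] (c : K ≃+* K) (hcc : ∀ x, c (c x) = x)
    {ε : K} (hε : ε ^ 2 = -1) (hcε : c ε = -ε) {u v : K} (hu : c u = u) (hv : c v = v) :
    ∃ N : K, c N = N ∧ N ^ 2 = u ^ 2 + v ^ 2 := by
  obtain ⟨w, hw⟩ := IsAlgClosed.exists_pow_nat_eq (u + ε * v) (n := 2) (by norm_num)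
  refine ⟨w * c w, ?_, ?_⟩
  · rw [map_mul, hcc, mul_comm]
  · have h1 : (c w) ^ 2 = u - ε * v := by
      rw [← map_pow, hw, map_add, map_mul, hu, hv, hcε]
      ring
    rw [mul_pow, hw, h1]
    linear_combination (-(v ^ 2)) * hε

/-- A finite sum of squares of `c`-fixed elements is the square of a `c`-fixed element. -/
theorem exists_fixed_sum_sq [IsAlgClosed K] (c : K ≃+* K) (hcc : ∀ x, c (c x) = x)
    {ε : K} (hε : ε ^ 2 = -1) (hcε : c ε = -ε) {ι : Type*} (s : Finset ι) (f : ι → K)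
    (hf : ∀ i ∈ s, c (f i) = f i) :
    ∃ N : K, c N = N ∧ N ^ 2 = ∑ i ∈ s, f i ^ 2 := by
  classical
  induction s using Finset.induction_on with
  | empty => exact ⟨0, map_zero c, by simp⟩
  | insert a s ha ih =>
    obtain ⟨N, hcN, hN⟩ := ih (fun i hi => hf i (Finset.mem_insert_of_mem hi))
    obtain ⟨N', hcN', hN'⟩ := exists_fixed_sq_add_sq c hcc hε hcε
      (hf a (Finset.mem_insert_self a s)) hcN
    exact ⟨N', hcN', by rw [hN', Finset.sum_insert ha, hN]⟩

/-- `-1` is not the square of a `c`-fixed element. -/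
theorem not_fixed_sq_neg_one (h2 : (2 : K) ≠ 0) (c : K ≃+* K)
    {ε : K} (hε : ε ^ 2 = -1) (hcε : c ε = -ε) {N : K} (hcN : c N = N) : N ^ 2 ≠ -1 := by
  intro hN
  have hε0 : ε ≠ 0 := by
    rintro rfl
    have h0 : (0 : K) = -1 := by rw [← hε]; ring
    exact one_ne_zero (neg_eq_zero.mp h0.symm)
  have h1 : (N - ε) * (N + ε) = 0 := by linear_combination hN - hε
  rcases mul_eq_zero.mp h1 with h | h
  · have hNε : N = ε := sub_eq_zero.mp h
    rw [hNε, hcε] at hcN
    have h3 : (2 : K) * ε = 0 := by linear_combination -hcN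
    exact (mul_ne_zero h2 hε0) h3
  · have hNε : N = -ε := eq_neg_of_add_eq_zero_left h
    rw [hNε, map_neg, hcε] at hcN
    have h3 : (2 : K) * ε = 0 := by linear_combination hcN
    exact (mul_ne_zero h2 hε0) h3

/-- A `c`-fixed root of unity of odd order is `1`. -/
theorem eq_one_of_fixed [IsAlgClosed K] (h2 : (2 : K) ≠ 0) (c : K ≃+* K)
    (hcc : ∀ x, c (c x) = x) (hc1 : ∃ x, c x ≠ x) {n : ℕ} (hn : Odd n) {η : K}
    (hη : η ^ n = 1) (hcη : c η = η) : η = 1 := by
  by_contra hne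
  obtain ⟨ε, hε, hcε⟩ := exists_sq_neg_one_anti c hcc hc1
  obtain ⟨m, rfl⟩ := hn
  -- the geometric sum
  have hsum : ∑ k ∈ Finset.range (2 * m + 1), η ^ k = 0 := by
    have h := mul_geom_sum η (2 * m + 1)
    rw [hη, sub_self] at h
    exact (mul_eq_zero.mp h).resolve_left (sub_ne_zero.mpr hne)
  have hsum' : ∑ k ∈ Finset.range (2 * m), η ^ (k + 1) = -1 := by
    rw [Finset.sum_range_succ', pow_zero] at hsum
    exact eq_neg_of_add_eq_zero_left hsum
  -- every power of `η` is the square of a fixed element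
  have hsq : ∀ k : ℕ, (η ^ (k * (m + 1))) ^ 2 = η ^ k := by
    intro k
    have h1 : k * (m + 1) * 2 = (2 * m + 1) * k + k := by ring
    rw [← pow_mul, h1, pow_add, pow_mul, hη, one_pow, one_mul]
  obtain ⟨N, hcN, hN⟩ := exists_fixed_sum_sq c hcc hε hcε (Finset.range (2 * m))
    (fun k => η ^ ((k + 1) * (m + 1))) (fun k _ => by rw [map_pow, hcη])
  have hN' : N ^ 2 = -1 := by
    rw [hN, ← hsum']
    exact Finset.sum_congr rfl (fun k _ => hsq (k + 1))
  exact not_fixed_sq_neg_one h2 c hε hcε hcN hN'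

/-- **Every involution `c ≠ id` of an algebraically closed field with `2 ≠ 0` inverts the roots
of unity of odd order.** -/
theorem inv_of_involution [IsAlgClosed K] (h2 : (2 : K) ≠ 0) (c : K ≃+* K)
    (hcc : ∀ x, c (c x) = x) (hc1 : ∃ x, c x ≠ x) {n : ℕ} (hn : Odd n) {ζ : K}
    (hζ : ζ ^ n = 1) : c ζ = ζ⁻¹ := by
  have h1 : ζ * c ζ = 1 :=
    eq_one_of_fixed h2 c hcc hc1 hn (by rw [mul_pow, ← map_pow, hζ, map_one, mul_one])
      (by rw [map_mul, hcc, mul_comm])
  exact eq_inv_of_mul_eq_one_right h1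

end Field

/-- **Every involution `c ≠ 1` of `Gal(ℚ̄/ℚ)` inverts the roots of unity of odd order.** -/
theorem galois_inv_of_involution (c : AlgebraicClosure ℚ ≃ₐ[ℚ] AlgebraicClosure ℚ)
    (hc : c * c = 1) (hc1 : c ≠ 1) {n : ℕ} (hn : Odd n) {ζ : AlgebraicClosure ℚ}
    (hζ : ζ ^ n = 1) : c ζ = ζ⁻¹ := by
  have hcc : ∀ x, c (c x) = x := fun x => by
    have h := congrArg (fun f : AlgebraicClosure ℚ ≃ₐ[ℚ] AlgebraicClosure ℚ => f x) hc
    exact h
  have hne : ∃ x, c x ≠ x := by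
    by_contra h
    exact hc1 (AlgEquiv.ext fun x => by
      by_contra hx
      exact h ⟨x, hx⟩)
  exact inv_of_involution (K := AlgebraicClosure ℚ) two_ne_zero c.toRingEquiv hcc hne hn hζ

/-- The prime case: `c ζ = ζ⁻¹` for `ζ ^ p = 1`, `p` an odd prime. -/
theorem galois_inv_of_involution_prime (c : AlgebraicClosure ℚ ≃ₐ[ℚ] AlgebraicClosure ℚ)
    (hc : c * c = 1) (hc1 : c ≠ 1) {p : ℕ} (hp : p.Prime) (hp2 : p ≠ 2)
    {ζ : AlgebraicClosure ℚ} (hζ : ζ ^ p = 1) : c ζ = ζ⁻¹ :=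
  galois_inv_of_involution c hc hc1 (hp.odd_of_ne_two hp2) hζ

/-- The prime-power case: `c ζ = ζ⁻¹` for `ζ ^ (p ^ k) = 1`, `p` an odd prime. -/
theorem galois_inv_of_involution_prime_pow (c : AlgebraicClosure ℚ ≃ₐ[ℚ] AlgebraicClosure ℚ)
    (hc : c * c = 1) (hc1 : c ≠ 1) {p : ℕ} (hp : p.Prime) (hp2 : p ≠ 2) (k : ℕ)
    {ζ : AlgebraicClosure ℚ} (hζ : ζ ^ (p ^ k) = 1) : c ζ = ζ⁻¹ :=
  galois_inv_of_involution c hc hc1 ((hp.odd_of_ne_two hp2).pow) hζ

end Fermat.Agent.S58.InvolRoot
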