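/-
S58 — NewMin.lean (helper22): [NEWMIN], step (0) of the S58 route.

The good eigensystem of a normalized eigenform `f` of level `N ≠ 0` is carried by a
Prelude-NEWFORM `g` of some level `M ∣ N`: take `M` minimal among the divisors of `N` at which
the good eigensystem of `f` occurs (`CuspForm.GoodEigensystemOccursAt f M`).  A proper divisor
`M'` of `M` carrying the eigensystem of `g` away from `M` carries the eigensystem of `f` away
from `N`, contradicting minimality.
-/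
import Mathlib
import Fermat.Prelude.Def_CuspForm_Newforms

set_option autoImplicit false

namespace Fermat.Agent.S58.NewMin

open ModularFormClass CongruenceSubgroup

/-- **[NEWMIN]** minimal level: the good eigensystem of a normalized eigenform of level `N` is
carried by a Prelude-newform of some level `M ∣ N`. -/
theorem exists_newform_of_eigenform {N : ℕ} (hN : N ≠ 0) (f : CuspForm (Gamma0 N) 2)
    (hf : f.IsNormalizedEigenform) :
    ∃ (M : ℕ) (_ : M ∣ N) (g : CuspForm (Gamma0 M) 2), g.IsNewform ∧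
      ∀ ℓ : ℕ, ℓ.Prime → ¬ ℓ ∣ N → qCoeff ⇑g ℓ = qCoeff ⇑f ℓ := by
  classical
  have hex : ∃ M : ℕ, M ∣ N ∧ CuspForm.GoodEigensystemOccursAt f M :=
    ⟨N, dvd_rfl, CuspForm.GoodEigensystemOccursAt.refl hf⟩
  obtain ⟨hMN, g, hg, hgf⟩ := Nat.find_spec hex
  have hM0 : Nat.find hex ≠ 0 := fun h0 => hN (by simpa [h0] using hMN)
  refine ⟨Nat.find hex, hMN, g, ⟨hg, ?_⟩, hgf⟩
  rintro M' hM' hne ⟨g', hg', hg'g⟩
  have hlt : M' < Nat.find hex :=
    lt_of_le_of_ne (Nat.le_of_dvd (Nat.pos_of_ne_zero hM0) hM') hne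
  exact Nat.find_min hex hlt ⟨hM'.trans hMN, g', hg', fun ℓ hℓ hℓN =>
    (hg'g ℓ hℓ (fun h => hℓN (h.trans hMN))).trans (hgf ℓ hℓ hℓN)⟩

/-- The level of the newform is nonzero. -/
theorem exists_newform_of_eigenform' {N : ℕ} (hN : N ≠ 0) (f : CuspForm (Gamma0 N) 2)
    (hf : f.IsNormalizedEigenform) :
    ∃ (M : ℕ) (_ : M ∣ N) (_ : M ≠ 0) (g : CuspForm (Gamma0 M) 2), g.IsNewform ∧
      ∀ ℓ : ℕ, ℓ.Prime → ¬ ℓ ∣ N → qCoeff ⇑g ℓ = qCoeff ⇑f ℓ := by
  obtain ⟨M, hMN, g, hg, h⟩ := exists_newform_of_eigenform hN f hf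
  exact ⟨M, hMN, fun h0 => hN (by simpa [h0] using hMN), g, hg, h⟩

end Fermat.Agent.S58.NewMin
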