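/-
S58 campaign, seam [NOSQ], B-copy (helper24; A = helper40 `S58/CarayolSeam.lean`).

`noSq : Plan.UnipStatement → Plan.NoSqStatement` — step (1) of the route: the minimal level `M`
has no prime `q` with `v_q(M) = 2`.

Direct route, independent of `CarayolSeam` / `RhoInt`: for `q` with `M.factorization q = 2` take
`lam := 3` if `q = 2` and `lam := 2` otherwise, `S := N.primeFactors ∪ {lam}`, `O' := ℤ_[lam]`,
the eigencharacter `chig` of `g` (`EigChar.exists_eigenchar`, integer-valued because the good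
eigenvalues of `g` are the `a_ℓ(W)`), and the proof term of S36 (which uses no residual
hypothesis): it gives `ρ` with the Frobenius characteristic polynomials of `W` outside `S` which
is not unipotent on inertia at `q`; `Plan.UnipStatement` says it is.
-/
import Mathlib
import Fermat.Agent.S36.Top36B
import Fermat.Agent.S36.ChainM3F
import Fermat.Agent.S58.Plan
import Fermat.Agent.S58.EigChar

set_option autoImplicit false

open Polynomial

namespace Fermat.Agent.S58.NoSqB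

open Fermat.Agent.S58

/-- A prime different from `q`: `3` if `q = 2`, else `2`. -/
theorem exists_prime_ne (q : ℕ) : ∃ lam : ℕ, lam.Prime ∧ q ≠ lam := by
  by_cases h : q = 2
  · exact ⟨3, Nat.prime_three, by omega⟩
  · exact ⟨2, Nat.prime_two, h⟩

/-- The image of `lam` in a local extension of `ℤ_[lam]`-type rings lies in the maximal ideal. -/
theorem natCast_mem_of_isLocalHom {O' O'' : Type} [CommRing O'] [IsLocalRing O'] [CommRing O'']
    [IsLocalRing O''] [Algebra O' O''] [IsLocalHom (algebraMap O' O'')] {lam : ℕ}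
    (h : (lam : O') ∈ IsLocalRing.maximalIdeal O') :
    (lam : O'') ∈ IsLocalRing.maximalIdeal O'' := by
  rw [IsLocalRing.mem_maximalIdeal, mem_nonunits_iff] at h ⊢
  intro hu
  apply h
  have h1 : algebraMap O' O'' (lam : O') = (lam : O'') := map_natCast _ _
  rw [← h1] at hu
  exact isUnit_of_map_unit (algebraMap O' O'') _ hu

/-- **[NOSQ]** (B-copy): no prime `q` with `v_q(M) = 2`, from the leaf (U). -/
theorem noSq (hU : Plan.UnipStatement) : Plan.NoSqStatement := by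
  intro W N M _ g hs q hq hfac
  obtain ⟨lam, hlam, hqlam⟩ := exists_prime_ne q
  have : Fact lam.Prime := ⟨hlam⟩
  -- the finite set of excluded primes
  set S : Finset ℕ := N.primeFactors ∪ {lam} with hS
  have hlamS : lam ∈ S := Finset.mem_union_right _ (Finset.mem_singleton_self lam)
  have hNS : ∀ ℓ : ℕ, ℓ.Prime → ℓ ∣ N → ℓ ∈ S := fun ℓ hℓ hℓN =>
    Finset.mem_union_left _ (Nat.mem_primeFactors.mpr ⟨hℓ, hℓN, hs.hN⟩)
  have hMS : ∀ ℓ : ℕ, ℓ.Prime → ℓ ∣ M → ℓ ∈ S := fun ℓ hℓ hℓM => hNS ℓ hℓ (hℓM.trans hs.hMN)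
  -- the good eigenvalues of `g` are the integers `a_ℓ(W)`
  have ha : ∀ ℓ : ℕ, ℓ.Prime → ℓ ∉ (↑S : Set ℕ) →
      ModularFormClass.qCoeff g ℓ = ((W.apOfModel ℓ : ℤ) : ℂ) := fun ℓ hℓ hℓS =>
    hs.hap ℓ hℓ (fun hℓN => hℓS (Finset.mem_coe.mpr (hNS ℓ hℓ hℓN)))
  -- the eigencharacter
  obtain ⟨chig, hchig, hrange⟩ := EigChar.exists_eigenchar g hs.hg.1 (↑S : Set ℕ)
    (fun ℓ hℓ hℓM => Finset.mem_coe.mpr (hMS ℓ hℓ hℓM))
  have hint : ∀ x ∈ chig.range, ∃ n : ℤ, x = (n : ℂ) := fun x hx => by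
    obtain ⟨n, hn⟩ := hrange (Int.castRingHom ℂ).range
      (fun ℓ hℓ _ hℓS => ⟨W.apOfModel ℓ, (ha ℓ hℓ hℓS).symm⟩) x hx
    exact ⟨n, hn.symm⟩
  obtain ⟨iota⟩ := EigChar.exists_iota_of_int chig hint ℤ_[lam]
  have hlamO' : (lam : ℤ_[lam]) ∈ IsLocalRing.maximalIdeal ℤ_[lam] := by
    rw [PadicInt.maximalIdeal_eq_span_p]
    exact Ideal.subset_span rfl
  -- Carayol (proof term of S36)
  obtain ⟨O'', i1, i2, i3, i4, i5, i6, i7, i8, i9, -, ρ, hρ, hun⟩ :=
    Fermat.Agent.S36.Top36B.result_of_inertTors Fermat.Agent.S36.ChainM3F.inertTors hs.hg lam S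
      ℤ_[lam] hlamO' chig hchig iota hlamS hMS
  -- `ρ` has the Frobenius characteristic polynomials of `W` outside `S`
  have hF : Plan.FrobHyp W S O'' ρ := by
    intro ℓ hℓ hℓS A hA σ hσ
    have hℓS' : ℓ ∉ (↑S : Set ℕ) := fun h => hℓS (Finset.mem_coe.mp h)
    have hℓM : ¬ ℓ ∣ M := fun h => hℓS (hMS ℓ hℓ h)
    rw [hρ ℓ hℓ hℓM hℓS' A hA σ hσ,
      EigChar.iota_comp_apply_of_eq_intCast chig iota _ (W.apOfModel ℓ)
        ((hchig ℓ hℓ hℓM hℓS').trans (ha ℓ hℓ hℓS')), map_intCast]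
  have hlamO'' : (lam : O'') ∈ IsLocalRing.maximalIdeal O'' := natCast_mem_of_isLocalHom hlamO'
  -- semistability at `q`
  have hsst : ¬ (q : ℤ) ∣ W.Δ ∨ ¬ (q : ℤ) ∣ W.c₄ := by
    by_cases hqΔ : (q : ℤ) ∣ W.Δ
    · exact Or.inr (hs.hss q hq hqΔ)
    · exact Or.inl hqΔ
  exact hun q hq hqlam hfac (hU W hs.hΔ q lam hq hlam hqlam hsst S O'' hlamO'' ρ hF)

end Fermat.Agent.S58.NoSqB
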