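/-
S58 — NodeResV.lean (helper37): `S58/NodeRes.lean` with the hypotheses in MEMBERSHIP / VALUATION
form (the binder shapes of the [E0U] route-2 assembly, `S58/FixMult.lean`):

  `(WA.a₃ : K), (WA.a₄ : K), (WA.a₆ : K) ∈ A.nonunits`,  `(WA.b₂ : K) ∉ A.nonunits`,
  `A.valuation (m : K) = 1`.
-/
import Mathlib
import Fermat.Agent.S58.NodeRes

set_option autoImplicit false

namespace Fermat.Agent.S58.NodeResV

open WeierstrassCurve IsLocalRing

variable {K : Type*} [Field K] (A : ValuationSubring K)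

/-- `residue a = 0 ↔ (a : K) ∈ A.nonunits`. -/
theorem residue_eq_zero_iff_mem (a : A) : residue A a = 0 ↔ (a : K) ∈ A.nonunits := by
  rw [IsLocalRing.residue_eq_zero_iff, ValuationSubring.coe_mem_nonunits_iff]

/-- `(m : k) ≠ 0` from `v(m) = 1`. -/
theorem natCast_residue_ne_zero {m : ℕ} (hm : A.valuation (m : K) = 1) :
    (m : ResidueField A) ≠ 0 := by
  intro h0
  have h1 : residue A ((m : ℕ) : A) = 0 := by rw [map_natCast]; exact h0
  rw [residue_eq_zero_iff_mem] at h1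
  have h2 : (((m : ℕ) : A) : K) = (m : K) := by simp
  rw [h2, ValuationSubring.mem_nonunits_iff, hm] at h1
  exact lt_irrefl _ h1

/-- **The reduction is nodal in normal form** (membership form). -/
theorem exists_isNodal [IsAlgClosed K] (WA : WeierstrassCurve A)
    (h₃ : (WA.a₃ : K) ∈ A.nonunits) (h₄ : (WA.a₄ : K) ∈ A.nonunits)
    (h₆ : (WA.a₆ : K) ∈ A.nonunits) (hb₂ : (WA.b₂ : K) ∉ A.nonunits) :
    ∃ s₁ s₂ : ResidueField A, NodeGrp.IsNodal (WA.map (residue A)) s₁ s₂ :=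
  NodeRes.exists_isNodal A WA ((residue_eq_zero_iff_mem A _).mpr h₃)
    ((residue_eq_zero_iff_mem A _).mpr h₄) ((residue_eq_zero_iff_mem A _).mpr h₆)
    (fun h0 => hb₂ ((residue_eq_zero_iff_mem A _).mp h0))

/-- **A point of exact order `m` on the reduction** (membership / valuation form). -/
theorem exists_addOrderOf_eq [IsAlgClosed K] [DecidableEq (ResidueField A)]
    (WA : WeierstrassCurve A)
    (h₃ : (WA.a₃ : K) ∈ A.nonunits) (h₄ : (WA.a₄ : K) ∈ A.nonunits)
    (h₆ : (WA.a₆ : K) ∈ A.nonunits) (hb₂ : (WA.b₂ : K) ∉ A.nonunits)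
    (m : ℕ) (hm : A.valuation (m : K) = 1) :
    ∃ P : (WA.map (residue A)).toAffine.Point, addOrderOf P = m :=
  NodeRes.exists_addOrderOf_eq A WA ((residue_eq_zero_iff_mem A _).mpr h₃)
    ((residue_eq_zero_iff_mem A _).mpr h₄) ((residue_eq_zero_iff_mem A _).mpr h₆)
    (fun h0 => hb₂ ((residue_eq_zero_iff_mem A _).mp h0)) m (natCast_residue_ne_zero A hm)

end Fermat.Agent.S58.NodeResV
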