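/-
S58 — PointCount.lean (helper46; leaf [PC] of the S58 campaign, architect helper77).

The trivial point-count bound for a Weierstrass cubic over a finite field and its consequence
for the Prelude's Frobenius trace `WeierstrassCurve.apOfModel`:

* `one_le_card`, `card_le` : `1 ≤ #W(F) ≤ 2 #F + 1` (the point at infinity; at most two affine
                             points above each `x`);
* `apOfModel_le`, `neg_le_apOfModel`, `abs_apOfModel_le` : `|a_q(W)| ≤ q` for every prime `q`
                             (no goodness hypothesis);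
* `apOfModel_ne`           : `a_q(W) ≠ ±(q + 1)` in every ring of characteristic zero — the
                             contradiction with clause 2 of S35 at a good prime `q ∥ M`.

Mathlib + the Prelude definition module only.
-/
import Mathlib
import Fermat.Prelude.Def_FLTPrelim_Modularity

set_option autoImplicit false

namespace Fermat.Agent.S58.PointCount

open Polynomial

variable {F : Type*} [Field F]

/-- The point at infinity: a Weierstrass cubic over a finite field has at least one point. -/
theorem one_le_card (W : WeierstrassCurve F) [Finite F] : 1 ≤ Nat.card W.toAffine.Point := by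
  have : Nonempty W.toAffine.Point := ⟨0⟩
  exact Nat.card_pos

/-- The quadratic polynomial in `Y` cutting out the affine points above `x`. -/
noncomputable def fiberPoly (W : WeierstrassCurve F) (x : F) : F[X] :=
  C 1 * X ^ 2 + C (W.a₁ * x + W.a₃) * X + C (-(x ^ 3 + W.a₂ * x ^ 2 + W.a₄ * x + W.a₆))

theorem fiberPoly_ne_zero (W : WeierstrassCurve F) (x : F) : fiberPoly W x ≠ 0 := by
  intro h
  have h2 : (fiberPoly W x).natDegree = 2 := natDegree_quadratic one_ne_zero
  rw [h, natDegree_zero] at h2
  exact absurd h2 (by decide)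

theorem isRoot_fiberPoly (W : WeierstrassCurve F) {x y : F} (h : W.toAffine.Equation x y) :
    (fiberPoly W x).IsRoot y := by
  rw [WeierstrassCurve.Affine.equation_iff] at h
  simp only [fiberPoly, IsRoot.def, eval_add, eval_mul, eval_C, eval_pow, eval_X]
  linear_combination h

theorem card_roots_fiberPoly_le [DecidableEq F] (W : WeierstrassCurve F) (x : F) :
    (fiberPoly W x).roots.toFinset.card ≤ 2 :=
  (Multiset.toFinset_card_le _).trans
    ((card_roots' _).trans (natDegree_quadratic_le))

/-- A Weierstrass cubic over a finite field `F` has at most `2 #F + 1` points. -/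
theorem card_le [Finite F] (W : WeierstrassCurve F) :
    Nat.card W.toAffine.Point ≤ 2 * Nat.card F + 1 := by
  classical
  have := Fintype.ofFinite F
  have := Fintype.ofFinite W.toAffine.Point
  let T : Finset (F × F) :=
    Finset.univ.biUnion (fun x : F => (fiberPoly W x).roots.toFinset.image (fun y => (x, y)))
  have hT : T.card ≤ 2 * Fintype.card F := by
    refine Finset.card_biUnion_le.trans ?_
    calc ∑ x : F, ((fiberPoly W x).roots.toFinset.image (fun y => (x, y))).card
        ≤ ∑ _x : F, 2 := Finset.sum_le_sum (fun x _ =>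
          Finset.card_image_le.trans (card_roots_fiberPoly_le W x))
      _ = 2 * Fintype.card F := by
          rw [Finset.sum_const, Finset.card_univ, smul_eq_mul, mul_comm]
  let s : Finset (Option (F × F)) := insert none (T.image some)
  have hs : s.card ≤ 2 * Fintype.card F + 1 :=
    (Finset.card_insert_le _ _).trans (Nat.succ_le_succ (Finset.card_image_le.trans hT))
  let f : W.toAffine.Point → Option (F × F) := fun p =>
    match p with
    | .zero => none
    | .some x y _ => some (x, y)
  have hf : Function.Injective f := by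
    rintro (_ | ⟨x₁, y₁, h₁⟩) (_ | ⟨x₂, y₂, h₂⟩) h
    · rfl
    · exact absurd h (by simp [f])
    · exact absurd h (by simp [f])
    · have h' : (x₁, y₁) = (x₂, y₂) := Option.some.inj h
      obtain ⟨rfl, rfl⟩ := Prod.mk.inj h'
      rfl
  have hmem : ∀ p : W.toAffine.Point, f p ∈ s := by
    rintro (_ | ⟨x, y, h⟩)
    · exact Finset.mem_insert_self _ _
    · refine Finset.mem_insert_of_mem (Finset.mem_image_of_mem _ ?_)
      refine Finset.mem_biUnion.mpr ⟨x, Finset.mem_univ _, Finset.mem_image_of_mem _ ?_⟩
      rw [Multiset.mem_toFinset, mem_roots (fiberPoly_ne_zero W x)]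
      exact isRoot_fiberPoly W h.1
  have hcard : Fintype.card W.toAffine.Point ≤ s.card := by
    have := Fintype.card_le_of_injective (fun p => (⟨f p, hmem p⟩ : s))
      (fun p p' h => hf (congrArg Subtype.val h))
    rwa [Fintype.card_coe] at this
  rw [Nat.card_eq_fintype_card, Nat.card_eq_fintype_card]
  exact hcard.trans hs

/-! ### The Frobenius trace of the Prelude -/

theorem apOfModel_eq (W : WeierstrassCurve ℤ) (q : ℕ) :
    W.apOfModel q = (Nat.card (ZMod q) : ℤ) + 1 -
      (Nat.card (W.reductionMod q).toAffine.Point : ℤ) := rfl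

/-- `a_q(W) ≤ q`. -/
theorem apOfModel_le (W : WeierstrassCurve ℤ) (q : ℕ) [Fact q.Prime] : W.apOfModel q ≤ q := by
  have : NeZero q := ⟨(Fact.out : q.Prime).ne_zero⟩
  have h1 : (1 : ℤ) ≤ (Nat.card (W.reductionMod q).toAffine.Point : ℤ) := by
    exact_mod_cast one_le_card (W.reductionMod q)
  rw [apOfModel_eq, Nat.card_zmod]
  linarith

/-- `-q ≤ a_q(W)`. -/
theorem neg_le_apOfModel (W : WeierstrassCurve ℤ) (q : ℕ) [Fact q.Prime] :
    -(q : ℤ) ≤ W.apOfModel q := by
  have : NeZero q := ⟨(Fact.out : q.Prime).ne_zero⟩
  have h1 : (Nat.card (W.reductionMod q).toAffine.Point : ℤ) ≤ 2 * (q : ℤ) + 1 := by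
    have := card_le (W.reductionMod q)
    rw [Nat.card_zmod] at this
    exact_mod_cast this
  rw [apOfModel_eq, Nat.card_zmod]
  linarith

/-- `|a_q(W)| ≤ q` for every prime `q` (good or bad). -/
theorem abs_apOfModel_le (W : WeierstrassCurve ℤ) (q : ℕ) [Fact q.Prime] :
    |W.apOfModel q| ≤ q :=
  abs_le.mpr ⟨neg_le_apOfModel W q, apOfModel_le W q⟩

/-- In ℤ: `a_q(W) ≠ ±(q + 1)`. -/
theorem apOfModel_ne_int (W : WeierstrassCurve ℤ) (q : ℕ) [Fact q.Prime] :
    W.apOfModel q ≠ (q : ℤ) + 1 ∧ W.apOfModel q ≠ -((q : ℤ) + 1) := by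
  have h1 := apOfModel_le W q
  have h2 := neg_le_apOfModel W q
  constructor <;> intro h <;> rw [h] at h1 h2 <;> linarith

/-- **[PC]** `a_q(W) ≠ ±(q + 1)` in every ring of characteristic zero: the trace of a Frobenius
at `q` on a representation attached to `W` is never the trace `±(q + 1)` forced by clause 2 of
S35 at a prime `q ∥ M`. -/
theorem apOfModel_ne (W : WeierstrassCurve ℤ) (q : ℕ) [Fact q.Prime] (R : Type*) [Ring R]
    [CharZero R] :
    ((W.apOfModel q : ℤ) : R) ≠ (q : R) + 1 ∧ ((W.apOfModel q : ℤ) : R) ≠ -((q : R) + 1) := by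
  obtain ⟨h1, h2⟩ := apOfModel_ne_int W q
  constructor
  · intro h
    apply h1
    have : ((W.apOfModel q : ℤ) : R) = (((q : ℤ) + 1 : ℤ) : R) := by rw [h]; push_cast; rfl
    exact Int.cast_injective this
  · intro h
    apply h2
    have : ((W.apOfModel q : ℤ) : R) = ((-((q : ℤ) + 1) : ℤ) : R) := by rw [h]; push_cast; rfl
    exact Int.cast_injective this

end Fermat.Agent.S58.PointCount
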