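/-
S58 — PtCount.lean (helper10).  Leaf [PT] of the S58 campaign (step (2) of the route of board
#3522): the trivial point-count bound — no Hasse, no good reduction.

For a Weierstrass curve `W` over a finite field `F`, the affine point type `W.toAffine.Point`
(the point at infinity and the nonsingular affine points) has between `1` and `2 * #F + 1`
elements (for every `x` at most two `y`), hence `|W.traceOfFrobenius| ≤ #F`.  For an integral
model `W : WeierstrassCurve ℤ` and a prime `q` this reads `|W.apOfModel q| ≤ q`, so that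
`W.apOfModel q ≠ ± (q + 1)`: the trace `± (q + 1)` of a Frobenius at a prime `q ∥ M` of the level
of a newform (S35, second clause) is never the trace `a_q(W)`.

* `card_pos`, `card_le`               : `1 ≤ W.card ≤ 2 * #F + 1`;
* `abs_traceOfFrobenius_le`           : `|W.traceOfFrobenius| ≤ #F`;
* `abs_apOfModel_le`                  : `|W.apOfModel q| ≤ q`;
* `apOfModel_ne`, `apOfModel_sq_ne`   : `W.apOfModel q ≠ ± (q + 1)`, `(W.apOfModel q)² ≠ (q + 1)²`;
* `cast_apOfModel_ne`, `cast_apOfModel_sq_ne` : the same in any ring of characteristic zero;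
* `poly_ne_sub`, `poly_ne_add`        : `X² - a_q(W) X + c` is none of the two polynomials
                                        `X² ∓ (q + 1) X + d` of the second clause of S35.
-/
import Mathlib
import Fermat.Prelude.Def_FLTPrelim_Modularity

set_option autoImplicit false

namespace Fermat.Agent.S58.PtCount

open WeierstrassCurve Polynomial

section Field

variable {F : Type} [Field F] (W : WeierstrassCurve F)

/-- The quadratic polynomial in `Y` whose roots are the `y` with `(x, y)` on the curve. -/
noncomputable def fibre (x : F) : F[X] :=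
  X ^ 2 + C (W.a₁ * x + W.a₃) * X - C (x ^ 3 + W.a₂ * x ^ 2 + W.a₄ * x + W.a₆)

theorem fibre_ne_zero (x : F) : fibre W x ≠ 0 := by
  intro h
  have h2 : (fibre W x).coeff 2 = 1 := by
    simp only [fibre, coeff_add, coeff_sub, coeff_X_pow, coeff_C_mul, coeff_X, coeff_C]
    norm_num
  rw [h, coeff_zero] at h2
  exact zero_ne_one h2

theorem natDegree_fibre_le (x : F) : (fibre W x).natDegree ≤ 2 := by
  unfold fibre
  compute_degree

theorem isRoot_fibre {x y : F} (h : W.toAffine.Equation x y) : (fibre W x).IsRoot y := by
  rw [Affine.equation_iff] at h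
  simp only [fibre, IsRoot.def, eval_sub, eval_add, eval_pow, eval_X, eval_mul, eval_C]
  linear_combination h

/-- The coordinates of a point (`none` for the point at infinity). -/
def coords : W.toAffine.Point → Option (F × F)
  | .zero => none
  | .some (x := x) (y := y) _ => some (x, y)

theorem coords_injective : Function.Injective (coords W) := by
  rintro (_ | ⟨h₁⟩) (_ | ⟨h₂⟩) h <;>
    simp only [coords, Option.some.injEq, Prod.mk.injEq, reduceCtorEq] at h
  · rfl
  · obtain ⟨rfl, rfl⟩ := h
    rfl

theorem card_pos [Finite F] : 0 < W.card := by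
  have : Finite W.toAffine.Point := Finite.of_injective _ (coords_injective W)
  have : Nonempty W.toAffine.Point := ⟨.zero⟩
  exact Nat.card_pos

/-- **The trivial bound**: at most two points over every `x`, and the point at infinity. -/
theorem card_le [Finite F] : W.card ≤ 2 * Nat.card F + 1 := by
  classical
  have : Fintype F := Fintype.ofFinite F
  -- the solutions of the equation
  let s : Finset (F × F) := Finset.univ.filter (fun xy => W.toAffine.Equation xy.1 xy.2)
  have hs : s.card ≤ 2 * Fintype.card F := by
    have h1 : s.card ≤ 2 * (s.image Prod.fst).card := by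
      apply Finset.card_le_mul_card_image
      intro a _
      have hsub : ((s.filter (fun xy => xy.1 = a)).image Prod.snd) ⊆ (fibre W a).roots.toFinset := by
        intro y hy
        rw [Finset.mem_image] at hy
        obtain ⟨xy, hxy, rfl⟩ := hy
        rw [Finset.mem_filter] at hxy
        obtain ⟨hxy1, hxy2⟩ := hxy
        rw [Finset.mem_filter] at hxy1
        rw [Multiset.mem_toFinset, mem_roots (fibre_ne_zero W a)]
        rw [← hxy2]
        exact isRoot_fibre W hxy1.2
      have hinj : Set.InjOn Prod.snd (↑(s.filter (fun xy : F × F => xy.1 = a)) : Set (F × F)) := by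
        intro u hu v hv huv
        rw [Finset.mem_coe, Finset.mem_filter] at hu hv
        exact Prod.ext (hu.2.trans hv.2.symm) huv
      calc (s.filter (fun xy => xy.1 = a)).card
          = ((s.filter (fun xy => xy.1 = a)).image Prod.snd).card :=
            (Finset.card_image_of_injOn hinj).symm
        _ ≤ (fibre W a).roots.toFinset.card := Finset.card_le_card hsub
        _ ≤ Multiset.card (fibre W a).roots := Multiset.toFinset_card_le _
        _ ≤ (fibre W a).natDegree := card_roots' _
        _ ≤ 2 := natDegree_fibre_le W a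
    exact h1.trans (Nat.mul_le_mul_left 2 (Finset.card_le_univ _))
  -- the points inject into `Option s`
  let g : W.toAffine.Point → Option s := fun P =>
    match P with
    | .zero => none
    | .some (x := x) (y := y) h => some ⟨(x, y), Finset.mem_filter.mpr ⟨Finset.mem_univ _, h.1⟩⟩
  have hg : Function.Injective g := by
    rintro (_ | ⟨h₁⟩) (_ | ⟨h₂⟩) h <;>
      simp only [g, Option.some.injEq, Subtype.mk.injEq, Prod.mk.injEq, reduceCtorEq] at h
    · rfl
    · obtain ⟨rfl, rfl⟩ := h
      rfl
  have h2 : Nat.card W.toAffine.Point ≤ Nat.card (Option s) := Nat.card_le_card_of_injective g hg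
  have h3 : Nat.card (Option s) = s.card + 1 := by
    rw [Nat.card_eq_fintype_card, Fintype.card_option, Fintype.card_coe]
  show Nat.card W.toAffine.Point ≤ 2 * Nat.card F + 1
  rw [Nat.card_eq_fintype_card (α := F)]
  omega

/-- `|a| ≤ #F` for the trace of Frobenius `a = #F + 1 - #W(F)`. -/
theorem abs_traceOfFrobenius_le [Finite F] : |W.traceOfFrobenius| ≤ (Nat.card F : ℤ) := by
  have h1 := card_pos W
  have h2 := card_le W
  unfold traceOfFrobenius
  rw [abs_le]
  constructor <;> omega

end Field

section Model

variable (W : WeierstrassCurve ℤ) {q : ℕ}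

/-- **[PT]** `|a_q(W)| ≤ q` for every prime `q` (good or bad). -/
theorem abs_apOfModel_le (hq : q.Prime) : |W.apOfModel q| ≤ (q : ℤ) := by
  have : Fact q.Prime := ⟨hq⟩
  have h := abs_traceOfFrobenius_le (F := ZMod q) (W.reductionMod q)
  rw [Nat.card_zmod] at h
  exact h

theorem apOfModel_le (hq : q.Prime) : W.apOfModel q ≤ (q : ℤ) :=
  (abs_le.mp (abs_apOfModel_le W hq)).2

theorem neg_le_apOfModel (hq : q.Prime) : -(q : ℤ) ≤ W.apOfModel q :=
  (abs_le.mp (abs_apOfModel_le W hq)).1

/-- `a_q(W) ≠ ± (q + 1)`. -/
theorem apOfModel_ne (hq : q.Prime) :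
    W.apOfModel q ≠ (q : ℤ) + 1 ∧ W.apOfModel q ≠ -((q : ℤ) + 1) := by
  have h1 := apOfModel_le W hq
  have h2 := neg_le_apOfModel W hq
  constructor <;> omega

/-- `a_q(W)² ≠ (q + 1)²`. -/
theorem apOfModel_sq_ne (hq : q.Prime) : W.apOfModel q ^ 2 ≠ ((q : ℤ) + 1) ^ 2 := by
  intro h
  rcases sq_eq_sq_iff_eq_or_eq_neg.mp h with h | h
  · exact (apOfModel_ne W hq).1 h
  · exact (apOfModel_ne W hq).2 h

/-- `a_q(W) ≠ ± (q + 1)` in any ring of characteristic zero. -/
theorem cast_apOfModel_ne (hq : q.Prime) (R : Type*) [Ring R] [CharZero R] :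
    ((W.apOfModel q : ℤ) : R) ≠ (q : R) + 1 ∧ ((W.apOfModel q : ℤ) : R) ≠ -((q : R) + 1) := by
  constructor
  · intro h
    apply (apOfModel_ne W hq).1
    apply Int.cast_injective (α := R)
    rw [h]
    push_cast
    rfl
  · intro h
    apply (apOfModel_ne W hq).2
    apply Int.cast_injective (α := R)
    rw [h]
    push_cast
    rfl

/-- `a_q(W)² ≠ (q + 1)²` in any ring of characteristic zero. -/
theorem cast_apOfModel_sq_ne (hq : q.Prime) (R : Type*) [Ring R] [CharZero R] :
    ((W.apOfModel q : ℤ) : R) ^ 2 ≠ ((q : R) + 1) ^ 2 := by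
  intro h
  apply apOfModel_sq_ne W hq
  apply Int.cast_injective (α := R)
  push_cast
  exact h

/-- `X² - a_q(W) X + c` is not `X² - (q + 1) X + d`. -/
theorem poly_ne_sub (hq : q.Prime) (R : Type*) [CommRing R] [CharZero R] (c d : R) :
    (X ^ 2 - C ((W.apOfModel q : ℤ) : R) * X + C c : R[X]) ≠
      X ^ 2 - C ((q : R) + 1) * X + C d := by
  intro h
  have h1 := congrArg (fun f : R[X] => f.coeff 1) h
  simp only [coeff_add, coeff_sub, coeff_X_pow, coeff_C_mul, coeff_X_one, coeff_C] at h1
  norm_num at h1
  apply (cast_apOfModel_ne W hq R).1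
  linear_combination (-1 : R) * h1

/-- `X² - a_q(W) X + c` is not `X² + (q + 1) X + d`. -/
theorem poly_ne_add (hq : q.Prime) (R : Type*) [CommRing R] [CharZero R] (c d : R) :
    (X ^ 2 - C ((W.apOfModel q : ℤ) : R) * X + C c : R[X]) ≠
      X ^ 2 + C ((q : R) + 1) * X + C d := by
  intro h
  have h1 := congrArg (fun f : R[X] => f.coeff 1) h
  simp only [coeff_add, coeff_sub, coeff_X_pow, coeff_C_mul, coeff_X_one, coeff_C] at h1
  norm_num at h1
  apply (cast_apOfModel_ne W hq R).2
  linear_combination (-1 : R) * h1

end Model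

end Fermat.Agent.S58.PtCount
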