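/-
S58, block [RHO] (helper91): the `λ`-adic representations attached to the minimal-level newform
of a `Plan.Setup`, with the Frobenius characteristic polynomials of `W` (`Plan.FrobHyp`).

For a `Plan.Setup W N M g` and a prime `lam`, put `S := insert lam N.primeFactors`.  Every prime
`ℓ ∉ S` satisfies `ℓ ∤ N`, hence `a_ℓ(g) = a_ℓ(W) ∈ ℤ`; so the eigencharacter of `g` on
`heckeAlgebra M 2 S` (`S58.EigChar`) has integer values and `O' := ℤ_[lam]` receives its range.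

* `exists_rho36` : the hres-free S36 term (`S36.Top36B.result_of_inertTors S36.ChainM3F.inertTors`)
  gives `ρ` with `Plan.FrobHyp W S O ρ`, not unipotent on inertia at any `q ≠ lam` with
  `v_q(M) = 2`;
* `exists_rho35` : `S35.result` gives `ρ` with `Plan.FrobHyp W S O ρ` and the second clause of S35
  (Frobenius at `q ∥ M`, `q ≠ lam`);
* `noSq_of_unip : Plan.UnipStatement → Plan.NoSqStatement`   (step (1));
* `noGood_of_trace : Plan.TraceStatement → Plan.NoGoodStatement`   (step (2)).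
-/
import Mathlib
import Fermat.Agent.S58.Plan
import Fermat.Agent.S58.EigChar
import Fermat.Agent.S58.PtSeam
import Fermat.Agent.S35
import Fermat.Agent.S36.Top36B
import Fermat.Agent.S36.ChainM3F
import Fermat.Agent.S54.Frobenius

set_option autoImplicit false

namespace Fermat.Agent.S58.RhoInt

open Polynomial CongruenceSubgroup ModularFormClass
open Fermat.Agent.S58

/-- The finite set of primes `{lam} ∪ primes(N)`. -/
def badSet (N lam : ℕ) : Finset ℕ := insert lam N.primeFactors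

theorem lam_mem_badSet (N lam : ℕ) : lam ∈ badSet N lam := Finset.mem_insert_self _ _

theorem mem_badSet_of_dvd {N M : ℕ} (hN : N ≠ 0) (hMN : M ∣ N) (lam : ℕ) {q : ℕ} (hq : q.Prime)
    (hqM : q ∣ M) : q ∈ badSet N lam :=
  Finset.mem_insert_of_mem (Nat.mem_primeFactors.mpr ⟨hq, hqM.trans hMN, hN⟩)

theorem not_dvd_of_notMem_badSet {N lam ℓ : ℕ} (hN : N ≠ 0) (hℓ : ℓ.Prime)
    (h : ℓ ∉ badSet N lam) : ¬ ℓ ∣ N := fun hd =>
  h (Finset.mem_insert_of_mem (Nat.mem_primeFactors.mpr ⟨hℓ, hd, hN⟩))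

theorem natCast_mem_maximalIdeal_padicInt (lam : ℕ) [Fact lam.Prime] :
    (lam : ℤ_[lam]) ∈ IsLocalRing.maximalIdeal ℤ_[lam] := by
  rw [PadicInt.maximalIdeal_eq_span_p]
  exact Ideal.subset_span rfl

section Setup

variable {W : WeierstrassCurve ℤ} {N M : ℕ} [NeZero M] {g : CuspForm (Gamma0 M) 2}

/-- The eigencharacter of the newform of a `Plan.Setup` on the Hecke algebra away from
`badSet N lam`, with an `iota` into `ℤ_[lam]` sending `T_ℓ` to `a_ℓ(W)`. -/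
theorem exists_chig_iota (h : Plan.Setup W N M g) (lam : ℕ) [Fact lam.Prime] :
    ∃ (chig : CuspForm.heckeAlgebra M 2 (↑(badSet N lam) : Set ℕ) →+* ℂ)
      (iota : chig.range →+* ℤ_[lam]),
      (∀ (ℓ : ℕ) (hℓ : ℓ.Prime) (hℓM : ¬ ℓ ∣ M) (hℓS : ℓ ∉ (↑(badSet N lam) : Set ℕ)),
        chig (CuspForm.heckeAlgebra.T hℓ hℓM hℓS) = qCoeff g ℓ) ∧
      (∀ (ℓ : ℕ) (hℓ : ℓ.Prime) (hℓM : ¬ ℓ ∣ M) (hℓS : ℓ ∉ (↑(badSet N lam) : Set ℕ)),
        (iota.comp chig.rangeRestrict) (CuspForm.heckeAlgebra.T hℓ hℓM hℓS) =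
          ((W.apOfModel ℓ : ℤ) : ℤ_[lam])) := by
  have hMS : ∀ q : ℕ, q.Prime → q ∣ M → q ∈ (↑(badSet N lam) : Set ℕ) := fun q hq hqM =>
    Finset.mem_coe.mpr (mem_badSet_of_dvd h.hN h.hMN lam hq hqM)
  obtain ⟨chig, hchig, hrange⟩ := EigChar.exists_eigenchar g h.hg.1 (↑(badSet N lam) : Set ℕ) hMS
  have hval : ∀ ℓ : ℕ, ℓ.Prime → ℓ ∉ (↑(badSet N lam) : Set ℕ) →
      qCoeff g ℓ = ((W.apOfModel ℓ : ℤ) : ℂ) := fun ℓ hℓ hℓS =>
    h.hap ℓ hℓ (not_dvd_of_notMem_badSet h.hN hℓ (fun hm => hℓS (Finset.mem_coe.mpr hm)))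
  have hint : ∀ x ∈ chig.range, ∃ n : ℤ, x = (n : ℂ) := by
    intro x hx
    obtain ⟨n, hn⟩ := hrange (Int.castRingHom ℂ).range
      (fun ℓ hℓ _ hℓS => ⟨W.apOfModel ℓ, (hval ℓ hℓ hℓS).symm⟩) x hx
    exact ⟨n, hn.symm⟩
  obtain ⟨iota⟩ := EigChar.exists_iota_of_int chig hint ℤ_[lam]
  refine ⟨chig, iota, hchig, fun ℓ hℓ hℓM hℓS => ?_⟩
  exact EigChar.iota_comp_apply_of_eq_intCast chig iota _ (W.apOfModel ℓ)
    ((hchig ℓ hℓ hℓM hℓS).trans (hval ℓ hℓ hℓS))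

/-- **[RHO36]** the `lam`-adic representation of the newform of a `Plan.Setup`: Frobenius
characteristic polynomials of `W` away from `badSet N lam`, and NOT unipotent on inertia at the
primes `q ≠ lam` with `v_q(M) = 2` (hres-free S36). -/
theorem exists_rho36 (h : Plan.Setup W N M g) (lam : ℕ) [Fact lam.Prime] :
    ∃ (O : Type) (_ : CommRing O) (_ : IsDomain O) (_ : IsDiscreteValuationRing O)
      (_ : CharZero O), (lam : O) ∈ IsLocalRing.maximalIdeal O ∧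
      ∃ ρ : GaloisRepAdic O, Plan.FrobHyp W (badSet N lam) O ρ ∧
        ∀ q : ℕ, q.Prime → q ≠ lam → M.factorization q = 2 → ¬ ρ.IsUnipotentOnInertiaAt q := by
  obtain ⟨chig, iota, hchig, hiota⟩ := exists_chig_iota h lam
  have hlamO' := natCast_mem_maximalIdeal_padicInt lam
  obtain ⟨O'', i1, i2, i3, i4, i5, i6, i7, i8, i9, -, ρ, hρ, hun⟩ :=
    Fermat.Agent.S36.Top36B.result_of_inertTors Fermat.Agent.S36.ChainM3F.inertTors h.hg lam
      (badSet N lam) ℤ_[lam] hlamO' chig hchig iota (lam_mem_badSet N lam)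
      (fun q hq hqM => mem_badSet_of_dvd h.hN h.hMN lam hq hqM)
  refine ⟨O'', i1, i2, i3, i6, ?_, ρ, ?_, hun⟩
  · have h1 : (lam : O'') = algebraMap ℤ_[lam] O'' (lam : ℤ_[lam]) := (map_natCast _ lam).symm
    rw [h1]
    exact map_nonunit (algebraMap ℤ_[lam] O'') _ hlamO'
  · intro ℓ hℓ hℓS A hA σ hσ
    have hℓS' : ℓ ∉ (↑(badSet N lam) : Set ℕ) := fun hm => hℓS (Finset.mem_coe.mp hm)
    have hℓM : ¬ ℓ ∣ M := fun hd => not_dvd_of_notMem_badSet h.hN hℓ hℓS (hd.trans h.hMN)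
    rw [hρ ℓ hℓ hℓM hℓS' A hA σ hσ, hiota ℓ hℓ hℓM hℓS', map_intCast]

/-- **[RHO35]** the `lam`-adic representation of the newform of a `Plan.Setup`: Frobenius
characteristic polynomials of `W` away from `badSet N lam`, and the second clause of S35 at the
primes `q ≠ lam` exactly dividing `M`. -/
theorem exists_rho35 (h : Plan.Setup W N M g) (lam : ℕ) [Fact lam.Prime] :
    ∃ (O : Type) (_ : CommRing O) (_ : IsDomain O) (_ : IsDiscreteValuationRing O)
      (_ : CharZero O), (lam : O) ∈ IsLocalRing.maximalIdeal O ∧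
      ∃ ρ : GaloisRepAdic O, Plan.FrobHyp W (badSet N lam) O ρ ∧
        ∀ q : ℕ, q.Prime → q ≠ lam → q ∣ M → ¬ q ^ 2 ∣ M →
          ∀ A : ValuationSubring Plan.Qb, A.LiesOverPrime q →
            ∀ σ : Plan.GQ, A.IsFrobeniusAt σ q →
              LinearMap.charpoly (ρ.ρ σ) = X ^ 2 - C ((q : O) + 1) * X + C ((q : O)) ∨
              LinearMap.charpoly (ρ.ρ σ) = X ^ 2 + C ((q : O) + 1) * X + C ((q : O)) := by
  obtain ⟨chig, iota, hchig, hiota⟩ := exists_chig_iota h lam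
  have hlamO' := natCast_mem_maximalIdeal_padicInt lam
  obtain ⟨O'', i1, i2, i3, i4, i5, i6, i7, i8, i9, -, ρ, hρ, hcl⟩ :=
    Fermat.Agent.S35.result h.hg lam (badSet N lam) ℤ_[lam] hlamO' chig hchig iota
      (lam_mem_badSet N lam) (fun q hq hqM => mem_badSet_of_dvd h.hN h.hMN lam hq hqM)
  refine ⟨O'', i1, i2, i3, i6, ?_, ρ, ?_, hcl⟩
  · have h1 : (lam : O'') = algebraMap ℤ_[lam] O'' (lam : ℤ_[lam]) := (map_natCast _ lam).symm
    rw [h1]
    exact map_nonunit (algebraMap ℤ_[lam] O'') _ hlamO'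
  · intro ℓ hℓ hℓS A hA σ hσ
    have hℓS' : ℓ ∉ (↑(badSet N lam) : Set ℕ) := fun hm => hℓS (Finset.mem_coe.mp hm)
    have hℓM : ¬ ℓ ∣ M := fun hd => not_dvd_of_notMem_badSet h.hN hℓ hℓS (hd.trans h.hMN)
    rw [hρ ℓ hℓ hℓM hℓS' A hA σ hσ, hiota ℓ hℓ hℓM hℓS', map_intCast]

end Setup

/-- A prime different from a given number. -/
theorem exists_prime_ne (q : ℕ) : ∃ lam : ℕ, lam.Prime ∧ q ≠ lam := by
  by_cases h2 : q = 2
  · exact ⟨3, Nat.prime_three, by omega⟩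
  · exact ⟨2, Nat.prime_two, h2⟩

/-- **Step (1).**  `Plan.NoSqStatement` from `Plan.UnipStatement` (hres-free S36 at any prime
`lam ≠ q`). -/
theorem noSq_of_unip (hU : Plan.UnipStatement) : Plan.NoSqStatement := by
  intro W N M _ g h q hq hfac
  obtain ⟨lam, hlam, hne⟩ := exists_prime_ne q
  haveI : Fact lam.Prime := ⟨hlam⟩
  obtain ⟨O, i1, i2, i3, i4, hlamO, ρ, hF, hnu⟩ := exists_rho36 h lam
  have hss : ¬ (q : ℤ) ∣ W.Δ ∨ ¬ (q : ℤ) ∣ W.c₄ := by
    by_cases hd : (q : ℤ) ∣ W.Δ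
    · exact Or.inr (h.hss q hq hd)
    · exact Or.inl hd
  exact hnu q hq hne hfac (hU W h.hΔ q lam hq hlam hne hss (badSet N lam) O hlamO ρ hF)

/-- **Step (2).**  `Plan.NoGoodStatement` from `Plan.TraceStatement` (S35 clause 2 at any prime
`lam ≠ q`, and the point-count bound `|a_q(W)| ≤ q`). -/
theorem noGood_of_trace (hT : Plan.TraceStatement) : Plan.NoGoodStatement := by
  intro W N M _ g h q hq hqM hq2
  by_contra hgood
  obtain ⟨lam, hlam, hne⟩ := exists_prime_ne q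
  haveI : Fact lam.Prime := ⟨hlam⟩
  haveI : Fact q.Prime := ⟨hq⟩
  obtain ⟨O, i1, i2, i3, i4, hlamO, ρ, hF, hcl⟩ := exists_rho35 h lam
  obtain ⟨A, σ, hA, hσ⟩ := Fermat.Agent.S54.exists_isFrobeniusAt q hq
  have htr := hT W h.hΔ q lam hq hlam hne hgood (badSet N lam) O hlamO ρ hF A hA σ hσ
  exact PtSeam.false_of_trace_apOfModel W q ρ.finrank_eq (ρ.ρ σ) htr
    (hcl q hq hne hqM hq2 A hA σ hσ)

end Fermat.Agent.S58.RhoInt
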