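/-
S58 leaf [TR-alg] (helper50): Mathlib-only algebra kit for the transfer lemma [TR] and for the
seams (i) (unipotent inertia) and (ii) (Frobenius trace at a good prime).

* `lucas a l j` : the integer sequence `s_j = x^j + y^j` for `x + y = a`, `x y = l`.
* `sq_pow_relation` / `smul_relation_pow` : `x² − a x + l = 0 ⇒ (x^j)² − s_j x^j + l^j = 0`
  (any ring; any distributive action on an additive group).
* `charpoly_eq_of_finrank_two` : rank 2 ⇒ `charpoly A = X² − tr A · X + det A`.
* `trace_pow_of_charpoly`, `det_pow_of_charpoly` : `charpoly A = X² − aX + l` (integers) ⇒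
  `tr (A^j) = s_j`, `det (A^j) = l^j`.
* `trace_det_sub_mem` : pointwise congruence mod `I • ⊤` ⇒ congruence of trace and det mod `I`.
* `trace_det_approx_of_pow` : the combination used in [TR].
* `charpoly_eq_of_approx`, `charpoly_eq_X_sub_one_sq_of_approx` : integer approximations of trace
  and det modulo every power of the maximal ideal determine the characteristic polynomial.
* `dvd_of_relation_of_fixed`, `dvd_sub_two_of_fixed` : the arithmetic of a fixed point of exact
  order.
-/
import Mathlib

set_option autoImplicit false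

namespace Fermat.Agent.S58.TrAlg

open Polynomial

/-- The Lucas sequence `s_j = x^j + y^j` for `x + y = a`, `x * y = l`. -/
def lucas (a l : ℤ) : ℕ → ℤ
  | 0 => 2
  | 1 => a
  | (j + 2) => a * lucas a l (j + 1) - l * lucas a l j

@[simp] theorem lucas_zero (a l : ℤ) : lucas a l 0 = 2 := by rw [lucas]

@[simp] theorem lucas_one (a l : ℤ) : lucas a l 1 = a := by rw [lucas]

theorem lucas_add_two (a l : ℤ) (j : ℕ) :
    lucas a l (j + 2) = a * lucas a l (j + 1) - l * lucas a l j := by rw [lucas]

section CommRing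

variable {R : Type*} [CommRing R]

/-- commutative case: `x^j + (a - x)^j = s_j`. -/
theorem pow_add_pow_eq_lucas (x : R) (a l : ℤ) (h : x * x - (a : R) * x + (l : R) = 0) (j : ℕ) :
    x ^ j + ((a : R) - x) ^ j = (lucas a l j : R) := by
  have hxy : x * ((a : R) - x) = (l : R) := by linear_combination -h
  induction j using Nat.twoStepInduction with
  | zero => simp; norm_num
  | one => simp
  | more j ih0 ih1 =>
    rw [lucas_add_two]
    push_cast
    rw [← ih0, ← ih1]
    linear_combination -(x ^ j + ((a : R) - x) ^ j) * hxy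

/-- commutative case of `sq_pow_relation`. -/
theorem sq_pow_relation_comm (x : R) (a l : ℤ) (h : x * x - (a : R) * x + (l : R) = 0) (j : ℕ) :
    x ^ j * x ^ j - (lucas a l j : R) * x ^ j + ((l ^ j : ℤ) : R) = 0 := by
  have hxy : x * ((a : R) - x) = (l : R) := by linear_combination -h
  have h1 := pow_add_pow_eq_lucas x a l h j
  have h2 : ((l ^ j : ℤ) : R) = x ^ j * ((a : R) - x) ^ j := by
    push_cast
    rw [← hxy, mul_pow]
  rw [← h1, h2]
  ring

end CommRing

section Ring

variable {E : Type*} [Ring E]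

/-- **Power relation.** In any ring, `x² − a x + l = 0` (integers `a`, `l`) implies
`(x^j)² − s_j x^j + l^j = 0` with `s_j = lucas a l j`. -/
theorem sq_pow_relation (x : E) (a l : ℤ) (h : x * x - (a : E) * x + (l : E) = 0) (j : ℕ) :
    x ^ j * x ^ j - (lucas a l j : E) * x ^ j + ((l ^ j : ℤ) : E) = 0 := by
  set p : ℤ[X] := X * X - C a * X + C l with hp
  set q : ℤ[X] := X ^ j * X ^ j - C (lucas a l j) * X ^ j + C (l ^ j) with hq
  have hpx : aeval x p = 0 := by
    rw [hp]; simpa using h
  have hdvd : p ∣ q := by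
    rw [← AdjoinRoot.mk_eq_zero]
    have hroot : AdjoinRoot.root p * AdjoinRoot.root p - ((a : ℤ) : AdjoinRoot p) * AdjoinRoot.root p
        + ((l : ℤ) : AdjoinRoot p) = 0 := by
      have h0 : AdjoinRoot.mk p p = 0 := AdjoinRoot.mk_self
      rw [hp] at h0
      simpa using h0
    have h3 := sq_pow_relation_comm (AdjoinRoot.root p) a l hroot j
    rw [hq]
    simpa using h3
  obtain ⟨r, hr⟩ := hdvd
  have hqx : aeval x q = 0 := by rw [hr, map_mul, hpx, zero_mul]
  rw [hq] at hqx
  simpa using hqx

/-- **Power relation for an action.** If `σ² − a σ + l = 0` on an additive group `T`, then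
`(σ^j)² − s_j σ^j + l^j = 0` on `T`. -/
theorem smul_relation_pow {G T : Type*} [Monoid G] [AddCommGroup T] [DistribMulAction G T]
    (σ : G) (a l : ℤ) (h : ∀ P : T, σ • σ • P - a • σ • P + l • P = 0) (j : ℕ) (P : T) :
    (σ ^ j) • (σ ^ j) • P - lucas a l j • (σ ^ j) • P + (l ^ j) • P = 0 := by
  set x : AddMonoid.End T := DistribMulAction.toAddMonoidEnd G T σ with hx
  have hxP : ∀ Q : T, x Q = σ • Q := fun Q => rfl
  have hrel : x * x - ((a : ℤ) : AddMonoid.End T) * x + ((l : ℤ) : AddMonoid.End T) = 0 := by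
    ext Q
    have e1 : (x * x - ((a : ℤ) : AddMonoid.End T) * x + ((l : ℤ) : AddMonoid.End T)) Q =
        x (x Q) - ((a : ℤ) : AddMonoid.End T) (x Q) + ((l : ℤ) : AddMonoid.End T) Q := rfl
    rw [e1, AddMonoid.End.intCast_apply, AddMonoid.End.intCast_apply, hxP, hxP]
    exact h Q
  have h1 := sq_pow_relation x a l hrel j
  have hxj : x ^ j = DistribMulAction.toAddMonoidEnd G T (σ ^ j) := by rw [hx, map_pow]
  have hxjP : ∀ Q : T, (x ^ j) Q = (σ ^ j) • Q := fun Q => by rw [hxj]; rfl
  have h2 : (x ^ j * x ^ j - ((lucas a l j : ℤ) : AddMonoid.End T) * x ^ j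
      + ((l ^ j : ℤ) : AddMonoid.End T)) P = 0 := by rw [h1]; rfl
  have e2 : (x ^ j * x ^ j - ((lucas a l j : ℤ) : AddMonoid.End T) * x ^ j
      + ((l ^ j : ℤ) : AddMonoid.End T)) P =
      (x ^ j) ((x ^ j) P) - ((lucas a l j : ℤ) : AddMonoid.End T) ((x ^ j) P)
        + ((l ^ j : ℤ) : AddMonoid.End T) P := rfl
  rw [e2, AddMonoid.End.intCast_apply, AddMonoid.End.intCast_apply, hxjP, hxjP] at h2
  exact h2

end Ring

section RankTwo

variable {O : Type*} [CommRing O] {V : Type*} [AddCommGroup V] [Module O V]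
  [Module.Free O V] [Module.Finite O V]

/-- In rank 2 the characteristic polynomial is `X² − tr · X + det`. -/
theorem charpoly_eq_of_finrank_two [Nontrivial O] (hV : Module.finrank O V = 2)
    (A : Module.End O V) :
    LinearMap.charpoly A = X ^ 2 - C (LinearMap.trace O V A) * X + C (LinearMap.det A) := by
  classical
  let b : Module.Basis (Fin 2) O V := Module.finBasisOfFinrankEq O V hV
  rw [← LinearMap.charpoly_toMatrix A b, Matrix.charpoly_fin_two,
    LinearMap.trace_eq_matrix_trace O b, ← LinearMap.det_toMatrix b]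

/-- Reading trace and determinant off a rank-2 characteristic polynomial. -/
theorem trace_det_of_charpoly [Nontrivial O] (hV : Module.finrank O V = 2)
    (A : Module.End O V) (t d : O) (h : LinearMap.charpoly A = X ^ 2 - C t * X + C d) :
    LinearMap.trace O V A = t ∧ LinearMap.det A = d := by
  have h1 := charpoly_eq_of_finrank_two hV A
  rw [h] at h1
  constructor
  · have h2 := congrArg (fun p : O[X] => p.coeff 1) h1
    simp only [coeff_add, coeff_sub, coeff_X_pow, coeff_C_mul, coeff_X_one, coeff_C] at h2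
    norm_num at h2
    exact h2.symm
  · have h2 := congrArg (fun p : O[X] => p.coeff 0) h1
    simp only [coeff_add, coeff_sub, coeff_X_pow, coeff_C_mul, coeff_X_zero, coeff_C_zero] at h2
    norm_num at h2
    exact h2.symm

/-- Cayley–Hamilton in the shape used below. -/
theorem relation_of_charpoly (A : Module.End O V) (a l : ℤ)
    (h : LinearMap.charpoly A = X ^ 2 - C (a : O) * X + C (l : O)) :
    A * A - ((a : ℤ) : Module.End O V) * A + ((l : ℤ) : Module.End O V) = 0 := by
  have h1 := LinearMap.aeval_self_charpoly A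
  rw [h] at h1
  simpa [pow_two] using h1

/-- `det (A^j) = l^j` when `charpoly A = X² − aX + l`. -/
theorem det_pow_of_charpoly [Nontrivial O] (hV : Module.finrank O V = 2)
    (A : Module.End O V) (a l : ℤ)
    (h : LinearMap.charpoly A = X ^ 2 - C (a : O) * X + C (l : O)) (j : ℕ) :
    LinearMap.det (A ^ j) = ((l ^ j : ℤ) : O) := by
  rw [map_pow, (trace_det_of_charpoly hV A _ _ h).2]
  push_cast
  rfl

/-- `tr (A^j) = s_j` when `charpoly A = X² − aX + l`. -/
theorem trace_pow_of_charpoly [Nontrivial O] (hV : Module.finrank O V = 2)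
    (A : Module.End O V) (a l : ℤ)
    (h : LinearMap.charpoly A = X ^ 2 - C (a : O) * X + C (l : O)) (j : ℕ) :
    LinearMap.trace O V (A ^ j) = (lucas a l j : O) := by
  have hrel := relation_of_charpoly A a l h
  have hAA : A * A = (a : ℤ) • A - (l : ℤ) • (1 : Module.End O V) := by
    have h1 : A * A = ((a : ℤ) : Module.End O V) * A - ((l : ℤ) : Module.End O V) := by
      rw [← sub_eq_zero]
      rw [← hrel]
      abel
    rw [h1, zsmul_eq_mul, zsmul_eq_mul, mul_one]
  induction j using Nat.twoStepInduction with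
  | zero =>
    rw [pow_zero, LinearMap.trace_one, hV, lucas_zero]
    norm_num
  | one =>
    rw [pow_one, (trace_det_of_charpoly hV A _ _ h).1, lucas_one]
  | more j ih0 ih1 =>
    have h2 : A ^ (j + 2) = (a : ℤ) • A ^ (j + 1) - (l : ℤ) • A ^ j := by
      rw [pow_add, pow_two, hAA, mul_sub, mul_smul_comm, mul_smul_comm, mul_one, ← pow_succ]
    rw [h2, map_sub, map_zsmul, map_zsmul, ih0, ih1, lucas_add_two]
    push_cast
    simp only [zsmul_eq_mul]

omit [Module.Free O V] [Module.Finite O V] in
/-- Coordinates of an element of `I • ⊤` lie in `I`. -/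
theorem repr_mem_of_mem_smul_top {ι : Type*} (b : Module.Basis ι O V) (I : Ideal O) {x : V}
    (hx : x ∈ I • (⊤ : Submodule O V)) (i : ι) : b.repr x i ∈ I := by
  refine Submodule.smul_induction_on hx ?_ ?_
  · intro r hr v _
    rw [map_smul, Finsupp.smul_apply, smul_eq_mul]
    exact I.mul_mem_right _ hr
  · intro x y hx hy
    rw [map_add, Finsupp.add_apply]
    exact I.add_mem hx hy

/-- **Congruence of trace and determinant.** If `B ≡ B'` pointwise modulo `I • ⊤` on a free module
of rank 2, then `tr B ≡ tr B'` and `det B ≡ det B'` modulo `I`. -/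
theorem trace_det_sub_mem [Nontrivial O] (I : Ideal O) (hV : Module.finrank O V = 2)
    (B B' : Module.End O V)
    (h : ∀ v : V, B v - B' v ∈ I • (⊤ : Submodule O V)) :
    LinearMap.trace O V B - LinearMap.trace O V B' ∈ I ∧
      LinearMap.det B - LinearMap.det B' ∈ I := by
  classical
  let b : Module.Basis (Fin 2) O V := Module.finBasisOfFinrankEq O V hV
  have hent : ∀ i j : Fin 2,
      LinearMap.toMatrix b b B i j - LinearMap.toMatrix b b B' i j ∈ I := by
    intro i j
    rw [LinearMap.toMatrix_apply, LinearMap.toMatrix_apply, ← Finsupp.sub_apply, ← map_sub]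
    exact repr_mem_of_mem_smul_top b I (h (b j)) i
  rw [LinearMap.trace_eq_matrix_trace O b, LinearMap.trace_eq_matrix_trace O b,
    ← LinearMap.det_toMatrix b, ← LinearMap.det_toMatrix b, Matrix.trace_fin_two,
    Matrix.trace_fin_two, Matrix.det_fin_two, Matrix.det_fin_two]
  set M := LinearMap.toMatrix b b B
  set M' := LinearMap.toMatrix b b B'
  constructor
  · have e : M 0 0 + M 1 1 - (M' 0 0 + M' 1 1) = (M 0 0 - M' 0 0) + (M 1 1 - M' 1 1) := by ring
    rw [e]
    exact I.add_mem (hent 0 0) (hent 1 1)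
  · have e : M 0 0 * M 1 1 - M 0 1 * M 1 0 - (M' 0 0 * M' 1 1 - M' 0 1 * M' 1 0) =
        (M 0 0 - M' 0 0) * M 1 1 + M' 0 0 * (M 1 1 - M' 1 1)
          - ((M 0 1 - M' 0 1) * M 1 0 + M' 0 1 * (M 1 0 - M' 1 0)) := by ring
    rw [e]
    exact I.sub_mem (I.add_mem (I.mul_mem_right _ (hent 0 0)) (I.mul_mem_left _ (hent 1 1)))
      (I.add_mem (I.mul_mem_right _ (hent 0 1)) (I.mul_mem_left _ (hent 1 0)))

/-- **[TR] core.** If `charpoly A = X² − aX + l` (integers) and `B ≡ A^j` pointwise modulo
`I • ⊤`, then `tr B ≡ s_j` and `det B ≡ l^j` modulo `I`. -/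
theorem trace_det_approx_of_pow [Nontrivial O] (I : Ideal O) (hV : Module.finrank O V = 2)
    (B A : Module.End O V) (a l : ℤ) (j : ℕ)
    (hA : LinearMap.charpoly A = X ^ 2 - C (a : O) * X + C (l : O))
    (hB : ∀ v : V, B v - (A ^ j) v ∈ I • (⊤ : Submodule O V)) :
    LinearMap.trace O V B - (lucas a l j : O) ∈ I ∧
      LinearMap.det B - ((l ^ j : ℤ) : O) ∈ I := by
  have h := trace_det_sub_mem I hV B (A ^ j) hB
  rw [trace_pow_of_charpoly hV A a l hA j, det_pow_of_charpoly hV A a l hA j] at h
  exact h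

end RankTwo

section Separated

variable {O : Type*} [CommRing O] [IsLocalRing O] [IsHausdorff (IsLocalRing.maximalIdeal O) O]

/-- In a separated local ring, congruence modulo every power of the maximal ideal is equality. -/
theorem eq_of_forall_sub_mem_pow {x y : O}
    (h : ∀ n : ℕ, x - y ∈ IsLocalRing.maximalIdeal O ^ n) : x = y := by
  rw [← sub_eq_zero]
  refine IsHausdorff.haus (I := IsLocalRing.maximalIdeal O) inferInstance (x - y) fun n => ?_
  rw [SModEq.zero, smul_eq_mul, Ideal.mul_top]
  exact h n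

variable {V : Type*} [AddCommGroup V] [Module O V] [Module.Free O V] [Module.Finite O V]

/-- **Characteristic polynomial from integer approximations.** If for every `n` there are integers
`m ≡ tr A`, `e ≡ det A`, `m ≡ t`, `e ≡ d` modulo `𝔪ⁿ`, then `charpoly A = X² − tX + d`. -/
theorem charpoly_eq_of_approx (hV : Module.finrank O V = 2) (A : Module.End O V) (t d : O)
    (h : ∀ n : ℕ, ∃ m e : ℤ,
      LinearMap.trace O V A - (m : O) ∈ IsLocalRing.maximalIdeal O ^ n ∧
      LinearMap.det A - (e : O) ∈ IsLocalRing.maximalIdeal O ^ n ∧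
      (m : O) - t ∈ IsLocalRing.maximalIdeal O ^ n ∧
      (e : O) - d ∈ IsLocalRing.maximalIdeal O ^ n) :
    LinearMap.charpoly A = X ^ 2 - C t * X + C d := by
  have ht : LinearMap.trace O V A = t := eq_of_forall_sub_mem_pow fun n => by
    obtain ⟨m, e, h1, -, h3, -⟩ := h n
    have := Ideal.add_mem _ h1 h3
    rwa [sub_add_sub_cancel] at this
  have hd : LinearMap.det A = d := eq_of_forall_sub_mem_pow fun n => by
    obtain ⟨m, e, -, h2, -, h4⟩ := h n
    have := Ideal.add_mem _ h2 h4
    rwa [sub_add_sub_cancel] at this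
  rw [charpoly_eq_of_finrank_two hV A, ht, hd]

/-- **Unipotent from integer approximations.** If for every `n` there are integers `m ≡ tr A`,
`e ≡ det A` modulo `𝔪ⁿ` with `m ≡ 2` and `e ≡ 1` modulo `𝔪ⁿ`, then `charpoly A = (X − 1)²`. -/
theorem charpoly_eq_X_sub_one_sq_of_approx (hV : Module.finrank O V = 2) (A : Module.End O V)
    (h : ∀ n : ℕ, ∃ m e : ℤ,
      LinearMap.trace O V A - (m : O) ∈ IsLocalRing.maximalIdeal O ^ n ∧
      LinearMap.det A - (e : O) ∈ IsLocalRing.maximalIdeal O ^ n ∧
      (m : O) - 2 ∈ IsLocalRing.maximalIdeal O ^ n ∧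
      (e : O) - 1 ∈ IsLocalRing.maximalIdeal O ^ n) :
    LinearMap.charpoly A = (X - 1) ^ 2 := by
  rw [charpoly_eq_of_approx hV A 2 1 h]
  have h2 : (C (2 : O) : O[X]) = 2 := by
    have := (Polynomial.C_eq_natCast (R := O) 2)
    exact_mod_cast this
  rw [h2, C_1]
  ring

end Separated

section Arithmetic

variable {T : Type*} [AddCommGroup T]

/-- A point `P` of exact order `N` fixed by `τ`, with `τ²P − m·τP + d·P = 0`: then
`N ∣ 1 − m + d`. (Stated with the fixed point already substituted.) -/
theorem dvd_of_relation_of_fixed {N m d : ℤ} {P : T} (hP : ∀ k : ℤ, k • P = 0 → N ∣ k)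
    (h : P - m • P + d • P = 0) : N ∣ 1 - m + d := by
  apply hP
  rw [add_smul, sub_smul, one_smul]
  exact h

/-- ... and if moreover `N ∣ d − 1` (trivial action on the `N`-th roots of unity) then
`N ∣ m − 2`. -/
theorem dvd_sub_two_of_fixed {N m d : ℤ} {P : T} (hP : ∀ k : ℤ, k • P = 0 → N ∣ k)
    (h : P - m • P + d • P = 0) (hd : N ∣ d - 1) : N ∣ m - 2 := by
  have h1 := dvd_of_relation_of_fixed hP h
  have e : m - 2 = (d - 1) - (1 - m + d) := by ring
  rw [e]
  exact dvd_sub hd h1

/-- If `(m − a)·Q = 0` for all `Q = σP` … in the form used for (ii): a point `P` of exact order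
`N`, and `m • P = a • P`: then `N ∣ m − a`. -/
theorem dvd_sub_of_smul_eq {N m a : ℤ} {P : T} (hP : ∀ k : ℤ, k • P = 0 → N ∣ k)
    (h : m • P = a • P) : N ∣ m - a := by
  apply hP
  rw [sub_smul, h, sub_self]

end Arithmetic

end Fermat.Agent.S58.TrAlg
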