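/-
S58 campaign, leaf [TR] (C-copy, helper82): the TRANSFER LEMMA `Plan.TRStatement` from the two
Plan leaves `Plan.FrobWStatement` (Frobenius relation on torsion at good primes) and
`Plan.CycFrobStatement` (Frobenius on roots of unity), the weak Frobenius density statement
`S29.FDStmt.fdStatement` and the algebra kit `S58/TrAlg.lean`.

* `finite_torsion_pow`  : `T[l]` finite ⇒ `T[l ^ n]` finite (any additive commutative group);
* `finite_torsion`      : the `lam ^ n`-torsion of `W(ℚ̄)` is finite (`S41.T1.card_torsion`);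
* `exists_level`        : a finite level `L` such that two Galois elements agreeing on `L` agree on
                          the `lam ^ n`-torsion points and on the `lam ^ n`-th roots of unity;
* `trStatement`         : `Plan.FrobWStatement → Plan.CycFrobStatement → Plan.TRStatement`.
-/
import Mathlib
import Fermat.Agent.S58.Plan
import Fermat.Agent.S58.TrAlg
import Fermat.Agent.S29.FDStmt
import Fermat.Agent.S41.T1
import Fermat.Agent.S41.Local

set_option autoImplicit false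

namespace Fermat.Agent.S58.TransferC

open Polynomial WeierstrassCurve WeierstrassCurve.Affine
open scoped WeierstrassCurve.Affine
open Fermat.Agent Fermat.Agent.S58

/-- If the `l`-torsion of an additive commutative group is finite, so is its `l ^ n`-torsion. -/
theorem finite_torsion_pow {T : Type*} [AddCommGroup T] (l : ℕ)
    (h : {P : T | l • P = 0}.Finite) (n : ℕ) : {P : T | (l ^ n) • P = 0}.Finite := by
  induction n with
  | zero =>
    have h0 : {P : T | (l ^ 0) • P = 0} = {0} := by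
      ext P
      simp
    rw [h0]
    exact Set.finite_singleton 0
  | succ n ih =>
    have hsub : {P : T | (l ^ (n + 1)) • P = 0} =
        (fun P : T => l • P) ⁻¹' {P : T | (l ^ n) • P = 0} := by
      ext P
      simp only [Set.mem_ofPred_eq, Set.mem_preimage]
      rw [pow_succ, mul_smul]
    rw [hsub]
    refine Set.Finite.preimage' ih ?_
    intro b _
    by_cases hb : ∃ P₀ : T, l • P₀ = b
    · obtain ⟨P₀, hP₀⟩ := hb
      refine Set.Finite.subset (h.image (fun Q => P₀ + Q)) ?_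
      intro P hP
      simp only [Set.mem_preimage, Set.mem_singleton_iff] at hP
      refine ⟨P - P₀, ?_, by simp⟩
      simp only [Set.mem_ofPred_eq]
      rw [smul_sub, hP, hP₀, sub_self]
    · have he : (fun P : T => l • P) ⁻¹' {b} = ∅ := by
        ext P
        simp only [Set.mem_preimage, Set.mem_singleton_iff, Set.mem_empty_iff_false, iff_false]
        exact fun hP => hb ⟨P, hP⟩
      rw [he]
      exact Set.finite_empty

/-- The base change to `ℚ̄` of an integral model with `Δ ≠ 0` is an elliptic curve. -/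
theorem isElliptic_of_Δ_ne_zero (W : WeierstrassCurve ℤ) (hΔ : W.Δ ≠ 0) :
    ((W.map (Int.castRingHom ℚ))⁄Plan.Qb).IsElliptic := by
  have h : ((W.map (Int.castRingHom ℚ))⁄Plan.Qb) = W.map (Int.castRingHom Plan.Qb) :=
    S41.Local.map_int_comp W (algebraMap ℚ Plan.Qb)
  rw [h]
  have hΔK : (W.map (Int.castRingHom Plan.Qb)).Δ ≠ 0 := by
    rw [WeierstrassCurve.map_Δ]
    simpa using hΔ
  exact ⟨isUnit_iff_ne_zero.mpr hΔK⟩

/-- The `lam ^ n`-torsion of `W(ℚ̄)` is finite. -/
theorem finite_torsion (W : WeierstrassCurve ℤ) (hΔ : W.Δ ≠ 0) (lam : ℕ) (hlam : lam.Prime)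
    (n : ℕ) : {P : Plan.Pt W | (lam ^ n) • P = 0}.Finite := by
  have := isElliptic_of_Δ_ne_zero W hΔ
  refine finite_torsion_pow lam ?_ n
  have hcard := S41.T1.card_torsion ((W.map (Int.castRingHom ℚ))⁄Plan.Qb) lam hlam
  have : Finite (Submodule.torsionBy ℤ (Plan.Pt W) (lam : ℤ)) :=
    Nat.finite_of_card_ne_zero (by rw [hcard]; exact pow_ne_zero _ hlam.ne_zero)
  have hset : {P : Plan.Pt W | lam • P = 0} =
      ((Submodule.torsionBy ℤ (Plan.Pt W) (lam : ℤ) : Submodule ℤ (Plan.Pt W)) :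
        Set (Plan.Pt W)) := by
    ext P
    simp only [Set.mem_ofPred_eq, SetLike.mem_coe, Submodule.mem_torsionBy_iff, natCast_zsmul]
  rw [hset]
  exact Set.toFinite _

/-- The coordinates of a point. -/
def coords (W : WeierstrassCurve ℤ) : Plan.Pt W → Set Plan.Qb
  | .zero => ∅
  | .some x y _ => {x, y}

theorem finite_coords (W : WeierstrassCurve ℤ) (P : Plan.Pt W) : (coords W P).Finite := by
  rcases P with _ | ⟨x, y, h⟩
  · exact Set.finite_empty
  · exact (Set.finite_singleton y).insert x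

/-- **Finite level.** There is a finite level `L` such that two elements of `G_ℚ` which agree on
`L` agree on the `lam ^ n`-torsion of `W(ℚ̄)` and on the `lam ^ n`-th roots of unity. -/
theorem exists_level (W : WeierstrassCurve ℤ) (hΔ : W.Δ ≠ 0) (lam : ℕ) (hlam : lam.Prime)
    (n : ℕ) : ∃ L : IntermediateField ℚ Plan.Qb, FiniteDimensional ℚ L ∧
      ∀ g τ : Plan.GQ, (∀ x ∈ L, g x = τ x) →
        (∀ P : Plan.Pt W, (lam ^ n) • P = 0 → g • P = τ • P) ∧
        (∀ μ : Plan.Qb, μ ^ (lam ^ n) = 1 → g μ = τ μ) := by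
  classical
  have hN : 0 < lam ^ n := pow_pos hlam.pos n
  set Cs : Set Plan.Qb := ⋃ P ∈ {P : Plan.Pt W | (lam ^ n) • P = 0}, coords W P with hCs
  set Rs : Set Plan.Qb := {μ : Plan.Qb | μ ^ (lam ^ n) = 1} with hRs
  have hCfin : Cs.Finite :=
    Set.Finite.biUnion (finite_torsion W hΔ lam hlam n) fun P _ => finite_coords W P
  have hRfin : Rs.Finite := by
    have : Rs = ↑(nthRoots (lam ^ n) (1 : Plan.Qb)).toFinset := by
      ext μ
      simp only [hRs, Set.mem_ofPred_eq, Finset.mem_coe, Multiset.mem_toFinset, mem_nthRoots hN]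
    rw [this]
    exact Finset.finite_toSet _
  have : Finite ↑(Cs ∪ Rs) := (hCfin.union hRfin).to_subtype
  refine ⟨IntermediateField.adjoin ℚ (Cs ∪ Rs),
    IntermediateField.finiteDimensional_adjoin fun x _ =>
      ((AlgebraicClosure.isAlgebraic ℚ).isAlgebraic x).isIntegral, ?_⟩
  intro g τ hgτ
  have hsub : ∀ x ∈ Cs ∪ Rs, g x = τ x := fun x hx =>
    hgτ x (IntermediateField.subset_adjoin ℚ _ hx)
  constructor
  · intro P hP
    rcases P with _ | ⟨x, y, h⟩
    · rfl
    · have hx : x ∈ Cs ∪ Rs := Or.inl (Set.mem_biUnion hP (by simp [coords]))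
      have hy : y ∈ Cs ∪ Rs := Or.inl (Set.mem_biUnion hP (by simp [coords]))
      rw [Point.algEquiv_smul_def, Point.algEquiv_smul_def, Point.map_some, Point.map_some]
      exact S41.Red.some_eq_some _ _ (hsub x hx) (hsub y hy)
  · intro μ hμ
    exact hsub μ (Or.inr hμ)

/-- Powers of a Frobenius-like element on roots of unity. -/
theorem pow_apply_of_apply_eq_pow (σ : Plan.GQ) (N ℓ : ℕ)
    (h : ∀ μ : Plan.Qb, μ ^ N = 1 → σ μ = μ ^ ℓ) (j : ℕ) (μ : Plan.Qb) (hμ : μ ^ N = 1) :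
    (σ ^ j) μ = μ ^ (ℓ ^ j) := by
  induction j with
  | zero => simp
  | succ j ih =>
    rw [pow_succ, AlgEquiv.mul_apply, h μ hμ, map_pow, ih, ← pow_mul, ← pow_succ]

/-- **[TR] transfer lemma** (C-copy): `Plan.TRStatement` from the Frobenius relation on torsion
at good primes, the action of Frobenius on roots of unity, weak Frobenius density and continuity
of `ρ`. -/
theorem trStatement (hF : Plan.FrobWStatement) (hC : Plan.CycFrobStatement) :
    Plan.TRStatement := by
  classical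
  intro W hΔ lam hlam S O _ _ _ ρ hFrob g n
  set I : Ideal O := IsLocalRing.maximalIdeal O ^ n with hI
  obtain ⟨L₁, hL₁fin, hL₁⟩ := ρ.isAdicContinuous n
  obtain ⟨L₂, hL₂fin, hL₂⟩ := exists_level W hΔ lam hlam n
  have := hL₁fin
  have := hL₂fin
  have hLfin : FiniteDimensional ℚ (L₁ ⊔ L₂ : IntermediateField ℚ Plan.Qb) :=
    IntermediateField.finiteDimensional_sup L₁ L₂
  obtain ⟨ℓ, A, σ, j, hℓ, hℓS, hA, hσ, hgσ⟩ :=
    S29.FDStmt.fdStatement (L₁ ⊔ L₂) hLfin (S ∪ {lam} ∪ W.Δ.natAbs.primeFactors) g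
  have hℓS' : ℓ ∉ S := fun h => hℓS (by simp [h])
  have hℓlam : ℓ ≠ lam := fun h => hℓS (by simp [h])
  have hgood : ¬ (ℓ : ℤ) ∣ W.Δ := by
    intro hd
    apply hℓS
    have h1 : ℓ ∈ W.Δ.natAbs.primeFactors :=
      Nat.mem_primeFactors.mpr ⟨hℓ, Int.natCast_dvd.mp hd, Int.natAbs_ne_zero.mpr hΔ⟩
    simp [h1]
  have hg1 : ∀ x ∈ L₁, g x = (σ ^ j) x := fun x hx => hgσ x ((le_sup_left : L₁ ≤ L₁ ⊔ L₂) hx)
  have hg2 : ∀ x ∈ L₂, g x = (σ ^ j) x := fun x hx => hgσ x ((le_sup_right : L₂ ≤ L₁ ⊔ L₂) hx)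
  obtain ⟨hgP, hgμ⟩ := hL₂ g (σ ^ j) hg2
  -- the representation side
  have hchar : LinearMap.charpoly (ρ.ρ σ) =
      X ^ 2 - C (((W.apOfModel ℓ : ℤ) : O)) * X + C (((ℓ : ℤ) : O)) := by
    rw [hFrob ℓ hℓ hℓS' A hA σ hσ, Int.cast_natCast]
  have hmap : ∀ (f : Module.End O ρ.V) (x : ρ.V), x ∈ I • (⊤ : Submodule O ρ.V) →
      f x ∈ I • (⊤ : Submodule O ρ.V) := by
    intro f x hx
    refine Submodule.smul_induction_on hx ?_ ?_
    · intro r hr v _
      rw [map_smul]
      exact Submodule.smul_mem_smul hr Submodule.mem_top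
    · intro x y hx hy
      rw [map_add]
      exact Submodule.add_mem _ hx hy
  have hB : ∀ v : ρ.V, ρ.ρ g v - (ρ.ρ σ ^ j) v ∈ I • (⊤ : Submodule O ρ.V) := by
    intro v
    have hfix : ∀ x ∈ L₁, ((σ ^ j)⁻¹ * g) x = x := by
      intro x hx
      rw [AlgEquiv.mul_apply, hg1 x hx, ← AlgEquiv.mul_apply, inv_mul_cancel, AlgEquiv.one_apply]
    have h1 := hL₁ ((σ ^ j)⁻¹ * g) hfix v
    have h2 : ρ.ρ g v - (ρ.ρ σ ^ j) v = (ρ.ρ σ ^ j) (ρ.ρ ((σ ^ j)⁻¹ * g) v - v) := by
      rw [map_sub, ← Module.End.mul_apply, ← map_pow, ← map_mul, mul_inv_cancel_left]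
    rw [h2]
    exact hmap _ _ h1
  obtain ⟨htr, hdet⟩ := TrAlg.trace_det_approx_of_pow I ρ.finrank_eq (ρ.ρ g) (ρ.ρ σ)
    (W.apOfModel ℓ) (ℓ : ℤ) j hchar hB
  refine ⟨TrAlg.lucas (W.apOfModel ℓ) (ℓ : ℤ) j, (ℓ : ℤ) ^ j, htr, hdet, ?_, ?_⟩
  · -- the torsion side
    intro P hP
    have hrelT : ∀ Q : Submodule.torsionBy ℤ (Plan.Pt W) ((lam ^ n : ℕ) : ℤ),
        σ • σ • Q - (W.apOfModel ℓ) • σ • Q + (ℓ : ℤ) • Q = 0 := by
      intro Q
      apply Subtype.ext
      have hQ : (lam ^ n) • (Q : Plan.Pt W) = 0 := by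
        have := (Submodule.mem_torsionBy_iff _ _).mp Q.2
        rwa [natCast_zsmul] at this
      exact hF W ℓ lam hℓ hlam hℓlam hgood A hA σ hσ n (Q : Plan.Pt W) hQ
    have hPmem : P ∈ Submodule.torsionBy ℤ (Plan.Pt W) ((lam ^ n : ℕ) : ℤ) := by
      rw [Submodule.mem_torsionBy_iff, natCast_zsmul]
      exact hP
    have h3 := TrAlg.smul_relation_pow σ (W.apOfModel ℓ) (ℓ : ℤ) hrelT j ⟨P, hPmem⟩
    have h4 := congrArg Subtype.val h3
    have hgP' : (lam ^ n) • (g • P) = 0 := by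
      rw [smul_comm, hP]
      exact smul_zero (A := Plan.Pt W) g
    rw [hgP (g • P) hgP', hgP P hP]
    exact h4
  · -- roots of unity
    intro μ hμ
    rw [hgμ μ hμ, pow_apply_of_apply_eq_pow σ (lam ^ n) ℓ
      (fun ν hν => hC ℓ lam hℓ hlam hℓlam A hA σ hσ n ν hν) j μ hμ]
    rw [← Nat.cast_pow, zpow_natCast]

end Fermat.Agent.S58.TransferC
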