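/-
S58 campaign, TOP in hypothesis form over the LAST open leaf (helper12).

Closed terms of the Plan Props `ThmF2Statement` (from `FrobTwo.frob_relation_two`),
`FrobWStatement` (`FrobQbar.frobW`), `TRStatement` (`TransferC.trStatement`), and the frozen
statement S58 (binder list verbatim) from `Plan.FixMultStatement` ALONE, through
`Top.result_of_five`.
-/
import Mathlib
import Fermat.Agent.S58.Top
import Fermat.Agent.S58.FrobTwo
import Fermat.Agent.S58.FrobQbar
import Fermat.Agent.S58.TransferC
import Fermat.Agent.S58.Cyc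

set_option autoImplicit false

namespace Fermat.Agent.S58.TopC

open WeierstrassCurve
open Fermat.Agent.S58

/-- **[F2]** in the Plan shape. -/
theorem thmF2 : Plan.ThmF2Statement := by
  intro W hΔ κ _ _ _ P
  have h := FrobTwo.frob_relation_two W hΔ κ P
  simpa using h

/-- **[FROBW]** closed. -/
theorem frobW : Plan.FrobWStatement := FrobQbar.frobW thmF2

/-- **[TR]** closed. -/
theorem tr : Plan.TRStatement := TransferC.trStatement frobW Cyc.cycFrob

/-- The frozen statement S58 from the single leaf **[FIXMULT]**. -/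
theorem result_of_fixMult (hFM : Plan.FixMultStatement)
    (W : WeierstrassCurve ℤ) (hss : W.IsSemistableModel) (N : ℕ)
    (p : ℕ) [Fact p.Prime] (hp2 : p ≠ 2) (hirr : W.ModRepIsIrreducible p)
    (hp2N : ¬ p ^ 2 ∣ N)
    (hN : W.IsModularModelOfLevel N) (hbad : ∀ ℓ : ℕ, ℓ.Prime → (ℓ : ℤ) ∣ W.Δ → ℓ ∣ N)
    (hN3 : ∀ q : ℕ, q.Prime → ¬ q ^ 3 ∣ N) :
    W.IsModularModelOfLevel W.conductorLevel :=
  Top.result_of_five tr hFM frobW Cyc.cycFrob Cyc.cycInertia W hss N p hp2 hirr hp2N hN hbad hN3

end Fermat.Agent.S58.TopC
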