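/-
S58 — Tors.lean (helper22): leaf [TORS] of `S58/Plan.lean`.

Over an algebraically closed field of characteristic zero, an elliptic curve in Weierstrass form
has points of exact order `p ^ n` for every prime `p` and every `n`:

* `exists_nsmul_eq_short`, `exists_nsmul_eq` : the group of points is `p`-divisible (a root of
  `num_p - x(R)·den_p`, `S41.T1Short.exists_point_nsmul_eq`, transported from the short model by
  `S41.T1.exists_short_model` / `S41.VC.vcEquiv`);
* `exists_addOrderOf_eq_prime` : a point of exact order `p` (`S41.T1.card_torsion`);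
* `exists_addOrderOf_eq_prime_pow` : a point of exact order `p ^ n`;
* `tors : Plan.TorsStatement`.
-/
import Mathlib
import Fermat.Agent.S58.Plan
import Fermat.Agent.S41.T1

set_option autoImplicit false

namespace Fermat.Agent.S58.Tors

open Polynomial WeierstrassCurve
open Fermat.Agent.S05 Fermat.Agent.S13.MPoly

section Field

variable {L : Type*} [Field L] [CharZero L] [IsAlgClosed L] [DecidableEq L]

/-- The points of the short model `y² = x³ + αx² + βx` form a `p`-divisible group. -/
theorem exists_nsmul_eq_short {α β : L} (hβ : β ≠ 0) (hd : α ^ 2 - 4 * β ≠ 0) {p : ℕ}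
    (hp : p ≠ 0) (R : (shortCurve α β).toAffine.Point) :
    ∃ T : (shortCurve α β).toAffine.Point, p • T = R := by
  by_cases hR : R = 0
  · exact ⟨0, by rw [smul_zero, hR]⟩
  have hndeg : (num α β p).natDegree = p ^ 2 := natDegree_num hβ hd p
  have hddeg : (den α β p).natDegree + 1 = p ^ 2 := natDegree_den hβ hd hp
  have hp2 : 0 < p ^ 2 := pos_of_ne_zero (pow_ne_zero 2 hp)
  have hfdeg : (num α β p - C (PB.xco R) * den α β p).natDegree = p ^ 2 := by
    rw [natDegree_sub_eq_left_of_natDegree_lt (by
      have h1 : (C (PB.xco R) * den α β p).natDegree ≤ (den α β p).natDegree :=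
        natDegree_C_mul_le _ _
      omega), hndeg]
  have hf0 : num α β p - C (PB.xco R) * den α β p ≠ 0 := by
    intro h0
    rw [h0, natDegree_zero] at hfdeg
    omega
  obtain ⟨ξ, hξ⟩ := IsAlgClosed.exists_root (num α β p - C (PB.xco R) * den α β p) (by
    rw [degree_eq_natDegree hf0, hfdeg]
    exact_mod_cast hp2.ne')
  obtain ⟨T, -, hT⟩ := Fermat.Agent.S41.T1Short.exists_point_nsmul_eq hβ hd p R hR ξ hξ
  exact ⟨T, hT⟩

/-- The points of an elliptic curve over an algebraically closed field of characteristic zero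
form a `p`-divisible group. -/
theorem exists_nsmul_eq (W : WeierstrassCurve L) [W.IsElliptic] {p : ℕ} (hp : p ≠ 0)
    (R : W.toAffine.Point) : ∃ T : W.toAffine.Point, p • T = R := by
  obtain ⟨C, α, β, hβ, hd, -, -, h⟩ := Fermat.Agent.S41.T1.exists_short_model W
  obtain ⟨T, hT⟩ := exists_nsmul_eq_short hβ hd hp
    ((Fermat.Agent.S41.VC.vcEquiv W (shortCurve α β) C h).symm R)
  exact ⟨Fermat.Agent.S41.VC.vcEquiv W (shortCurve α β) C h T, by
    rw [← map_nsmul, hT, AddEquiv.apply_symm_apply]⟩

/-- A point of exact order `p`. -/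
theorem exists_addOrderOf_eq_prime (W : WeierstrassCurve L) [W.IsElliptic] {p : ℕ}
    (hp : p.Prime) : ∃ P : W.toAffine.Point, addOrderOf P = p := by
  have hcard := Fermat.Agent.S41.T1.card_torsion W p hp
  have hfin : Finite (Submodule.torsionBy ℤ W.toAffine.Point p) :=
    Nat.finite_of_card_ne_zero (by rw [hcard]; exact pow_ne_zero 2 hp.ne_zero)
  have hnt : Nontrivial (Submodule.torsionBy ℤ W.toAffine.Point p) := by
    rw [← Finite.one_lt_card_iff_nontrivial, hcard]
    exact Nat.one_lt_pow (by norm_num) hp.one_lt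
  obtain ⟨x, hx⟩ := exists_ne (0 : Submodule.torsionBy ℤ W.toAffine.Point p)
  have hx0 : (x : W.toAffine.Point) ≠ 0 := fun h => hx (Subtype.ext h)
  have hpx : p • (x : W.toAffine.Point) = 0 := by
    have := (Submodule.mem_torsionBy_iff _ _).mp x.2
    rwa [natCast_zsmul] at this
  have : Fact p.Prime := ⟨hp⟩
  exact ⟨x, addOrderOf_eq_prime hpx hx0⟩

/-- A point of exact order `p ^ n`, for every prime `p` and every `n`. -/
theorem exists_addOrderOf_eq_prime_pow (W : WeierstrassCurve L) [W.IsElliptic] {p : ℕ}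
    (hp : p.Prime) (n : ℕ) : ∃ P : W.toAffine.Point, addOrderOf P = p ^ n := by
  have : Fact p.Prime := ⟨hp⟩
  induction n with
  | zero => exact ⟨0, by simp⟩
  | succ n ih =>
    rcases Nat.eq_zero_or_pos n with rfl | hn
    · obtain ⟨P, hP⟩ := exists_addOrderOf_eq_prime W hp
      exact ⟨P, by rw [hP, zero_add, pow_one]⟩
    · obtain ⟨P, hP⟩ := ih
      obtain ⟨T, hT⟩ := exists_nsmul_eq W hp.ne_zero P
      refine ⟨T, addOrderOf_eq_prime_pow ?_ ?_⟩
      · intro h0
        obtain ⟨k, rfl⟩ := Nat.exists_eq_succ_of_ne_zero hn.ne'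
        have h1 : p ^ k • P = 0 := by
          rw [← hT, ← mul_nsmul, ← pow_succ']
          exact h0
        have hdvd := addOrderOf_dvd_of_nsmul_eq_zero h1
        rw [hP] at hdvd
        have := (Nat.pow_dvd_pow_iff_le_right hp.one_lt).mp hdvd
        omega
      · rw [pow_succ', mul_nsmul, hT, ← hP]
        exact addOrderOf_nsmul_eq_zero P

end Field

/-- **[TORS]** points of exact order `λⁿ` exist on `W(ℚ̄)`. -/
theorem tors : Plan.TorsStatement := by
  intro W hΔ lam hlam n
  have hΔK : ((W.map (Int.castRingHom ℚ)).map (algebraMap ℚ Plan.Qb)).Δ ≠ 0 := by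
    rw [WeierstrassCurve.map_Δ, WeierstrassCurve.map_Δ]
    simpa using hΔ
  have : ((W.map (Int.castRingHom ℚ)).map (algebraMap ℚ Plan.Qb)).IsElliptic :=
    ⟨isUnit_iff_ne_zero.mpr hΔK⟩
  exact exists_addOrderOf_eq_prime_pow ((W.map (Int.castRingHom ℚ)).map (algebraMap ℚ Plan.Qb))
    hlam n

end Fermat.Agent.S58.Tors
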