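/-
S58 campaign, leaf [TORS], B-copy (helper15; A = helper22 `S58/Tors.lean`).

`tors : Plan.TorsStatement`: on the `ℚ̄`-points of an integral Weierstrass curve with `Δ ≠ 0`
there is a point of exact order `λ ^ n`, for every prime `λ` and every `n`.

Route: multiplication by `λ` is ONTO on the points of an elliptic curve over an algebraically
closed field of characteristic zero (short model: `num_λ − x(R)·den_λ` has degree `λ²`, hence a
root, `S41.T1Short.exists_point_nsmul_eq`; general model by the variable change `S41.VC.vcEquiv`),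
and there is a point of exact order `λ` (`S41.T1.card_torsion`: `#E[λ] = λ²`).  A divisible
abelian group with an element of order `λ` has elements of every order `λ ^ n`.
-/
import Fermat.Agent.S58.Plan
import Fermat.Agent.S41.T1

set_option autoImplicit false

namespace Fermat.Agent.S58.TorsB

open Polynomial WeierstrassCurve
open Fermat.Agent.S05 Fermat.Agent.S13.MPoly

/-- A `p`-divisible additive commutative group with a nonzero element killed by the prime `p`
has elements of exact order `p ^ n` for every `n`. -/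
theorem exists_addOrderOf_eq_prime_pow {G : Type*} [AddCommGroup G] {p : ℕ} (hp : p.Prime)
    (hdiv : ∀ R : G, ∃ T : G, p • T = R) (h1 : ∃ P : G, P ≠ 0 ∧ p • P = 0) (n : ℕ) :
    ∃ P : G, addOrderOf P = p ^ n := by
  have : Fact p.Prime := ⟨hp⟩
  have key : ∀ n : ℕ, ∃ P : G, ¬ p ^ n • P = 0 ∧ p ^ (n + 1) • P = 0 := by
    intro n
    induction n with
    | zero =>
      obtain ⟨P, hP0, hP⟩ := h1
      exact ⟨P, by simpa using hP0, by simpa using hP⟩
    | succ n ih =>
      obtain ⟨P, hP1, hP2⟩ := ih
      obtain ⟨Q, hQ⟩ := hdiv P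
      refine ⟨Q, ?_, ?_⟩
      · rw [pow_succ, mul_smul, hQ]
        exact hP1
      · rw [pow_succ, mul_smul, hQ]
        exact hP2
  rcases n with _ | n
  · exact ⟨0, by simp⟩
  · obtain ⟨P, hP1, hP2⟩ := key n
    exact ⟨P, addOrderOf_eq_prime_pow hP1 hP2⟩

section Div

variable {L : Type*} [Field L] [CharZero L] [IsAlgClosed L] [DecidableEq L]

/-- Multiplication by `p ≠ 0` is onto on the points of a short curve. -/
theorem exists_nsmul_eq_short {α β : L} (hβ : β ≠ 0) (hd : α ^ 2 - 4 * β ≠ 0) {p : ℕ}
    (hp : p ≠ 0) (R : (shortCurve α β).toAffine.Point) :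
    ∃ T : (shortCurve α β).toAffine.Point, p • T = R := by
  by_cases hR : R = 0
  · exact ⟨0, by rw [smul_zero, hR]⟩
  · have hnum : (num α β p).natDegree = p ^ 2 := natDegree_num hβ hd p
    have hden : (den α β p).natDegree + 1 = p ^ 2 := natDegree_den hβ hd hp
    have hlt : (C (PB.xco R) * den α β p).natDegree < (num α β p).natDegree := by
      have := natDegree_C_mul_le (PB.xco R) (den α β p)
      omega
    have hnat : (num α β p - C (PB.xco R) * den α β p).natDegree = p ^ 2 := by
      rw [natDegree_sub_eq_left_of_natDegree_lt hlt, hnum]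
    have hdeg : (num α β p - C (PB.xco R) * den α β p).degree ≠ 0 := by
      intro h0
      have h1 : (num α β p - C (PB.xco R) * den α β p).natDegree = 0 :=
        natDegree_eq_zero_iff_degree_le_zero.mpr h0.le
      rw [hnat] at h1
      exact hp (pow_eq_zero_iff (two_ne_zero)|>.mp h1)
    obtain ⟨ξ, hξ⟩ := IsAlgClosed.exists_root _ hdeg
    obtain ⟨T, -, hT⟩ := Fermat.Agent.S41.T1Short.exists_point_nsmul_eq hβ hd p R hR ξ hξ
    exact ⟨T, hT⟩

/-- Multiplication by `p ≠ 0` is onto on the points of an elliptic curve over an algebraically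
closed field of characteristic zero. -/
theorem exists_nsmul_eq (W : WeierstrassCurve L) [W.IsElliptic] {p : ℕ} (hp : p ≠ 0)
    (R : W.toAffine.Point) : ∃ T : W.toAffine.Point, p • T = R := by
  obtain ⟨C, α, β, hβ, hd, -, -, h⟩ := Fermat.Agent.S41.T1.exists_short_model W
  obtain ⟨T, hT⟩ := exists_nsmul_eq_short hβ hd hp
    ((Fermat.Agent.S41.VC.vcEquiv W (shortCurve α β) C h).symm R)
  refine ⟨Fermat.Agent.S41.VC.vcEquiv W (shortCurve α β) C h T, ?_⟩
  rw [← map_nsmul, hT, AddEquiv.apply_symm_apply]

/-- A nonzero point killed by the prime `p`. -/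
theorem exists_ne_zero_nsmul_eq_zero (W : WeierstrassCurve L) [W.IsElliptic] {p : ℕ}
    (hp : p.Prime) : ∃ P : W.toAffine.Point, P ≠ 0 ∧ p • P = 0 := by
  have hcard : Nat.card (Submodule.torsionBy ℤ W.toAffine.Point p) = p ^ 2 :=
    Fermat.Agent.S41.T1.card_torsion W p hp
  have hfin : Finite (Submodule.torsionBy ℤ W.toAffine.Point p) :=
    Nat.finite_of_card_ne_zero (by rw [hcard]; exact pow_ne_zero 2 hp.ne_zero)
  have hlt : 1 < Nat.card (Submodule.torsionBy ℤ W.toAffine.Point p) := by
    rw [hcard]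
    exact Nat.one_lt_pow two_ne_zero hp.one_lt
  have : Nontrivial (Submodule.torsionBy ℤ W.toAffine.Point p) :=
    Finite.one_lt_card_iff_nontrivial.mp hlt
  obtain ⟨x, hx⟩ := exists_ne (0 : Submodule.torsionBy ℤ W.toAffine.Point p)
  refine ⟨x.1, fun h => hx (Subtype.ext h), ?_⟩
  have := (Submodule.mem_torsionBy_iff _ _).mp x.2
  rwa [natCast_zsmul] at this

/-- Points of exact order `p ^ n` exist. -/
theorem exists_addOrderOf_eq (W : WeierstrassCurve L) [W.IsElliptic] {p : ℕ} (hp : p.Prime)
    (n : ℕ) : ∃ P : W.toAffine.Point, addOrderOf P = p ^ n :=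
  exists_addOrderOf_eq_prime_pow hp (fun R => exists_nsmul_eq W hp.ne_zero R)
    (exists_ne_zero_nsmul_eq_zero W hp) n

end Div

/-- The generic fibre over `ℚ̄` of an integral Weierstrass curve with `Δ ≠ 0` is elliptic. -/
theorem isElliptic_of_ne_zero (W : WeierstrassCurve ℤ) (hΔ : W.Δ ≠ 0) :
    ((W.map (Int.castRingHom ℚ)).map (algebraMap ℚ Plan.Qb)).IsElliptic := by
  have : (W.map (Int.castRingHom ℚ)).IsElliptic := by
    refine ⟨?_⟩
    rw [WeierstrassCurve.map_Δ]
    exact isUnit_iff_ne_zero.mpr (by simpa using hΔ)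
  infer_instance

/-- **[TORS]** (Plan Prop): points of exact order `λ ^ n` exist on `W(ℚ̄)`. -/
theorem tors : Plan.TorsStatement := by
  intro W hΔ lam hlam n
  have := isElliptic_of_ne_zero W hΔ
  exact exists_addOrderOf_eq ((W.map (Int.castRingHom ℚ)).map (algebraMap ℚ Plan.Qb)) hlam n

end Fermat.Agent.S58.TorsB
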