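/-
S58 campaign, leaf [TR] (helper5): the TRANSFER LEMMA, assembly.

Let `W` be an integral Weierstrass curve with `Δ ≠ 0` and `ρ` a `λ`-adic representation of `G_ℚ`
whose Frobenius elements away from a finite set `S` have the characteristic polynomials
`X² − a_ℓ(W) X + ℓ`.  Then for every `g ∈ G_ℚ` and every `n` there are integers `m`, `d` with
`tr ρ(g) ≡ m`, `det ρ(g) ≡ d` modulo `𝔪ⁿ`, such that `g² − m g + d` kills `W[λⁿ](ℚ̄)` and `g`
acts on `μ_{λⁿ}` by `μ ↦ μ ^ d`  (`Plan.TRStatement`).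

Proof: on a finite level `L` (containing the coordinates of `W[λⁿ]`, the roots of unity `μ_{λⁿ}`
and a level of `ρ` modulo `𝔪ⁿ`), `g` is a power `σ ^ j` of a Frobenius element at a prime
`ℓ ∉ S ∪ {2, λ}` of good reduction (weak Frobenius density, `S29.FDStmt.fdStatement`).  Theorem F
lifted to `ℚ̄` gives `σ² − a_ℓ σ + ℓ = 0` on `W[λⁿ]`, hence `(σ^j)² − s_j σ^j + ℓ^j = 0` with the
Lucas number `s_j = s_j(a_ℓ, ℓ)`; on the other side `tr ρ(σ)^j = s_j`, `det ρ(σ)^j = ℓ^j`; and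
`σ^j μ = μ ^ (ℓ^j)`.  So `m := s_j`, `d := ℓ^j`.

The two geometric inputs are hypotheses here, in closed `Prop` form:
* `FLStatement`  — the finite level of `W[λⁿ] ∪ μ_{λⁿ}`;
* `FrobWOdd`     — `Plan.FrobWStatement` restricted to odd `ℓ` (no Theorem F at `2` needed).
-/
import Mathlib
import Fermat.Agent.S58.Plan
import Fermat.Agent.S58.TrAlg
import Fermat.Agent.S29.FDStmt
import Fermat.Agent.S31.RootN

set_option autoImplicit false

namespace Fermat.Agent.S58.Transfer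

open Polynomial WeierstrassCurve
open scoped WeierstrassCurve.Affine

/-- **[TR-FL]** finite level of the `λⁿ`-torsion of `W` and of the `λⁿ`-th roots of unity: two
elements of `G_ℚ` which agree on a suitable finite extension `L` of `ℚ` act in the same way on
`W[λⁿ](ℚ̄)` and on `μ_{λⁿ}`. -/
def FLStatement : Prop :=
  ∀ (W : WeierstrassCurve ℤ), W.Δ ≠ 0 → ∀ (lam : ℕ), lam.Prime → ∀ n : ℕ,
    ∃ L : IntermediateField ℚ Plan.Qb, FiniteDimensional ℚ L ∧
      ∀ g g' : Plan.GQ, (∀ x ∈ L, g x = g' x) →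
        (∀ P : Plan.Pt W, (lam ^ n) • P = 0 → g • P = g' • P) ∧
        (∀ μ : Plan.Qb, μ ^ (lam ^ n) = 1 → g μ = g' μ)

/-- **[FROBW], odd primes**: `Plan.FrobWStatement` with the extra hypothesis `ℓ ≠ 2`. -/
def FrobWOdd : Prop :=
  ∀ (W : WeierstrassCurve ℤ) (ℓ lam : ℕ), ℓ.Prime → lam.Prime → ℓ ≠ lam → ℓ ≠ 2 →
    ¬ (ℓ : ℤ) ∣ W.Δ →
    ∀ A : ValuationSubring Plan.Qb, A.LiesOverPrime ℓ → ∀ σ : Plan.GQ, A.IsFrobeniusAt σ ℓ →
      ∀ (n : ℕ) (P : Plan.Pt W), (lam ^ n) • P = 0 →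
        σ • (σ • P) - (W.apOfModel ℓ) • (σ • P) + (ℓ : ℤ) • P = 0

theorem frobWOdd_of_frobW (h : Plan.FrobWStatement) : FrobWOdd :=
  fun W ℓ lam hℓ hlam hne _ hgood A hA σ hσ n P hP => h W ℓ lam hℓ hlam hne hgood A hA σ hσ n P hP

/-- A linear endomorphism preserves `I • ⊤`. -/
theorem map_mem_smul_top {O V : Type*} [CommRing O] [AddCommGroup V] [Module O V] (I : Ideal O)
    (f : Module.End O V) {x : V} (hx : x ∈ I • (⊤ : Submodule O V)) :
    f x ∈ I • (⊤ : Submodule O V) := by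
  refine Submodule.smul_induction_on hx ?_ ?_
  · intro r hr v _
    rw [map_smul]
    exact Submodule.smul_mem_smul hr Submodule.mem_top
  · intro x y hx hy
    rw [map_add]
    exact Submodule.add_mem _ hx hy

/-- Powers of a Frobenius element at `ℓ ≠ λ` raise `λⁿ`-th roots of unity to the power `ℓ^j`. -/
theorem frob_pow_root {lam ℓ : ℕ} (hlam : lam.Prime) (hℓ : ℓ.Prime) (hℓp : ℓ ≠ lam)
    (A : ValuationSubring Plan.Qb) (hA : A.LiesOverPrime ℓ) (σ : Plan.GQ)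
    (hσ : A.IsFrobeniusAt σ ℓ) (n : ℕ) :
    ∀ (j : ℕ) (η : Plan.Qb), η ^ (lam ^ n) = 1 → (σ ^ j) η = η ^ (ℓ ^ j) := by
  intro j
  induction j with
  | zero => intro η _; simp
  | succ j ih =>
    intro η hη
    have h1 : σ η = η ^ ℓ := (S31.rootStatement lam hlam n η hη).1 ℓ hℓ hℓp A hA σ hσ
    have h2 : (η ^ ℓ) ^ (lam ^ n) = 1 := by rw [← pow_mul, mul_comm, pow_mul, hη, one_pow]
    have h3 : (σ ^ (j + 1)) η = (σ ^ j) (σ η) := by
      rw [pow_succ]; rfl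
    rw [h3, h1, ih _ h2, ← pow_mul, pow_succ, mul_comm]

/-- The relation `σ² − aσ + l = 0` on the `N`-torsion of a group with a distributive action
propagates to powers of `σ` (Lucas numbers). -/
theorem relation_pow_of_torsion {G T : Type*} [Monoid G] [AddCommGroup T] [DistribMulAction G T]
    (N : ℕ) (σ : G) (a l : ℤ)
    (h : ∀ P : T, N • P = 0 → σ • σ • P - a • σ • P + l • P = 0) (j : ℕ) (P : T)
    (hP : N • P = 0) :
    (σ ^ j) • (σ ^ j) • P - TrAlg.lucas a l j • (σ ^ j) • P + (l ^ j) • P = 0 := by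
  -- the `N`-torsion as an additive subgroup stable under `G`
  let H : AddSubgroup T :=
    { carrier := {P | N • P = 0}
      zero_mem' := smul_zero N
      add_mem' := fun {x y} hx hy => by
        show N • (x + y) = 0
        rw [smul_add, show N • x = 0 from hx, show N • y = 0 from hy, add_zero]
      neg_mem' := fun {x} hx => by
        show N • (-x) = 0
        rw [smul_neg, show N • x = 0 from hx, neg_zero] }
  have hstab : ∀ (τ : G) (x : T), x ∈ H → τ • x ∈ H := by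
    intro τ x hx
    show N • (τ • x) = 0
    have h1 : τ • (N • x) = N • (τ • x) := map_nsmul (DistribSMul.toAddMonoidHom T τ) N x
    rw [← h1, show N • x = 0 from hx]
    exact smul_zero τ
  let _ : DistribMulAction G H :=
    { smul := fun τ x => ⟨τ • (x : T), hstab τ x x.2⟩
      one_smul := fun x => Subtype.ext (one_smul G (x : T))
      mul_smul := fun τ τ' x => Subtype.ext (mul_smul τ τ' (x : T))
      smul_zero := fun τ => Subtype.ext (smul_zero τ)
      smul_add := fun τ x y => Subtype.ext (smul_add τ (x : T) (y : T)) }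
  have hcoe : ∀ (τ : G) (x : H), ((τ • x : H) : T) = τ • (x : T) := fun _ _ => rfl
  have hH : ∀ x : H, σ • σ • x - a • σ • x + l • x = 0 := by
    intro x
    apply Subtype.ext
    have := h (x : T) x.2
    simpa only [AddSubgroup.coe_add, AddSubgroup.coe_sub, AddSubgroup.coe_zsmul, hcoe,
      AddSubgroup.coe_zero] using this
  have key := TrAlg.smul_relation_pow (G := G) (T := H) σ a l hH j ⟨P, hP⟩
  have key' := congrArg (fun x : H => (x : T)) key
  simpa only [AddSubgroup.coe_add, AddSubgroup.coe_sub, AddSubgroup.coe_zsmul, hcoe,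
    AddSubgroup.coe_zero] using key'

/-- **[TR] transfer lemma**, from the finite level of the torsion and the lifted Theorem F at odd
primes. -/
theorem tr_of (hFL : FLStatement) (hFW : FrobWOdd) : Plan.TRStatement := by
  intro W hΔ lam hlam S O _ _ _ ρ hρ g n
  classical
  -- levels
  obtain ⟨L₁, hL₁, h₁⟩ := hFL W hΔ lam hlam n
  obtain ⟨L₂, hL₂, h₂⟩ := ρ.isAdicContinuous n
  have : FiniteDimensional ℚ L₁ := hL₁
  have : FiniteDimensional ℚ L₂ := hL₂
  have hL : FiniteDimensional ℚ ↥(L₁ ⊔ L₂) := IntermediateField.finiteDimensional_sup L₁ L₂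
  -- Frobenius density
  obtain ⟨ℓ, A, σ, j, hℓ, hℓS, hA, hσ, hgσ⟩ :=
    S29.FDStmt.fdStatement (L₁ ⊔ L₂) hL (S ∪ {2, lam} ∪ W.Δ.natAbs.primeFactors) g
  have hℓS0 : ℓ ∉ S := fun h => hℓS (Finset.mem_union_left _ (Finset.mem_union_left _ h))
  have hℓ2 : ℓ ≠ 2 := fun h => hℓS (Finset.mem_union_left _ (Finset.mem_union_right _ (by
    rw [h]; exact Finset.mem_insert_self _ _)))
  have hℓlam : ℓ ≠ lam := fun h => hℓS (Finset.mem_union_left _ (Finset.mem_union_right _ (by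
    rw [h]; exact Finset.mem_insert_of_mem (Finset.mem_singleton_self _))))
  have hgood : ¬ (ℓ : ℤ) ∣ W.Δ := by
    intro h
    apply hℓS
    apply Finset.mem_union_right
    rw [Nat.mem_primeFactors]
    exact ⟨hℓ, Int.natCast_dvd.mp h, Int.natAbs_ne_zero.mpr hΔ⟩
  have hg₁ : ∀ x ∈ L₁, g x = (σ ^ j) x := fun x hx =>
    hgσ x ((le_sup_left : L₁ ≤ L₁ ⊔ L₂) hx)
  have hg₂ : ∀ x ∈ L₂, g x = (σ ^ j) x := fun x hx =>
    hgσ x ((le_sup_right : L₂ ≤ L₁ ⊔ L₂) hx)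
  obtain ⟨hpt, hroot⟩ := h₁ g (σ ^ j) hg₁
  -- the characteristic polynomial of `ρ(σ)`
  have hchar : LinearMap.charpoly (ρ.ρ σ) =
      X ^ 2 - C (((W.apOfModel ℓ : ℤ) : O)) * X + C ((((ℓ : ℕ) : ℤ) : O)) := by
    rw [Int.cast_natCast]
    exact hρ ℓ hℓ hℓS0 A hA σ hσ
  -- `ρ(g) ≡ ρ(σ)^j` modulo `𝔪ⁿ`
  have hB : ∀ v : ρ.V, ρ.ρ g v - (ρ.ρ σ ^ j) v ∈
      (IsLocalRing.maximalIdeal O ^ n) • (⊤ : Submodule O ρ.V) := by
    intro v
    have hδ : ∀ x ∈ L₂, ((σ ^ j)⁻¹ * g) x = x := by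
      intro x hx
      rw [AlgEquiv.mul_apply, hg₂ x hx, AlgEquiv.aut_inv, AlgEquiv.symm_apply_apply]
    have h3 := h₂ ((σ ^ j)⁻¹ * g) hδ v
    have h4 : ρ.ρ g = ρ.ρ (σ ^ j) * ρ.ρ ((σ ^ j)⁻¹ * g) := by
      rw [← map_mul, mul_inv_cancel_left]
    have h5 : ρ.ρ g v - (ρ.ρ σ ^ j) v = ρ.ρ (σ ^ j) (ρ.ρ ((σ ^ j)⁻¹ * g) v - v) := by
      rw [h4, map_sub, map_pow]
      rfl
    rw [h5]
    exact map_mem_smul_top _ _ h3
  obtain ⟨htr, hdet⟩ := TrAlg.trace_det_approx_of_pow (IsLocalRing.maximalIdeal O ^ n)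
    ρ.finrank_eq (ρ.ρ g) (ρ.ρ σ) (W.apOfModel ℓ) (ℓ : ℤ) j hchar hB
  refine ⟨TrAlg.lucas (W.apOfModel ℓ) (ℓ : ℤ) j, (ℓ : ℤ) ^ j, htr, hdet, ?_, ?_⟩
  · -- the relation on the torsion
    intro P hP
    have hσP : (lam ^ n) • ((σ ^ j) • P) = 0 := by
      have h1 : (σ ^ j) • ((lam ^ n) • P) = (lam ^ n) • ((σ ^ j) • P) :=
        map_nsmul (DistribSMul.toAddMonoidHom (Plan.Pt W) (σ ^ j)) (lam ^ n) P
      rw [← h1, hP]
      exact map_zero (DistribSMul.toAddMonoidHom (Plan.Pt W) (σ ^ j))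
    have hrel := relation_pow_of_torsion (G := Plan.GQ) (T := Plan.Pt W) (lam ^ n) σ
      (W.apOfModel ℓ) (ℓ : ℤ)
      (fun Q hQ => hFW W ℓ lam hℓ hlam hℓlam hℓ2 hgood A hA σ hσ n Q hQ) j P hP
    rw [hpt P hP, hpt _ hσP]
    exact hrel
  · -- roots of unity
    intro μ hμ
    rw [hroot μ hμ, frob_pow_root hlam hℓ hℓlam A hA σ hσ n j μ hμ]
    rw [← Nat.cast_pow, zpow_natCast]

/-- **[TR]** from the finite level and `Plan.FrobWStatement`. -/
theorem tr_of_frobW (hFL : FLStatement) (hFW : Plan.FrobWStatement) : Plan.TRStatement :=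
  tr_of hFL (frobWOdd_of_frobW hFW)

end Fermat.Agent.S58.Transfer
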