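/-
S58 campaign, leaf [TR] (B-copy; owner: helper55).

The TRANSFER LEMMA `Plan.TRStatement`, from two inputs stated as `Prop`s:

* `FiniteLevelStatement` — a finite level `L` of `ℚ̄` controlling the `λⁿ`-torsion of `W(ℚ̄)` and
  the `λⁿ`-th roots of unity;
* `FrobOddStatement` — at an odd prime `ℓ ≠ λ` of good reduction every Frobenius element satisfies
  `σ² − a_ℓ(W) σ + ℓ = 0` on the `λ`-power torsion (the restriction of `Plan.FrobWStatement` to
  `ℓ ≠ 2`).

Proof of `tr_of`: continuity of `ρ` and weak Frobenius density (`S29.FD.fdStatement`) give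
`g = σ ^ j` on a finite level, `σ` a Frobenius element at a large prime `ℓ`; the quadratic relation
of `σ` propagates to `σ ^ j` with the integer Lucas sequence `luc a ℓ j` and `ℓ ^ j`, on the torsion
(polynomial divisibility) and on `ρ` (Cayley–Hamilton).
-/
import Mathlib
import Fermat.Agent.S58.Plan
import Fermat.Agent.S29.FD
import Fermat.Agent.S30.CycN

set_option autoImplicit false

namespace Fermat.Agent.S58.TransferB

open Polynomial

/-! ### The integer Lucas sequence -/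

/-- `luc a l j = α ^ j + β ^ j` for the roots `α, β` of `X² − a X + l`. -/
def luc (a l : ℤ) : ℕ → ℤ
  | 0 => 2
  | 1 => a
  | (j + 2) => a * luc a l (j + 1) - l * luc a l j

theorem luc_zero (a l : ℤ) : luc a l 0 = 2 := rfl

theorem luc_one (a l : ℤ) : luc a l 1 = a := rfl

theorem luc_add_two (a l : ℤ) (j : ℕ) :
    luc a l (j + 2) = a * luc a l (j + 1) - l * luc a l j := rfl

/-- In a commutative ring, a root `x` of `X² − a X + l` satisfies
`(x ^ j)² − luc a l j · x ^ j + l ^ j = 0`. -/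
theorem pow_rel_comm {B : Type*} [CommRing B] (x : B) (a l : ℤ)
    (h : x ^ 2 - (a : B) * x + (l : B) = 0) (j : ℕ) :
    x ^ (2 * j) - ((luc a l j : ℤ) : B) * x ^ j + (l : B) ^ j = 0 := by
  obtain ⟨y, hy⟩ : ∃ y : B, y = (a : B) - x := ⟨_, rfl⟩
  have hxy : x * y = (l : B) := by rw [hy]; linear_combination -h
  have hs : ∀ i : ℕ, ((luc a l i : ℤ) : B) = x ^ i + y ^ i := by
    intro i
    induction i using Nat.twoStepInduction with
    | zero => rw [luc_zero]; norm_num
    | one => rw [luc_one, hy]; ring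
    | more i ih1 ih2 =>
      rw [luc_add_two]
      push_cast
      rw [ih1, ih2]
      linear_combination (x ^ i + y ^ i) * hxy - (x ^ (i + 1) + y ^ (i + 1)) * hy
  rw [hs j, ← hxy]
  ring

/-- `X² − a X + l` divides `X ^ (2j) − luc a l j · X ^ j + l ^ j` in `ℤ[X]`. -/
theorem dvd_pow_rel (a l : ℤ) (j : ℕ) :
    (X ^ 2 - C a * X + C l : ℤ[X]) ∣ X ^ (2 * j) - C (luc a l j) * X ^ j + C l ^ j := by
  obtain ⟨f, hf⟩ : ∃ f : ℤ[X], f = X ^ 2 - C a * X + C l := ⟨_, rfl⟩
  rw [← hf]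
  have h0 : Ideal.Quotient.mk (Ideal.span {f}) f = 0 :=
    Ideal.Quotient.eq_zero_iff_mem.mpr (Ideal.mem_span_singleton_self f)
  have hC : ∀ z : ℤ, Ideal.Quotient.mk (Ideal.span {f}) (C z) = (z : ℤ[X] ⧸ Ideal.span {f}) :=
    fun z => eq_intCast ((Ideal.Quotient.mk (Ideal.span {f})).comp C) z
  have h1 : (Ideal.Quotient.mk (Ideal.span {f}) X) ^ 2
      - ((a : ℤ) : ℤ[X] ⧸ Ideal.span {f}) * Ideal.Quotient.mk (Ideal.span {f}) X
      + ((l : ℤ) : ℤ[X] ⧸ Ideal.span {f}) = 0 := by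
    rw [← hC a, ← hC l, ← map_pow, ← map_mul, ← map_sub, ← map_add, ← hf, h0]
  have h2 := pow_rel_comm (Ideal.Quotient.mk (Ideal.span {f}) X) a l h1 j
  rw [← Ideal.mem_span_singleton, ← Ideal.Quotient.eq_zero_iff_mem]
  rw [← h2, map_add, map_sub, map_mul, map_pow, map_pow, map_pow, hC, hC]

/-- The quadratic relation of an endomorphism at a point propagates to its iterates. -/
theorem pow_rel_iterate {E : Type*} [AddCommGroup E] (φ : E →+ E) (a l : ℤ) (P : E)
    (h : φ (φ P) - a • φ P + l • P = 0) (j : ℕ) :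
    φ^[j] (φ^[j] P) - luc a l j • φ^[j] P + (l ^ j) • P = 0 := by
  obtain ⟨q, hq⟩ := dvd_pow_rel a l j
  have e1 : aeval φ.toIntLinearMap (X ^ 2 - C a * X + C l : ℤ[X]) P
      = φ (φ P) - a • φ P + l • P := by
    rw [map_add, map_sub, map_mul, aeval_C, aeval_C, map_pow, aeval_X]
    simp only [LinearMap.add_apply, LinearMap.sub_apply, Module.End.mul_apply,
      Module.algebraMap_end_apply, Module.End.pow_apply]
    rfl
  have e2 : aeval φ.toIntLinearMap (X ^ (2 * j) - C (luc a l j) * X ^ j + C l ^ j : ℤ[X]) P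
      = φ^[j] (φ^[j] P) - luc a l j • φ^[j] P + (l ^ j) • P := by
    rw [← C_pow, map_add, map_sub, map_mul, aeval_C, aeval_C, map_pow, map_pow, aeval_X]
    simp only [LinearMap.add_apply, LinearMap.sub_apply, Module.End.mul_apply,
      Module.algebraMap_end_apply, Module.End.pow_apply]
    rw [two_mul, Function.iterate_add_apply]
    rfl
  rw [← e2, hq, mul_comm, map_mul, Module.End.mul_apply, e1, h, map_zero]

/-! ### Trace and determinant -/

/-- Coordinates of an element of `I • ⊤` lie in `I`. -/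
theorem repr_mem_of_mem_smul_top {R : Type*} [CommRing R] {V : Type*} [AddCommGroup V]
    [Module R V] {ι : Type*} (b : Module.Basis ι R V) (I : Ideal R) {x : V}
    (hx : x ∈ I • (⊤ : Submodule R V)) (i : ι) : b.repr x i ∈ I := by
  refine Submodule.smul_induction_on hx ?_ ?_
  · intro r hr n _
    rw [map_smul, Finsupp.smul_apply, smul_eq_mul]
    exact I.mul_mem_right _ hr
  · intro x y hx hy
    rw [map_add, Finsupp.add_apply]
    exact I.add_mem hx hy

/-- Endomorphisms of a finite free module congruent modulo `I` have congruent traces and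
determinants. -/
theorem trace_det_congr {R : Type*} [CommRing R] {V : Type*} [AddCommGroup V] [Module R V]
    [Module.Free R V] [Module.Finite R V] (I : Ideal R) (T T' : Module.End R V)
    (h : ∀ v, T v - T' v ∈ I • (⊤ : Submodule R V)) :
    LinearMap.trace R V T - LinearMap.trace R V T' ∈ I ∧
      LinearMap.det T - LinearMap.det T' ∈ I := by
  classical
  set b := Module.Free.chooseBasis R V with hb
  have hent : ∀ i j, Ideal.Quotient.mk I (LinearMap.toMatrix b b T i j)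
      = Ideal.Quotient.mk I (LinearMap.toMatrix b b T' i j) := by
    intro i j
    rw [Ideal.Quotient.eq, LinearMap.toMatrix_apply, LinearMap.toMatrix_apply, ← Finsupp.sub_apply,
      ← map_sub]
    exact repr_mem_of_mem_smul_top b I (h (b j)) i
  have hmat : (Ideal.Quotient.mk I).mapMatrix (LinearMap.toMatrix b b T)
      = (Ideal.Quotient.mk I).mapMatrix (LinearMap.toMatrix b b T') := by
    ext i j
    exact hent i j
  constructor
  · rw [← Ideal.Quotient.eq, LinearMap.trace_eq_matrix_trace R b T,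
      LinearMap.trace_eq_matrix_trace R b T', AddMonoidHom.map_trace, AddMonoidHom.map_trace]
    exact congrArg Matrix.trace hmat
  · rw [← Ideal.Quotient.eq, ← LinearMap.det_toMatrix b T, ← LinearMap.det_toMatrix b T',
      RingHom.map_det, RingHom.map_det, hmat]

/-- Trace and determinant of the powers of an endomorphism of a free module of rank two with
characteristic polynomial `X² − a X + l`. -/
theorem trace_det_pow {R : Type*} [CommRing R] [Nontrivial R] {V : Type*} [AddCommGroup V]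
    [Module R V] [Module.Free R V] [Module.Finite R V] (hV : Module.finrank R V = 2)
    (M : Module.End R V) (a l : ℤ)
    (hM : LinearMap.charpoly M = X ^ 2 - C (a : R) * X + C (l : R)) (j : ℕ) :
    LinearMap.trace R V (M ^ j) = ((luc a l j : ℤ) : R) ∧ LinearMap.det (M ^ j) = (l : R) ^ j := by
  have hCH : M ^ 2 = (a : R) • M - (l : R) • (1 : Module.End R V) := by
    have h := LinearMap.aeval_self_charpoly M
    rw [hM, map_add, map_sub, map_mul, aeval_C, aeval_C, map_pow, aeval_X,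
      sub_add_eq_add_sub] at h
    rw [Algebra.smul_def, Algebra.smul_def, mul_one]
    exact eq_sub_of_add_eq (sub_eq_zero.mp h)
  have hc1 : (X ^ 2 - C (a : R) * X + C (l : R) : R[X]).coeff 1 = -(a : R) := by
    rw [coeff_add, coeff_sub, coeff_X_pow, coeff_C_mul, coeff_X_one, coeff_C]
    simp
  have hc0 : (X ^ 2 - C (a : R) * X + C (l : R) : R[X]).coeff 0 = (l : R) := by
    rw [coeff_add, coeff_sub, coeff_X_pow, coeff_C_mul, coeff_X_zero, coeff_C_zero]
    simp
  have hdet : LinearMap.det M = (l : R) := by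
    rw [LinearMap.det_eq_sign_charpoly_coeff, hV, hM, hc0]
    norm_num
  have htr1 : LinearMap.trace R V M = (a : R) := by
    classical
    set b := Module.Free.chooseBasis R V with hb
    have hcard : Fintype.card (Module.Free.ChooseBasisIndex R V) = 2 := by
      rw [← Module.finrank_eq_card_chooseBasisIndex, hV]
    have : Nonempty (Module.Free.ChooseBasisIndex R V) :=
      Fintype.card_pos_iff.mp (by rw [hcard]; norm_num)
    rw [LinearMap.trace_eq_matrix_trace R b M, Matrix.trace_eq_neg_charpoly_coeff,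
      LinearMap.charpoly_toMatrix, hcard, hM, hc1, neg_neg]
  refine ⟨?_, by rw [map_pow, hdet]⟩
  induction j using Nat.twoStepInduction with
  | zero =>
    rw [pow_zero, LinearMap.trace_one, hV, luc_zero]
    norm_num
  | one => rw [pow_one, htr1, luc_one]
  | more j ih1 ih2 =>
    have hstep : M ^ (j + 2) = (a : R) • M ^ (j + 1) - (l : R) • M ^ j := by
      rw [pow_add, hCH, mul_sub, mul_smul_comm, mul_smul_comm, mul_one, ← pow_succ]
    rw [hstep, map_sub, map_smul, map_smul, ih1, ih2, luc_add_two]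
    push_cast
    simp only [smul_eq_mul]

/-! ### The two inputs -/

/-- **[TR-FL] finite level**: a finite level of `ℚ̄` controlling the `λⁿ`-torsion of `W(ℚ̄)` and
the `λⁿ`-th roots of unity. -/
def FiniteLevelStatement : Prop :=
  ∀ (W : WeierstrassCurve ℤ), W.Δ ≠ 0 → ∀ (lam : ℕ), lam.Prime → ∀ n : ℕ,
    ∃ L : IntermediateField ℚ Plan.Qb, FiniteDimensional ℚ L ∧
      ∀ g g' : Plan.GQ, (∀ x ∈ L, g x = g' x) →
        (∀ P : Plan.Pt W, (lam ^ n) • P = 0 → g • P = g' • P) ∧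
        (∀ μ : Plan.Qb, μ ^ (lam ^ n) = 1 → g μ = g' μ)

/-- **[FROBW], odd primes**: `Plan.FrobWStatement` with the extra hypothesis `ℓ ≠ 2`. -/
def FrobOddStatement : Prop :=
  ∀ (W : WeierstrassCurve ℤ) (ℓ lam : ℕ), ℓ.Prime → lam.Prime → ℓ ≠ lam → ℓ ≠ 2 →
    ¬ (ℓ : ℤ) ∣ W.Δ →
    ∀ A : ValuationSubring Plan.Qb, A.LiesOverPrime ℓ → ∀ σ : Plan.GQ, A.IsFrobeniusAt σ ℓ →
      ∀ (n : ℕ) (P : Plan.Pt W), (lam ^ n) • P = 0 →
        σ • (σ • P) - (W.apOfModel ℓ) • (σ • P) + (ℓ : ℤ) • P = 0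

theorem frobOdd_of_frobW (h : Plan.FrobWStatement) : FrobOddStatement :=
  fun W ℓ lam hℓ hlam hne _ hgood A hA σ hσ n P hP => h W ℓ lam hℓ hlam hne hgood A hA σ hσ n P hP

/-! ### The transfer lemma -/

/-- **[TR]** from the finite level and the Frobenius relation at odd good primes. -/
theorem tr_of (hFL : FiniteLevelStatement) (hF : FrobOddStatement) : Plan.TRStatement := by
  intro W hΔ lam hlam S O _ _ _ ρ hρ g n
  classical
  obtain ⟨L₁, hL₁fd, hL₁⟩ := ρ.isAdicContinuous n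
  obtain ⟨L₂, hL₂fd, hL₂⟩ := hFL W hΔ lam hlam n
  have hLfd : FiniteDimensional ℚ ↥(L₁ ⊔ L₂) := IntermediateField.finiteDimensional_sup L₁ L₂
  obtain ⟨ℓ, A, σ, j, hℓ, hℓS', hA, hσ, hgσ⟩ :=
    Fermat.Agent.S29.FD.fdStatement (L₁ ⊔ L₂) hLfd (S ∪ {2, lam} ∪ W.Δ.natAbs.primeFactors) g
  have hℓS : ℓ ∉ S := fun h => hℓS' (by simp [h])
  have hℓ2 : ℓ ≠ 2 := fun h => hℓS' (by simp [h])
  have hℓlam : ℓ ≠ lam := fun h => hℓS' (by simp [h])
  have hgood : ¬ (ℓ : ℤ) ∣ W.Δ := by
    intro h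
    apply hℓS'
    have h1 : ℓ ∣ W.Δ.natAbs := Int.natCast_dvd.mp h
    have h2 : W.Δ.natAbs ≠ 0 := Int.natAbs_ne_zero.mpr hΔ
    simp [Nat.mem_primeFactors, hℓ, h1, h2]
  have hcp := hρ ℓ hℓ hℓS A hA σ hσ
  have hgσ₁ : ∀ x ∈ L₁, g x = (σ ^ j) x := fun x hx => hgσ x ((le_sup_left : L₁ ≤ L₁ ⊔ L₂) hx)
  have hgσ₂ : ∀ x ∈ L₂, g x = (σ ^ j) x := fun x hx => hgσ x ((le_sup_right : L₂ ≤ L₁ ⊔ L₂) hx)
  obtain ⟨hpt, hroot⟩ := hL₂ g (σ ^ j) hgσ₂
  -- the representation side
  have hcong : ∀ v : ρ.V, ρ.ρ g v - ρ.ρ (σ ^ j) v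
      ∈ (IsLocalRing.maximalIdeal O ^ n) • (⊤ : Submodule O ρ.V) := by
    intro v
    have hfix : ∀ x ∈ L₁, (g⁻¹ * σ ^ j) x = x := by
      intro x hx
      rw [AlgEquiv.mul_apply, ← hgσ₁ x hx]
      exact g.symm_apply_apply x
    have h1 := hL₁ (g⁻¹ * σ ^ j) hfix v
    have h2 : ρ.ρ g (ρ.ρ (g⁻¹ * σ ^ j) v - v)
        ∈ (IsLocalRing.maximalIdeal O ^ n) • (⊤ : Submodule O ρ.V) := by
      have h3 := Submodule.mem_map_of_mem (f := ρ.ρ g) h1
      rw [Submodule.map_smul''] at h3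
      exact Submodule.smul_mono le_rfl le_top h3
    have h4 : ρ.ρ g (ρ.ρ (g⁻¹ * σ ^ j) v - v) = ρ.ρ (σ ^ j) v - ρ.ρ g v := by
      rw [map_sub, ← Module.End.mul_apply, ← map_mul, mul_inv_cancel_left]
    rw [h4] at h2
    have h5 := Submodule.neg_mem _ h2
    rwa [neg_sub] at h5
  obtain ⟨htr, hdet⟩ := trace_det_congr (IsLocalRing.maximalIdeal O ^ n) (ρ.ρ g) (ρ.ρ (σ ^ j)) hcong
  have hcp' : LinearMap.charpoly (ρ.ρ σ)
      = X ^ 2 - C (((W.apOfModel ℓ : ℤ) : O)) * X + C ((((ℓ : ℕ) : ℤ) : O)) := by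
    rw [hcp, Int.cast_natCast]
  obtain ⟨htr', hdet'⟩ := trace_det_pow ρ.finrank_eq (ρ.ρ σ) (W.apOfModel ℓ) (ℓ : ℤ) hcp' j
  rw [← map_pow] at htr' hdet'
  refine ⟨luc (W.apOfModel ℓ) ℓ j, (ℓ : ℤ) ^ j, ?_, ?_, ?_, ?_⟩
  · rw [← htr']
    exact htr
  · rw [Int.cast_pow, ← hdet']
    exact hdet
  · intro P hP
    have hgP : g • P = σ ^ j • P := hpt P hP
    have hP' : (lam ^ n) • (g • P) = 0 := by
      have := (DistribSMul.toAddMonoidHom (Plan.Pt W) g).map_nsmul (lam ^ n) P
      rw [DistribSMul.toAddMonoidHom_apply, DistribSMul.toAddMonoidHom_apply] at this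
      rw [← this, hP, smul_zero]
    have hggP : g • (g • P) = σ ^ j • (σ ^ j • P) := by
      rw [hpt (g • P) hP', hgP]
    have hrel := hF W ℓ lam hℓ hlam hℓlam hℓ2 hgood A hA σ hσ n P hP
    have hit := pow_rel_iterate (DistribSMul.toAddMonoidHom (Plan.Pt W) σ)
      (W.apOfModel ℓ) (ℓ : ℤ) P hrel j
    have hiter : ∀ Q : Plan.Pt W,
        (⇑(DistribSMul.toAddMonoidHom (Plan.Pt W) σ))^[j] Q = σ ^ j • Q :=
      fun Q => congrFun (smul_iterate σ j) Q
    rw [hiter, hiter] at hit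
    rw [hggP, hgP]
    exact hit
  · intro μ hμ
    rw [hroot μ hμ]
    have hℓm : ¬ ℓ ∣ lam ^ n := fun h =>
      hℓlam ((Nat.prime_dvd_prime_iff_eq hℓ hlam).mp (hℓ.dvd_of_dvd_pow h))
    have hσμ : σ μ = μ ^ ℓ :=
      Fermat.Agent.S30.CycN.frobenius_apply_of_pow_eq_one (m := lam ^ n)
        (pow_ne_zero n hlam.ne_zero) hℓ hℓm A hA σ hσ μ hμ
    have hpow : ∀ i : ℕ, (σ ^ i) μ = μ ^ (ℓ ^ i) := by
      intro i
      induction i with
      | zero => simp
      | succ i ih =>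
        rw [pow_succ, AlgEquiv.mul_apply, hσμ, map_pow, ih, ← pow_mul, ← pow_succ]
    rw [hpow j, ← zpow_natCast]
    push_cast
    rfl

/-- **[TR]** from the finite level and `Plan.FrobWStatement`. -/
theorem tr_of_frobW (hFL : FiniteLevelStatement) (hF : Plan.FrobWStatement) : Plan.TRStatement :=
  tr_of hFL (frobOdd_of_frobW hF)

end Fermat.Agent.S58.TransferB
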