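/-
S58 campaign, leaf [TR] (B-copy; owner: helper55): the CLOSER.

`tr : Plan.TRStatement`, hypothesis-free: the assembly `TransferB.tr_of` fed with the finite level
`FinLevel.finLevel` (helper87) and the Frobenius relation at odd good primes `FrobLift.frobW_odd`
(helper69).  No dependency on Theorem F at the prime `2`.
-/
import Fermat.Agent.S58.TransferB
import Fermat.Agent.S58.FinLevel
import Fermat.Agent.S58.FrobLift

set_option autoImplicit false

namespace Fermat.Agent.S58.TransferBClose

/-- **[TR] transfer lemma**, closed. -/
theorem tr : Plan.TRStatement :=
  TransferB.tr_of FinLevel.finLevel FrobLift.frobW_odd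

end Fermat.Agent.S58.TransferBClose
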