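/-
S58 leaf [TR], D-copy (helper50): the transfer lemma `Plan.TRStatement`, from

* weak Frobenius density `S29.FDStatement` (on main: `S29.FDStmt.fdStatement`),
* `Plan.FrobWStatement` (Frobenius relation on the torsion of `W` at good primes),
* `Plan.CycFrobStatement` (Frobenius on roots of unity),
* `LevelStatement` (a finite level for `W[m](ℚ̄)` and `μ_m`; proved below),

through the algebra kit `S58/TrAlg.lean`.
-/
import Mathlib
import Fermat.Agent.S58.Plan
import Fermat.Agent.S58.TrAlg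
import Fermat.Agent.S29.Defs
import Fermat.Agent.S29.FDStmt
import Fermat.Agent.S41.T1

set_option autoImplicit false

namespace Fermat.Agent.S58.TransferD

open Polynomial WeierstrassCurve
open Fermat.Agent.S58 Fermat.Agent.S58.Plan

/-- A finite level for the `λⁿ`-torsion of `W` and the `λⁿ`-th roots of unity. -/
def LevelStatement : Prop :=
  ∀ (W : WeierstrassCurve ℤ), W.Δ ≠ 0 → ∀ (lam : ℕ), lam.Prime → ∀ n : ℕ,
    ∃ L : IntermediateField ℚ Qb, FiniteDimensional ℚ L ∧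
      ∀ σ : GQ, (∀ x ∈ L, σ x = x) →
        (∀ P : Pt W, (lam ^ n) • P = 0 → σ • P = P) ∧
          (∀ μ : Qb, μ ^ (lam ^ n) = 1 → σ μ = μ)

/-- A linear map preserves `I • ⊤`. -/
theorem map_mem_smul_top {O V : Type*} [CommRing O] [AddCommGroup V] [Module O V] (I : Ideal O)
    (f : Module.End O V) {x : V} (hx : x ∈ I • (⊤ : Submodule O V)) :
    f x ∈ I • (⊤ : Submodule O V) := by
  refine Submodule.smul_induction_on hx ?_ ?_
  · intro r hr v _
    rw [map_smul]
    exact Submodule.smul_mem_smul hr Submodule.mem_top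
  · intro x y hx hy
    rw [map_add]
    exact Submodule.add_mem _ hx hy

/-- Frobenius powers on roots of unity. -/
theorem pow_apply_root (σ : GQ) (ℓ m : ℕ) (h : ∀ μ : Qb, μ ^ m = 1 → σ μ = μ ^ ℓ) (j : ℕ) :
    ∀ μ : Qb, μ ^ m = 1 → (σ ^ j) μ = μ ^ (ℓ ^ j) := by
  induction j with
  | zero => intro μ _; simp
  | succ j ih =>
    intro μ hμ
    rw [pow_succ, AlgEquiv.mul_apply, h μ hμ, map_pow, ih μ hμ, ← pow_mul, pow_succ]

/-- **[TR]** from density, the Frobenius relation, the cyclotomic action and finite levels. -/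
theorem tr_of (hFD : Fermat.Agent.S29.FDStatement) (hLevel : LevelStatement)
    (hFrobW : Plan.FrobWStatement) (hCycF : Plan.CycFrobStatement) : Plan.TRStatement := by
  intro W hΔ lam hlam S O _ _ _ ρ hFrob g n
  classical
  -- the finite levels
  obtain ⟨L₁, hL₁fin, hL₁⟩ := ρ.isAdicContinuous n
  obtain ⟨L₂, hL₂fin, hL₂⟩ := hLevel W hΔ lam hlam n
  have := hL₁fin
  have := hL₂fin
  have hLfin : FiniteDimensional ℚ (L₁ ⊔ L₂ : IntermediateField ℚ Qb) :=
    IntermediateField.finiteDimensional_sup L₁ L₂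
  -- density
  obtain ⟨ℓ, A, σ, j, hℓ, hℓS, hA, hσ, hgσ⟩ :=
    hFD (L₁ ⊔ L₂) hLfin (S ∪ {lam} ∪ W.Δ.natAbs.primeFactors) g
  have hℓS' : ℓ ∉ S := fun h => hℓS (Finset.mem_union_left _ (Finset.mem_union_left _ h))
  have hℓlam : ℓ ≠ lam := fun h => hℓS (Finset.mem_union_left _ (Finset.mem_union_right _
    (by rw [h]; exact Finset.mem_singleton_self lam)))
  have hℓΔ : ¬ (ℓ : ℤ) ∣ W.Δ := fun h => hℓS (Finset.mem_union_right _ (by
    rw [Nat.mem_primeFactors]
    exact ⟨hℓ, Int.natCast_dvd.mp h, Int.natAbs_ne_zero.mpr hΔ⟩))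
  -- `h := (σ^j)⁻¹ g` fixes the level
  set h : GQ := (σ ^ j)⁻¹ * g with hh
  have hg : g = σ ^ j * h := by rw [hh, mul_inv_cancel_left]
  have hfix : ∀ x ∈ (L₁ ⊔ L₂ : IntermediateField ℚ Qb), h x = x := by
    intro x hx
    rw [hh, AlgEquiv.mul_apply, hgσ x hx]
    exact (σ ^ j).symm_apply_apply x
  have hfix₁ : ∀ x ∈ L₁, h x = x := fun x hx => hfix x ((le_sup_left : L₁ ≤ L₁ ⊔ L₂) hx)
  have hfix₂ : ∀ x ∈ L₂, h x = x := fun x hx => hfix x ((le_sup_right : L₂ ≤ L₁ ⊔ L₂) hx)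
  obtain ⟨hhP, hhμ⟩ := hL₂ h hfix₂
  -- the representation side
  have hcharp : LinearMap.charpoly (ρ.ρ σ) =
      X ^ 2 - C (((W.apOfModel ℓ : ℤ) : O)) * X + C ((((ℓ : ℤ)) : O)) := by
    rw [hFrob ℓ hℓ hℓS' A hA σ hσ, Int.cast_natCast]
  have hB : ∀ v : ρ.V, ρ.ρ g v - (ρ.ρ σ ^ j) v ∈
      (IsLocalRing.maximalIdeal O ^ n) • (⊤ : Submodule O ρ.V) := by
    intro v
    have e : ρ.ρ g v - (ρ.ρ σ ^ j) v = (ρ.ρ σ ^ j) (ρ.ρ h v - v) := by
      rw [hg, map_mul, map_pow, Module.End.mul_apply, map_sub]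
    rw [e]
    exact map_mem_smul_top _ _ (hL₁ h hfix₁ v)
  obtain ⟨htr, hdet⟩ := TrAlg.trace_det_approx_of_pow (IsLocalRing.maximalIdeal O ^ n)
    ρ.finrank_eq (ρ.ρ g) (ρ.ρ σ) (W.apOfModel ℓ) (ℓ : ℤ) j hcharp hB
  refine ⟨TrAlg.lucas (W.apOfModel ℓ) (ℓ : ℤ) j, (ℓ : ℤ) ^ j, htr, hdet, ?_, ?_⟩
  · -- the torsion side
    intro P hP
    have hgP : ∀ Q : Pt W, (lam ^ n) • Q = 0 → g • Q = (σ ^ j) • Q := by
      intro Q hQ
      rw [hg, mul_smul, hhP Q hQ]
    have htors : ∀ Q : Submodule.torsionBy ℤ (Pt W) ((lam ^ n : ℕ) : ℤ),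
        (lam ^ n) • (Q : Pt W) = 0 := by
      intro Q
      have h1 := (Submodule.mem_torsionBy_iff _ _).mp Q.2
      rwa [natCast_zsmul] at h1
    have hrelT : ∀ Q : Submodule.torsionBy ℤ (Pt W) ((lam ^ n : ℕ) : ℤ),
        σ • σ • Q - (W.apOfModel ℓ) • σ • Q + (ℓ : ℤ) • Q = 0 := by
      intro Q
      apply Subtype.ext
      exact hFrobW W ℓ lam hℓ hlam hℓlam hℓΔ A hA σ hσ n (Q : Pt W) (htors Q)
    have hPmem : P ∈ Submodule.torsionBy ℤ (Pt W) ((lam ^ n : ℕ) : ℤ) := by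
      rw [Submodule.mem_torsionBy_iff, natCast_zsmul]
      exact hP
    have h3 := TrAlg.smul_relation_pow σ (W.apOfModel ℓ) (ℓ : ℤ) hrelT j ⟨P, hPmem⟩
    have h4 : (σ ^ j) • (σ ^ j) • P - TrAlg.lucas (W.apOfModel ℓ) (ℓ : ℤ) j • (σ ^ j) • P
        + ((ℓ : ℤ) ^ j) • P = 0 := congrArg Subtype.val h3
    have h5 : (lam ^ n) • ((σ ^ j) • P) = 0 :=
      htors ((σ ^ j) • (⟨P, hPmem⟩ : Submodule.torsionBy ℤ (Pt W) ((lam ^ n : ℕ) : ℤ)))
    rw [hgP P hP, hgP _ h5]
    exact h4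
  · -- roots of unity
    intro μ hμ
    have h1 : g μ = (σ ^ j) μ := by
      rw [hg, AlgEquiv.mul_apply, hhμ μ hμ]
    rw [h1, pow_apply_root σ ℓ (lam ^ n) (fun ν hν => hCycF ℓ lam hℓ hlam hℓlam A hA σ hσ n ν hν) j μ hμ]
    have e : ((ℓ : ℤ) ^ j) = ((ℓ ^ j : ℕ) : ℤ) := by push_cast; rfl
    rw [e, zpow_natCast]

/-! ### The finite level -/

/-- the coordinates of a point -/
noncomputable def coordSet (W : WeierstrassCurve ℤ) : Pt W → Set Qb
  | .zero => ∅
  | .some x y _ => {x, y}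

theorem coordSet_finite (W : WeierstrassCurve ℤ) (P : Pt W) : (coordSet W P).Finite := by
  rcases P with _ | ⟨x, y, h⟩
  · exact Set.finite_empty
  · exact Set.toFinite {x, y}

/-- A Galois element fixing the coordinates of a point fixes the point. -/
theorem smul_eq_self_of_coords (W : WeierstrassCurve ℤ) (σ : GQ) (P : Pt W)
    (h : ∀ x ∈ coordSet W P, σ x = x) : σ • P = P := by
  rcases P with _ | ⟨a, b, hab⟩
  · rfl
  · rw [WeierstrassCurve.Affine.Point.algEquiv_smul_def, WeierstrassCurve.Affine.Point.map_some]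
    have ha : σ a = a := h a (Or.inl rfl)
    have hb : σ b = b := h b (Or.inr rfl)
    simp only [WeierstrassCurve.Affine.Point.some.injEq]
    exact ⟨ha, hb⟩

/-- the `λⁿ`-torsion of `W(ℚ̄)` is finite. -/
theorem torsion_finite (W : WeierstrassCurve ℤ) (hΔ : W.Δ ≠ 0) (lam : ℕ) (hlam : lam.Prime)
    (n : ℕ) : {P : Pt W | (lam ^ n) • P = 0}.Finite := by
  classical
  have hell0 : (W.map (Int.castRingHom ℚ)).IsElliptic := by
    rw [WeierstrassCurve.isElliptic_iff, WeierstrassCurve.map_Δ]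
    exact isUnit_iff_ne_zero.mpr (by simpa using hΔ)
  have hell : ((W.map (Int.castRingHom ℚ)).baseChange Qb).IsElliptic :=
    inferInstanceAs (((W.map (Int.castRingHom ℚ)).map (algebraMap ℚ Qb)).IsElliptic)
  have hcard : Nat.card (Submodule.torsionBy ℤ (Pt W) ((lam : ℕ) : ℤ)) = lam ^ 2 :=
    Fermat.Agent.S41.T1.card_torsion ((W.map (Int.castRingHom ℚ)).baseChange Qb) lam hlam
  have hfin : Finite (Submodule.torsionBy ℤ (Pt W) ((lam : ℕ) : ℤ)) :=
    Nat.finite_of_card_ne_zero (by rw [hcard]; exact pow_ne_zero 2 hlam.ne_zero)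
  have hK : {R : Pt W | lam • R = 0}.Finite := by
    have h1 : ((Submodule.torsionBy ℤ (Pt W) ((lam : ℕ) : ℤ) : Submodule ℤ (Pt W)) :
        Set (Pt W)).Finite := Set.finite_coe_iff.mp hfin
    refine h1.subset fun R hR => ?_
    rw [SetLike.mem_coe, Submodule.mem_torsionBy_iff, natCast_zsmul]
    exact hR
  induction n with
  | zero =>
    refine (Set.finite_singleton (0 : Pt W)).subset fun P hP => ?_
    have hP' : (lam ^ 0) • P = 0 := hP
    rw [pow_zero, one_smul] at hP'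
    exact hP'
  | succ n ih =>
    have hsub : {P : Pt W | (lam ^ (n + 1)) • P = 0} ⊆
        (fun P : Pt W => lam • P) ⁻¹' {P : Pt W | (lam ^ n) • P = 0} := by
      intro P hP
      have hP' : (lam ^ (n + 1)) • P = 0 := hP
      rw [pow_succ, mul_smul] at hP'
      exact hP'
    refine (Set.Finite.preimage' ih fun Q _ => ?_).subset hsub
    by_cases hQ : ∃ P₀ : Pt W, lam • P₀ = Q
    · obtain ⟨P₀, hP₀⟩ := hQ
      refine (hK.image fun R => R + P₀).subset fun P hP => ?_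
      refine ⟨P - P₀, ?_, sub_add_cancel P P₀⟩
      have hPQ : lam • P = Q := hP
      show lam • (P - P₀) = 0
      rw [nsmul_sub, hP₀, hPQ, sub_self]
    · have : (fun P : Pt W => lam • P) ⁻¹' {Q} = ∅ := by
        ext P
        simp only [Set.mem_preimage, Set.mem_singleton_iff, Set.mem_empty_iff_false, iff_false]
        exact fun h => hQ ⟨P, h⟩
      rw [this]
      exact Set.finite_empty

/-- **The finite level.** -/
theorem level : LevelStatement := by
  intro W hΔ lam hlam n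
  classical
  have hT := torsion_finite W hΔ lam hlam n
  have hC : (⋃ P ∈ {P : Pt W | (lam ^ n) • P = 0}, coordSet W P).Finite :=
    hT.biUnion fun P _ => coordSet_finite W P
  have hm : 0 < lam ^ n := pow_pos hlam.pos n
  have halg : Algebra.IsAlgebraic ℚ Qb := by
    have h : (DivisionRing.toRatAlgebra : Algebra ℚ Qb) = AlgebraicClosure.instAlgebra ℚ :=
      Subsingleton.elim _ _
    rw [h]
    infer_instance
  have hR : {μ : Qb | μ ^ (lam ^ n) = 1}.Finite := by
    have hne : (X ^ (lam ^ n) - C (1 : Qb) : Qb[X]) ≠ 0 := X_pow_sub_C_ne_zero hm 1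
    refine (Polynomial.finite_setOfPred_isRoot hne).subset fun μ hμ => ?_
    have hμ' : μ ^ (lam ^ n) = 1 := hμ
    show IsRoot (X ^ (lam ^ n) - C (1 : Qb) : Qb[X]) μ
    rw [IsRoot.def, eval_sub, eval_pow, eval_X, eval_C, hμ', sub_self]
  have hfinS : ((⋃ P ∈ {P : Pt W | (lam ^ n) • P = 0}, coordSet W P) ∪
      {μ : Qb | μ ^ (lam ^ n) = 1}).Finite := hC.union hR
  have : Finite ↥((⋃ P ∈ {P : Pt W | (lam ^ n) • P = 0}, coordSet W P) ∪
      {μ : Qb | μ ^ (lam ^ n) = 1}) := hfinS.to_subtype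
  refine ⟨IntermediateField.adjoin ℚ ((⋃ P ∈ {P : Pt W | (lam ^ n) • P = 0}, coordSet W P) ∪
      {μ : Qb | μ ^ (lam ^ n) = 1}),
    IntermediateField.finiteDimensional_adjoin fun x _ =>
      (Algebra.IsAlgebraic.isAlgebraic (R := ℚ) x).isIntegral, fun σ hσ => ⟨?_, ?_⟩⟩
  · intro P hP
    refine smul_eq_self_of_coords W σ P fun x hx => ?_
    refine hσ x (IntermediateField.subset_adjoin ℚ _ (Or.inl ?_))
    exact Set.mem_biUnion (show P ∈ {P : Pt W | (lam ^ n) • P = 0} from hP) hx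
  · intro μ hμ
    exact hσ μ (IntermediateField.subset_adjoin ℚ _ (Or.inr hμ))

/-- **[TR], D-copy, in the Plan shape** (density from `S29.FDStmt.fdStatement` is plugged by the
consumer; the two Plan leaves [FROBW] and [CYCF] stay hypotheses). -/
theorem trStatement_of (hFD : Fermat.Agent.S29.FDStatement)
    (hFrobW : Plan.FrobWStatement) (hCycF : Plan.CycFrobStatement) : Plan.TRStatement :=
  tr_of hFD level hFrobW hCycF

/-- **[TR] closed modulo the two Plan leaves [FROBW], [CYCF]** (density := the theorem of record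
`S29.FDStmt.fdStatement`). -/
theorem trStatement (hFrobW : Plan.FrobWStatement) (hCycF : Plan.CycFrobStatement) :
    Plan.TRStatement :=
  trStatement_of Fermat.Agent.S29.FDStmt.fdStatement hFrobW hCycF

end Fermat.Agent.S58.TransferD
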