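/-
S58 campaign, seam (U), B-copy (helper12; A = helper27 `S58/Unip.lean`).

`Plan.UnipStatement` from the leaf Props `Plan.TRStatement` ([TR]), `Plan.FixGoodStatement`,
`Plan.TorsStatement`, `Plan.FixMultStatement`, `Plan.CycInertiaStatement`, through the abstract
consumers of `S58/TrUse.lean`.
-/
import Mathlib
import Fermat.Agent.S58.Plan
import Fermat.Agent.S58.TrUse

set_option autoImplicit false

namespace Fermat.Agent.S58.UnipB

open Polynomial WeierstrassCurve
open scoped WeierstrassCurve.Affine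
open Fermat.Agent.S58

/-- A primitive `N`-th root of unity in `ℚ̄`, `N ≠ 0`. -/
theorem exists_primitiveRoot (N : ℕ) (hN : N ≠ 0) : ∃ ζ : Plan.Qb, IsPrimitiveRoot ζ N := by
  have : NeZero (N : Plan.Qb) := ⟨Nat.cast_ne_zero.mpr hN⟩
  exact HasEnoughRootsOfUnity.exists_primitiveRoot Plan.Qb N

/-- **(U), B-copy.**  Under the Frobenius hypothesis, `ρ` is unipotent on inertia at every prime
`q ≠ λ` at which `W` is semistable. -/
theorem unip (hTR : Plan.TRStatement) (hFG : Plan.FixGoodStatement)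
    (hTors : Plan.TorsStatement) (hFM : Plan.FixMultStatement)
    (hCI : Plan.CycInertiaStatement) : Plan.UnipStatement := by
  intro W hΔ q lam hq hlam hqlam hss S O _ _ _ hlamO ρ hF A hA τ hτ
  refine TrUse.charpoly_eq_unipotent ρ.finrank_eq (ρ.ρ τ) hlamO ?_
  intro n
  obtain ⟨m, d, hm, hd, hrel, hmu⟩ := hTR W hΔ lam hlam S O ρ hF τ n
  have hlamn : lam ^ n ≠ 0 := pow_ne_zero n hlam.ne_zero
  refine ⟨m, d, ?_, ?_, ?_, ?_⟩
  · have := (Ideal.neg_mem_iff _).mpr hm
    rwa [neg_sub] at this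
  · have := (Ideal.neg_mem_iff _).mpr hd
    rwa [neg_sub] at this
  · -- a point of exact order `lam ^ n` fixed by `τ`
    obtain ⟨P, hP, hfix⟩ : ∃ P : Plan.Pt W, addOrderOf P = lam ^ n ∧ τ • P = P := by
      by_cases hgood : (q : ℤ) ∣ W.Δ
      · have hmult : ¬ (q : ℤ) ∣ W.c₄ := hss.resolve_left (not_not.mpr hgood)
        exact hFM W hΔ q lam hq hlam hqlam hgood hmult A hA τ hτ n
      · obtain ⟨P, hP⟩ := hTors W hΔ lam hlam n
        refine ⟨P, hP, hFG W q lam hq hlam hqlam hgood A hA τ hτ n P ?_⟩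
        rw [← hP]
        exact addOrderOf_nsmul_eq_zero P
    have h0 : (lam ^ n) • P = 0 := by
      rw [← hP]
      exact addOrderOf_nsmul_eq_zero P
    have hrelP := hrel P h0
    have key := TrUse.dvd_of_fixed (DistribSMul.toAddMonoidHom (Plan.Pt W) τ) hP hfix
      (m := m) (d := d) hrelP
    rwa [Nat.cast_pow] at key
  · -- trivial action on the `lam ^ n`-th roots of unity
    obtain ⟨ζ, hζ⟩ := exists_primitiveRoot (lam ^ n) hlamn
    have h1 : τ ζ = ζ := hCI q lam hq hlam hqlam A hA τ hτ n ζ hζ.pow_eq_one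
    have h2 : τ ζ = ζ ^ d := hmu ζ hζ.pow_eq_one
    have h3 : ζ ^ d = ζ ^ (1 : ℤ) := by rw [← h2, h1, zpow_one]
    have key := TrUse.dvd_sub_of_zpow_eq hζ hlamn h3
    rwa [Nat.cast_pow] at key

end Fermat.Agent.S58.UnipB
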